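import Fermat.Agent.S14.AuxDefs

/-!
# S14, package G, leaf GT: abstract Galois theory of `diagField` / `topField`
-/

set_option autoImplicit false
set_option linter.style.haveILetI false
set_option linter.unusedSectionVars false

namespace Fermat.Agent.S14

open NumberField IsDedekindDomain IntermediateField

section GTaux

variable {p : ℕ} [Fact p.Prime]

/-- a homomorphism to `ℤ/p` which is nontrivial is onto. -/
theorem auxGT_range_eq_top {G : Type*} [Group G] (f : G →* Multiplicative (ZMod p)) (g : G)
    (hg : f g ≠ 1) : f.range = ⊤ := by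
  have hcard : Nat.card (Multiplicative (ZMod p)) = p := by
    rw [Nat.card_eq_fintype_card, Fintype.card_multiplicative, ZMod.card]
  have h1 : Nat.card f.range ∣ p := by
    have := Subgroup.card_subgroup_dvd_card f.range
    rwa [hcard] at this
  rcases (Nat.dvd_prime (Fact.out : p.Prime)).mp h1 with h | h
  · exfalso
    rw [Subgroup.card_eq_one] at h
    have : f g ∈ f.range := ⟨g, rfl⟩
    rw [h, Subgroup.mem_bot] at this
    exact hg this
  · exact Subgroup.eq_top_of_card_eq _ (by rw [h, hcard])

theorem auxGT_index_ker {G : Type*} [Group G] (f : G →* Multiplicative (ZMod p)) (g : G)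
    (hg : f g ≠ 1) : f.ker.index = p := by
  rw [Subgroup.index_ker, auxGT_range_eq_top f g hg, Subgroup.card_top,
    Nat.card_eq_fintype_card, Fintype.card_multiplicative, ZMod.card]

/-- in a group of prime order every element is a power of any nontrivial element. -/
theorem auxGT_exists_pow_eq (a b : Multiplicative (ZMod p)) (ha : a ≠ 1) : ∃ n : ℕ, a ^ n = b := by
  have hcard : Nat.card (Multiplicative (ZMod p)) = p := by
    rw [Nat.card_eq_fintype_card, Fintype.card_multiplicative, ZMod.card]
  have hz : Subgroup.zpowers a = ⊤ := by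
    haveI : Fact (Nat.card (Multiplicative (ZMod p))).Prime := by rw [hcard]; infer_instance
    exact zpowers_eq_top_of_prime_card (by rw [hcard]) ha
  have hb : b ∈ Subgroup.zpowers a := by rw [hz]; trivial
  rw [← mem_powers_iff_mem_zpowers] at hb
  exact hb

end GTaux

section GT

variable {p : ℕ} [Fact p.Prime] {K M : Type} [Field K] [Field M] [Algebra K M]
  [FiniteDimensional K M] [IsGalois K M]

theorem auxGT_fixingSubgroup_diagField (α β : (M ≃ₐ[K] M) →* Multiplicative (ZMod p)) :
    (diagField α β).fixingSubgroup = (α / β).ker := by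
  unfold diagField
  exact fixingSubgroup_fixedField _

/-- (GT1) Galois correspondence for the diagonal field. -/
theorem diagField_fixes_iff (α β : (M ≃ₐ[K] M) →* Multiplicative (ZMod p)) (γ : M ≃ₐ[K] M) :
    (∀ x ∈ diagField α β, γ x = x) ↔ α γ = β γ := by
  rw [← IntermediateField.mem_fixingSubgroup_iff, auxGT_fixingSubgroup_diagField,
    MonoidHom.mem_ker, MonoidHom.div_apply, div_eq_one]

/-- (GT2) -/
theorem finrank_diagField (α β : (M ≃ₐ[K] M) →* Multiplicative (ZMod p)) (γ : M ≃ₐ[K] M)
    (hγ : α γ ≠ β γ) : Module.finrank K (diagField α β) = p := by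
  rw [IntermediateField.finrank_eq_fixingSubgroup_index, auxGT_fixingSubgroup_diagField]
  refine auxGT_index_ker (α / β) γ ?_
  rw [MonoidHom.div_apply, Ne, div_eq_one]
  exact hγ

/-- (GT3) on `Gal(M / diagField α β)` the two characters agree. -/
theorem upChar_diagField_eq (α β : (M ≃ₐ[K] M) →* Multiplicative (ZMod p))
    (γ : M ≃ₐ[diagField α β] M) :
    upChar (diagField α β) α γ = upChar (diagField α β) β γ := by
  show α (γ.restrictScalars K) = β (γ.restrictScalars K)
  rw [← diagField_fixes_iff]
  intro x hx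
  exact γ.commutes ⟨x, hx⟩

/-- (GT4) -/
theorem topChar_injective (F : IntermediateField K M)
    (α : (M ≃ₐ[K] M) →* Multiplicative (ZMod p)) : Function.Injective (topChar F α) := by
  unfold topChar
  rw [MonoidHom.coe_comp]
  exact (QuotientGroup.kerLift_injective _).comp (MulEquiv.injective _)

/-- (GT5) -/
theorem topChar_restrictNormalHom (F : IntermediateField K M)
    (α : (M ≃ₐ[K] M) →* Multiplicative (ZMod p)) (γ : M ≃ₐ[F] M) :
    topChar F α (AlgEquiv.restrictNormalHom (topField F α) γ) = upChar F α γ := by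
  unfold topChar
  have h : AlgEquiv.restrictNormalHom (topField F α) γ =
      IsGalois.normalAutEquivQuotient (upChar F α).ker (γ : (M ≃ₐ[F] M) ⧸ (upChar F α).ker) :=
    (IsGalois.normalAutEquivQuotient_apply (upChar F α).ker γ).symm
  rw [MonoidHom.comp_apply, h]
  show QuotientGroup.kerLift (upChar F α)
    ((IsGalois.normalAutEquivQuotient (upChar F α).ker).symm
      (IsGalois.normalAutEquivQuotient (upChar F α).ker
        (γ : (M ≃ₐ[F] M) ⧸ (upChar F α).ker))) = upChar F α γ
  rw [MulEquiv.symm_apply_apply]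
  rfl

/-- (GT6) -/
theorem finrank_topField (F : IntermediateField K M)
    (α : (M ≃ₐ[K] M) →* Multiplicative (ZMod p)) (γ : M ≃ₐ[F] M) (hγ : upChar F α γ ≠ 1) :
    Module.finrank F (topField F α) = p := by
  rw [IntermediateField.finrank_eq_fixingSubgroup_index]
  unfold topField
  rw [fixingSubgroup_fixedField]
  exact auxGT_index_ker (upChar F α) γ hγ

/-- (GT6') -/
theorem finrank_topField_of_ne_one (F : IntermediateField K M)
    (α : (M ≃ₐ[K] M) →* Multiplicative (ZMod p)) (g : topField F α ≃ₐ[F] topField F α)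
    (hg : topChar F α g ≠ 1) : Module.finrank F (topField F α) = p := by
  obtain ⟨γ, rfl⟩ := AlgEquiv.restrictNormalHom_surjective (F := F) (K₁ := topField F α) M g
  rw [topChar_restrictNormalHom] at hg
  exact finrank_topField F α γ hg

/-- (GT7) if `α ι ≠ β ι` then every `σ : Gal(diagField/K)` is the restriction of a power of
`ι`. -/
theorem exists_pow_restrict_eq (α β : (M ≃ₐ[K] M) →* Multiplicative (ZMod p)) (ι : M ≃ₐ[K] M)
    (hι : α ι ≠ β ι) (σ : diagField α β ≃ₐ[K] diagField α β) :
    ∃ n : ℕ, AlgEquiv.restrictNormalHom (diagField α β) (ι ^ n) = σ := by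
  obtain ⟨σ', rfl⟩ := AlgEquiv.restrictNormalHom_surjective (F := K) (K₁ := diagField α β) M σ
  have hι' : (α / β) ι ≠ 1 := by
    rw [MonoidHom.div_apply, Ne, div_eq_one]
    exact hι
  obtain ⟨n, hn⟩ := auxGT_exists_pow_eq ((α / β) ι) ((α / β) σ') hι'
  refine ⟨n, ?_⟩
  -- `σ'⁻¹ * ι ^ n` fixes the diagonal field
  have hmem : σ'⁻¹ * ι ^ n ∈ (diagField α β).fixingSubgroup := by
    rw [auxGT_fixingSubgroup_diagField, MonoidHom.mem_ker, map_mul, map_inv, map_pow, hn,
      inv_mul_cancel]
  have hker : σ'⁻¹ * ι ^ n ∈ (AlgEquiv.restrictNormalHom (diagField α β)).ker := by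
    rw [IntermediateField.restrictNormalHom_ker]
    exact hmem
  rw [MonoidHom.mem_ker, map_mul, map_inv, inv_mul_eq_one] at hker
  exact hker.symm

end GT

end Fermat.Agent.S14
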