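import Fermat.Agent.S14.AuxDefs

/-!
# S14, package G, leaf G3a: unramified base change

For any intermediate field `F` of `M/K`, the field `topField F (alphaChar ψ)` is unramified over
`F` at all finite primes when `L/K` is.
-/

namespace Fermat.Agent.S14

open NumberField IsDedekindDomain

section inertia

variable {K L M : Type} [Field K] [NumberField K] [Field L] [NumberField L]
  [Field M] [NumberField M] [Algebra K L] [Algebra K M] [Algebra L M] [IsScalarTower K L M]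

/-- The action of the Galois group on the ring of integers is the restriction of the action on
the field. -/
theorem auxUnr_coe_smul (γ : M ≃ₐ[K] M) (x : 𝓞 M) : ((γ • x : 𝓞 M) : M) = γ (x : M) := rfl

/-- In an everywhere unramified Galois extension all inertia groups of nonzero primes are
trivial. -/
theorem auxUnr_inertia_eq_bot [IsGalois K L] (hunr : IsUnramifiedEverywhere K L)
    (𝔮 : Ideal (𝓞 L)) [𝔮.IsPrime] (h𝔮 : 𝔮 ≠ ⊥) : 𝔮.inertia (L ≃ₐ[K] L) = ⊥ := by
  have hun : Algebra.IsUnramifiedAt (𝓞 K) 𝔮 := hunr 𝔮 h𝔮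
  have h1 : 𝔮.ramificationIdx (𝓞 K) = 1 := Ideal.ramificationIdx_eq_one_iff.mpr hun
  have h2 := Ideal.card_inertia_eq_ramificationIdxIn (G := L ≃ₐ[K] L) (𝔮.under (𝓞 K)) 𝔮
  rw [Ideal.ramificationIdxIn_eq_ramificationIdx (𝔮.under (𝓞 K)) 𝔮 (L ≃ₐ[K] L), h1] at h2
  exact Subgroup.card_eq_one.mp h2

/-- Restriction to a normal subextension maps inertia groups into inertia groups. -/
theorem auxUnr_restrictNormal_mem_inertia [Normal K L] (𝔓 : Ideal (𝓞 M)) (γ : M ≃ₐ[K] M)
    (hγ : γ ∈ 𝔓.inertia (M ≃ₐ[K] M)) :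
    AlgEquiv.restrictNormalHom L γ ∈ (𝔓.under (𝓞 L)).inertia (L ≃ₐ[K] L) := by
  intro x
  show algebraMap (𝓞 L) (𝓞 M) (AlgEquiv.restrictNormalHom L γ • x - x) ∈ 𝔓
  have h : algebraMap (𝓞 L) (𝓞 M) (AlgEquiv.restrictNormalHom L γ • x - x) =
      γ • (algebraMap (𝓞 L) (𝓞 M) x) - algebraMap (𝓞 L) (𝓞 M) x := by
    apply RingOfIntegers.ext
    show algebraMap L M ((AlgEquiv.restrictNormalHom L γ) (x : L) - (x : L)) =
      γ (algebraMap L M (x : L)) - algebraMap L M (x : L)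
    rw [map_sub]
    congr 1
    exact AlgEquiv.restrictNormal_commutes γ L (x : L)
  rw [h]
  exact hγ _

end inertia

section main

variable {p : ℕ} [Fact p.Prime] {K L M : Type} [Field K] [NumberField K] [Field L] [NumberField L]
  [Field M] [NumberField M] [Algebra K L] [Algebra K M] [Algebra L M] [IsScalarTower K L M]
  [IsGalois K L] [IsGalois K M]

/-- An inertia element of `Gal(M/F)` at a nonzero prime lies in the kernel of `upChar F (α)`
for `α = ψ ∘ res_L`, `L/K` unramified. -/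
theorem auxUnr_upChar_eq_one (hunr : IsUnramifiedEverywhere K L)
    (ψ : (L ≃ₐ[K] L) →* Multiplicative (ZMod p)) (F : IntermediateField K M)
    (𝔓 : Ideal (𝓞 M)) [𝔓.IsPrime] (h𝔓 : 𝔓 ≠ ⊥) (γ : M ≃ₐ[F] M)
    (hγ : γ ∈ 𝔓.inertia (M ≃ₐ[F] M)) : upChar F (alphaChar ψ) γ = 1 := by
  have h1 : (AlgEquiv.restrictScalarsHom K γ : M ≃ₐ[K] M) ∈ 𝔓.inertia (M ≃ₐ[K] M) := by
    intro x
    exact hγ x
  have h2 := auxUnr_restrictNormal_mem_inertia (L := L) 𝔓 _ h1
  have h𝔮 : 𝔓.under (𝓞 L) ≠ ⊥ := by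
    intro h
    exact h𝔓 (Ideal.eq_bot_of_comap_eq_bot (R := 𝓞 L) h)
  rw [auxUnr_inertia_eq_bot hunr _ h𝔮, Subgroup.mem_bot] at h2
  show ψ (AlgEquiv.restrictNormalHom L (AlgEquiv.restrictScalarsHom K γ)) = 1
  rw [h2, map_one]

/-- (G3a) UNRAMIFIED BASE CHANGE. -/
theorem isUnramifiedEverywhere_topField (hunr : IsUnramifiedEverywhere K L)
    (ψ : (L ≃ₐ[K] L) →* Multiplicative (ZMod p)) (F : IntermediateField K M) :
    IsUnramifiedEverywhere F (topField F (alphaChar ψ)) := by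
  intro P hP hP0
  obtain ⟨⟨𝔓, h𝔓prime, h𝔓over⟩⟩ := (inferInstance : Nonempty (P.primesOver (𝓞 M)))
  have h𝔓0 : 𝔓 ≠ ⊥ := Ideal.ne_bot_of_liesOver_of_ne_bot hP0 𝔓
  -- the two inertia groups have the same cardinality
  have hcard : Nat.card (𝔓.inertia (M ≃ₐ[topField F (alphaChar ψ)] M)) =
      Nat.card (𝔓.inertia (M ≃ₐ[F] M)) := by
    let f : 𝔓.inertia (M ≃ₐ[topField F (alphaChar ψ)] M) → 𝔓.inertia (M ≃ₐ[F] M) :=
      fun γ => ⟨AlgEquiv.restrictScalarsHom F γ.1, fun x => γ.2 x⟩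
    have hinj : Function.Injective f := by
      intro γ δ h
      apply Subtype.ext
      have h' : AlgEquiv.restrictScalarsHom F γ.1 = AlgEquiv.restrictScalarsHom F δ.1 :=
        congrArg Subtype.val h
      exact AlgEquiv.restrictScalarsHom_injective F h'
    have hsurj : Function.Surjective f := by
      rintro ⟨δ, hδ⟩
      have hker : δ ∈ (upChar F (alphaChar ψ)).ker :=
        auxUnr_upChar_eq_one hunr ψ F 𝔓 h𝔓0 δ hδ
      have hfix : ∀ c : topField F (alphaChar ψ),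
          δ (algebraMap (topField F (alphaChar ψ)) M c) =
            algebraMap (topField F (alphaChar ψ)) M c := by
        intro c
        exact c.2 ⟨δ, hker⟩
      let γ : M ≃ₐ[topField F (alphaChar ψ)] M := { δ.toRingEquiv with commutes' := hfix }
      refine ⟨⟨γ, fun x => hδ x⟩, ?_⟩
      apply Subtype.ext
      apply AlgEquiv.ext
      intro x
      rfl
    exact Nat.card_congr (Equiv.ofBijective f ⟨hinj, hsurj⟩)
  -- ramification indices
  have hF := Ideal.card_inertia_eq_ramificationIdxIn (G := M ≃ₐ[F] M) (𝔓.under (𝓞 F)) 𝔓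
  rw [Ideal.ramificationIdxIn_eq_ramificationIdx (𝔓.under (𝓞 F)) 𝔓 (M ≃ₐ[F] M)] at hF
  have hC := Ideal.card_inertia_eq_ramificationIdxIn (G := M ≃ₐ[topField F (alphaChar ψ)] M)
    (𝔓.under (𝓞 (topField F (alphaChar ψ)))) 𝔓
  rw [Ideal.ramificationIdxIn_eq_ramificationIdx (𝔓.under (𝓞 (topField F (alphaChar ψ)))) 𝔓
    (M ≃ₐ[topField F (alphaChar ψ)] M)] at hC
  have htower : 𝔓.ramificationIdx (𝓞 F) =
      P.ramificationIdx (𝓞 F) * 𝔓.ramificationIdx (𝓞 (topField F (alphaChar ψ))) :=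
    Ideal.ramificationIdx_tower P 𝔓
  have hpos : 𝔓.ramificationIdx (𝓞 (topField F (alphaChar ψ))) ≠ 0 := by
    rw [← hC]
    exact Nat.card_pos.ne'
  have hone : P.ramificationIdx (𝓞 F) = 1 := by
    rw [← hF, ← hcard, hC] at htower
    have : 1 * 𝔓.ramificationIdx (𝓞 (topField F (alphaChar ψ))) =
        P.ramificationIdx (𝓞 F) * 𝔓.ramificationIdx (𝓞 (topField F (alphaChar ψ))) := by
      rw [one_mul]
      exact htower
    exact (Nat.eq_of_mul_eq_mul_right (Nat.pos_of_ne_zero hpos) this).symm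
  exact Ideal.ramificationIdx_eq_one_iff.mp hone

end main

end Fermat.Agent.S14
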