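import Fermat.Agent.S14.AuxDefs
import Fermat.Agent.S14.ArtinSpec
import Fermat.Agent.S14.AuxGalois
import Fermat.Agent.S14.AuxUnramified

/-!
# S14, package G, leaf G3b: Frobenius functoriality in the tower `K ⊆ F ⊆ C ⊆ M ⊇ L`

`exists_place_diagField` (G3b-1), `artin_topField_single_of_absNorm_eq` (G3b-2),
`artin_topField_single_of_not_mem` (G3b-3), exactly as in `AuxSpec.lean`.

Black boxes: package B (`Artin.lean` through the shim `ArtinSpec.lean`), GT (`AuxGalois.lean`: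
`diagField_fixes_iff`, `upChar_diagField_eq`, `topChar_restrictNormalHom`) and G3a
(`AuxUnramified.lean`: `isUnramifiedEverywhere_topField`).
-/

namespace Fermat.Agent.S14

open NumberField IsDedekindDomain

section generic

open scoped Pointwise

/-- Restriction of a Frobenius element to a normal subextension is a Frobenius element. -/
theorem auxfrob_restrictNormal {k : Type*} [Field k] [NumberField k] {E : Type*} [Field E] [NumberField E]
  {M : Type*} [Field M] [NumberField M] [Algebra k E] [Algebra E M] [Algebra k M]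
  [IsScalarTower k E M] [IsGalois k E] [IsGalois k M] {γ : M ≃ₐ[k] M} {𝔓 : Ideal (𝓞 M)}
    (hγ : IsArithFrobAt (𝓞 k) γ 𝔓) :
    IsArithFrobAt (𝓞 k) (γ.restrictNormal E) (𝔓.under (𝓞 E)) := by
  intro x
  have h1 : ((𝔓.under (𝓞 E)).under (𝓞 k)) = 𝔓.under (𝓞 k) := Ideal.under_under 𝔓
  rw [h1, Ideal.under_def, Ideal.mem_comap, map_sub, map_pow]
  have h2 : algebraMap (𝓞 E) (𝓞 M) ((MulSemiringAction.toAlgHom (𝓞 k) (𝓞 E) (γ.restrictNormal E)) x)
      = γ • algebraMap (𝓞 E) (𝓞 M) x := by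
    rw [artin_smul_algebraMap]
    rfl
  rw [h2]
  exact hγ (algebraMap (𝓞 E) (𝓞 M) x)

/-- Change of base for Frobenius elements: if the residue fields of `F` and `K` below `𝔓` have the
same cardinality, a Frobenius for `𝓞 F` is a Frobenius for `𝓞 K`. -/
theorem auxfrob_restrictScalars {K F M : Type*} [Field K] [NumberField K] [Field F] [NumberField F]
    [Field M] [NumberField M] [Algebra K F] [Algebra F M] [Algebra K M] [IsScalarTower K F M]
    [IsGalois F M] [IsGalois K M] {γ : M ≃ₐ[F] M} {𝔓 : Ideal (𝓞 M)}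
    (hγ : IsArithFrobAt (𝓞 F) γ 𝔓)
    (hcard : Nat.card (𝓞 F ⧸ 𝔓.under (𝓞 F)) = Nat.card (𝓞 K ⧸ 𝔓.under (𝓞 K))) :
    IsArithFrobAt (𝓞 K) (γ.restrictScalars K) 𝔓 := by
  intro x
  have h := hγ x
  rw [hcard] at h
  exact h

/-- A Frobenius element raises roots of unity prime to the residue characteristic to the power
`q`. -/
theorem auxfrob_apply_zeta {k M : Type*} [Field k] [NumberField k] [Field M] [NumberField M]
    [Algebra k M] [IsGalois k M] {γ : M ≃ₐ[k] M} {𝔓 : Ideal (𝓞 M)}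
    (hγ : IsArithFrobAt (𝓞 k) γ 𝔓) {r : ℕ} {ζ : M} (hζ : ζ ^ r = 1) (hr : (r : 𝓞 M) ∉ 𝔓) :
    γ ζ = ζ ^ Nat.card (𝓞 k ⧸ 𝔓.under (𝓞 k)) := by
  have hr0 : r ≠ 0 := by
    rintro rfl
    exact hr (by simp)
  have hint : IsIntegral ℤ ζ := ⟨Polynomial.X ^ r - 1, Polynomial.monic_X_pow_sub_C 1 hr0, by
    simp [hζ]⟩
  set ζ' : 𝓞 M := ⟨ζ, hint⟩ with hζ'
  have h1 : ζ' ^ r = 1 := by
    apply FaithfulSMul.algebraMap_injective (𝓞 M) M
    rw [map_pow, map_one]
    exact hζ
  have h2 := AlgHom.IsArithFrobAt.apply_of_pow_eq_one hγ h1 hr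
  have h3 := congrArg (algebraMap (𝓞 M) M) h2
  rw [map_pow] at h3
  exact h3

theorem auxfrob_autToPow_eq {K M : Type*} [Field K] [Field M] [Algebra K M] {r : ℕ} [NeZero r]
    {ζ : M} (hζ : IsPrimitiveRoot ζ r) (γ : M ≃ₐ[K] M) (q : ℕ) (h : γ ζ = ζ ^ q) :
    ((hζ.autToPow K γ : (ZMod r)ˣ) : ZMod r) = (q : ZMod r) := by
  have h1 := hζ.autToPow_spec K γ
  rw [h] at h1
  set a := ((hζ.autToPow K γ : (ZMod r)ˣ) : ZMod r).val with ha
  obtain ⟨u, hu⟩ := hζ.isUnit (NeZero.ne r)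
  have h2 : u ^ a = u ^ q := by
    apply Units.ext
    push_cast
    rw [hu]
    exact h1
  have hord : orderOf u = r := by
    rw [← orderOf_units, hu]
    exact hζ.eq_orderOf.symm
  rw [pow_eq_pow_iff_modEq, hord, ← ZMod.natCast_eq_natCast_iff, ha,
    ZMod.natCast_zmod_val] at h2
  exact h2

/-- `charNat ψr q` when `q` is the image of an automorphism under the cyclotomic character. -/
theorem auxfrob_charNat_eq {K M : Type} [Field K] [Field M] [Algebra K M] {r p : ℕ} [NeZero r]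
    {ζ : M} (hζ : IsPrimitiveRoot ζ r) (ψr : (ZMod r)ˣ →* Multiplicative (ZMod p))
    (γ : M ≃ₐ[K] M) (q : ℕ) (h : γ ζ = ζ ^ q) :
    charNat ψr q = Multiplicative.toAdd (betaChar K hζ ψr γ) := by
  have h1 := auxfrob_autToPow_eq hζ γ q h
  have hu : IsUnit (q : ZMod r) := h1 ▸ (hζ.autToPow K γ).isUnit
  have h2 : hu.unit = hζ.autToPow K γ := by
    apply Units.ext
    rw [IsUnit.unit_spec, ← h1]
  unfold charNat betaChar
  rw [dif_pos hu, h2]
  rfl

theorem auxfrob_natCast_not_mem {F M : Type*} [Field F] [NumberField F] [Field M] [NumberField M]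
    [Algebra F M] {𝔓 : Ideal (𝓞 M)} {r : ℕ} (h : (r : 𝓞 F) ∉ 𝔓.under (𝓞 F)) : (r : 𝓞 M) ∉ 𝔓 := by
  intro h1
  apply h
  rw [Ideal.under_def, Ideal.mem_comap, map_natCast]
  exact h1

end generic

section core

variable {p : ℕ} [Fact p.Prime] {K M : Type} [Field K] [NumberField K] [Field M] [NumberField M]
  [Algebra K M] [IsGalois K M]

/-- Core: the Frobenius of `topField F α / F` at `w` is the restriction of a Frobenius element
`γ ∈ Gal(M/F)` at a prime `𝔓` of `M` above `w`; hence `topChar` of it is `upChar F α γ`. -/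
theorem auxfrob_core (F : IntermediateField K M) (α : (M ≃ₐ[K] M) →* Multiplicative (ZMod p))
    (hunrC : IsUnramifiedEverywhere F (topField F α)) (w : HeightOneSpectrum (𝓞 F)) :
    ∃ (𝔓 : Ideal (𝓞 M)) (_ : 𝔓.IsPrime) (γ : M ≃ₐ[F] M), 𝔓 ≠ ⊥ ∧ 𝔓.under (𝓞 F) = w.asIdeal ∧
      IsArithFrobAt (𝓞 F) γ 𝔓 ∧
      topChar F α (frobAt F (topField F α) w) = upChar F α γ := by
  set C := topField F α with hC
  set Q : HeightOneSpectrum (𝓞 C) := placeAbove F C w with hQ
  set 𝔓 : Ideal (𝓞 M) := primeAbove C M Q with h𝔓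
  have h𝔓Q : 𝔓.under (𝓞 C) = Q.asIdeal := ((primeAbove_liesOver C M Q).over).symm
  have hQw : Q.asIdeal.under (𝓞 F) = w.asIdeal := ((primeAbove_liesOver F C w).over).symm
  obtain ⟨γ, hγ⟩ := IsArithFrobAt.exists_of_isInvariant (𝓞 F) (M ≃ₐ[F] M) 𝔓
  refine ⟨𝔓, inferInstance, γ, primeAbove_ne_bot C M Q, ?_, hγ, ?_⟩
  · rw [← hQw, ← h𝔓Q, Ideal.under_under]
  · have h1 : IsArithFrobAt (𝓞 F) (γ.restrictNormal C) (primeAbove F C w) := by
      have := auxfrob_restrictNormal (k := F) (E := C) hγ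
      rw [h𝔓Q] at this
      exact this
    have hunrQ : Algebra.IsUnramifiedAt (𝓞 F) (primeAbove F C w) :=
      hunrC (primeAbove F C w) (primeAbove_ne_bot F C w)
    have h2 : γ.restrictNormal C = frobAt F C w :=
      artin_frob_unique (primeAbove F C w) h1 (isArithFrobAt_frobAt F C w)
    rw [← h2]
    exact topChar_restrictNormalHom F α γ

end core

section G3

variable {p : ℕ} [Fact p.Prime] {K L M : Type} [Field K] [NumberField K] [Field L] [NumberField L]
  [Field M] [NumberField M] [Algebra K L] [Algebra K M] [Algebra L M] [IsScalarTower K L M]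
  [IsGalois K L] [IsGalois K M]

variable {r : ℕ} [NeZero r] {ζr : M} (hζr : IsPrimitiveRoot ζr r)

theorem auxfrob_single_of_not_mem (F : IntermediateField K M)
    (α : (M ≃ₐ[K] M) →* Multiplicative (ZMod p)) (ψr : (ZMod r)ˣ →* Multiplicative (ZMod p))
    (hF : ∀ γ : M ≃ₐ[F] M, upChar F α γ = upChar F (betaChar K hζr ψr) γ)
    (hunrC : IsUnramifiedEverywhere F (topField F α)) (w : HeightOneSpectrum (𝓞 F))
    (hw : (r : 𝓞 F) ∉ w.asIdeal) :
    Multiplicative.toAdd (topChar F α (frobAt F (topField F α) w)) =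
      charNat ψr (Ideal.absNorm w.asIdeal) := by
  obtain ⟨𝔓, _, γ, -, h𝔓w, hγ, htop⟩ := auxfrob_core F α hunrC w
  rw [htop, hF γ]
  have hr𝔓 : (r : 𝓞 M) ∉ 𝔓 := auxfrob_natCast_not_mem (F := F) (by rw [h𝔓w]; exact hw)
  have h1 := auxfrob_apply_zeta hγ hζr.pow_eq_one hr𝔓
  have hq : Nat.card (𝓞 F ⧸ 𝔓.under (𝓞 F)) = Ideal.absNorm w.asIdeal := by
    rw [h𝔓w, Ideal.absNorm_apply, Submodule.cardQuot_apply]
  rw [hq] at h1
  exact (auxfrob_charNat_eq hζr ψr (AlgEquiv.restrictScalarsHom K γ) _ h1).symm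

theorem artin_topField_single_of_not_mem (hunr : IsUnramifiedEverywhere K L)
    (ψ : (L ≃ₐ[K] L) →* Multiplicative (ZMod p)) (hψ : Function.Injective ψ)
    (ψr : (ZMod r)ˣ →* Multiplicative (ZMod p))
    (w : HeightOneSpectrum (𝓞 (diagField (alphaChar ψ) (betaChar K hζr ψr))))
    (hw : (r : 𝓞 (diagField (alphaChar ψ) (betaChar K hζr ψr))) ∉ w.asIdeal) (n : ℤ) :
    artin (diagField (alphaChar ψ) (betaChar K hζr ψr))
        (topField (diagField (alphaChar ψ) (betaChar K hζr ψr)) (alphaChar ψ))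
        (topChar (diagField (alphaChar ψ) (betaChar K hζr ψr)) (alphaChar ψ))
        (Finsupp.single w n) =
      (n : ZMod p) * charNat ψr (Ideal.absNorm w.asIdeal) := by
  rw [artin_single]
  congr 1
  exact auxfrob_single_of_not_mem hζr _ _ ψr (upChar_diagField_eq _ _)
    (isUnramifiedEverywhere_topField hunr ψ _) w hw

theorem auxfrob_comm_of_injective (ψ : (L ≃ₐ[K] L) →* Multiplicative (ZMod p))
    (hψ : Function.Injective ψ) (a b : L ≃ₐ[K] L) : a * b = b * a := by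
  apply hψ
  rw [map_mul, map_mul, mul_comm]

/-- A Frobenius element `γ` of `M/K` at `𝔓` restricts on `L` to the Frobenius of the place of `K`
below `𝔓`. -/
theorem auxfrob_restrict_eq_frobAt (hunr : IsUnramifiedEverywhere K L)
    (hcomm : ∀ a b : L ≃ₐ[K] L, a * b = b * a) {γ : M ≃ₐ[K] M} {𝔓 : Ideal (𝓞 M)} [𝔓.IsPrime]
    (hγ : IsArithFrobAt (𝓞 K) γ 𝔓) (v : HeightOneSpectrum (𝓞 K))
    (hv : 𝔓.under (𝓞 K) = v.asIdeal) : γ.restrictNormal L = frobAt K L v := by
  have hσ := auxfrob_restrictNormal (k := K) (E := L) hγ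
  have hP : (𝔓.under (𝓞 L)).LiesOver v.asIdeal := ⟨by rw [Ideal.under_under, hv]⟩
  exact frobAt_eq_of_isArithFrobAt K L hcomm v
    (IsUnramifiedEverywhere.isUnramifiedIn K L hunr v) (𝔓.under (𝓞 L)) hP _ hσ

theorem artin_topField_single_of_absNorm_eq (hunr : IsUnramifiedEverywhere K L)
    (ψ : (L ≃ₐ[K] L) →* Multiplicative (ZMod p)) (hψ : Function.Injective ψ)
    (F : IntermediateField K M) (w : HeightOneSpectrum (𝓞 F))
    (hw : Ideal.absNorm w.asIdeal = Ideal.absNorm (placeBelow K F w).asIdeal) (n : ℤ) :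
    artin F (topField F (alphaChar ψ)) (topChar F (alphaChar ψ)) (Finsupp.single w n) =
      artin K L ψ (Finsupp.single (placeBelow K F w) n) := by
  rw [artin_single, artin_single]
  congr 2
  obtain ⟨𝔓, _, γ, -, h𝔓w, hγ, htop⟩ :=
    auxfrob_core F (alphaChar ψ) (isUnramifiedEverywhere_topField hunr ψ F) w
  rw [htop]
  have h𝔓v : 𝔓.under (𝓞 K) = (placeBelow K F w).asIdeal := by
    rw [← Ideal.under_under (B := 𝓞 F) 𝔓, h𝔓w]
    rfl
  have hcard : Nat.card (𝓞 F ⧸ 𝔓.under (𝓞 F)) = Nat.card (𝓞 K ⧸ 𝔓.under (𝓞 K)) := by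
    rw [h𝔓w, h𝔓v, ← Submodule.cardQuot_apply, ← Submodule.cardQuot_apply, ← Ideal.absNorm_apply,
      ← Ideal.absNorm_apply, hw]
  have hγK := auxfrob_restrictScalars (K := K) hγ hcard
  have h1 := auxfrob_restrict_eq_frobAt hunr (auxfrob_comm_of_injective ψ hψ) hγK
    (placeBelow K F w) h𝔓v
  rw [← h1]
  rfl

/-- A finite field in which every element satisfies `y ^ q = y` (`q > 1`) has at most `q`
elements. -/
theorem auxfrob_card_le_of_pow_eq {k : Type*} [Field k] [Finite k] {q : ℕ} (hq : 1 < q)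
    (h : ∀ y : k, y ^ q = y) : Nat.card k ≤ q := by
  classical
  have := Fintype.ofFinite k
  rw [Nat.card_eq_fintype_card]
  have hne : (Polynomial.X ^ q - Polynomial.X : Polynomial k) ≠ 0 :=
    FiniteField.X_pow_card_sub_X_ne_zero k hq
  have hsub : (Finset.univ : Finset k).val ⊆
      (Polynomial.X ^ q - Polynomial.X : Polynomial k).roots := by
    intro y _
    rw [Polynomial.mem_roots hne]
    simp [h y]
  have := Polynomial.card_le_degree_of_subset_roots hsub
  rwa [FiniteField.X_pow_card_sub_X_natDegree_eq k hq, Finset.card_univ] at this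

theorem exists_place_diagField (hunr : IsUnramifiedEverywhere K L)
    (ψ : (L ≃ₐ[K] L) →* Multiplicative (ZMod p)) (hψ : Function.Injective ψ)
    (ψr : (ZMod r)ˣ →* Multiplicative (ZMod p)) (v : HeightOneSpectrum (𝓞 K))
    (hvr : (r : 𝓞 K) ∉ v.asIdeal)
    (hv : Multiplicative.toAdd (ψ (frobAt K L v)) = charNat ψr (Ideal.absNorm v.asIdeal)) :
    ∃ w : HeightOneSpectrum (𝓞 (diagField (alphaChar ψ) (betaChar K hζr ψr))),
      placeBelow K (diagField (alphaChar ψ) (betaChar K hζr ψr)) w = v ∧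
        Ideal.absNorm w.asIdeal = Ideal.absNorm v.asIdeal := by
  have h𝔓v : (primeAbove K M v).under (𝓞 K) = v.asIdeal :=
    ((primeAbove_liesOver K M v).over).symm
  obtain ⟨γ, hγ⟩ := IsArithFrobAt.exists_of_isInvariant (𝓞 K) (M ≃ₐ[K] M) (primeAbove K M v)
  -- `α γ = ψ (Frob_v)`
  have h1 := auxfrob_restrict_eq_frobAt hunr (auxfrob_comm_of_injective ψ hψ) hγ v h𝔓v
  have hα : alphaChar ψ γ = ψ (frobAt K L v) := by
    rw [← h1]
    rfl
  -- `β γ = ψr (N v)`
  have hr𝔓 : (r : 𝓞 M) ∉ primeAbove K M v :=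
    auxfrob_natCast_not_mem (F := K) (by rw [h𝔓v]; exact hvr)
  have h2 := auxfrob_apply_zeta hγ hζr.pow_eq_one hr𝔓
  have hq : Nat.card (𝓞 K ⧸ (primeAbove K M v).under (𝓞 K)) = Ideal.absNorm v.asIdeal := by
    rw [h𝔓v, Ideal.absNorm_apply, Submodule.cardQuot_apply]
  rw [hq] at h2
  have hβ := auxfrob_charNat_eq hζr ψr γ _ h2
  have hαβ : alphaChar ψ γ = betaChar K hζr ψr γ := by
    apply Multiplicative.toAdd.injective
    rw [hα, hv, hβ]
  -- `γ` fixes the diagonal field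
  have hfix := (diagField_fixes_iff (alphaChar ψ) (betaChar K hζr ψr) γ).mpr hαβ
  set F := diagField (alphaChar (M := M) ψ) (betaChar K hζr ψr) with hF
  have hunder : ((primeAbove K M v).under (𝓞 F)).under (𝓞 K) = v.asIdeal := by
    rw [Ideal.under_under, h𝔓v]
  have hw0 : (primeAbove K M v).under (𝓞 F) ≠ ⊥ := by
    intro h
    rw [h, Ideal.under_bot] at hunder
    exact v.ne_bot hunder.symm
  refine ⟨⟨(primeAbove K M v).under (𝓞 F), inferInstance, hw0⟩, ?_, ?_⟩
  · apply HeightOneSpectrum.ext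
    exact hunder
  · set w : HeightOneSpectrum (𝓞 F) := ⟨(primeAbove K M v).under (𝓞 F), inferInstance, hw0⟩ with hw
    have hwv : placeBelow K F w = v := HeightOneSpectrum.ext hunder
    have hq1 : 1 < Ideal.absNorm v.asIdeal := artin_one_lt_absNorm K v
    -- lower bound
    have hlow : Ideal.absNorm v.asIdeal ≤ Ideal.absNorm w.asIdeal := by
      have h3 := absNorm_eq_pow_inertiaDeg K F w
      rw [hwv] at h3
      rw [h3]
      exact Nat.le_self_pow (Ideal.inertiaDeg_pos w.asIdeal (𝓞 K)).ne' _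
    -- upper bound
    have hup : Ideal.absNorm w.asIdeal ≤ Ideal.absNorm v.asIdeal := by
      have hfin : Finite (𝓞 F ⧸ w.asIdeal) := Ideal.finiteQuotientOfFreeOfNeBot _ w.ne_bot
      have hmax : w.asIdeal.IsMaximal := w.isMaximal
      let _ : Field (𝓞 F ⧸ w.asIdeal) := Ideal.Quotient.field w.asIdeal
      rw [Ideal.absNorm_apply w.asIdeal, Submodule.cardQuot_apply]
      refine auxfrob_card_le_of_pow_eq hq1 ?_
      intro y
      obtain ⟨x, rfl⟩ := Ideal.Quotient.mk_surjective y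
      rw [← map_pow, Ideal.Quotient.eq]
      show x ^ _ - x ∈ (primeAbove K M v).under (𝓞 F)
      rw [Ideal.under_def, Ideal.mem_comap, map_sub, map_pow]
      have h4 := hγ (algebraMap (𝓞 F) (𝓞 M) x)
      rw [hq] at h4
      have h5 : (MulSemiringAction.toAlgHom (𝓞 K) (𝓞 M) γ) (algebraMap (𝓞 F) (𝓞 M) x) =
          algebraMap (𝓞 F) (𝓞 M) x := by
        apply FaithfulSMul.algebraMap_injective (𝓞 M) M
        exact hfix _ (x : F).2
      rw [h5] at h4
      have := Ideal.neg_mem_iff _ |>.mpr h4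
      rwa [neg_sub] at this
    exact le_antisymm hup hlow

end G3

end Fermat.Agent.S14
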