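import Fermat.Agent.S14.DivClass

/-!
# S14 (G-N): compatibilities of the divisor norm

* `normDiv_divOf` (N1): the divisor norm of a principal divisor is the divisor of the norm;
* `normDiv_normDiv` (N2): transitivity;
* `prod_absNorm_pow_divOf` (N3): `∏_w N(w)^(ord_w y) = |N_{F/ℚ} y|`;
* `exists_finset_ramified` (G0): only finitely many rational primes ramify.
-/

namespace Fermat.Agent.S14

open NumberField IsDedekindDomain
open scoped nonZeroDivisors

/-! ### Divisors of fractional ideals: multiplicativity -/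

section divOfIdeal

variable (K : Type*) [Field K] [NumberField K]

theorem divOfIdeal_one : divOfIdeal K (1 : FractionalIdeal (𝓞 K)⁰ K) = 0 := by
  ext v
  rw [divOfIdeal_apply, FractionalIdeal.count_one]
  rfl

theorem divOfIdeal_mul {I J : FractionalIdeal (𝓞 K)⁰ K} (hI : I ≠ 0) (hJ : J ≠ 0) :
    divOfIdeal K (I * J) = divOfIdeal K I + divOfIdeal K J := by
  ext v
  rw [Finsupp.add_apply, divOfIdeal_apply, divOfIdeal_apply, divOfIdeal_apply,
    FractionalIdeal.count_mul K v hI hJ]

theorem divOfIdeal_place_pow (w : HeightOneSpectrum (𝓞 K)) (n : ℕ) :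
    divOfIdeal K (((w.asIdeal ^ n : Ideal (𝓞 K)) : FractionalIdeal (𝓞 K)⁰ K)) =
      Finsupp.single w (n : ℤ) := by
  classical
  ext v
  rw [divOfIdeal_apply, FractionalIdeal.coeIdeal_pow, FractionalIdeal.count_pow,
    FractionalIdeal.count_maximal]
  by_cases h : w = v
  · subst h; simp
  · rw [if_neg h, Finsupp.single_eq_of_ne (Ne.symm h)]; simp

theorem divOfIdeal_place (w : HeightOneSpectrum (𝓞 K)) :
    divOfIdeal K ((w.asIdeal : Ideal (𝓞 K)) : FractionalIdeal (𝓞 K)⁰ K) =
      Finsupp.single w 1 := by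
  have := divOfIdeal_place_pow K w 1
  simpa using this

theorem divOf_mul' {x y : K} (hx : x ≠ 0) (hy : y ≠ 0) :
    divOf K (x * y) = divOf K x + divOf K y := by
  rw [divOf_eq_divOfIdeal, divOf_eq_divOfIdeal, divOf_eq_divOfIdeal,
    ← FractionalIdeal.spanSingleton_mul_spanSingleton,
    divOfIdeal_mul K (FractionalIdeal.spanSingleton_ne_zero_iff.mpr hx)
      (FractionalIdeal.spanSingleton_ne_zero_iff.mpr hy)]

theorem divOf_algebraMap_eq_divOfIdeal (a : 𝓞 K) :
    divOf K (algebraMap (𝓞 K) K a) =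
      divOfIdeal K ((Ideal.span {a} : Ideal (𝓞 K)) : FractionalIdeal (𝓞 K)⁰ K) := by
  rw [divOf_eq_divOfIdeal, FractionalIdeal.coeIdeal_span_singleton]

theorem divOf_one : divOf K (1 : K) = 0 := by
  rw [divOf_eq_divOfIdeal, FractionalIdeal.spanSingleton_one, divOfIdeal_one]

end divOfIdeal

/-- `divOf` is a homomorphism on nonzero elements. -/
theorem divOf_mul {F : Type*} [Field F] [NumberField F] (x y : F) (hx : x ≠ 0) (hy : y ≠ 0) :
    divOf F (x * y) = divOf F x + divOf F y :=
  divOf_mul' F hx hy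

theorem divOf_inv {F : Type*} [Field F] [NumberField F] (x : F) :
    divOf F x⁻¹ = - divOf F x := by
  by_cases hx : x = 0
  · subst hx
    have h0 : divOf F (0 : F) = 0 := by
      ext v
      rw [divOf_apply, FractionalIdeal.spanSingleton_zero, FractionalIdeal.count_zero]
      rfl
    rw [inv_zero, h0, neg_zero]
  · have h := divOf_mul x x⁻¹ hx (inv_ne_zero hx)
    rw [mul_inv_cancel₀ hx, divOf_one] at h
    exact eq_neg_of_add_eq_zero_right h.symm

/-- The divisor of an integer is the factorisation of the principal ideal. -/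
theorem divOf_algebraMap {K : Type*} [Field K] [NumberField K] (a : 𝓞 K) (ha : a ≠ 0)
    (v : HeightOneSpectrum (𝓞 K)) :
    divOf K (algebraMap (𝓞 K) K a) v =
      ((Associates.mk v.asIdeal).count (Associates.mk (Ideal.span {a})).factors : ℤ) := by
  rw [divOf_algebraMap_eq_divOfIdeal, divOfIdeal_apply,
    FractionalIdeal.count_coe K v (by simpa using ha)]

/-- The principal divisor of a nonzero integer `a` is effective, and `a ∉ v` iff its
coefficient at `v` vanishes. -/
theorem divOf_algebraMap_nonneg {F : Type*} [Field F] [NumberField F] (a : 𝓞 F) (ha : a ≠ 0)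
    (v : HeightOneSpectrum (𝓞 F)) :
    0 ≤ divOf F (a : F) v ∧ (divOf F (a : F) v = 0 ↔ a ∉ v.asIdeal) := by
  have hspan : (Ideal.span {a} : Ideal (𝓞 F)) ≠ 0 := by simpa using ha
  have h := divOf_algebraMap a ha v
  have h' : divOf F (a : F) v =
      ((Associates.mk v.asIdeal).count (Associates.mk (Ideal.span {a})).factors : ℤ) := h
  refine ⟨by rw [h']; exact Nat.cast_nonneg _, ?_⟩
  rw [h', Nat.cast_eq_zero, ← not_iff_not, not_not,
    ← Ne, Associates.count_ne_zero_iff_dvd hspan v.irreducible, Ideal.dvd_span_singleton]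

/-! ### N1: the divisor norm of a principal divisor -/

section N1

variable (K F : Type*) [Field K] [NumberField K] [Field F] [NumberField F] [Algebra K F]

theorem normDiv_single_one (w : HeightOneSpectrum (𝓞 F)) :
    normDiv K F (Finsupp.single w 1) =
      Finsupp.single (placeBelow K F w) ((w.asIdeal.inertiaDeg (𝓞 K) : ℕ) : ℤ) := by
  simp [normDiv]

theorem relNorm_place (w : HeightOneSpectrum (𝓞 F)) :
    Ideal.relNorm (𝓞 K) w.asIdeal =
      (placeBelow K F w).asIdeal ^ w.asIdeal.inertiaDeg (𝓞 K) := by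
  have hmax : w.asIdeal.IsMaximal := w.isMaximal
  have hmax' : (placeBelow K F w).asIdeal.IsMaximal := (placeBelow K F w).isMaximal
  have hlies : w.asIdeal.LiesOver (placeBelow K F w).asIdeal := ⟨rfl⟩
  exact Ideal.relNorm_eq_pow_of_isMaximal w.asIdeal (placeBelow K F w).asIdeal

/-- The divisor norm of the divisor of a nonzero integral ideal is the divisor of its relative
norm. -/
theorem normDiv_divOfIdeal_coe (I : Ideal (𝓞 F)) (hI : I ≠ 0) :
    normDiv K F (divOfIdeal F ((I : Ideal (𝓞 F)) : FractionalIdeal (𝓞 F)⁰ F)) =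
      divOfIdeal K ((Ideal.relNorm (𝓞 K) I : Ideal (𝓞 K)) : FractionalIdeal (𝓞 K)⁰ K) := by
  induction I using UniqueFactorizationMonoid.induction_on_prime with
  | h₁ => exact absurd rfl hI
  | h₂ I hu =>
    rw [Ideal.isUnit_iff] at hu
    subst hu
    rw [Ideal.relNorm_top, FractionalIdeal.coeIdeal_top,
      FractionalIdeal.coeIdeal_top, divOfIdeal_one, divOfIdeal_one, map_zero]
  | h₃ J P hJ hP ih =>
    have hP0 : P ≠ ⊥ := hP.ne_zero
    have hPp : P.IsPrime := Ideal.isPrime_of_prime hP
    let w : HeightOneSpectrum (𝓞 F) := ⟨P, hPp, hP0⟩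
    have hJ' : ((J : Ideal (𝓞 F)) : FractionalIdeal (𝓞 F)⁰ F) ≠ 0 :=
      FractionalIdeal.coeIdeal_ne_zero.mpr hJ
    have hP' : ((P : Ideal (𝓞 F)) : FractionalIdeal (𝓞 F)⁰ F) ≠ 0 :=
      FractionalIdeal.coeIdeal_ne_zero.mpr hP0
    have hrJ : ((Ideal.relNorm (𝓞 K) J : Ideal (𝓞 K)) : FractionalIdeal (𝓞 K)⁰ K) ≠ 0 :=
      FractionalIdeal.coeIdeal_ne_zero.mpr (fun h => hJ (Ideal.relNorm_eq_bot_iff.mp h))
    have hrP : ((Ideal.relNorm (𝓞 K) P : Ideal (𝓞 K)) : FractionalIdeal (𝓞 K)⁰ K) ≠ 0 :=
      FractionalIdeal.coeIdeal_ne_zero.mpr (fun h => hP0 (Ideal.relNorm_eq_bot_iff.mp h))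
    rw [FractionalIdeal.coeIdeal_mul, divOfIdeal_mul F hP' hJ', map_add, ih hJ, map_mul,
      FractionalIdeal.coeIdeal_mul, divOfIdeal_mul K hrP hrJ]
    congr 1
    have h1 : divOfIdeal F ((P : Ideal (𝓞 F)) : FractionalIdeal (𝓞 F)⁰ F) = Finsupp.single w 1 :=
      divOfIdeal_place F w
    have h2 : Ideal.relNorm (𝓞 K) P = (placeBelow K F w).asIdeal ^ P.inertiaDeg (𝓞 K) :=
      relNorm_place K F w
    rw [h1, normDiv_single_one, h2, divOfIdeal_place_pow]

/-- (N1) The divisor norm of a principal divisor is the principal divisor of the norm. -/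
theorem normDiv_divOf' (y : F) (hy : y ≠ 0) :
    normDiv K F (divOf F y) = divOf K (Algebra.norm K y) := by
  -- integral case
  have hint : ∀ a : 𝓞 F, a ≠ 0 → normDiv K F (divOf F (algebraMap (𝓞 F) F a)) =
      divOf K (Algebra.norm K (algebraMap (𝓞 F) F a)) := by
    intro a ha
    rw [divOf_algebraMap_eq_divOfIdeal, normDiv_divOfIdeal_coe K F _ (by simpa using ha),
      Ideal.relNorm_singleton, ← divOf_algebraMap_eq_divOfIdeal, Algebra.algebraMap_intNorm (L := F)]
  obtain ⟨a, b, hb, rfl⟩ := IsFractionRing.div_surjective (A := 𝓞 F) y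
  have hb0 : b ≠ 0 := nonZeroDivisors.ne_zero hb
  have hb' : algebraMap (𝓞 F) F b ≠ 0 := by
    simpa using hb0
  have ha0 : a ≠ 0 := by
    rintro rfl
    simp at hy
  have ha' : algebraMap (𝓞 F) F a ≠ 0 := by
    simpa using ha0
  have key : divOf F (algebraMap (𝓞 F) F a / algebraMap (𝓞 F) F b) +
      divOf F (algebraMap (𝓞 F) F b) = divOf F (algebraMap (𝓞 F) F a) := by
    rw [← divOf_mul' F hy hb', div_mul_cancel₀ _ hb']
  have hn : Algebra.norm K (algebraMap (𝓞 F) F a / algebraMap (𝓞 F) F b) *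
      Algebra.norm K (algebraMap (𝓞 F) F b) = Algebra.norm K (algebraMap (𝓞 F) F a) := by
    rw [← map_mul, div_mul_cancel₀ _ hb']
  have hnb : Algebra.norm K (algebraMap (𝓞 F) F b) ≠ 0 := by
    rw [Ne, Algebra.norm_eq_zero_iff]; exact hb'
  have hny : Algebra.norm K (algebraMap (𝓞 F) F a / algebraMap (𝓞 F) F b) ≠ 0 := by
    rw [Ne, Algebra.norm_eq_zero_iff]; exact hy
  have key2 := congrArg (normDiv K F) key
  rw [map_add, hint a ha0, hint b hb0, ← hn, divOf_mul' K hny hnb] at key2
  exact add_right_cancel key2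

end N1

/-- (N1) The divisor norm of a principal divisor is the principal divisor of the norm. -/
theorem normDiv_divOf {K F : Type*} [Field K] [NumberField K] [Field F] [NumberField F]
    [Algebra K F] (y : F) (hy : y ≠ 0) :
    normDiv K F (divOf F y) = divOf K (Algebra.norm K y) :=
  normDiv_divOf' K F y hy

/-- (N2) Transitivity of the divisor norm. -/
theorem normDiv_normDiv {K L C : Type*} [Field K] [NumberField K] [Field L] [NumberField L]
    [Field C] [NumberField C] [Algebra K L] [Algebra L C] [Algebra K C] [IsScalarTower K L C]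
    (E : Div C) : normDiv K L (normDiv L C E) = normDiv K C E := by
  have h : (normDiv K L).comp (normDiv L C) = normDiv K C := by
    refine Finsupp.addHom_ext fun w n => ?_
    have hlies : w.asIdeal.LiesOver (placeBelow L C w).asIdeal := ⟨rfl⟩
    have h1 : placeBelow K L (placeBelow L C w) = placeBelow K C w := by
      ext1
      exact Ideal.under_under (A := 𝓞 K) (B := 𝓞 L) w.asIdeal
    have h2 : w.asIdeal.inertiaDeg (𝓞 K) =
        (placeBelow L C w).asIdeal.inertiaDeg (𝓞 K) * w.asIdeal.inertiaDeg (𝓞 L) :=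
      Ideal.inertiaDeg_tower (R := 𝓞 K) (placeBelow L C w).asIdeal w.asIdeal
    simp only [AddMonoidHom.comp_apply, normDiv, Finsupp.liftAddHom_apply_single,
      AddMonoidHom.coe_mulLeft, Finsupp.singleAddHom_apply]
    rw [h1, h2]
    congr 1
    push_cast
    ring
  rw [← h]
  rfl

/-! ### N3: the absolute norm of a principal divisor -/

theorem absNorm_divIdeal (F : Type*) [Field F] [NumberField F] (D : Div F) :
    FractionalIdeal.absNorm (divIdeal F D) =
      D.prod (fun w n => ((Ideal.absNorm w.asIdeal : ℚ)) ^ n) := by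
  have hne : ∀ w : HeightOneSpectrum (𝓞 F), ((Ideal.absNorm w.asIdeal : ℕ) : ℚ) ≠ 0 := by
    intro w
    rw [Nat.cast_ne_zero, Ne, Ideal.absNorm_eq_zero_iff]
    exact w.ne_bot
  induction D using Finsupp.induction_linear with
  | zero => simp [divIdeal_zero]
  | add D E hD hE =>
    rw [divIdeal_add, map_mul, hD, hE, Finsupp.prod_add_index']
    · intro w; simp
    · intro w a b; exact zpow_add₀ (hne w) a b
  | single w n =>
    rw [divIdeal_single, map_zpow₀, FractionalIdeal.coeIdeal_absNorm,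
      Finsupp.prod_single_index (by simp)]

/-- (N3) The absolute norm of a principal divisor: `∏_w N(w)^(ord_w y) = |N_{F/ℚ} y|`. -/
theorem prod_absNorm_pow_divOf {F : Type*} [Field F] [NumberField F] (y : F) (hy : y ≠ 0) :
    (divOf F y).prod (fun w n => ((Ideal.absNorm w.asIdeal : ℚ)) ^ n) = |Algebra.norm ℚ y| := by
  rw [← absNorm_divIdeal, divOf_eq_divOfIdeal,
    divIdeal_divOfIdeal F (FractionalIdeal.spanSingleton_ne_zero_iff.mpr hy),
    FractionalIdeal.absNorm_span_singleton]

/-! ### G0: finitely many ramified primes -/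

/-- (G0) Only finitely many rational primes ramify in a number field. -/
theorem exists_finset_ramified (L : Type*) [Field L] [NumberField L] :
    ∃ B : Finset ℕ, ∀ r : ℕ, r.Prime → r ∉ B → ∀ (P : Ideal (𝓞 L)) [P.IsPrime],
      (r : 𝓞 L) ∈ P → P.ramificationIdx ℤ = 1 := by
  classical
  have hD : differentIdeal ℤ (𝓞 L) ≠ 0 := differentIdeal_ne_bot
  have hfin : {v : HeightOneSpectrum (𝓞 L) | v.asIdeal ∣ differentIdeal ℤ (𝓞 L)}.Finite :=
    Ideal.finite_factors hD
  refine ⟨hfin.toFinset.image (fun v => Ideal.absNorm (v.asIdeal.under ℤ)), ?_⟩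
  intro r hr hrB P hP hrP
  have hP0 : P ≠ ⊥ := by
    rintro rfl
    have h0 : (r : 𝓞 L) = 0 := by simpa using hrP
    have : (r : ℕ) = 0 := by exact_mod_cast h0
    exact hr.ne_zero this
  -- `P` does not divide the different
  have hnd : ¬ P ∣ differentIdeal ℤ (𝓞 L) := by
    intro hdvd
    apply hrB
    rw [Finset.mem_image]
    refine ⟨⟨P, hP, hP0⟩, ?_, ?_⟩
    · rw [Set.Finite.mem_toFinset]
      exact hdvd
    · -- the absolute norm of `P ∩ ℤ` is `r`
      change Ideal.absNorm (P.under ℤ) = r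
      have hmem : (r : ℤ) ∈ P.under ℤ := by
        rw [Ideal.mem_comap]
        simpa using hrP
      rw [← Int.ideal_span_absNorm_eq_self (P.under ℤ), Ideal.mem_span_singleton] at hmem
      have hdvd' : Ideal.absNorm (P.under ℤ) ∣ r := by exact_mod_cast hmem
      rcases (Nat.dvd_prime hr).mp hdvd' with h1 | h1
      · exfalso
        rw [Ideal.absNorm_eq_one_iff] at h1
        have hne : P.under ℤ ≠ ⊤ := Ideal.IsPrime.ne_top inferInstance
        exact hne h1
      · exact h1
  have hunr : Algebra.IsUnramifiedAt ℤ P := not_dvd_differentIdeal_iff.mp hnd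
  exact Ideal.ramificationIdx_eq_one_of_isUnramifiedAt

end Fermat.Agent.S14
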