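import Fermat.Agent.S14.Defs


namespace Fermat.Agent.S14

open NumberField IsDedekindDomain Polynomial

/-- Irreducibility can be tested after the substitution `X ↦ X + 1`. -/
theorem g2_irreducible_of_comp {F : Type*} [Field F] {g : F[X]}
    (h : Irreducible (g.comp (X + 1))) : Irreducible g := by
  have h1 : taylorEquiv (1 : F) g = g.comp (X + 1) := by
    change taylor 1 g = _
    rw [taylor_apply, C_1]
  rw [← h1] at h
  exact (MulEquiv.irreducible_iff (taylorEquiv (1 : F))).mp h

/-- If `r` is unramified at some prime of `𝓞 L` above `r`, the `r`-th cyclotomic polynomial is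
irreducible over `L` (Eisenstein). -/
theorem g2_cyclotomic_irreducible {L : Type*} [Field L] [NumberField L] (r : ℕ) [hrp : Fact r.Prime]
    (hr : ∀ (P : Ideal (𝓞 L)) [P.IsPrime], (r : 𝓞 L) ∈ P → P.ramificationIdx ℤ = 1) :
    Irreducible (cyclotomic r L) := by
  -- a prime of `𝓞 L` over `r`
  have hrZ : (Ideal.span {(r : ℤ)}).IsMaximal :=
    PrincipalIdealRing.isMaximal_of_irreducible
      (Nat.prime_iff_prime_int.mp hrp.out).irreducible
  obtain ⟨P, hPmax, hPover⟩ := Ideal.exists_maximal_ideal_liesOver_of_isIntegral (S := 𝓞 L)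
    (Ideal.span {(r : ℤ)})
  have hPprime : P.IsPrime := hPmax.isPrime
  have hrP : (r : 𝓞 L) ∈ P := by
    have h1 : (r : ℤ) ∈ Ideal.span {(r : ℤ)} := Ideal.mem_span_singleton_self _
    rw [hPover.over, Ideal.mem_comap] at h1
    simpa using h1
  have he := hr P hrP
  -- `r ∉ P ^ 2`
  have hmap : (Ideal.span {(r : ℤ)}).map (algebraMap ℤ (𝓞 L)) = Ideal.span {(r : 𝓞 L)} := by
    rw [Ideal.map_span, Set.image_singleton]; simp
  have hne : (Ideal.span {(r : ℤ)}).map (algebraMap ℤ (𝓞 L)) ≠ ⊥ := by
    rw [hmap, Ne, Ideal.span_singleton_eq_bot]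
    exact_mod_cast hrp.out.ne_zero
  have hrP2 : (r : 𝓞 L) ∉ P ^ 2 := by
    intro hmem
    have h2 : P ^ 2 ∣ (Ideal.span {(r : ℤ)}).map (algebraMap ℤ (𝓞 L)) := by
      rw [hmap, Ideal.dvd_iff_le, Ideal.span_singleton_le_iff_mem]
      exact hmem
    have h3 := Ideal.IsDedekindDomain.ramificationIdx_eq_multiplicity (Ideal.span {(r : ℤ)}) P hne
    rw [he] at h3
    have h4 : 2 ≤ multiplicity P ((Ideal.span {(r : ℤ)}).map (algebraMap ℤ (𝓞 L))) := by
      apply FiniteMultiplicity.le_multiplicity_of_pow_dvd _ h2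
      exact FiniteMultiplicity.of_prime_left
        (Ideal.prime_of_isPrime (by
          rintro rfl
          rw [Ideal.mem_bot] at hrP
          exact hrp.out.ne_zero (by exact_mod_cast hrP)) hPprime) hne
    omega
  -- Eisenstein
  set f : (𝓞 L)[X] := (cyclotomic r (𝓞 L)).comp (X + 1) with hf
  have hfZ : f = ((cyclotomic r ℤ).comp (X + 1)).map (algebraMap ℤ (𝓞 L)) := by
    rw [hf, Polynomial.map_comp, map_cyclotomic]; simp
  have hmonic : f.Monic := by
    rw [hf]
    have hnd : (X + 1 : (𝓞 L)[X]).natDegree = 1 := by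
      have := natDegree_X_add_C (1 : 𝓞 L)
      simpa using this
    exact (cyclotomic.monic r _).comp (monic_X_add_C 1) (by rw [hnd]; exact one_ne_zero)
  have hEis : f.IsEisensteinAt P := by
    refine hmonic.isEisensteinAt_of_mem_of_notMem hPprime.ne_top (fun {n} hn => ?_) ?_
    · have hZ := cyclotomic_comp_X_add_one_isEisensteinAt (p := r)
      have hdeg : f.natDegree = ((cyclotomic r ℤ).comp (X + 1)).natDegree := by
        rw [hfZ]
        exact natDegree_map_eq_of_injective (FaithfulSMul.algebraMap_injective ℤ (𝓞 L)) _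
      rw [hdeg] at hn
      have := hZ.mem hn
      rw [hfZ, coeff_map]
      rw [Ideal.mem_span_singleton] at this
      obtain ⟨c, hc⟩ := this
      rw [hc]
      simp only [map_mul, map_natCast, eq_intCast]
      exact P.mul_mem_right _ (by simpa using hrP)
    · have : f.coeff 0 = (r : 𝓞 L) := by
        rw [hf, coeff_zero_eq_eval_zero, eval_comp]
        simp [eval_one_cyclotomic_prime]
      rw [this]; exact hrP2
  have hirr : Irreducible f :=
    hEis.irreducible hPprime hmonic.isPrimitive (by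
      have hnd : (X + 1 : (𝓞 L)[X]).natDegree = 1 := by
        have := natDegree_X_add_C (1 : 𝓞 L)
        simpa using this
      rw [hf, natDegree_comp, hnd, natDegree_cyclotomic, Nat.totient_prime hrp.out, mul_one]
      have := hrp.out.two_le
      omega)
  have hirr' := (hmonic.irreducible_iff_irreducible_map_fraction_map (K := L)).mp hirr
  have hmapL : f.map (algebraMap (𝓞 L) L) = (cyclotomic r L).comp (X + 1) := by
    rw [hf, Polynomial.map_comp, map_cyclotomic]; simp
  rw [hmapL] at hirr'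
  exact g2_irreducible_of_comp hirr'


/-- (G2) THE COMPOSITUM `M = L(ζ_r)` for a prime `r` unramified in `L`: it is Galois over `K` and
`Gal(M/K) = Gal(L/K) × (ℤ/r)ˣ` (joint surjectivity + injectivity of restriction and cyclotomic
character). -/
theorem exists_cyclotomic_compositum {K L : Type} [Field K] [NumberField K] [Field L]
    [NumberField L] [Algebra K L] [IsGalois K L] (r : ℕ) [Fact r.Prime]
    (hr : ∀ (P : Ideal (𝓞 L)) [P.IsPrime], (r : 𝓞 L) ∈ P → P.ramificationIdx ℤ = 1) :
    ∃ (M : Type) (_ : Field M) (_ : NumberField M) (_ : Algebra K M) (_ : Algebra L M)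
      (_ : IsScalarTower K L M) (_ : IsGalois K M) (ζr : M), IsPrimitiveRoot ζr r ∧
      (∀ (h : L ≃ₐ[K] L) (u : (ZMod r)ˣ), ∃ σ : M ≃ₐ[K] M,
        (∀ x : L, σ (algebraMap L M x) = algebraMap L M (h x)) ∧
          σ ζr = ζr ^ (u : ZMod r).val) ∧
      (∀ σ : M ≃ₐ[K] M, (∀ x : L, σ (algebraMap L M x) = algebraMap L M x) → σ ζr = ζr →
        σ = 1) := by
  have hr0 : NeZero r := ⟨(Fact.out : r.Prime).ne_zero⟩
  have hirr : Irreducible (cyclotomic r L) := g2_cyclotomic_irreducible r hr
  let M := CyclotomicField r L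
  have tower : IsScalarTower K L M := inferInstance
  -- `M/K` is Galois
  have hgal : IsGalois K M := by
    obtain ⟨f, hfsep, hfsplit⟩ := IsGalois.is_separable_splitting_field K L
    have := hfsplit
    have h2 : IsSplittingField L M ((X ^ r - 1 : K[X]).map (algebraMap K L)) := by
      have := IsCyclotomicExtension.isSplittingField_X_pow_sub_one r L M
      simpa using this
    have hf0 : f ≠ 0 := hfsep.ne_zero
    have hg0 : (X ^ r - 1 : K[X]) ≠ 0 := by
      have := X_pow_sub_C_ne_zero (Nat.pos_of_ne_zero hr0.out) (1 : K)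
      simpa using this
    have := IsSplittingField.mul (F := K) (K := L) M f (X ^ r - 1) hf0 hg0
    have : Normal K M := Normal.of_isSplittingField (f * (X ^ r - 1))
    exact IsGalois.mk
  let ζ : M := IsCyclotomicExtension.zeta r L M
  have hζ : IsPrimitiveRoot ζ r := IsCyclotomicExtension.zeta_spec r L M
  refine ⟨M, inferInstance, inferInstance, inferInstance, inferInstance, tower, hgal, ζ, hζ, ?_, ?_⟩
  · intro h u
    -- lift `h` to `M`
    let σ₀ : M ≃ₐ[K] M := h.liftNormal M
    have hσ₀ : ∀ x : L, σ₀ (algebraMap L M x) = algebraMap L M (h x) := fun x =>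
      h.liftNormal_commutes M x
    -- `σ₀ ζ = ζ ^ a`
    have hσ₀ζ : IsPrimitiveRoot (σ₀ ζ) r := hζ.map_of_injective σ₀.injective
    -- target: `τ ζ = σ₀⁻¹ (ζ ^ u)`
    have hμ : IsPrimitiveRoot (σ₀.symm (ζ ^ (u : ZMod r).val)) r :=
      (hζ.pow_of_coprime _ (ZMod.val_coe_unit_coprime u)).map_of_injective σ₀.symm.injective
    let τ : M ≃ₐ[L] M := IsCyclotomicExtension.fromZetaAut hμ hirr
    have hτ : τ ζ = σ₀.symm (ζ ^ (u : ZMod r).val) :=
      IsCyclotomicExtension.fromZetaAut_spec hμ hirr
    refine ⟨(τ.restrictScalars K).trans σ₀, fun x => ?_, ?_⟩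
    · simp only [AlgEquiv.trans_apply, AlgEquiv.restrictScalars_apply, AlgEquiv.commutes]
      exact hσ₀ x
    · simp only [AlgEquiv.trans_apply, AlgEquiv.restrictScalars_apply]
      rw [hτ, AlgEquiv.apply_symm_apply]
  · intro σ hσL hσζ
    -- `σ` is `L`-linear
    let σ' : M ≃ₐ[L] M := { σ.toRingEquiv with commutes' := hσL }
    have h1 : σ' = 1 := by
      apply hζ.autToPow_injective L
      apply Units.ext
      have h2 := hζ.autToPow_spec L σ'
      have h3 : σ' ζ = ζ := hσζ
      rw [h3] at h2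
      -- ζ ^ k = ζ with k < r ... 
      rw [map_one]
      have h4 : ζ ^ ((hζ.autToPow L σ' : (ZMod r)ˣ) : ZMod r).val = ζ ^ 1 := by rw [h2, pow_one]
      have h5 := hζ.pow_inj (ZMod.val_lt _) (Fact.out : r.Prime).one_lt h4
      have h6 : (((hζ.autToPow L σ' : (ZMod r)ˣ) : ZMod r).val : ZMod r) = ((1 : ℕ) : ZMod r) := by
        rw [h5]
      simpa using h6
    ext x
    have := congrArg (fun e : M ≃ₐ[L] M => e x) h1
    exact this

end Fermat.Agent.S14
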