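import Fermat.Agent.S14.CrossingAux
import Fermat.Agent.S14.Compositum
import Fermat.Agent.S14.AuxGalois
import Fermat.Agent.S14.AuxUnramified
import Fermat.Agent.S14.AuxFrob

/-!
# S14, package G3: the crossing fields `F ⊆ C ⊆ M = L(ζ_r)`

`exists_crossing_fields` (statement of `AuxSpec`), assembled from
* `exists_cyclotomic_compositum` (G2, `Compositum.lean`),
* the abstract Galois theory of `diagField` / `topField` (`AuxGalois.lean`),
* unramified base change (`AuxUnramified.lean`), Frobenius functoriality (`AuxFrob.lean`),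
* the ramification statement (b) over `r`, proved here.
-/

set_option autoImplicit false

namespace Fermat.Agent.S14

open NumberField IsDedekindDomain IntermediateField
open scoped Pointwise

/-- In a number field containing a primitive `r`-th root of unity (`r` prime), the ramification
index over `ℤ` of every prime over `r` is divisible by `r - 1`. -/
theorem cross_sub_one_dvd_ramificationIdx {M : Type*} [Field M] [NumberField M] {r : ℕ}
    [hr : Fact r.Prime] {ζr : M} (hζ : IsPrimitiveRoot ζr r) (Q : Ideal (𝓞 M)) [Q.IsPrime]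
    (hQ : (r : 𝓞 M) ∈ Q) : (r - 1) ∣ Q.ramificationIdx ℤ := by
  have : NeZero r := ⟨hr.out.ne_zero⟩
  let E : IntermediateField ℚ M := IntermediateField.adjoin ℚ {ζr}
  have : IsCyclotomicExtension {r} ℚ E := hζ.intermediateField_adjoin_isCyclotomicExtension ℚ
  let P : Ideal (𝓞 E) := Q.under (𝓞 E)
  have : Q.LiesOver P := ⟨rfl⟩
  have hPover : P.LiesOver (Ideal.span {(r : ℤ)}) := by
    constructor
    have hmax : (Ideal.span {(r : ℤ)}).IsMaximal :=
      PrincipalIdealRing.isMaximal_of_irreducible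
        (Nat.prime_iff_prime_int.mp hr.out).irreducible
    have hle : Ideal.span {(r : ℤ)} ≤ P.under ℤ := by
      rw [Ideal.span_singleton_le_iff_mem, Ideal.under_under, Ideal.under_def, Ideal.mem_comap]
      simpa using hQ
    exact hmax.eq_of_le (Ideal.IsPrime.ne_top inferInstance) hle
  have h1 : P.ramificationIdx ℤ = r - 1 :=
    IsCyclotomicExtension.Rat.ramificationIdx_eq_of_prime r E P
  rw [Ideal.ramificationIdx_tower P Q, h1]
  exact Dvd.intro _ rfl

/-- The kernel of a surjective character `(ℤ/r)ˣ → ℤ/p` has `(r - 1) / p` elements. -/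
theorem cross_card_ker_mul {r p : ℕ} [hr : Fact r.Prime] [Fact p.Prime]
    (χ : (ZMod r)ˣ →* Multiplicative (ZMod p)) (hχ : Function.Surjective χ) :
    Nat.card χ.ker * p = r - 1 := by
  have h1 := Subgroup.card_mul_index χ.ker
  rw [Subgroup.index_ker, MonoidHom.range_eq_top.mpr hχ, Subgroup.card_top] at h1
  rw [Nat.card_eq_fintype_card (α := (ZMod r)ˣ), ZMod.card_units_eq_totient,
    Nat.totient_prime hr.out] at h1
  have h2 : Nat.card (Multiplicative (ZMod p)) = p := by
    rw [Nat.card_eq_fintype_card, Fintype.card_multiplicative, ZMod.card]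
  rw [← h1, h2]

section Ram

variable {p : ℕ} [Fact p.Prime] {K L M : Type} [Field K] [NumberField K] [Field L] [NumberField L]
  [Field M] [NumberField M] [Algebra K L] [Algebra K M] [Algebra L M] [IsScalarTower K L M]
  [IsGalois K L] [IsGalois K M]

variable {r : ℕ} [Fact r.Prime] {ζr : M} (hζr : IsPrimitiveRoot ζr r)

set_option linter.unusedSectionVars false in
theorem alphaChar_eq_crossRes (ψ : (L ≃ₐ[K] L) →* Multiplicative (ZMod p))
    (F : IntermediateField K M) (τ : M ≃ₐ[F] M) :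
    upChar F (alphaChar ψ) τ = ψ (crossRes K L τ) := rfl

/-- (b) Every prime of the diagonal field over `r` has ramification index divisible by `p`. -/
theorem cross_dvd_ramificationIdx_aux (hunr : IsUnramifiedEverywhere K L)
    (ψ : (L ≃ₐ[K] L) →* Multiplicative (ZMod p))
    (χ : (ZMod r)ˣ →* Multiplicative (ZMod p)) (hχ : Function.Surjective χ)
    (hinj : ∀ σ : M ≃ₐ[K] M, (∀ x : L, σ (algebraMap L M x) = algebraMap L M x) → σ ζr = ζr →
      σ = 1)
    (F : IntermediateField K M)
    (hF : ∀ τ : M ≃ₐ[F] M, upChar F (alphaChar ψ) τ = upChar F (betaChar K hζr χ) τ)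
    (P : Ideal (𝓞 F)) [P.IsPrime] (hP : (r : 𝓞 F) ∈ P) :
    p ∣ P.ramificationIdx ℤ := by
  have hr0 : (r : 𝓞 F) ≠ 0 := by
    exact_mod_cast (Fact.out : r.Prime).ne_zero
  have hP0 : P ≠ ⊥ := by
    rintro rfl
    exact hr0 (by simpa using hP)
  have hPmax : P.IsMaximal := Ideal.IsPrime.isMaximal inferInstance hP0
  obtain ⟨Q, hQmax, hQover⟩ := Ideal.exists_maximal_ideal_liesOver_of_isIntegral (S := 𝓞 M) P
  have hQprime : Q.IsPrime := hQmax.isPrime
  have hrQ : (r : 𝓞 M) ∈ Q := by
    have h1 : (r : 𝓞 F) ∈ Q.under (𝓞 F) := by rw [← hQover.over]; exact hP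
    rw [Ideal.under_def, Ideal.mem_comap] at h1
    simpa using h1
  -- tower
  have htower : Q.ramificationIdx ℤ = P.ramificationIdx ℤ * Q.ramificationIdx (𝓞 F) :=
    Ideal.ramificationIdx_tower P Q
  have hdvd : (r - 1) ∣ Q.ramificationIdx ℤ := cross_sub_one_dvd_ramificationIdx hζr Q hrQ
  have hcard : Nat.card (Q.inertia (M ≃ₐ[F] M)) = Q.ramificationIdx (𝓞 F) :=
    cross_card_inertia Q
  -- the inertia group embeds into `ker χ`
  have hQL0 : Q.under (𝓞 L) ≠ ⊥ := by
    intro h
    have h1 : (r : 𝓞 L) ∈ Q.under (𝓞 L) := by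
      rw [Ideal.under_def, Ideal.mem_comap]
      simpa using hrQ
    rw [h, Ideal.mem_bot] at h1
    exact (Fact.out : r.Prime).ne_zero (by exact_mod_cast h1)
  have hQLunr : Algebra.IsUnramifiedAt (𝓞 K) (Q.under (𝓞 L)) := hunr _ hQL0
  have hres : ∀ τ ∈ Q.inertia (M ≃ₐ[F] M), crossRes K L τ = 1 := by
    intro τ hτ
    have h1 := crossRes_mem_inertia (K := K) (L := L) hτ
    rw [cross_inertia_eq_bot, Subgroup.mem_bot] at h1
    exact h1
  let g : (M ≃ₐ[F] M) →* (ZMod r)ˣ := (hζr.autToPow K).comp (AlgEquiv.restrictScalarsHom K)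
  have hker : ∀ τ : Q.inertia (M ≃ₐ[F] M), g τ.1 ∈ χ.ker := by
    intro τ
    rw [MonoidHom.mem_ker]
    have h1 : upChar F (alphaChar ψ) τ.1 = upChar F (betaChar K hζr χ) τ.1 := hF τ.1
    rw [alphaChar_eq_crossRes, hres τ.1 τ.2, map_one] at h1
    exact h1.symm
  let f : Q.inertia (M ≃ₐ[F] M) →* χ.ker :=
    (g.comp (Q.inertia (M ≃ₐ[F] M)).subtype).codRestrict χ.ker hker
  have hfinj : Function.Injective f := by
    rw [injective_iff_map_eq_one]
    intro τ hτ
    have h1 : g τ.1 = 1 := by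
      have := congrArg Subtype.val hτ
      simpa [f] using this
    have h2 : (τ.1.restrictScalars K) ζr = ζr := by
      have h3 := hζr.autToPow_spec K (τ.1.restrictScalars K)
      have h4 : hζr.autToPow K (τ.1.restrictScalars K) = 1 := h1
      rw [h4] at h3
      rw [← h3]
      have : ((1 : (ZMod r)ˣ) : ZMod r).val = 1 := by
        rw [Units.val_one]
        exact ZMod.val_one r
      rw [this, pow_one]
    have h5 : τ.1.restrictScalars K = 1 := by
      apply hinj _ _ h2
      intro x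
      have := (crossRes_eq_one_iff (K := K) (L := L) (τ := τ.1)).mp (hres τ.1 τ.2) x
      exact this
    apply Subtype.ext
    apply AlgEquiv.restrictScalars_injective K
    exact h5
  have h6 : Nat.card (Q.inertia (M ≃ₐ[F] M)) ∣ Nat.card χ.ker :=
    Subgroup.card_dvd_of_injective f hfinj
  have h7 := cross_card_ker_mul χ hχ
  -- arithmetic
  rw [hcard] at h6
  obtain ⟨m, hm⟩ := h6
  rw [htower, ← h7, hm] at hdvd
  have he2 : Q.ramificationIdx (𝓞 F) ≠ 0 := by
    intro h0
    rw [h0, zero_mul] at hm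
    rw [hm, zero_mul] at h7
    have := (Fact.out : r.Prime).two_le
    omega
  have h8 : m * p ∣ P.ramificationIdx ℤ := by
    apply Nat.dvd_of_mul_dvd_mul_right (Nat.pos_of_ne_zero he2)
    convert hdvd using 1
    ring
  exact Dvd.dvd.trans (Dvd.intro_left m rfl) h8

/-- (b) Every prime of the diagonal field over `r` has ramification index divisible by `p`. -/
theorem cross_dvd_ramificationIdx (hunr : IsUnramifiedEverywhere K L)
    (ψ : (L ≃ₐ[K] L) →* Multiplicative (ZMod p))
    (χ : (ZMod r)ˣ →* Multiplicative (ZMod p)) (hχ : Function.Surjective χ)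
    (hinj : ∀ σ : M ≃ₐ[K] M, (∀ x : L, σ (algebraMap L M x) = algebraMap L M x) → σ ζr = ζr →
      σ = 1)
    (P : Ideal (𝓞 (diagField (alphaChar ψ) (betaChar K hζr χ)))) [P.IsPrime]
    (hP : (r : 𝓞 (diagField (alphaChar ψ) (betaChar K hζr χ))) ∈ P) :
    p ∣ P.ramificationIdx ℤ :=
  cross_dvd_ramificationIdx_aux hζr hunr ψ χ hχ hinj _
    (upChar_diagField_eq (alphaChar ψ) (betaChar K hζr χ)) P hP

end Ram

section Main

variable {p : ℕ} [Fact p.Prime] {K L M : Type} [Field K] [NumberField K] [Field L] [NumberField L]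
  [Field M] [NumberField M] [Algebra K L] [Algebra K M] [Algebra L M] [IsScalarTower K L M]
  [IsGalois K L] [IsGalois K M]

set_option linter.unusedSectionVars false in
/-- The elements of `L` lie in `topField F (alphaChar ψ)` when `ψ` is injective. -/
theorem cross_algebraMap_mem_topField (ψ : (L ≃ₐ[K] L) →* Multiplicative (ZMod p))
    (hψ : Function.Injective ψ) (F : IntermediateField K M) (x : L) :
    algebraMap L M x ∈ topField F (alphaChar ψ) := by
  unfold topField
  rw [IntermediateField.mem_fixedField_iff]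
  intro τ hτ
  rw [MonoidHom.mem_ker, alphaChar_eq_crossRes] at hτ
  have h1 : crossRes K L τ = 1 := hψ (hτ.trans (map_one ψ).symm)
  exact (crossRes_eq_one_iff.mp h1) x

set_option linter.unusedSectionVars false in
theorem cross_restrictNormalHom_eq {σ : M ≃ₐ[K] M} {h : L ≃ₐ[K] L}
    (hh : ∀ x : L, σ (algebraMap L M x) = algebraMap L M (h x)) :
    AlgEquiv.restrictNormalHom L σ = h := by
  ext x
  apply (algebraMap L M).injective
  rw [← hh]
  exact AlgEquiv.restrictNormal_commutes σ L x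

set_option linter.unusedSectionVars false in
theorem cross_autToPow_eq {r : ℕ} [NeZero r] {ζr : M} (hζr : IsPrimitiveRoot ζr r)
    {σ : M ≃ₐ[K] M} {u : (ZMod r)ˣ} (hu : σ ζr = ζr ^ (u : ZMod r).val) :
    hζr.autToPow K σ = u := by
  have h1 := hζr.autToPow_spec K σ
  rw [hu] at h1
  have h2 := hζr.pow_inj (ZMod.val_lt _) (ZMod.val_lt _) h1
  exact Units.ext (ZMod.val_injective r h2)

theorem charNat_eq_of_coe_eq {r : ℕ} (χ : (ZMod r)ˣ →* Multiplicative (ZMod p)) (n : ℕ)
    (u : (ZMod r)ˣ) (hu : (u : ZMod r) = (n : ZMod r)) :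
    charNat χ n = Multiplicative.toAdd (χ u) := by
  have h : IsUnit ((n : ℕ) : ZMod r) := hu ▸ u.isUnit
  unfold charNat
  rw [dif_pos h]
  congr 2
  apply Units.ext
  rw [IsUnit.unit_spec, hu]

/-- The absolute norm of a place not containing the prime `r` is prime to `r`. -/
theorem cross_coprime_absNorm {r : ℕ} [hr : Fact r.Prime] (v : HeightOneSpectrum (𝓞 K))
    (hv : (r : 𝓞 K) ∉ v.asIdeal) : Nat.Coprime (Ideal.absNorm v.asIdeal) r := by
  rw [Nat.coprime_comm, Nat.Prime.coprime_iff_not_dvd hr.out]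
  intro hdvd
  have hfin : Finite (𝓞 K ⧸ v.asIdeal) := Ideal.finiteQuotientOfFreeOfNeBot _ v.ne_bot
  have hcard : Ideal.absNorm v.asIdeal = Nat.card (𝓞 K ⧸ v.asIdeal) := by
    rw [Ideal.absNorm_apply, Submodule.cardQuot_apply]
  rw [hcard] at hdvd
  obtain ⟨x, hx⟩ := exists_prime_addOrderOf_dvd_card' r hdvd
  have h1 : r • x = 0 := by
    rw [← hx]; exact addOrderOf_nsmul_eq_zero x
  have hx0 : x ≠ 0 := by
    rintro rfl
    rw [addOrderOf_zero] at hx
    exact hr.out.one_lt.ne hx
  rw [nsmul_eq_mul] at h1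
  have : v.asIdeal.IsPrime := v.isPrime
  rcases mul_eq_zero.mp h1 with h2 | h2
  · apply hv
    rw [← Ideal.Quotient.eq_zero_iff_mem]
    simpa using h2
  · exact hx0 h2

end Main

/-- (G3) THE CROSSING FIELDS. -/
theorem exists_crossing_fields {p : ℕ} [Fact p.Prime] (hp2 : p ≠ 2) {K L : Type} [Field K]
    [NumberField K] [Field L] [NumberField L] [Algebra K L] [IsGalois K L]
    (hdeg : Module.finrank K L = p) (hunr : IsUnramifiedEverywhere K L)
    (ψ : (L ≃ₐ[K] L) →* Multiplicative (ZMod p)) (hψ : Function.Injective ψ)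
    (r : ℕ) [Fact r.Prime] (hrp : r ≠ p)
    (hr : ∀ (P : Ideal (𝓞 L)) [P.IsPrime], (r : 𝓞 L) ∈ P → P.ramificationIdx ℤ = 1)
    (χ : (ZMod r)ˣ →* Multiplicative (ZMod p)) (hχ : Function.Surjective χ) :
    ∃ (F : Type) (_ : Field F) (_ : NumberField F) (_ : Algebra K F)
      (C : Type) (_ : Field C) (_ : NumberField C) (_ : Algebra F C) (_ : Algebra L C)
      (_ : Algebra K C) (_ : IsScalarTower K F C) (_ : IsScalarTower K L C) (_ : IsGalois F C)
      (ψC : (C ≃ₐ[F] C) →* Multiplicative (ZMod p)),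
      Module.finrank F C = p ∧ IsUnramifiedEverywhere F C ∧ Function.Injective ψC ∧
      (∀ w : HeightOneSpectrum (𝓞 F), (r : 𝓞 F) ∉ w.asIdeal → ∀ u : (ZMod r)ˣ,
        (u : ZMod r) = (Ideal.absNorm w.asIdeal : ZMod r) → ψC (frobAt F C w) = χ u) ∧
      (∀ (P : Ideal (𝓞 F)) [P.IsPrime], (r : 𝓞 F) ∈ P → p ∣ P.ramificationIdx ℤ) ∧
      (∀ v : HeightOneSpectrum (𝓞 K), (r : 𝓞 K) ∉ v.asIdeal →
        (∀ u : (ZMod r)ˣ, (u : ZMod r) = (Ideal.absNorm v.asIdeal : ZMod r) →
          ψ (frobAt K L v) = χ u) →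
        ∃ w : HeightOneSpectrum (𝓞 F), placeBelow K F w = v ∧
          Ideal.absNorm w.asIdeal = Ideal.absNorm v.asIdeal) := by
  obtain ⟨M, _, _, _, _, _, _, ζr, hζ, hsurj, hinj⟩ :=
    exists_cyclotomic_compositum (K := K) (L := L) r hr
  -- the fields
  let F : IntermediateField K M := diagField (alphaChar ψ) (betaChar K hζ χ)
  let C : IntermediateField F M := topField F (alphaChar ψ)
  have hmem : ∀ x : L, algebraMap L M x ∈ C := cross_algebraMap_mem_topField ψ hψ F
  letI algLC : Algebra L C := ((algebraMap L M).codRestrict C hmem).toAlgebra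
  have towerKLC : IsScalarTower K L C :=
    IsScalarTower.of_algebraMap_eq (fun k => Subtype.ext (IsScalarTower.algebraMap_apply K L M k))
  -- an element of `Gal(M/F)` on which `α` is nontrivial
  have hγ : ∃ γ : M ≃ₐ[F] M, upChar F (alphaChar ψ) γ ≠ 1 := by
    have hex : ∃ h : L ≃ₐ[K] L, ψ h ≠ 1 := by
      by_contra hcon
      push Not at hcon
      have hsub : Subsingleton (L ≃ₐ[K] L) :=
        ⟨fun a b => hψ ((hcon a).trans (hcon b).symm)⟩
      have h1 : Nat.card (L ≃ₐ[K] L) = 1 := Nat.card_unique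
      rw [IsGalois.card_aut_eq_finrank, hdeg] at h1
      exact (Fact.out : p.Prime).one_lt.ne' h1
    obtain ⟨h, hh⟩ := hex
    obtain ⟨u, hu⟩ := hχ (ψ h)
    obtain ⟨σ, hσL, hσζ⟩ := hsurj h u
    have hα : alphaChar ψ σ = ψ h := by
      show ψ (AlgEquiv.restrictNormalHom L σ) = ψ h
      rw [cross_restrictNormalHom_eq hσL]
    have hβ : betaChar K hζ χ σ = ψ h := by
      show χ (hζ.autToPow K σ) = ψ h
      rw [cross_autToPow_eq hζ hσζ, hu]
    have hfix : ∀ x ∈ F, σ x = x :=
      (diagField_fixes_iff (alphaChar ψ) (betaChar K hζ χ) σ).mpr (hα.trans hβ.symm)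
    let γ : M ≃ₐ[F] M := AlgEquiv.ofRingEquiv (f := σ.toRingEquiv) (fun x => hfix x x.2)
    refine ⟨γ, ?_⟩
    have hγσ : γ.restrictScalars K = σ := AlgEquiv.ext fun x => rfl
    show alphaChar ψ (γ.restrictScalars K) ≠ 1
    rw [hγσ, hα]
    exact hh
  obtain ⟨γ, hγ⟩ := hγ
  refine ⟨F, inferInstance, inferInstance, inferInstance, C, inferInstance, inferInstance,
    inferInstance, algLC, inferInstance, inferInstance, towerKLC, inferInstance,
    topChar F (alphaChar ψ), ?_, ?_, ?_, ?_, ?_, ?_⟩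
  · exact finrank_topField F (alphaChar ψ) γ hγ
  · exact isUnramifiedEverywhere_topField hunr ψ F
  · exact topChar_injective F (alphaChar ψ)
  · intro w hw u hu
    have h1 := artin_topField_single_of_not_mem hζ hunr ψ hψ χ w hw 1
    rw [artin_single, charNat_eq_of_coe_eq χ _ u hu] at h1
    simp only [Int.cast_one, one_mul] at h1
    exact Multiplicative.toAdd.injective h1
  · intro P _ hP
    exact cross_dvd_ramificationIdx hζ hunr ψ χ hχ hinj P hP
  · intro v hv hfrob
    have hcop := cross_coprime_absNorm v hv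
    have hu : ((ZMod.unitOfCoprime _ hcop : (ZMod r)ˣ) : ZMod r) =
        (Ideal.absNorm v.asIdeal : ZMod r) := ZMod.coe_unitOfCoprime _ hcop
    have h1 := hfrob _ hu
    have h2 : Multiplicative.toAdd (ψ (frobAt K L v)) =
        charNat χ (Ideal.absNorm v.asIdeal) := by
      rw [charNat_eq_of_coe_eq χ _ _ hu, h1]
    exact exists_place_diagField hζ hunr ψ hψ χ v hv h2

end Fermat.Agent.S14
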