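import Fermat.Agent.S14.AnalyticSpec
import Fermat.Agent.S14.ArtinSpec

/-!
# S14, package E: density statements (E1) and (E2)

`exists_good_frobAt_ne_one` (E1) and `exists_good_ne_zero` (E2) exactly as in `CoreSpec.lean`,
proved from the prime-sum statements (Z0)-(Z3) of package D3 (`AnalyticSpec.lean`) and the
Frobenius API of package B (`ArtinSpec.lean`).  When those two spec files are replaced by the
real files only the two import lines above change.

Used from D3: `nvPow`, `primeSum_summable`, `primeSum_sub_log_bounded`, `primeSum_cos_le`,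
`primeSum_not_good_le`.  Used from B: `card_placesAbove_le`, `card_placesAbove_of_frobAt_eq_one`,
`absNorm_eq_of_frobAt_eq_one`.
-/

namespace Fermat.Agent.S14

open NumberField IsDedekindDomain

section basic

variable (K : Type*) [Field K] [NumberField K]

theorem dens_one_le_absNorm (v : HeightOneSpectrum (𝓞 K)) :
    (1 : ℝ) ≤ (Ideal.absNorm v.asIdeal : ℝ) := by
  have h : Ideal.absNorm v.asIdeal ≠ 0 := by
    rw [Ne, Ideal.absNorm_eq_zero_iff]
    exact v.ne_bot
  exact_mod_cast Nat.one_le_iff_ne_zero.mpr h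

theorem dens_nvPow_nonneg (v : HeightOneSpectrum (𝓞 K)) (s : ℝ) : 0 ≤ nvPow K v s := by
  unfold nvPow
  exact Real.rpow_nonneg (Nat.cast_nonneg _) _

theorem dens_nvPow_le_one (v : HeightOneSpectrum (𝓞 K)) {s : ℝ} (hs : 0 ≤ s) :
    nvPow K v s ≤ 1 := by
  unfold nvPow
  exact Real.rpow_le_one_of_one_le_of_nonpos (dens_one_le_absNorm K v) (by linarith)

/-- `log (1/(s-1))` is unbounded on `(1,2)`. -/
theorem dens_exists_log_gt (M : ℝ) :
    ∃ s : ℝ, 1 < s ∧ s < 2 ∧ M < Real.log (1 / (s - 1)) := by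
  set t : ℝ := |M| + 1 with ht
  have htpos : 0 < t := by positivity
  refine ⟨1 + Real.exp (-t), ?_, ?_, ?_⟩
  · have := Real.exp_pos (-t)
    linarith
  · have : Real.exp (-t) < 1 := by
      rw [Real.exp_lt_one_iff]
      linarith
    linarith
  · have h1 : 1 + Real.exp (-t) - 1 = Real.exp (-t) := by ring
    rw [h1, one_div, ← Real.exp_neg, neg_neg, Real.log_exp]
    have := le_abs_self M
    linarith

end basic

section fib

variable (K : Type*) [Field K] [NumberField K] (L : Type*) [Field L] [NumberField L] [Algebra K L]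

/-- Only finitely many finite places of `K` ramify in `L` (they divide the different). -/
theorem dens_finite_ramified :
    {v : HeightOneSpectrum (𝓞 K) | ¬ IsUnramifiedIn K L v}.Finite := by
  have hfin : {w : HeightOneSpectrum (𝓞 L) | w.asIdeal ∣ differentIdeal (𝓞 K) (𝓞 L)}.Finite :=
    Ideal.finite_factors differentIdeal_ne_bot
  refine (hfin.image (placeBelow K L)).subset ?_
  intro v hv
  simp only [Set.mem_ofPred_eq, IsUnramifiedIn] at hv
  push Not at hv
  obtain ⟨P, hP, hlie, hram⟩ := hv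
  have hPbot : P ≠ ⊥ := by
    intro h
    have h1 : v.asIdeal = P.under (𝓞 K) := hlie.over
    rw [h, Ideal.under_bot] at h1
    exact v.ne_bot h1
  refine ⟨⟨P, hP, hPbot⟩, ?_, ?_⟩
  · simp only [Set.mem_ofPred_eq]
    exact dvd_differentIdeal_iff.mpr hram
  · apply HeightOneSpectrum.ext
    simp only [placeBelow]
    exact hlie.over.symm

/-- Sum over the places of `L` fibred over the places of `K`: if over every place `v` in a set `G`
there are exactly `n` places `w`, all with `g w = h v`, then `n * ∑_{v ∈ G} h v ≤ ∑_w g w`. -/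
theorem dens_fibre_sum_le {g : HeightOneSpectrum (𝓞 L) → ℝ} {h : HeightOneSpectrum (𝓞 K) → ℝ}
    (hg0 : ∀ w, 0 ≤ g w) (hg : Summable g) (G : Set (HeightOneSpectrum (𝓞 K))) (n : ℕ)
    (hcard : ∀ v ∈ G, Nat.card {w : HeightOneSpectrum (𝓞 L) // placeBelow K L w = v} = n)
    (hval : ∀ v ∈ G, ∀ w : HeightOneSpectrum (𝓞 L), placeBelow K L w = v → g w = h v)
    (hh : Summable (Set.indicator G h)) :
    (n : ℝ) * ∑' v, Set.indicator G h v ≤ ∑' w, g w := by
  classical
  let e := Equiv.sigmaFiberEquiv (placeBelow K L)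
  have hg' : Summable fun x : (Σ v, {w : HeightOneSpectrum (𝓞 L) // placeBelow K L w = v}) =>
      g (e x) := (Equiv.summable_iff e).mpr hg
  have h1 : ∑' w, g w = ∑' x, g (e x) := (Equiv.tsum_eq e g).symm
  rw [h1, hg'.tsum_sigma, ← tsum_mul_left]
  refine (hh.mul_left _).tsum_le_tsum (fun v => ?_) hg'.sigma
  by_cases hv : v ∈ G
  · rw [Set.indicator_of_mem hv]
    have : Finite {w : HeightOneSpectrum (𝓞 L) // placeBelow K L w = v} :=
      (card_placesAbove_le K L v).1
    have := Fintype.ofFinite {w : HeightOneSpectrum (𝓞 L) // placeBelow K L w = v}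
    rw [tsum_fintype]
    have h2 : ∀ w : {w : HeightOneSpectrum (𝓞 L) // placeBelow K L w = v},
        g (e ⟨v, w⟩) = h v := fun w => hval v hv w.1 w.2
    simp only [h2, Finset.sum_const, Finset.card_univ, nsmul_eq_mul]
    rw [← Nat.card_eq_fintype_card, hcard v hv]
  · rw [Set.indicator_of_notMem hv, mul_zero]
    exact tsum_nonneg fun w => hg0 _

end fib

/-- (E1) -/
theorem exists_good_frobAt_ne_one {K L : Type} [Field K] [NumberField K] [Field L] [NumberField L]
    [Algebra K L] [IsGalois K L] (hdeg : 1 < Module.finrank K L) (B : Finset ℕ) :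
    ∃ v : HeightOneSpectrum (𝓞 K), IsGoodPlace K B v ∧ IsUnramifiedIn K L v ∧
      frobAt K L v ≠ 1 := by
  classical
  by_contra hcon
  push Not at hcon
  set n : ℕ := Module.finrank K L with hn
  -- enlarge `B` by the norms of the ramified places
  set R : Finset (HeightOneSpectrum (𝓞 K)) := (dens_finite_ramified K L).toFinset with hR
  set B' : Finset ℕ := B ∪ R.image (fun v => Ideal.absNorm v.asIdeal) with hB'
  have hgood : ∀ v, IsGoodPlace K B' v → IsGoodPlace K B v ∧ IsUnramifiedIn K L v := by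
    intro v hv
    refine ⟨⟨hv.1, fun hmem => hv.2 (Finset.mem_union_left _ hmem)⟩, ?_⟩
    by_contra hram
    apply hv.2
    refine Finset.mem_union_right _ (Finset.mem_image.mpr ⟨v, ?_, rfl⟩)
    rw [hR, Set.Finite.mem_toFinset]
    exact hram
  have hfrob : ∀ v, IsGoodPlace K B' v → frobAt K L v = 1 := fun v hv =>
    hcon v (hgood v hv).1 (hgood v hv).2
  obtain ⟨MK, hMK⟩ := primeSum_sub_log_bounded K
  obtain ⟨ML, hML⟩ := primeSum_sub_log_bounded L
  obtain ⟨M3, hM3⟩ := primeSum_not_good_le K B'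
  obtain ⟨s, hs1, hs2, hlog⟩ := dens_exists_log_gt (max 0 (ML + n * (MK + M3)))
  have hlog0 : 0 < Real.log (1 / (s - 1)) := lt_of_le_of_lt (le_max_left _ _) hlog
  have hlog1 : ML + n * (MK + M3) < Real.log (1 / (s - 1)) :=
    lt_of_le_of_lt (le_max_right _ _) hlog
  have hsumK : Summable fun v : HeightOneSpectrum (𝓞 K) => nvPow K v s := primeSum_summable K hs1
  have hsumL : Summable fun w : HeightOneSpectrum (𝓞 L) => nvPow L w s := primeSum_summable L hs1
  set G : Set (HeightOneSpectrum (𝓞 K)) := {v | IsGoodPlace K B' v} with hG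
  have hkey : (n : ℝ) * ∑' v, Set.indicator G (fun v => nvPow K v s) v ≤ ∑' w, nvPow L w s := by
    refine dens_fibre_sum_le K L (fun w => dens_nvPow_nonneg L w s) hsumL G n ?_ ?_
      (hsumK.indicator _)
    · intro v hv
      exact card_placesAbove_of_frobAt_eq_one K L v (hgood v hv).2 (hfrob v hv)
    · intro v hv w hw
      have := (absNorm_eq_of_frobAt_eq_one K L v (hgood v hv).2 (hfrob v hv) w hw).1
      simp only [nvPow, this]
  -- split the sum over `K` into good and not good places
  have hsplit : (∑' v, nvPow K v s) =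
      (∑' v, Set.indicator G (fun v => nvPow K v s) v) +
        ∑' v, Set.indicator {v | ¬ IsGoodPlace K B' v} (fun v => nvPow K v s) v := by
    have hcompl : {v | ¬ IsGoodPlace K B' v} = Gᶜ := rfl
    rw [hcompl, ← (hsumK.indicator G).tsum_add (hsumK.indicator Gᶜ)]
    congr 1
    funext v
    exact (Set.indicator_self_add_compl_apply G (fun v => nvPow K v s) v).symm
  have h2 := hMK s hs1 hs2
  have h3 := hML s hs1 hs2
  have h4 := hM3 s hs1 hs2
  rw [abs_le] at h2 h3
  have hn2 : (2 : ℝ) ≤ (n : ℝ) := by exact_mod_cast hdeg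
  set ℓ := Real.log (1 / (s - 1)) with hℓ
  set SG := ∑' v, Set.indicator G (fun v => nvPow K v s) v with hSG
  have h5 : ℓ - MK - M3 ≤ SG := by linarith [h2.1]
  have h6 : (n : ℝ) * (ℓ - MK - M3) ≤ (n : ℝ) * SG :=
    mul_le_mul_of_nonneg_left h5 (by linarith)
  have h7 : (n : ℝ) * SG ≤ ℓ + ML := by linarith [h3.2]
  have h8 : (n : ℝ) * ℓ ≥ 2 * ℓ := by nlinarith
  nlinarith

/-- (E2) -/
theorem exists_good_ne_zero {p : ℕ} [Fact p.Prime] {K : Type} [Field K] [NumberField K]
    (f : Div K →+ ZMod p) (hprin : ∀ x : K, x ≠ 0 → f (divOf K x) = 0) (hf : f ≠ 0)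
    (B : Finset ℕ) :
    ∃ v : HeightOneSpectrum (𝓞 K), IsGoodPlace K B v ∧ f (Finsupp.single v 1) ≠ 0 := by
  by_contra hcon
  push Not at hcon
  have : NeZero p := ⟨(Fact.out : p.Prime).ne_zero⟩
  obtain ⟨M1, hM1⟩ := primeSum_sub_log_bounded K
  obtain ⟨M2, hM2⟩ := primeSum_cos_le f hprin hf
  obtain ⟨M3, hM3⟩ := primeSum_not_good_le K B
  obtain ⟨s, hs1, hs2, hlog⟩ := dens_exists_log_gt (M1 + 2 * M3 + M2)
  have hsum : Summable fun v : HeightOneSpectrum (𝓞 K) => nvPow K v s := primeSum_summable K hs1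
  set c : HeightOneSpectrum (𝓞 K) → ℝ := fun v =>
    Real.cos (2 * Real.pi * ((f (Finsupp.single v 1)).val : ℝ) / (p : ℝ)) with hc
  set ind : HeightOneSpectrum (𝓞 K) → ℝ := fun v =>
    Set.indicator {v | ¬ IsGoodPlace K B v} (fun v => nvPow K v s) v with hind
  have hsind : Summable ind := hsum.indicator _
  have hscos : Summable fun v => c v * nvPow K v s := by
    refine Summable.of_norm_bounded hsum (fun v => ?_)
    rw [norm_mul, Real.norm_eq_abs, Real.norm_eq_abs, abs_of_nonneg (dens_nvPow_nonneg K v s)]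
    calc |c v| * nvPow K v s ≤ 1 * nvPow K v s :=
          mul_le_mul_of_nonneg_right (Real.abs_cos_le_one _) (dens_nvPow_nonneg K v s)
      _ = nvPow K v s := one_mul _
  have hpt : ∀ v, nvPow K v s - 2 * ind v ≤ c v * nvPow K v s := by
    intro v
    have hnn := dens_nvPow_nonneg K v s
    by_cases hg : IsGoodPlace K B v
    · have h0 : f (Finsupp.single v 1) = 0 := hcon v hg
      have hc1 : c v = 1 := by simp [hc, h0]
      have hi0 : ind v = 0 := by simp [hind, hg]
      rw [hc1, hi0]; linarith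
    · have hi1 : ind v = nvPow K v s := by simp [hind, hg]
      have hcl : -1 ≤ c v := Real.neg_one_le_cos _
      rw [hi1]
      nlinarith
  have h1 : (∑' v, nvPow K v s) - 2 * ∑' v, ind v ≤ ∑' v, c v * nvPow K v s := by
    rw [← tsum_mul_left, ← (hsum.tsum_sub (hsind.mul_left 2))]
    exact (hsum.sub (hsind.mul_left 2)).tsum_le_tsum hpt hscos
  have h2 := hM1 s hs1 hs2
  have h3 := hM2 s hs1 hs2
  have h4 := hM3 s hs1 hs2
  rw [abs_le] at h2
  have h5 : (∑' v, ind v) ≤ M3 := h4
  have h6 : (∑' v, c v * nvPow K v s) ≤ M2 := h3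
  linarith [h2.1, h2.2]

end Fermat.Agent.S14
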