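import Fermat.Agent.S14.AnalyticSpec
import Fermat.Agent.S14.ArtinSpec

/-!
# S14, package F: the first inequality
-/

namespace Fermat.Agent.S14

open NumberField IsDedekindDomain FractionalIdeal

section DivOf

variable (K : Type*) [Field K] [NumberField K]

theorem fi_divOf_mul {x y : K} (hx : x ≠ 0) (hy : y ≠ 0) :
    divOf K (x * y) = divOf K x + divOf K y := by
  ext v
  simp only [divOf_apply, Finsupp.add_apply]
  rw [← spanSingleton_mul_spanSingleton, count_mul K v (spanSingleton_ne_zero_iff.mpr hx)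
    (spanSingleton_ne_zero_iff.mpr hy)]

theorem fi_divOf_one : divOf K (1 : K) = 0 := by
  ext v
  simp only [divOf_apply, Finsupp.zero_apply]
  rw [spanSingleton_one, count_one]

theorem fi_divOf_inv (x : K) : divOf K x⁻¹ = -divOf K x := by
  ext v
  simp only [divOf_apply, Finsupp.neg_apply]
  rw [← spanSingleton_inv, count_inv]

theorem fi_divOf_pow {x : K} (hx : x ≠ 0) (n : ℕ) : divOf K (x ^ n) = n • divOf K x := by
  induction n with
  | zero => simp [fi_divOf_one]
  | succ n ih => rw [pow_succ, fi_divOf_mul K (pow_ne_zero n hx) hx, ih, succ_nsmul]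

theorem fi_divOf_zpow {x : K} (hx : x ≠ 0) (n : ℤ) : divOf K (x ^ n) = n • divOf K x := by
  cases n with
  | ofNat n => simpa using fi_divOf_pow K hx n
  | negSucc n =>
    rw [zpow_negSucc, fi_divOf_inv, fi_divOf_pow K hx, negSucc_zsmul]

theorem fi_divOf_prod {ι : Type*} (s : Finset ι) (x : ι → K) (hx : ∀ i ∈ s, x i ≠ 0) :
    divOf K (∏ i ∈ s, x i) = ∑ i ∈ s, divOf K (x i) := by
  classical
  induction s using Finset.induction_on with
  | empty => simp [fi_divOf_one]
  | insert a s ha ih =>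
    rw [Finset.prod_insert ha, Finset.sum_insert ha, fi_divOf_mul K
      (hx a (Finset.mem_insert_self a s))
      (Finset.prod_ne_zero_iff.mpr fun i hi => hx i (Finset.mem_insert_of_mem hi)),
      ih fun i hi => hx i (Finset.mem_insert_of_mem hi)]

/-- The divisor of an integer, in terms of membership in powers of primes. -/
theorem fi_le_divOf_iff {r : 𝓞 K} (hr : r ≠ 0) (v : HeightOneSpectrum (𝓞 K)) (n : ℕ) :
    (n : ℤ) ≤ divOf K (r : K) v ↔ r ∈ v.asIdeal ^ n := by
  have hspan : (Ideal.span {r} : Ideal (𝓞 K)) ≠ 0 := by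
    rw [Ne, Ideal.zero_eq_bot, Ideal.span_singleton_eq_bot]; exact hr
  have h1 : divOf K (r : K) v =
      ((Associates.mk v.asIdeal).count (Associates.mk (Ideal.span {r} : Ideal (𝓞 K))).factors : ℤ) := by
    rw [divOf_apply, ← count_coe K v hspan, coeIdeal_span_singleton]
  rw [h1, ← v.intValuation_le_pow_iff_mem, v.intValuation_if_neg hr, WithZero.exp_le_exp]
  omega

/-- Weak approximation: an element of order one at `v` and order zero at the other places of a
finite set. -/
theorem fi_exists_uniformizer_away (S : Finset (HeightOneSpectrum (𝓞 K)))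
    (v : HeightOneSpectrum (𝓞 K)) (hv : v ∈ S) :
    ∃ x : K, x ≠ 0 ∧ divOf K x v = 1 ∧ ∀ w ∈ S, w ≠ v → divOf K x w = 0 := by
  classical
  obtain ⟨π, hπ⟩ := v.intValuation_exists_uniformizer
  have hπ1 : π ∈ v.asIdeal := by
    rw [← v.intValuation_lt_one_iff_mem, hπ, ← WithZero.exp_zero, WithZero.exp_lt_exp]
    norm_num
  have hπ2 : π ∉ v.asIdeal ^ 2 := by
    rw [← v.intValuation_le_pow_iff_mem, hπ, WithZero.exp_le_exp]
    norm_num
  obtain ⟨y, hy⟩ := IsDedekindDomain.exists_forall_sub_mem_ideal (s := S)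
    (fun w : HeightOneSpectrum (𝓞 K) => w.asIdeal) (fun w => if w = v then 2 else 1)
    (fun w _ => w.prime) (fun w _ w' _ h heq => h (HeightOneSpectrum.ext heq))
    (fun w => if (w : HeightOneSpectrum (𝓞 K)) = v then π else 1)
  have hyv := hy v hv
  simp only [if_true] at hyv
  have hy1 : y ∈ v.asIdeal := by
    have h1 : y - π ∈ v.asIdeal := Ideal.pow_le_self (by norm_num) hyv
    have := v.asIdeal.add_mem h1 hπ1
    simpa using this
  have hy2 : y ∉ v.asIdeal ^ 2 := by
    intro h
    apply hπ2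
    have := (v.asIdeal ^ 2).sub_mem h hyv
    simpa using this
  have hy0 : y ≠ 0 := by
    rintro rfl
    exact hy2 (Ideal.zero_mem _)
  refine ⟨(y : K), ?_, ?_, ?_⟩
  · exact RingOfIntegers.coe_ne_zero_iff.mpr hy0
  · have h1 : (1 : ℤ) ≤ divOf K (y : K) v := by
      have := (fi_le_divOf_iff K hy0 v 1).mpr (by simpa using hy1)
      simpa using this
    have h2 : ¬ (2 : ℤ) ≤ divOf K (y : K) v := by
      intro h
      exact hy2 ((fi_le_divOf_iff K hy0 v 2).mp (by simpa using h))
    omega
  · intro w hw hwv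
    have hyw := hy w hw
    simp only [if_neg hwv, pow_one] at hyw
    have hyw' : y ∉ w.asIdeal := by
      intro h
      have h1 : (1 : 𝓞 K) ∈ w.asIdeal := by
        have := w.asIdeal.sub_mem h hyw
        simpa using this
      exact w.isPrime.ne_top ((Ideal.eq_top_iff_one _).mpr h1)
    have h1 : ¬ (1 : ℤ) ≤ divOf K (y : K) w := by
      intro h
      exact hyw' (by simpa using (fi_le_divOf_iff K hy0 w 1).mp (by simpa using h))
    have h0 : (0 : ℤ) ≤ divOf K (y : K) w := by
      have := (fi_le_divOf_iff K hy0 w 0).mpr (by simp)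
      simpa using this
    omega

/-- Modify a homomorphism on divisors that kills the principal divisors away from `S` into one
killing all principal divisors, without changing it on the divisors away from `S`. -/
theorem fi_modify {p : ℕ} (A : Div K →+ ZMod p) (S : Finset (HeightOneSpectrum (𝓞 K)))
    (hrec : ∀ x : K, x ≠ 0 → (∀ v ∈ S, divOf K x v = 0) → A (divOf K x) = 0) :
    ∃ A' : Div K →+ ZMod p, (∀ x : K, x ≠ 0 → A' (divOf K x) = 0) ∧
      ∀ d : Div K, (∀ v ∈ S, d v = 0) → A' d = A d := by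
  classical
  set xs : HeightOneSpectrum (𝓞 K) → K := fun v =>
    if hv : v ∈ S then (fi_exists_uniformizer_away K S v hv).choose else 1 with hxs
  have hxs0 : ∀ v ∈ S, xs v ≠ 0 := fun v hv => by
    simp only [hxs, dif_pos hv]
    exact (fi_exists_uniformizer_away K S v hv).choose_spec.1
  have hxs1 : ∀ v ∈ S, divOf K (xs v) v = 1 := fun v hv => by
    simp only [hxs, dif_pos hv]
    exact (fi_exists_uniformizer_away K S v hv).choose_spec.2.1
  have hxs2 : ∀ v ∈ S, ∀ w ∈ S, w ≠ v → divOf K (xs v) w = 0 := fun v hv => by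
    simp only [hxs, dif_pos hv]
    exact (fi_exists_uniformizer_away K S v hv).choose_spec.2.2
  let A' : Div K →+ ZMod p :=
    { toFun := fun d => A d - ∑ v ∈ S, d v • A (divOf K (xs v))
      map_zero' := by simp
      map_add' := fun d d' => by
        simp only [map_add, Finsupp.add_apply, add_smul, Finset.sum_add_distrib]
        abel }
  have hA' : ∀ d, A' d = A d - ∑ v ∈ S, d v • A (divOf K (xs v)) := fun d => rfl
  refine ⟨A', ?_, ?_⟩
  · intro x hx
    set y : K := x * ∏ v ∈ S, (xs v) ^ (-(divOf K x v)) with hy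
    have hprod0 : ∀ v ∈ S, (xs v) ^ (-(divOf K x v)) ≠ 0 := fun v hv =>
      zpow_ne_zero _ (hxs0 v hv)
    have hy0 : y ≠ 0 := mul_ne_zero hx (Finset.prod_ne_zero_iff.mpr hprod0)
    have hdivy : divOf K y = divOf K x + ∑ v ∈ S, (-(divOf K x v)) • divOf K (xs v) := by
      rw [hy, fi_divOf_mul K hx (Finset.prod_ne_zero_iff.mpr hprod0), fi_divOf_prod K S _ hprod0]
      congr 1
      exact Finset.sum_congr rfl fun v hv => fi_divOf_zpow K (hxs0 v hv) _
    have hyS : ∀ w ∈ S, divOf K y w = 0 := by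
      intro w hw
      rw [hdivy, Finsupp.add_apply, Finsupp.finsetSum_apply,
        Finset.sum_eq_single_of_mem w hw]
      · rw [Finsupp.smul_apply, hxs1 w hw]
        simp
      · intro v hv hvw
        rw [Finsupp.smul_apply, hxs2 v hv w hw (Ne.symm hvw)]
        simp
    have h0 := hrec y hy0 hyS
    rw [hdivy, map_add, map_sum] at h0
    simp only [neg_smul, map_neg, map_zsmul, Finset.sum_neg_distrib] at h0
    rw [hA', sub_eq_add_neg]
    exact h0
  · intro d hd
    rw [hA']
    have : ∑ v ∈ S, d v • A (divOf K (xs v)) = 0 :=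
      Finset.sum_eq_zero fun v hv => by rw [hd v hv, zero_smul]
    rw [this, sub_zero]

end DivOf

section Character

/-- A subgroup with `p`-torsion quotient not containing `D` is contained in the kernel of a
homomorphism to `ℤ/p` not vanishing at `D`. -/
theorem fi_exists_character {G : Type*} [AddCommGroup G] {p : ℕ} [Fact p.Prime]
    (H : AddSubgroup G) (hp : ∀ d : G, p • d ∈ H) {D : G} (hD : D ∉ H) :
    ∃ g : G →+ ZMod p, (∀ d ∈ H, g d = 0) ∧ g D ≠ 0 := by
  have hq : ∀ x : G ⧸ H, p • x = 0 := by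
    intro x
    induction x using QuotientAddGroup.induction_on with
    | H d =>
      rw [← QuotientAddGroup.mk_nsmul, QuotientAddGroup.eq_zero_iff]
      exact hp d
  have _ : Module (ZMod p) (G ⧸ H) := AddCommGroup.zmodModule hq
  have hne : (QuotientAddGroup.mk D : G ⧸ H) ≠ 0 := by
    rw [Ne, QuotientAddGroup.eq_zero_iff]
    exact hD
  obtain ⟨φ, hφ⟩ : ∃ f : (G ⧸ H) →ₗ[ZMod p] ZMod p, f (QuotientAddGroup.mk D : G ⧸ H) ≠ 0 :=
    Module.Projective.exists_dual_ne_zero (ZMod p) hne
  refine ⟨φ.toAddMonoidHom.comp (QuotientAddGroup.mk' H), ?_, ?_⟩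
  · intro d hd
    have : (QuotientAddGroup.mk d : G ⧸ H) = 0 := (QuotientAddGroup.eq_zero_iff d).mpr hd
    show φ (QuotientAddGroup.mk d : G ⧸ H) = 0
    rw [this]
    exact map_zero φ
  · exact hφ

end Character

section Subgroup

variable (F : Type) [Field F] [NumberField F] (C : Type) [Field C] [NumberField C] [Algebra F C]

/-- The subgroup of divisors of the form `principal + norm`. -/
noncomputable def fi_H : AddSubgroup (Div F) where
  carrier := {d | ∃ (x : F) (E : Div C), x ≠ 0 ∧ d = divOf F x + normDiv F C E}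
  zero_mem' := ⟨1, 0, one_ne_zero, by rw [fi_divOf_one, map_zero, add_zero]⟩
  add_mem' := by
    rintro a b ⟨x, E, hx, rfl⟩ ⟨y, E', hy, rfl⟩
    exact ⟨x * y, E + E', mul_ne_zero hx hy, by rw [fi_divOf_mul F hx hy, map_add]; abel⟩
  neg_mem' := by
    rintro a ⟨x, E, hx, rfl⟩
    exact ⟨x⁻¹, -E, inv_ne_zero hx, by rw [fi_divOf_inv, map_neg]; abel⟩

theorem fi_mem_H {d : Div F} :
    d ∈ fi_H F C ↔ ∃ (x : F) (E : Div C), x ≠ 0 ∧ d = divOf F x + normDiv F C E := Iff.rfl

theorem fi_divOf_mem_H {x : F} (hx : x ≠ 0) : divOf F x ∈ fi_H F C :=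
  ⟨x, 0, hx, by rw [map_zero, add_zero]⟩

theorem fi_normDiv_mem_H (E : Div C) : normDiv F C E ∈ fi_H F C :=
  ⟨1, E, one_ne_zero, by rw [fi_divOf_one, zero_add]⟩

variable [IsGalois F C]

theorem fi_single_mem_H_of_frobAt_eq_one (hunr : IsUnramifiedEverywhere F C)
    (v : HeightOneSpectrum (𝓞 F)) (h : frobAt F C v = 1) : Finsupp.single v 1 ∈ fi_H F C := by
  have h1 := (absNorm_eq_of_frobAt_eq_one F C v (hunr.isUnramifiedIn F C v) h (placeAbove F C v)
    (placeBelow_placeAbove F C v)).2
  rw [← h1]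
  exact fi_normDiv_mem_H F C _

theorem fi_nsmul_mem_H {p : ℕ} (hdeg : Module.finrank F C = p)
    (hunr : IsUnramifiedEverywhere F C) (d : Div F) : p • d ∈ fi_H F C := by
  induction d using Finsupp.induction_linear with
  | zero => rw [smul_zero]; exact (fi_H F C).zero_mem
  | add a b ha hb => rw [smul_add]; exact (fi_H F C).add_mem ha hb
  | single v n =>
    have hord : orderOf (frobAt F C v) = (placeAbove F C v).asIdeal.inertiaDeg (𝓞 F) :=
      orderOf_frobAt F C v (hunr.isUnramifiedIn F C v) (placeAbove F C v)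
        (placeBelow_placeAbove F C v)
    have hdvd : (placeAbove F C v).asIdeal.inertiaDeg (𝓞 F) ∣ p := by
      rw [← hord, ← hdeg, ← IsGalois.card_aut_eq_finrank]
      exact orderOf_dvd_natCard _
    obtain ⟨k, hk⟩ := hdvd
    have h1 : p • Finsupp.single v n = normDiv F C (Finsupp.single (placeAbove F C v) (k * n)) := by
      rw [normDiv_single, placeBelow_placeAbove, Finsupp.smul_single, ← mul_assoc]
      congr 1
      rw [hk]
      simp
    rw [h1]
    exact fi_normDiv_mem_H F C _

end Subgroup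

section CharSum

theorem fi_sum_cos_range {p : ℕ} (hp : 1 < p) :
    ∑ k ∈ Finset.range p, Real.cos (2 * Real.pi * (k : ℝ) / (p : ℝ)) = 0 := by
  have hp0 : p ≠ 0 := by omega
  have hζ := Complex.isPrimitiveRoot_exp p hp0
  have h := hζ.geom_sum_eq_zero hp
  have h2 := congrArg Complex.re h
  rw [Complex.re_sum, Complex.zero_re] at h2
  rw [← h2]
  refine Finset.sum_congr rfl fun k _ => ?_
  rw [← Complex.exp_nat_mul]
  have : (k : ℂ) * (2 * Real.pi * Complex.I / p) = ((2 * Real.pi * (k : ℝ) / (p : ℝ) : ℝ) : ℂ) * Complex.I := by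
    push_cast
    ring
  rw [this, Complex.exp_ofReal_mul_I_re]

theorem fi_sum_cos_zmod {p : ℕ} [Fact p.Prime] :
    ∑ t : ZMod p, Real.cos (2 * Real.pi * (t.val : ℝ) / (p : ℝ)) = 0 := by
  have hp : 1 < p := (Fact.out : p.Prime).one_lt
  rw [← fi_sum_cos_range hp]
  refine Finset.sum_nbij' (fun t => t.val) (fun k => (k : ZMod p)) ?_ ?_ ?_ ?_ ?_
  · intro t _
    exact Finset.mem_range.mpr (ZMod.val_lt t)
  · intro k _
    exact Finset.mem_univ _
  · intro t _
    exact ZMod.natCast_zmod_val t
  · intro k hk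
    exact ZMod.val_cast_of_lt (Finset.mem_range.mp hk)
  · intro t _
    rfl

theorem fi_sum_cos_affine {p : ℕ} [Fact p.Prime] (a b : ZMod p) :
    ∑ j : ZMod p, Real.cos (2 * Real.pi * ((a + j * b).val : ℝ) / (p : ℝ)) =
      if b = 0 then (p : ℝ) * Real.cos (2 * Real.pi * (a.val : ℝ) / (p : ℝ)) else 0 := by
  split_ifs with hb
  · subst hb
    simp only [mul_zero, add_zero, Finset.sum_const, Finset.card_univ, ZMod.card, nsmul_eq_mul]
  · rw [← fi_sum_cos_zmod (p := p)]
    refine Fintype.sum_bijective (fun j : ZMod p => a + j * b) ?_ _ _ (fun j => rfl)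
    constructor
    · intro j j' h
      have h1 : j * b = j' * b := add_left_cancel h
      exact mul_right_cancel₀ hb h1
    · intro t
      exact ⟨(t - a) * b⁻¹, by
        show a + (t - a) * b⁻¹ * b = t
        rw [mul_assoc, inv_mul_cancel₀ hb, mul_one]; ring⟩

end CharSum

section Analytic

theorem fi_nvPow_nonneg (K : Type*) [Field K] [NumberField K] (v : HeightOneSpectrum (𝓞 K))
    (s : ℝ) : 0 ≤ nvPow K v s :=
  Real.rpow_nonneg (Nat.cast_nonneg _) _

theorem fi_nvPow_le_one (K : Type*) [Field K] [NumberField K] (v : HeightOneSpectrum (𝓞 K))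
    {s : ℝ} (hs : 0 ≤ s) : nvPow K v s ≤ 1 := by
  have h1 : 1 ≤ Ideal.absNorm v.asIdeal := by
    rw [Nat.one_le_iff_ne_zero, Ne, Ideal.absNorm_eq_zero_iff]
    exact v.ne_bot
  exact Real.rpow_le_one_of_one_le_of_nonpos (by exact_mod_cast h1) (by linarith)

/-- A finite-to-one reindexing multiplies a sum by at most the size of the fibres. -/
theorem fi_sum_le_mul_tsum {α β : Type*} [DecidableEq β] (π : α → β) (n : ℕ)
    (hfib : ∀ (W : Finset α) (b : β), (W.filter fun a => π a = b).card ≤ n)
    (g : β → ℝ) (hg0 : ∀ b, 0 ≤ g b) (hg : Summable g) (W : Finset α) :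
    ∑ a ∈ W, g (π a) ≤ n * ∑' b, g b := by
  rw [Finset.sum_comp]
  calc ∑ b ∈ W.image π, (W.filter fun a => π a = b).card • g b
      ≤ ∑ b ∈ W.image π, (n : ℝ) * g b := Finset.sum_le_sum fun b _ => by
        rw [nsmul_eq_mul]
        exact mul_le_mul_of_nonneg_right (by exact_mod_cast hfib W b) (hg0 b)
    _ = n * ∑ b ∈ W.image π, g b := by rw [Finset.mul_sum]
    _ ≤ n * ∑' b, g b :=
        mul_le_mul_of_nonneg_left (hg.sum_le_tsum _ fun b _ => hg0 b) (Nat.cast_nonneg n)

/-- Summing the bounds of (Z2) over the pencil `g + j A'`. -/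
theorem fi_upper {p : ℕ} [Fact p.Prime] {K : Type} [Field K] [NumberField K]
    (g A' : Div K →+ ZMod p) (hg : ∀ x : K, x ≠ 0 → g (divOf K x) = 0)
    (hA' : ∀ x : K, x ≠ 0 → A' (divOf K x) = 0) (D : Div K) (hgD : g D ≠ 0) (hAD : A' D = 0) :
    ∃ M : ℝ, ∀ s : ℝ, 1 < s → s < 2 →
      ∑' v : HeightOneSpectrum (𝓞 K),
        (if A' (Finsupp.single v 1) = 0 then
          (p : ℝ) * Real.cos (2 * Real.pi * ((g (Finsupp.single v 1)).val : ℝ) / (p : ℝ)) else 0) *
          nvPow K v s ≤ M := by
  classical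
  have : NeZero p := ⟨(Fact.out : p.Prime).ne_zero⟩
  let f : ZMod p → (Div K →+ ZMod p) := fun j => g + (AddMonoidHom.mulLeft j).comp A'
  have hf_apply : ∀ j d, f j d = g d + j * A' d := fun j d => rfl
  have hfprin : ∀ j (x : K), x ≠ 0 → f j (divOf K x) = 0 := by
    intro j x hx
    rw [hf_apply, hg x hx, hA' x hx, mul_zero, add_zero]
  have hfne : ∀ j, f j ≠ 0 := by
    intro j h
    apply hgD
    have := DFunLike.congr_fun h D
    rw [hf_apply, hAD, mul_zero, add_zero] at this
    simpa using this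
  choose M hM using fun j => primeSum_cos_le (f j) (hfprin j) (hfne j)
  refine ⟨∑ j, M j, fun s hs1 hs2 => ?_⟩
  have hsum : ∀ j, Summable fun v : HeightOneSpectrum (𝓞 K) =>
      Real.cos (2 * Real.pi * ((f j (Finsupp.single v 1)).val : ℝ) / (p : ℝ)) * nvPow K v s := by
    intro j
    refine Summable.of_norm_bounded (primeSum_summable K hs1) (fun v => ?_)
    rw [norm_mul, Real.norm_eq_abs, Real.norm_eq_abs, abs_of_nonneg (fi_nvPow_nonneg K v s)]
    exact mul_le_of_le_one_left (fi_nvPow_nonneg K v s) (Real.abs_cos_le_one _)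
  calc ∑' v : HeightOneSpectrum (𝓞 K),
        (if A' (Finsupp.single v 1) = 0 then
          (p : ℝ) * Real.cos (2 * Real.pi * ((g (Finsupp.single v 1)).val : ℝ) / (p : ℝ)) else 0) *
          nvPow K v s
      = ∑' v : HeightOneSpectrum (𝓞 K), ∑ j : ZMod p,
          Real.cos (2 * Real.pi * ((f j (Finsupp.single v 1)).val : ℝ) / (p : ℝ)) *
            nvPow K v s := by
        congr 1
        ext v
        rw [← Finset.sum_mul, ← fi_sum_cos_affine]
        rfl
    _ = ∑ j : ZMod p, ∑' v : HeightOneSpectrum (𝓞 K),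
          Real.cos (2 * Real.pi * ((f j (Finsupp.single v 1)).val : ℝ) / (p : ℝ)) *
            nvPow K v s := Summable.tsum_finsetSum fun j _ => hsum j
    _ ≤ ∑ j, M j := Finset.sum_le_sum fun j _ => hM j s hs1 hs2

variable {p : ℕ} [Fact p.Prime] {F C : Type} [Field F] [NumberField F] [Field C]
    [NumberField C] [Algebra F C] [IsGalois F C]

theorem fi_artin_single_eq_zero_iff (ψ : (C ≃ₐ[F] C) →* Multiplicative (ZMod p))
    (hψ : Function.Injective ψ) (v : HeightOneSpectrum (𝓞 F)) :
    artin F C ψ (Finsupp.single v 1) = 0 ↔ frobAt F C v = 1 := by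
  rw [artin_single, Int.cast_one, one_mul]
  constructor
  · intro h
    apply hψ
    rw [map_one]
    exact Multiplicative.toAdd.injective h
  · intro h
    rw [h, map_one]
    rfl

open scoped Classical in
/-- The places of `F` in `S` or with trivial Frobenius carry a bounded part of the prime sum. -/
theorem fi_upper' (hdeg : Module.finrank F C = p)
    (hunr : IsUnramifiedEverywhere F C) (ψ : (C ≃ₐ[F] C) →* Multiplicative (ZMod p))
    (hψ : Function.Injective ψ) (S : Finset (HeightOneSpectrum (𝓞 F)))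
    (hrec : ∀ x : F, x ≠ 0 → (∀ v ∈ S, divOf F x v = 0) → artin F C ψ (divOf F x) = 0)
    (D : Div F) (hDS : ∀ v ∈ S, D v = 0) (hD : artin F C ψ D = 0) (hDH : D ∉ fi_H F C) :
    ∃ M : ℝ, ∀ s : ℝ, 1 < s → s < 2 →
      ∑' v : HeightOneSpectrum (𝓞 F),
        (if v ∈ S ∨ artin F C ψ (Finsupp.single v 1) = 0 then nvPow F v s else 0) ≤ M := by
  classical
  have hp : p.Prime := Fact.out
  have hp0 : (0 : ℝ) < p := by exact_mod_cast hp.pos
  obtain ⟨g, hgH, hgD⟩ := fi_exists_character (fi_H F C) (fi_nsmul_mem_H F C hdeg hunr) hDH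
  obtain ⟨A', hA'prin, hA'S⟩ := fi_modify F (artin F C ψ) S hrec
  obtain ⟨M, hM⟩ := fi_upper g A' (fun x hx => hgH _ (fi_divOf_mem_H F C hx)) hA'prin D hgD
    (by rw [hA'S D hDS, hD])
  refine ⟨(M + 2 * p * S.card) / p, fun s hs1 hs2 => ?_⟩
  rw [le_div_iff₀ hp0, mul_comm, ← tsum_mul_left]
  set c : HeightOneSpectrum (𝓞 F) → ℝ := fun v =>
    if A' (Finsupp.single v 1) = 0 then
      (p : ℝ) * Real.cos (2 * Real.pi * ((g (Finsupp.single v 1)).val : ℝ) / (p : ℝ)) else 0
    with hc
  have hN := primeSum_summable F hs1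
  have hc_abs : ∀ v, |c v| ≤ p := by
    intro v
    simp only [hc]
    split_ifs
    · rw [abs_mul, abs_of_pos hp0]
      exact mul_le_of_le_one_right hp0.le (Real.abs_cos_le_one _)
    · rw [abs_zero]; exact hp0.le
  have hsum1 : Summable fun v : HeightOneSpectrum (𝓞 F) => c v * nvPow F v s := by
    refine Summable.of_norm_bounded (hN.mul_left (p : ℝ)) (fun v => ?_)
    rw [norm_mul, Real.norm_eq_abs, Real.norm_eq_abs, abs_of_nonneg (fi_nvPow_nonneg F v s)]
    exact mul_le_mul_of_nonneg_right (hc_abs v) (fi_nvPow_nonneg F v s)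
  have hsum2 : Summable fun v : HeightOneSpectrum (𝓞 F) =>
      2 * (p : ℝ) * (if v ∈ S then nvPow F v s else 0) := by
    refine summable_of_hasFiniteSupport ((Finset.finite_toSet S).subset ?_)
    intro v hv
    by_contra hvS
    apply hv
    have hvS' : v ∉ S := hvS
    simp [hvS']
  have hsum3 : Summable fun v : HeightOneSpectrum (𝓞 F) =>
      (p : ℝ) * (if v ∈ S ∨ artin F C ψ (Finsupp.single v 1) = 0 then nvPow F v s else 0) := by
    refine Summable.of_norm_bounded (hN.mul_left (p : ℝ)) (fun v => ?_)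
    rw [Real.norm_eq_abs, abs_mul, abs_of_pos hp0]
    refine mul_le_mul_of_nonneg_left ?_ hp0.le
    split_ifs
    · rw [abs_of_nonneg (fi_nvPow_nonneg F v s)]
    · rw [abs_zero]; exact fi_nvPow_nonneg F v s
  have hS2 : ∑' v : HeightOneSpectrum (𝓞 F), 2 * (p : ℝ) * (if v ∈ S then nvPow F v s else 0) ≤
      2 * p * S.card := by
    rw [tsum_mul_left, tsum_eq_sum (s := S) (fun v hv => by simp [hv])]
    refine mul_le_mul_of_nonneg_left ?_ (by positivity)
    calc ∑ v ∈ S, (if v ∈ S then nvPow F v s else 0) ≤ ∑ v ∈ S, (1 : ℝ) :=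
          Finset.sum_le_sum fun v hv => by
            rw [if_pos hv]; exact fi_nvPow_le_one F v (by linarith)
      _ = S.card := by simp
  calc ∑' v : HeightOneSpectrum (𝓞 F),
        (p : ℝ) * (if v ∈ S ∨ artin F C ψ (Finsupp.single v 1) = 0 then nvPow F v s else 0)
      ≤ ∑' v : HeightOneSpectrum (𝓞 F),
          (c v * nvPow F v s + 2 * (p : ℝ) * (if v ∈ S then nvPow F v s else 0)) := by
        refine Summable.tsum_le_tsum (fun v => ?_) hsum3 (hsum1.add hsum2)
        have hn0 := fi_nvPow_nonneg F v s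
        by_cases hvS : v ∈ S
        · rw [if_pos (Or.inl hvS), if_pos hvS]
          have h1 : -(p : ℝ) ≤ c v := (abs_le.mp (hc_abs v)).1
          nlinarith
        · have hA'v : A' (Finsupp.single v 1) = artin F C ψ (Finsupp.single v 1) := by
            apply hA'S
            intro w hw
            rw [Finsupp.single_apply, if_neg]
            rintro rfl
            exact hvS hw
          rw [if_neg hvS, mul_zero, add_zero]
          by_cases hAv : artin F C ψ (Finsupp.single v 1) = 0
          · rw [if_pos (Or.inr hAv)]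
            have hfr : frobAt F C v = 1 := (fi_artin_single_eq_zero_iff ψ hψ v).mp hAv
            have hgv : g (Finsupp.single v 1) = 0 :=
              hgH _ (fi_single_mem_H_of_frobAt_eq_one F C hunr v hfr)
            have : c v = p := by
              simp only [hc]
              rw [if_pos (hA'v.trans hAv), hgv]
              simp
            rw [this]
          · rw [if_neg (by tauto)]
            have : c v = 0 := by
              simp only [hc]
              rw [if_neg (by rw [hA'v]; exact hAv)]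
            rw [this]
            simp
    _ = ∑' v : HeightOneSpectrum (𝓞 F), c v * nvPow F v s +
          ∑' v : HeightOneSpectrum (𝓞 F), 2 * (p : ℝ) * (if v ∈ S then nvPow F v s else 0) :=
        hsum1.tsum_add hsum2
    _ ≤ M + 2 * p * S.card := add_le_add (hM s hs1 hs2) hS2

omit [IsGalois F C] in
theorem fi_card_fiber_le (W : Finset (HeightOneSpectrum (𝓞 C))) (v : HeightOneSpectrum (𝓞 F))
    [DecidableEq (HeightOneSpectrum (𝓞 F))] :
    (W.filter fun w => placeBelow F C w = v).card ≤ Module.finrank F C := by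
  obtain ⟨hfin, hcard⟩ := card_placesAbove_le F C v
  refine le_trans ?_ hcard
  rw [← Nat.card_eq_finsetCard]
  exact Nat.card_le_card_of_injective
    (fun x : (W.filter fun w => placeBelow F C w = v) =>
      (⟨x.1, (Finset.mem_filter.mp x.2).2⟩ : {w : HeightOneSpectrum (𝓞 C) // placeBelow F C w = v}))
    (fun x y h => Subtype.ext (Subtype.mk.inj h))

open scoped Classical in
/-- The prime sum of `C` is at most `p` times the part of the prime sum of `F` over the places in
`S` or with trivial Frobenius, up to the places of `C` that are not of degree one. -/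
theorem fi_lower (hdeg : Module.finrank F C = p)
    (hunr : IsUnramifiedEverywhere F C) (ψ : (C ≃ₐ[F] C) →* Multiplicative (ZMod p))
    (hψ : Function.Injective ψ) (S : Finset (HeightOneSpectrum (𝓞 F))) {s : ℝ} (hs : 1 < s) :
    ∑' w : HeightOneSpectrum (𝓞 C), nvPow C w s ≤
      p * ∑' v : HeightOneSpectrum (𝓞 F),
        (if v ∈ S ∨ artin F C ψ (Finsupp.single v 1) = 0 then nvPow F v s else 0) +
      ∑' w : HeightOneSpectrum (𝓞 C),
        Set.indicator {w | ¬ IsGoodPlace C ∅ w} (fun w => nvPow C w s) w := by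
  classical
  set G : HeightOneSpectrum (𝓞 F) → ℝ := fun v =>
    if v ∈ S ∨ artin F C ψ (Finsupp.single v 1) = 0 then nvPow F v s else 0 with hG
  have hG0 : ∀ v, 0 ≤ G v := by
    intro v
    simp only [hG]
    split_ifs
    · exact fi_nvPow_nonneg F v s
    · exact le_rfl
  have hGsum : Summable G := by
    refine Summable.of_norm_bounded (primeSum_summable F hs) (fun v => ?_)
    rw [Real.norm_eq_abs, abs_of_nonneg (hG0 v)]
    simp only [hG]
    split_ifs
    · exact le_rfl
    · exact fi_nvPow_nonneg F v s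
  have hIsum : Summable fun w : HeightOneSpectrum (𝓞 C) =>
      Set.indicator {w | ¬ IsGoodPlace C ∅ w} (fun w => nvPow C w s) w :=
    (primeSum_summable C hs).indicator _
  have hI0 : ∀ w : HeightOneSpectrum (𝓞 C),
      0 ≤ Set.indicator {w | ¬ IsGoodPlace C ∅ w} (fun w => nvPow C w s) w :=
    fun w => Set.indicator_nonneg (fun w _ => fi_nvPow_nonneg C w s) w
  have hgood : ∀ w : HeightOneSpectrum (𝓞 C), IsGoodPlace C ∅ w →
      nvPow C w s = G (placeBelow F C w) := by
    intro w hw
    have h1 := absNorm_eq_pow_inertiaDeg F C w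
    have hf : w.asIdeal.inertiaDeg (𝓞 F) = 1 := by
      have := hw.1
      rw [h1] at this
      exact Nat.Prime.eq_one_of_pow this
    rw [hf, pow_one] at h1
    have hfr : frobAt F C (placeBelow F C w) = 1 :=
      frobAt_eq_one_of_absNorm_eq F C _ (hunr.isUnramifiedIn F C _) w rfl h1
    simp only [hG]
    rw [if_pos (Or.inr ((fi_artin_single_eq_zero_iff ψ hψ _).mpr hfr))]
    simp only [nvPow, h1]
  refine Real.tsum_le_of_sum_le (fun w => fi_nvPow_nonneg C w s) (fun W => ?_)
  rw [← Finset.sum_filter_add_sum_filter_not W (fun w => IsGoodPlace C ∅ w)]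
  refine add_le_add ?_ ?_
  · calc ∑ w ∈ W.filter (fun w => IsGoodPlace C ∅ w), nvPow C w s
        = ∑ w ∈ W.filter (fun w => IsGoodPlace C ∅ w), G (placeBelow F C w) :=
          Finset.sum_congr rfl fun w hw => hgood w (Finset.mem_filter.mp hw).2
      _ ≤ p * ∑' v, G v :=
          fi_sum_le_mul_tsum (placeBelow F C) p
            (fun W' v => hdeg ▸ fi_card_fiber_le W' v) G hG0 hGsum _
  · calc ∑ w ∈ W.filter (fun w => ¬ IsGoodPlace C ∅ w), nvPow C w s
        = ∑ w ∈ W.filter (fun w => ¬ IsGoodPlace C ∅ w),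
            Set.indicator {w | ¬ IsGoodPlace C ∅ w} (fun w => nvPow C w s) w :=
          Finset.sum_congr rfl fun w hw => by
            rw [Set.indicator_of_mem]
            exact (Finset.mem_filter.mp hw).2
      _ ≤ ∑' w : HeightOneSpectrum (𝓞 C),
            Set.indicator {w | ¬ IsGoodPlace C ∅ w} (fun w => nvPow C w s) w :=
          hIsum.sum_le_tsum _ fun w _ => hI0 w

end Analytic

/-- (FI) The first inequality. -/
theorem first_inequality {p : ℕ} [Fact p.Prime] {F C : Type} [Field F] [NumberField F] [Field C]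
    [NumberField C] [Algebra F C] [IsGalois F C] (hdeg : Module.finrank F C = p)
    (hunr : IsUnramifiedEverywhere F C) (ψ : (C ≃ₐ[F] C) →* Multiplicative (ZMod p))
    (hψ : Function.Injective ψ) (S : Finset (HeightOneSpectrum (𝓞 F)))
    (hrec : ∀ x : F, x ≠ 0 → (∀ v ∈ S, divOf F x v = 0) → artin F C ψ (divOf F x) = 0)
    (D : Div F) (hDS : ∀ v ∈ S, D v = 0) (hD : artin F C ψ D = 0) :
    ∃ (x : F) (E : Div C), x ≠ 0 ∧ D = divOf F x + normDiv F C E := by
  classical
  by_contra hcon
  have hDH : D ∉ fi_H F C := hcon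
  obtain ⟨M1, hM1⟩ := fi_upper' hdeg hunr ψ hψ S hrec D hDS hD hDH
  obtain ⟨M3, hM3⟩ := primeSum_not_good_le C ∅
  obtain ⟨M0, hM0⟩ := primeSum_sub_log_bounded C
  set B : ℝ := p * M1 + M3 + M0 with hB
  set s : ℝ := 1 + Real.exp (-(|B| + 1)) with hs
  have hs1 : 1 < s := by
    rw [hs]
    linarith [Real.exp_pos (-(|B| + 1))]
  have hs2 : s < 2 := by
    have : Real.exp (-(|B| + 1)) < 1 := by
      rw [Real.exp_lt_one_iff]
      linarith [abs_nonneg B]
    rw [hs]
    linarith
  have hlog : Real.log (1 / (s - 1)) = |B| + 1 := by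
    rw [hs, add_sub_cancel_left, one_div, ← Real.exp_neg, neg_neg, Real.log_exp]
  have h1 := fi_lower hdeg hunr ψ hψ S hs1
  have h2 := (abs_le.mp (hM0 s hs1 hs2)).2
  have h3 := hM3 s hs1 hs2
  have h4 := hM1 s hs1 hs2
  have hp0 : (0 : ℝ) ≤ p := Nat.cast_nonneg p
  have h5 := mul_le_mul_of_nonneg_left h4 hp0
  rw [hlog] at h2
  have h6 : B ≤ |B| := le_abs_self B
  have h2' : |B| + 1 ≤ (∑' w : HeightOneSpectrum (𝓞 C), nvPow C w s) + M0 := by
    have := (abs_le.mp (hM0 s hs1 hs2)).1
    rw [hlog] at this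
    linarith
  linarith

end Fermat.Agent.S14
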