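import Fermat.Agent.S14.ClassLBound

/-!
# S14 (D3b-1): bound for class L-series (pure import shim for `ClassLBound.lean`)
-/
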