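import Fermat.Agent.S14.Defs

/-!
# S14, package D3b-(ii): the elementary prime sums (Z0) and (Z3)

Elementary bounds for sums over the finite places of a number field, obtained by fibring the places
over the rational primes (at most `[K:ℚ]` places over each rational prime `q`, each of norm a
positive power of `q`).

The statements are written with `(Ideal.absNorm v.asIdeal : ℝ) ^ (-s)` spelled out; this is the
unfolding of the definition `nvPow` applied to `K v s`, so `primeSum_summable` and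
`primeSum_not_good_le` of `AnalyticSpec.lean` are `primeSumBad_summable K hs` and `primeSumBad_not_good_le K B` (by `exact`, definitional
unfolding of `nvPow`).
-/

namespace Fermat.Agent.S14

open NumberField IsDedekindDomain

/-- Abstract fibre-counting bound: if `ρ : α → ℕ` has all fibres of size `≤ d` and `a x ≤ b (ρ x)`,
then `∑ a ≤ d * ∑ b`. -/
theorem psb_summable_and_tsum_le {α : Type*} (ρ : α → ℕ) (a : α → ℝ) (b : ℕ → ℝ) (d : ℕ)
    (ha : ∀ x, 0 ≤ a x) (hb : ∀ n, 0 ≤ b n) (hbs : Summable b) (hab : ∀ x, a x ≤ b (ρ x))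
    (hcard : ∀ (q : ℕ) (T : Finset α), (∀ x ∈ T, ρ x = q) → T.card ≤ d) :
    Summable a ∧ ∑' x, a x ≤ d * ∑' n, b n := by
  classical
  have hfin : ∀ T : Finset α, ∑ x ∈ T, a x ≤ d * ∑' n, b n := by
    intro T
    have h1 : ∑ x ∈ T, a x = ∑ q ∈ T.image ρ, ∑ x ∈ T with ρ x = q, a x :=
      (Finset.sum_fiberwise_of_maps_to (fun x hx => Finset.mem_image_of_mem ρ hx) a).symm
    rw [h1]
    have h2 : ∀ q ∈ T.image ρ, ∑ x ∈ T with ρ x = q, a x ≤ d * b q := by
      intro q _
      have h3 : ∑ x ∈ T with ρ x = q, a x ≤ ∑ x ∈ T with ρ x = q, b q := by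
        refine Finset.sum_le_sum fun x hx => ?_
        have := (Finset.mem_filter.mp hx).2
        rw [← this]
        exact hab x
      refine h3.trans ?_
      rw [Finset.sum_const, nsmul_eq_mul]
      refine mul_le_mul_of_nonneg_right ?_ (hb q)
      exact_mod_cast hcard q _ (fun x hx => (Finset.mem_filter.mp hx).2)
    refine (Finset.sum_le_sum h2).trans ?_
    rw [← Finset.mul_sum]
    exact mul_le_mul_of_nonneg_left (hbs.sum_le_tsum _ (fun n _ => hb n)) (Nat.cast_nonneg d)
  have hs : Summable a := summable_of_sum_le ha hfin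
  exact ⟨hs, hs.tsum_le_of_sum_le hfin⟩

variable (K : Type*) [Field K] [NumberField K]

/-- The residue characteristic of a finite place. -/
noncomputable def psbResChar (v : HeightOneSpectrum (𝓞 K)) : ℕ :=
  Ideal.absNorm (Ideal.under ℤ v.asIdeal)

omit [NumberField K] in
theorem psbResChar_prime (v : HeightOneSpectrum (𝓞 K)) : (psbResChar K v).Prime := by
  have : NeZero v.asIdeal := ⟨v.ne_bot⟩
  exact Nat.absNorm_under_prime v.asIdeal

theorem psb_absNorm_eq_pow (v : HeightOneSpectrum (𝓞 K)) :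
    ∃ f : ℕ, f ≠ 0 ∧ Ideal.absNorm v.asIdeal = psbResChar K v ^ f := by
  have hp := psbResChar_prime K v
  have hl : v.asIdeal.LiesOver (Ideal.span {((psbResChar K v : ℕ) : ℤ)}) :=
    Int.liesOver_span_absNorm v.asIdeal
  refine ⟨(Ideal.span {((psbResChar K v : ℕ) : ℤ)}).inertiaDeg' v.asIdeal, ?_, ?_⟩
  · have : (Ideal.span {((psbResChar K v : ℕ) : ℤ)}).IsMaximal := by
      have : Fact (psbResChar K v).Prime := ⟨hp⟩
      infer_instance
    exact Ideal.inertiaDeg'_ne_zero _ _
  · exact Ideal.absNorm_eq_pow_inertiaDeg' v.asIdeal hp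

theorem psbResChar_le (v : HeightOneSpectrum (𝓞 K)) :
    psbResChar K v ≤ Ideal.absNorm v.asIdeal := by
  obtain ⟨f, hf, h⟩ := psb_absNorm_eq_pow K v
  rw [h]
  exact Nat.le_self_pow hf _

theorem psbResChar_sq_le (v : HeightOneSpectrum (𝓞 K)) (h : ¬ (Ideal.absNorm v.asIdeal).Prime) :
    psbResChar K v ^ 2 ≤ Ideal.absNorm v.asIdeal := by
  obtain ⟨f, hf, h1⟩ := psb_absNorm_eq_pow K v
  have hp := psbResChar_prime K v
  have hf1 : f ≠ 1 := by
    rintro rfl
    rw [pow_one] at h1
    exact h (h1 ▸ hp)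
  have hf2 : 2 ≤ f := by omega
  rw [h1]
  exact Nat.pow_le_pow_right hp.pos hf2

theorem psb_card_fibre_le (q : ℕ) (T : Finset (HeightOneSpectrum (𝓞 K)))
    (hT : ∀ v ∈ T, psbResChar K v = q) : T.card ≤ Module.finrank ℚ K := by
  classical
  rcases T.eq_empty_or_nonempty with rfl | ⟨v0, hv0⟩
  · simp
  have hq : q.Prime := hT v0 hv0 ▸ psbResChar_prime K v0
  have hpm : (Ideal.span {(q : ℤ)}).IsMaximal := by
    have : Fact q.Prime := ⟨hq⟩
    infer_instance
  -- the places in `T` inject into the primes over `q`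
  have hmem : ∀ v ∈ T, v.asIdeal ∈ (Ideal.span {(q : ℤ)}).primesOver (𝓞 K) := by
    intro v hv
    refine ⟨v.isPrime, ?_⟩
    rw [← hT v hv]
    exact Int.liesOver_span_absNorm v.asIdeal
  have hcard : T.card ≤ Fintype.card ((Ideal.span {(q : ℤ)}).primesOver (𝓞 K)) := by
    rw [← Finset.card_univ]
    refine Finset.card_le_card_of_injOn (fun v => if hv : v ∈ T then ⟨v.asIdeal, hmem v hv⟩ else
      ⟨v0.asIdeal, hmem v0 hv0⟩) (fun v _ => Finset.mem_univ _) ?_
    intro v hv w hw hvw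
    simp only [Finset.mem_coe] at hv hw
    simp only [hv, hw, dif_pos, Subtype.mk.injEq] at hvw
    exact HeightOneSpectrum.ext hvw
  refine hcard.trans ?_
  rw [← RingOfIntegers.rank K, ← Ideal.sum_ramification_inertia_eq_finrank (Ideal.span {(q : ℤ)})
    (𝓞 K), Fintype.card_eq_sum_ones]
  refine Finset.sum_le_sum fun P _ => ?_
  have : P.1.IsPrime := P.2.1
  exact Nat.one_le_iff_ne_zero.mpr (Nat.mul_ne_zero (Ideal.ramificationIdx_pos P.1 ℤ).ne'
    (Ideal.inertiaDeg_pos P.1 ℤ).ne')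

theorem psb_one_le_absNorm (v : HeightOneSpectrum (𝓞 K)) :
    (1 : ℝ) ≤ (Ideal.absNorm v.asIdeal : ℝ) := by
  have h : Ideal.absNorm v.asIdeal ≠ 0 := by
    rw [Ne, Ideal.absNorm_eq_zero_iff]
    exact v.ne_bot
  exact_mod_cast Nat.one_le_iff_ne_zero.mpr h

theorem psb_nvPow_nonneg (v : HeightOneSpectrum (𝓞 K)) (s : ℝ) :
    0 ≤ (Ideal.absNorm v.asIdeal : ℝ) ^ (-s) := by
  exact Real.rpow_nonneg (Nat.cast_nonneg _) _

theorem psb_nvPow_le_one (v : HeightOneSpectrum (𝓞 K)) {s : ℝ} (hs : 0 ≤ s) :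
    (Ideal.absNorm v.asIdeal : ℝ) ^ (-s) ≤ 1 := by
  exact Real.rpow_le_one_of_one_le_of_nonpos (psb_one_le_absNorm K v) (by linarith)

/-- (Z0), elementary proof. -/
theorem primeSumBad_summable {s : ℝ} (hs : 1 < s) :
    Summable fun v : HeightOneSpectrum (𝓞 K) => (Ideal.absNorm v.asIdeal : ℝ) ^ (-s) := by
  refine (psb_summable_and_tsum_le (psbResChar K) (fun v => (Ideal.absNorm v.asIdeal : ℝ) ^ (-s))
    (fun n : ℕ => (n : ℝ) ^ (-s)) (Module.finrank ℚ K) (fun v => psb_nvPow_nonneg K v s)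
    (fun n => Real.rpow_nonneg (Nat.cast_nonneg n) _) (Real.summable_nat_rpow.mpr (by linarith))
    (fun v => ?_) (psb_card_fibre_le K)).1
  have h1 : (0 : ℝ) < (psbResChar K v : ℝ) := by exact_mod_cast (psbResChar_prime K v).pos
  have h2 : (psbResChar K v : ℝ) ≤ (Ideal.absNorm v.asIdeal : ℝ) := by
    exact_mod_cast psbResChar_le K v
  exact Real.rpow_le_rpow_of_nonpos h1 h2 (by linarith)

/-- The places whose norm lies in a given finite set are finite in number. -/
theorem psb_finite_absNorm_mem (B : Finset ℕ) :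
    {v : HeightOneSpectrum (𝓞 K) | Ideal.absNorm v.asIdeal ∈ B}.Finite := by
  have h1 : {I : Ideal (𝓞 K) | Ideal.absNorm I ∈ B}.Finite := by
    have : {I : Ideal (𝓞 K) | Ideal.absNorm I ∈ B} =
        ⋃ n ∈ B, {I : Ideal (𝓞 K) | Ideal.absNorm I = n} := by
      ext I; simp
    rw [this]
    exact Set.Finite.biUnion B.finite_toSet fun n _ => Ideal.finite_setOfPred_absNorm_eq n
  refine (h1.preimage (f := fun v : HeightOneSpectrum (𝓞 K) => v.asIdeal) ?_)
  intro v _ w _ h
  exact HeightOneSpectrum.ext h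

/-- The places of residue degree `> 1` contribute at most `[K:ℚ] ζ(2)`. -/
theorem psb_tsum_not_prime_le {s : ℝ} (hs : 1 < s) :
    (∑' v : HeightOneSpectrum (𝓞 K),
      Set.indicator {v | ¬ (Ideal.absNorm v.asIdeal).Prime} (fun v => (Ideal.absNorm v.asIdeal : ℝ) ^ (-s)) v) ≤
      (Module.finrank ℚ K : ℝ) * ∑' n : ℕ, ((n : ℝ) ^ 2)⁻¹ := by
  refine (psb_summable_and_tsum_le (psbResChar K)
    (fun v => Set.indicator {v | ¬ (Ideal.absNorm v.asIdeal).Prime} (fun v => (Ideal.absNorm v.asIdeal : ℝ) ^ (-s)) v)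
    (fun n : ℕ => ((n : ℝ) ^ 2)⁻¹) (Module.finrank ℚ K)
    (fun v => Set.indicator_nonneg (fun v _ => psb_nvPow_nonneg K v s) v)
    (fun n => by positivity) (Real.summable_nat_pow_inv.mpr one_lt_two)
    (fun v => ?_) (psb_card_fibre_le K)).2
  by_cases hv : v ∈ {v : HeightOneSpectrum (𝓞 K) | ¬ (Ideal.absNorm v.asIdeal).Prime}
  · rw [Set.indicator_of_mem hv]
    have h1 := psb_one_le_absNorm K v
    have h2 : (0 : ℝ) < (psbResChar K v : ℝ) ^ 2 := by
      have : (0 : ℝ) < (psbResChar K v : ℝ) := by exact_mod_cast (psbResChar_prime K v).pos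
      positivity
    have h3 : (psbResChar K v : ℝ) ^ 2 ≤ (Ideal.absNorm v.asIdeal : ℝ) := by
      exact_mod_cast psbResChar_sq_le K v hv
    calc (Ideal.absNorm v.asIdeal : ℝ) ^ (-s) ≤ (Ideal.absNorm v.asIdeal : ℝ) ^ (-1 : ℝ) := by
                  exact Real.rpow_le_rpow_of_exponent_le h1 (by linarith)
      _ = ((Ideal.absNorm v.asIdeal : ℝ))⁻¹ := Real.rpow_neg_one _
      _ ≤ ((psbResChar K v : ℝ) ^ 2)⁻¹ := inv_anti₀ h2 h3
  · rw [Set.indicator_of_notMem hv]
    positivity

/-- (Z3) -/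
theorem primeSumBad_not_good_le (K : Type) [Field K] [NumberField K] (B : Finset ℕ) :
    ∃ M : ℝ, ∀ s : ℝ, 1 < s → s < 2 →
      (∑' v : HeightOneSpectrum (𝓞 K),
        Set.indicator {v | ¬ IsGoodPlace K B v} (fun v => (Ideal.absNorm v.asIdeal : ℝ) ^ (-s)) v) ≤ M := by
  classical
  set FB : Finset (HeightOneSpectrum (𝓞 K)) := (psb_finite_absNorm_mem K B).toFinset with hFB
  refine ⟨(Module.finrank ℚ K : ℝ) * (∑' n : ℕ, ((n : ℝ) ^ 2)⁻¹) + FB.card, fun s hs1 _ => ?_⟩
  have hsum := primeSumBad_summable K hs1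
  set f : HeightOneSpectrum (𝓞 K) → ℝ := fun v => (Ideal.absNorm v.asIdeal : ℝ) ^ (-s) with hf
  set A1 : Set (HeightOneSpectrum (𝓞 K)) := {v | ¬ (Ideal.absNorm v.asIdeal).Prime} with hA1
  set A2 : Set (HeightOneSpectrum (𝓞 K)) := {v | Ideal.absNorm v.asIdeal ∈ B} with hA2
  have hf0 : ∀ v, 0 ≤ f v := fun v => psb_nvPow_nonneg K v s
  have hpt : ∀ v, Set.indicator {v | ¬ IsGoodPlace K B v} f v ≤
      Set.indicator A1 f v + Set.indicator A2 f v := by
    intro v
    have h1 : 0 ≤ Set.indicator A1 f v := Set.indicator_nonneg (fun v _ => hf0 v) v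
    have h2 : 0 ≤ Set.indicator A2 f v := Set.indicator_nonneg (fun v _ => hf0 v) v
    by_cases hg : IsGoodPlace K B v
    · have : v ∉ {v | ¬ IsGoodPlace K B v} := fun h => h hg
      rw [Set.indicator_of_notMem this]
      linarith
    · have hmem : v ∈ {v | ¬ IsGoodPlace K B v} := hg
      rw [Set.indicator_of_mem hmem]
      by_cases hp : (Ideal.absNorm v.asIdeal).Prime
      · have hB : Ideal.absNorm v.asIdeal ∈ B := by
          by_contra hB
          exact hg ⟨hp, hB⟩
        have : v ∈ A2 := hB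
        rw [Set.indicator_of_mem this]
        linarith
      · have : v ∈ A1 := hp
        rw [Set.indicator_of_mem this]
        linarith
  have h1 := psb_tsum_not_prime_le K hs1
  have h2 : ∑' v, Set.indicator A2 f v ≤ FB.card := by
    rw [tsum_eq_sum (s := FB)]
    · calc ∑ v ∈ FB, Set.indicator A2 f v ≤ ∑ v ∈ FB, (1 : ℝ) := by
            refine Finset.sum_le_sum fun v _ => ?_
            refine Set.indicator_apply_le' (fun _ => psb_nvPow_le_one K v (by linarith))
              (fun _ => zero_le_one)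
        _ = FB.card := by simp
    · intro v hv
      have : v ∉ A2 := by
        intro h
        apply hv
        rw [hFB, Set.Finite.mem_toFinset]
        exact h
      exact Set.indicator_of_notMem this f
  calc (∑' v, Set.indicator {v | ¬ IsGoodPlace K B v} f v)
      ≤ ∑' v, (Set.indicator A1 f v + Set.indicator A2 f v) :=
        (hsum.indicator _).tsum_le_tsum hpt ((hsum.indicator A1).add (hsum.indicator A2))
    _ = (∑' v, Set.indicator A1 f v) + ∑' v, Set.indicator A2 f v :=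
        (hsum.indicator A1).tsum_add (hsum.indicator A2)
    _ ≤ _ := add_le_add h1 h2

end Fermat.Agent.S14
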