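import Fermat.Agent.S14.IdealSums
import Fermat.Agent.S14.PrimeSumsBad
import Fermat.Agent.S14.ClassLBoundSpec

/-!
# S14 (D3): prime sums over the finite places of a number field

The four real-variable statements (Z0)-(Z3) consumed by the density and first-inequality packages:
`primeSum_summable`, `primeSum_sub_log_bounded`, `primeSum_cos_le`, `primeSum_not_good_le`.
-/

set_option autoImplicit false

namespace Fermat.Agent.S14

open NumberField IsDedekindDomain Filter Topology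

/-- `N(v)^(-s)` for a finite place `v`. -/
noncomputable def nvPow (K : Type*) [Field K] [NumberField K] (v : HeightOneSpectrum (𝓞 K))
    (s : ℝ) : ℝ :=
  (Ideal.absNorm v.asIdeal : ℝ) ^ (-s)

section

variable (K : Type*) [Field K] [NumberField K]

/-- Twist of a multiplicative function on ideals by `N^(-s)`. -/
noncomputable def idealTwist (F : Ideal (𝓞 K) →*₀ ℂ) (s : ℝ) :
    Ideal (𝓞 K) →*₀ ℂ where
  toFun I := F I * ((Ideal.absNorm I : ℕ) : ℂ) ^ (-(s : ℂ))
  map_zero' := by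
    rw [map_zero, zero_mul]
  map_one' := by
    rw [map_one, one_mul, map_one, Nat.cast_one, Complex.one_cpow]
  map_mul' I J := by
    rw [map_mul, map_mul, Nat.cast_mul, Complex.natCast_mul_natCast_cpow]
    ring

theorem idealTwist_apply (F : Ideal (𝓞 K) →*₀ ℂ) (s : ℝ) (I : Ideal (𝓞 K)) :
    idealTwist K F s I = F I * ((Ideal.absNorm I : ℕ) : ℂ) ^ (-(s : ℂ)) := rfl

theorem primeSums_natCast_cpow (n : ℕ) (s : ℝ) :
    ((n : ℕ) : ℂ) ^ (-(s : ℂ)) = (((n : ℝ) ^ (-s) : ℝ) : ℂ) := by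
  rw [Complex.ofReal_cpow (Nat.cast_nonneg n), Complex.ofReal_neg, Complex.ofReal_natCast]

theorem idealTwist_re (F : Ideal (𝓞 K) →*₀ ℂ) (s : ℝ) (I : Ideal (𝓞 K)) :
    (idealTwist K F s I).re = (F I).re * (Ideal.absNorm I : ℝ) ^ (-s) := by
  rw [idealTwist_apply, primeSums_natCast_cpow, Complex.re_mul_ofReal]

theorem norm_idealTwist_le (F : Ideal (𝓞 K) →*₀ ℂ) (hF : ∀ I, ‖F I‖ ≤ 1) (s : ℝ)
    (I : Ideal (𝓞 K)) : ‖idealTwist K F s I‖ ≤ (Ideal.absNorm I : ℝ) ^ (-s) := by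
  rw [idealTwist_apply, primeSums_natCast_cpow, norm_mul, Complex.norm_real,
    Real.norm_of_nonneg (Real.rpow_nonneg (Nat.cast_nonneg _) _)]
  exact mul_le_of_le_one_left (Real.rpow_nonneg (Nat.cast_nonneg _) _) (hF I)

/-- Logarithm of the absolute value of an Euler product. -/
theorem log_norm_tsum_ideal (Φ : Ideal (𝓞 K) →*₀ ℂ) (hsum : Summable fun I => ‖Φ I‖) :
    Summable (fun v : HeightOneSpectrum (𝓞 K) => -Real.log ‖1 - Φ v.asIdeal‖) ∧
      Real.log ‖∑' I : Ideal (𝓞 K), Φ I‖ =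
        ∑' v : HeightOneSpectrum (𝓞 K), -Real.log ‖1 - Φ v.asIdeal‖ := by
  have hv : Summable fun v : HeightOneSpectrum (𝓞 K) => Φ v.asIdeal :=
    (summable_heightOneSpectrum_of_summable_ideal hsum).of_norm
  have hlog : Summable fun v : HeightOneSpectrum (𝓞 K) => -Complex.log (1 - Φ v.asIdeal) :=
    hv.clog_one_sub.neg
  have hre : ∀ v : HeightOneSpectrum (𝓞 K),
      (-Complex.log (1 - Φ v.asIdeal)).re = -Real.log ‖1 - Φ v.asIdeal‖ := fun v => by
    rw [Complex.neg_re, Complex.log_re]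
  refine ⟨(Complex.hasSum_re hlog.hasSum).summable.congr hre, ?_⟩
  rw [← exp_tsum_heightOneSpectrum_log_eq_tsum Φ hsum, Complex.norm_exp, Real.log_exp,
    Complex.re_tsum hlog]
  exact tsum_congr hre

/-- `-log |1 - a| = Re a + O(|a|^2)`. -/
theorem abs_neg_log_norm_one_sub_sub_re_le {a : ℂ} (ha : ‖a‖ ≤ 1 / 2) :
    |(-Real.log ‖1 - a‖) - a.re| ≤ ‖a‖ ^ 2 := by
  have h1 : (-Real.log ‖1 - a‖) - a.re = -(Complex.log (1 + -a) - -a).re := by
    rw [Complex.sub_re, Complex.log_re, Complex.neg_re, ← sub_eq_add_neg]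
    ring
  rw [h1, abs_neg]
  refine (Complex.abs_re_le_norm _).trans ?_
  have hlt : ‖-a‖ < 1 := by rw [norm_neg]; linarith
  refine (Complex.norm_log_one_add_sub_self_le hlt).trans ?_
  rw [norm_neg]
  have h2 : (1 - ‖a‖)⁻¹ ≤ 2 := by
    rw [inv_le_comm₀ (by linarith) two_pos]
    linarith
  have h3 : 0 ≤ ‖a‖ ^ 2 := sq_nonneg _
  nlinarith

theorem two_le_absNorm (v : HeightOneSpectrum (𝓞 K)) : 2 ≤ Ideal.absNorm v.asIdeal := by
  have h0 : Ideal.absNorm v.asIdeal ≠ 0 := by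
    rw [Ne, Ideal.absNorm_eq_zero_iff]; exact v.ne_bot
  have h1 : Ideal.absNorm v.asIdeal ≠ 1 := by
    rw [Ne, Ideal.absNorm_eq_one_iff]; exact v.isPrime.ne_top
  omega

theorem nvPow_nonneg (v : HeightOneSpectrum (𝓞 K)) (s : ℝ) : 0 ≤ nvPow K v s :=
  Real.rpow_nonneg (Nat.cast_nonneg _) _

theorem nvPow_le_nvPow_one (v : HeightOneSpectrum (𝓞 K)) {s : ℝ} (hs : 1 ≤ s) :
    nvPow K v s ≤ nvPow K v 1 := by
  have h2 : (1 : ℝ) ≤ (Ideal.absNorm v.asIdeal : ℝ) := by
    have := two_le_absNorm K v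
    exact_mod_cast (by omega : 1 ≤ Ideal.absNorm v.asIdeal)
  exact Real.rpow_le_rpow_of_exponent_le h2 (by linarith)

theorem nvPow_one_le_half (v : HeightOneSpectrum (𝓞 K)) : nvPow K v 1 ≤ 1 / 2 := by
  have h2 : (2 : ℝ) ≤ (Ideal.absNorm v.asIdeal : ℝ) := by exact_mod_cast two_le_absNorm K v
  unfold nvPow
  rw [Real.rpow_neg_one, one_div]
  exact inv_anti₀ two_pos h2

theorem nvPow_one_sq (v : HeightOneSpectrum (𝓞 K)) : nvPow K v 1 ^ 2 = nvPow K v 2 := by
  unfold nvPow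
  rw [← Real.rpow_natCast, ← Real.rpow_mul (Nat.cast_nonneg _)]
  norm_num

/-- `log |L(s, F)| = ∑_v Re F(v) N(v)^(-s) + O(1)`, uniformly in `s > 1`. -/
theorem abs_log_norm_LSeries_sub_le (F : Ideal (𝓞 K) →*₀ ℂ) (hF : ∀ I, ‖F I‖ ≤ 1) {s : ℝ}
    (hs : 1 < s) :
    |Real.log ‖LSeries (idealCoeff K F) (s : ℂ)‖ -
      ∑' v : HeightOneSpectrum (𝓞 K), (F v.asIdeal).re * nvPow K v s| ≤
        ∑' v : HeightOneSpectrum (𝓞 K), nvPow K v 2 := by
  have hΦsum : Summable fun I : Ideal (𝓞 K) => ‖idealTwist K F s I‖ :=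
    summable_norm_ideal_mul_cpow K hF hs
  have hL : ∑' I : Ideal (𝓞 K), idealTwist K F s I = LSeries (idealCoeff K F) (s : ℂ) :=
    tsum_ideal_eq_LSeries K hF hs
  obtain ⟨hsum1, hlog⟩ := log_norm_tsum_ideal K (idealTwist K F s) hΦsum
  have hZ0 : Summable fun v : HeightOneSpectrum (𝓞 K) => nvPow K v s := primeSumBad_summable K hs
  have hZ2 : Summable fun v : HeightOneSpectrum (𝓞 K) => nvPow K v 2 :=
    primeSumBad_summable K (by norm_num)
  have hsum2 : Summable fun v : HeightOneSpectrum (𝓞 K) => (F v.asIdeal).re * nvPow K v s := by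
    refine Summable.of_norm_bounded hZ0 fun v => ?_
    rw [norm_mul, Real.norm_of_nonneg (nvPow_nonneg K v s), Real.norm_eq_abs]
    exact mul_le_of_le_one_left (nvPow_nonneg K v s)
      ((Complex.abs_re_le_norm _).trans (hF _))
  have hpt : ∀ v : HeightOneSpectrum (𝓞 K),
      |(-Real.log ‖1 - idealTwist K F s v.asIdeal‖) - (F v.asIdeal).re * nvPow K v s| ≤
        nvPow K v 2 := by
    intro v
    have h1 : ‖idealTwist K F s v.asIdeal‖ ≤ nvPow K v 1 :=
      (norm_idealTwist_le K F hF s _).trans (nvPow_le_nvPow_one K v hs.le)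
    have h2 := abs_neg_log_norm_one_sub_sub_re_le (h1.trans (nvPow_one_le_half K v))
    rw [idealTwist_re] at h2
    refine h2.trans ?_
    rw [← nvPow_one_sq]
    exact pow_le_pow_left₀ (norm_nonneg _) h1 2
  rw [← hL, hlog, ← hsum1.tsum_sub hsum2]
  have hsum3 : Summable fun v : HeightOneSpectrum (𝓞 K) =>
      ‖(-Real.log ‖1 - idealTwist K F s v.asIdeal‖) - (F v.asIdeal).re * nvPow K v s‖ :=
    Summable.of_nonneg_of_le (fun v => norm_nonneg _) (fun v => by
      rw [Real.norm_eq_abs]; exact hpt v) hZ2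
  rw [← Real.norm_eq_abs]
  refine (norm_tsum_le_tsum_norm hsum3).trans ?_
  exact Summable.tsum_le_tsum (fun v => by rw [Real.norm_eq_abs]; exact hpt v) hsum3 hZ2

theorem primeSums_log_norm_le {z : ℂ} {M : ℝ} (h : ‖z‖ ≤ M) :
    Real.log ‖z‖ ≤ Real.log (max M 1) := by
  rcases eq_or_lt_of_le (norm_nonneg z) with h0 | h0
  · rw [← h0, Real.log_zero]
    exact Real.log_nonneg (le_max_right _ _)
  · exact Real.log_le_log h0 (h.trans (le_max_left _ _))

end

section

variable (K : Type*) [Field K] [NumberField K]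

/-- The multiplicative function `1` on the nonzero ideals. -/
noncomputable def idealOne : Ideal (𝓞 K) →*₀ ℂ := divChar K (0 : Div K →+ ZMod 1)

theorem idealOne_apply_of_ne_bot {I : Ideal (𝓞 K)} (hI : I ≠ ⊥) : idealOne K I = 1 := by
  unfold idealOne
  rw [divChar_apply_of_ne_bot K _ hI, AddMonoidHom.zero_apply, AddChar.map_zero_eq_one]

theorem norm_idealOne_le (I : Ideal (𝓞 K)) : ‖idealOne K I‖ ≤ 1 := norm_divChar_le K _ I

theorem LSeries_idealOne (s : ℂ) :
    LSeries (idealCoeff K (idealOne K)) s = dedekindZeta K s := by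
  unfold dedekindZeta
  refine LSeries_congr (fun {n} hn => ?_) s
  unfold idealCoeff
  haveI := Fintype.ofFinite {I : Ideal (𝓞 K) // Ideal.absNorm I = n}
  rw [finsum_eq_sum_of_fintype]
  have h1 : ∀ I : {I : Ideal (𝓞 K) // Ideal.absNorm I = n}, idealOne K I.1 = 1 := by
    intro I
    apply idealOne_apply_of_ne_bot
    intro h0
    apply hn
    rw [← I.2, h0, Ideal.absNorm_bot]
  simp_rw [h1]
  rw [Finset.sum_const, Finset.card_univ, nsmul_eq_mul, mul_one, Nat.card_eq_fintype_card]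

theorem abs_log_norm_dedekindZeta_sub_le {s : ℝ} (hs : 1 < s) :
    |Real.log ‖dedekindZeta K (s : ℂ)‖ - ∑' v : HeightOneSpectrum (𝓞 K), nvPow K v s| ≤
      ∑' v : HeightOneSpectrum (𝓞 K), nvPow K v 2 := by
  have h1 := abs_log_norm_LSeries_sub_le K (idealOne K) (norm_idealOne_le K) hs
  rw [LSeries_idealOne] at h1
  have h2 : ∀ v : HeightOneSpectrum (𝓞 K), (idealOne K v.asIdeal).re * nvPow K v s =
      nvPow K v s := fun v => by
    rw [idealOne_apply_of_ne_bot K v.ne_bot, Complex.one_re, one_mul]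
  simp_rw [h2] at h1
  exact h1

theorem tsum_nvPow_nonneg (s : ℝ) : 0 ≤ ∑' v : HeightOneSpectrum (𝓞 K), nvPow K v s :=
  tsum_nonneg fun v => nvPow_nonneg K v s

theorem tsum_nvPow_anti {s t : ℝ} (hs : 1 < s) (hst : s ≤ t) :
    ∑' v : HeightOneSpectrum (𝓞 K), nvPow K v t ≤ ∑' v : HeightOneSpectrum (𝓞 K), nvPow K v s := by
  refine Summable.tsum_le_tsum (fun v => ?_) (primeSumBad_summable K (hs.trans_le hst))
    (primeSumBad_summable K hs)
  have h2 : (1 : ℝ) ≤ (Ideal.absNorm v.asIdeal : ℝ) := by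
    have := two_le_absNorm K v
    exact_mod_cast (by omega : 1 ≤ Ideal.absNorm v.asIdeal)
  exact Real.rpow_le_rpow_of_exponent_le h2 (by linarith)

/-- (Z1), general universe. -/
theorem primeSums_sub_log_bounded :
    ∃ M : ℝ, ∀ s : ℝ, 1 < s → s < 2 →
      |(∑' v : HeightOneSpectrum (𝓞 K), nvPow K v s) - Real.log (1 / (s - 1))| ≤ M := by
  have hκpos : 0 < dedekindZeta_residue K := dedekindZeta_residue_pos K
  set κ := dedekindZeta_residue K with hκ
  have ht := (tendsto_sub_one_mul_dedekindZeta_nhdsGT K).norm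
  rw [Complex.norm_real, Real.norm_of_nonneg hκpos.le] at ht
  have hev : ∀ᶠ s : ℝ in 𝓝[>] (1 : ℝ),
      ‖((s : ℂ) - 1) * dedekindZeta K (s : ℂ)‖ ∈ Set.Ioo (κ / 2) (2 * κ) :=
    ht.eventually (Ioo_mem_nhds (by linarith) (by linarith))
  obtain ⟨u, hu1, hu⟩ := mem_nhdsGT_iff_exists_Ioo_subset.mp hev
  have hu1' : (1 : ℝ) < u := hu1
  set M₀ := ∑' v : HeightOneSpectrum (𝓞 K), nvPow K v 2 with hM₀
  set C₁ := max |Real.log (κ / 2)| |Real.log (2 * κ)| with hC₁
  refine ⟨M₀ + C₁ + (∑' v : HeightOneSpectrum (𝓞 K), nvPow K v u) + |Real.log (1 / (u - 1))|,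
    fun s hs1 hs2 => ?_⟩
  have hM₀ : 0 ≤ M₀ := tsum_nvPow_nonneg K 2
  have hC₁0 : 0 ≤ C₁ := (abs_nonneg _).trans (le_max_left _ _)
  have hPu : 0 ≤ ∑' v : HeightOneSpectrum (𝓞 K), nvPow K v u := tsum_nvPow_nonneg K u
  rcases lt_or_ge s u with hsu | hsu
  · -- near `1`
    have hx := hu ⟨hs1, hsu⟩
    simp only [Set.mem_setOf_eq, Set.mem_Ioo] at hx
    have hs0 : 0 < s - 1 := by linarith
    have hnorm : ‖((s : ℂ) - 1) * dedekindZeta K (s : ℂ)‖ = (s - 1) * ‖dedekindZeta K (s : ℂ)‖ := by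
      rw [norm_mul]
      congr 1
      have : ((s : ℂ) - 1) = ((s - 1 : ℝ) : ℂ) := by push_cast; ring
      rw [this, Complex.norm_real, Real.norm_of_nonneg hs0.le]
    rw [hnorm] at hx
    have hζpos : 0 < ‖dedekindZeta K (s : ℂ)‖ := by
      by_contra h0
      have : ‖dedekindZeta K (s : ℂ)‖ = 0 := le_antisymm (not_lt.mp h0) (norm_nonneg _)
      rw [this, mul_zero] at hx
      linarith [hx.1]
    have hlog : Real.log ((s - 1) * ‖dedekindZeta K (s : ℂ)‖) =
        Real.log ‖dedekindZeta K (s : ℂ)‖ - Real.log (1 / (s - 1)) := by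
      rw [Real.log_mul hs0.ne' hζpos.ne', one_div, Real.log_inv]
      ring
    have hlogx : |Real.log ((s - 1) * ‖dedekindZeta K (s : ℂ)‖)| ≤ C₁ := by
      have h1 : Real.log (κ / 2) ≤ Real.log ((s - 1) * ‖dedekindZeta K (s : ℂ)‖) :=
        Real.log_le_log (by linarith) hx.1.le
      have h2 : Real.log ((s - 1) * ‖dedekindZeta K (s : ℂ)‖) ≤ Real.log (2 * κ) :=
        Real.log_le_log (mul_pos hs0 hζpos) hx.2.le
      rw [abs_le]
      constructor
      · have := neg_abs_le (Real.log (κ / 2))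
        have := le_max_left |Real.log (κ / 2)| |Real.log (2 * κ)|
        linarith
      · have := le_abs_self (Real.log (2 * κ))
        have := le_max_right |Real.log (κ / 2)| |Real.log (2 * κ)|
        linarith
    have hP := abs_log_norm_dedekindZeta_sub_le K hs1
    rw [hlog] at hlogx
    have habs : |(∑' v : HeightOneSpectrum (𝓞 K), nvPow K v s) - Real.log (1 / (s - 1))| ≤
        M₀ + C₁ := by
      rw [abs_le] at hP hlogx ⊢
      constructor <;> linarith [hP.1, hP.2, hlogx.1, hlogx.2]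
    have := abs_nonneg (Real.log (1 / (u - 1)))
    linarith
  · -- away from `1`
    have hP0 := tsum_nvPow_nonneg K s
    have hPle := tsum_nvPow_anti K hu1' hsu
    have hs0 : 0 < s - 1 := by linarith
    have hu0 : 0 < u - 1 := by linarith
    have hl0 : 0 ≤ Real.log (1 / (s - 1)) := by
      apply Real.log_nonneg
      rw [le_div_iff₀ hs0]
      linarith
    have hl1 : Real.log (1 / (s - 1)) ≤ Real.log (1 / (u - 1)) := by
      apply Real.log_le_log (by positivity)
      exact one_div_le_one_div_of_le hu0 (by linarith)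
    have hl2 := le_abs_self (Real.log (1 / (u - 1)))
    rw [abs_le]
    constructor <;> linarith

end

/-- (Z0) `∑_v N(v)^(-s)` converges for `s > 1`. -/
theorem primeSum_summable (K : Type) [Field K] [NumberField K] {s : ℝ} (hs : 1 < s) :
    Summable fun v : HeightOneSpectrum (𝓞 K) => nvPow K v s :=
  primeSumBad_summable K hs

/-- (Z1) `∑_v N(v)^(-s) = log (1/(s-1)) + O(1)` on `(1,2)`. -/
theorem primeSum_sub_log_bounded (K : Type) [Field K] [NumberField K] :
    ∃ M : ℝ, ∀ s : ℝ, 1 < s → s < 2 →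
      |(∑' v : HeightOneSpectrum (𝓞 K), nvPow K v s) - Real.log (1 / (s - 1))| ≤ M :=
  primeSums_sub_log_bounded K

/-- (Z3) The places that are not good contribute a bounded amount on `(1,2)`. -/
theorem primeSum_not_good_le (K : Type) [Field K] [NumberField K] (B : Finset ℕ) :
    ∃ M : ℝ, ∀ s : ℝ, 1 < s → s < 2 →
      (∑' v : HeightOneSpectrum (𝓞 K),
        Set.indicator {v | ¬ IsGoodPlace K B v} (fun v => nvPow K v s) v) ≤ M :=
  primeSumBad_not_good_le K B

/-- (Z2) For a nontrivial character of the class group the real part of `∑_v χ(v) N(v)^(-s)` is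
bounded above on `(1,2)`. -/
theorem primeSum_cos_le {m : ℕ} [NeZero m] {K : Type} [Field K] [NumberField K]
    (f : Div K →+ ZMod m) (hprin : ∀ x : K, x ≠ 0 → f (divOf K x) = 0) (hf : f ≠ 0) :
    ∃ M : ℝ, ∀ s : ℝ, 1 < s → s < 2 →
      (∑' v : HeightOneSpectrum (𝓞 K),
        Real.cos (2 * Real.pi * ((f (Finsupp.single v 1)).val : ℝ) / (m : ℝ)) * nvPow K v s) ≤ M := by
  obtain ⟨M, hM⟩ := norm_LSeries_idealCoeff_divChar_le f hprin hf
  refine ⟨Real.log (max M 1) + ∑' v : HeightOneSpectrum (𝓞 K), nvPow K v 2,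
    fun s hs1 hs2 => ?_⟩
  have h1 := abs_log_norm_LSeries_sub_le K (divChar K f) (norm_divChar_le K f) hs1
  simp_rw [re_divChar_asIdeal] at h1
  have h2 := primeSums_log_norm_le (hM s hs1 hs2)
  have h3 := (abs_le.mp h1).1
  linarith

end Fermat.Agent.S14
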