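import Mathlib

/-!
# S14: shared definitions (divisors, Frobenius elements, additive Artin symbol)

All S14 files import this file and use these definitions verbatim.
-/

namespace Fermat.Agent.S14

open NumberField IsDedekindDomain

/-- The group of divisors of a number field: finitely supported integer functions on the
finite places. -/
abbrev Div (K : Type*) [Field K] [NumberField K] : Type _ := HeightOneSpectrum (𝓞 K) →₀ ℤ

section

variable (K : Type*) [Field K] [NumberField K]

/-- A finite place is *good* (relative to a finite set `B` of excluded residue characteristics)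
if its absolute norm is a prime number not in `B` (so its residue degree over `ℚ` is one). -/
def IsGoodPlace (B : Finset ℕ) (v : HeightOneSpectrum (𝓞 K)) : Prop :=
  (Ideal.absNorm v.asIdeal).Prime ∧ Ideal.absNorm v.asIdeal ∉ B

/-- The principal divisor of an element of `K` (junk value `0` at `x = 0`). -/
noncomputable def divOf (x : K) : Div K :=
  Finsupp.ofSupportFinite
    (fun v => FractionalIdeal.count K v (FractionalIdeal.spanSingleton (nonZeroDivisors (𝓞 K)) x))
    (by
      have h := FractionalIdeal.finite_factors (R := 𝓞 K) (K := K)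
        (FractionalIdeal.spanSingleton (nonZeroDivisors (𝓞 K)) x)
      exact h)

@[simp] theorem divOf_apply (x : K) (v : HeightOneSpectrum (𝓞 K)) :
    divOf K x v =
      FractionalIdeal.count K v (FractionalIdeal.spanSingleton (nonZeroDivisors (𝓞 K)) x) := rfl

variable (L : Type*) [Field L] [NumberField L] [Algebra K L]

/-- A chosen prime of `𝓞 L` above the finite place `v` of `K`. -/
noncomputable def primeAbove (v : HeightOneSpectrum (𝓞 K)) : Ideal (𝓞 L) :=
  ((inferInstance : Nonempty (v.asIdeal.primesOver (𝓞 L))).some : Ideal (𝓞 L))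

instance primeAbove_isPrime (v : HeightOneSpectrum (𝓞 K)) : (primeAbove K L v).IsPrime :=
  (inferInstance : Nonempty (v.asIdeal.primesOver (𝓞 L))).some.2.1

instance primeAbove_liesOver (v : HeightOneSpectrum (𝓞 K)) :
    (primeAbove K L v).LiesOver v.asIdeal :=
  (inferInstance : Nonempty (v.asIdeal.primesOver (𝓞 L))).some.2.2

theorem primeAbove_ne_bot (v : HeightOneSpectrum (𝓞 K)) : primeAbove K L v ≠ ⊥ := by
  intro h
  have h1 : v.asIdeal = (primeAbove K L v).under (𝓞 K) :=
    Ideal.LiesOver.over (P := primeAbove K L v) (p := v.asIdeal)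
  rw [h, Ideal.under_bot] at h1
  exact v.ne_bot h1

instance primeAbove_finite_quotient (v : HeightOneSpectrum (𝓞 K)) :
    Finite (𝓞 L ⧸ primeAbove K L v) :=
  Ideal.finiteQuotientOfFreeOfNeBot _ (primeAbove_ne_bot K L v)

/-- The finite place of `K` below a finite place of `L`. -/
noncomputable def placeBelow (w : HeightOneSpectrum (𝓞 L)) : HeightOneSpectrum (𝓞 K) where
  asIdeal := w.asIdeal.under (𝓞 K)
  isPrime := inferInstance
  ne_bot := by
    intro h
    exact w.ne_bot (Ideal.eq_bot_of_comap_eq_bot (R := 𝓞 K) h)

/-- The norm of divisors: a place `w` of `L` goes to `f(w|v) • v`, `v` the place below. -/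
noncomputable def normDiv : Div L →+ Div K :=
  Finsupp.liftAddHom fun w =>
    (Finsupp.singleAddHom (placeBelow K L w)).comp
      (AddMonoidHom.mulLeft ((w.asIdeal.inertiaDeg (𝓞 K) : ℕ) : ℤ))

variable [IsGalois K L]

/-- The Frobenius element at a finite place `v` of `K` in the Galois extension `L/K`
(the arithmetic Frobenius of the chosen prime above `v`; canonical when `v` is unramified and
`Gal(L/K)` is abelian). -/
noncomputable def frobAt (v : HeightOneSpectrum (𝓞 K)) : L ≃ₐ[K] L :=
  arithFrobAt (𝓞 K) (L ≃ₐ[K] L) (primeAbove K L v)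

/-- The additive Artin symbol of a divisor relative to a homomorphism `ψ` from the Galois group
to `ℤ/p`: `∑ ord_v(D) • ψ(Frob_v)`. -/
noncomputable def artin {p : ℕ} (ψ : (L ≃ₐ[K] L) →* Multiplicative (ZMod p)) : Div K →+ ZMod p :=
  Finsupp.liftAddHom fun v =>
    (AddMonoidHom.mulRight (Multiplicative.toAdd (ψ (frobAt K L v)))).comp (Int.castAddHom (ZMod p))

/-- `v` is unramified in `L`. -/
def IsUnramifiedIn (v : HeightOneSpectrum (𝓞 K)) : Prop :=
  ∀ (P : Ideal (𝓞 L)) [P.IsPrime], P.LiesOver v.asIdeal → Algebra.IsUnramifiedAt (𝓞 K) P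

/-- `L/K` is unramified at every finite prime. -/
def IsUnramifiedEverywhere : Prop :=
  ∀ (P : Ideal (𝓞 L)) [P.IsPrime], P ≠ ⊥ → Algebra.IsUnramifiedAt (𝓞 K) P

end

end Fermat.Agent.S14
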