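import Fermat.Agent.S14.Defs

/-!
# S14 (D3): definitions for the prime-sum package

* `idealDiv K I : Div K` : the divisor of an integral ideal;
* `divChar K f : Ideal (𝓞 K) →*₀ ℂ` : the multiplicative function `I ↦ exp (2πi f(div I)/m)`
  attached to `f : Div K →+ ZMod m` (value `0` at `⊥`);
* `idealCoeff K F n = ∑_{N I = n} F I` : Dirichlet coefficients of a function on ideals.
-/

set_option autoImplicit false

namespace Fermat.Agent.S14

open NumberField IsDedekindDomain

section

variable (K : Type*) [Field K] [NumberField K]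

/-- The divisor of an integral ideal (junk value `0` at `⊥`). -/
noncomputable def idealDiv (I : Ideal (𝓞 K)) : Div K :=
  Finsupp.ofSupportFinite
    (fun v => FractionalIdeal.count K v (I : FractionalIdeal (nonZeroDivisors (𝓞 K)) K))
    (by
      have h := FractionalIdeal.finite_factors (R := 𝓞 K) (K := K)
        (I : FractionalIdeal (nonZeroDivisors (𝓞 K)) K)
      exact h)

@[simp] theorem idealDiv_apply (I : Ideal (𝓞 K)) (v : HeightOneSpectrum (𝓞 K)) :
    idealDiv K I v = FractionalIdeal.count K v (I : FractionalIdeal (nonZeroDivisors (𝓞 K)) K) :=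
  rfl

theorem idealDiv_one : idealDiv K (1 : Ideal (𝓞 K)) = 0 := by
  ext v
  simp [FractionalIdeal.count_one]

theorem idealDiv_mul {I J : Ideal (𝓞 K)} (hI : I ≠ ⊥) (hJ : J ≠ ⊥) :
    idealDiv K (I * J) = idealDiv K I + idealDiv K J := by
  ext v
  simp only [idealDiv_apply, Finsupp.coe_add, Pi.add_apply, FractionalIdeal.coeIdeal_mul]
  exact FractionalIdeal.count_mul K v (FractionalIdeal.coeIdeal_ne_zero.mpr hI)
    (FractionalIdeal.coeIdeal_ne_zero.mpr hJ)

theorem idealDiv_asIdeal (v : HeightOneSpectrum (𝓞 K)) :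
    idealDiv K v.asIdeal = Finsupp.single v 1 := by
  classical
  ext w
  rw [idealDiv_apply, FractionalIdeal.count_maximal, Finsupp.single_apply]

theorem idealDiv_span_singleton (x : 𝓞 K) :
    idealDiv K (Ideal.span {x}) = divOf K (x : K) := by
  ext v
  rw [idealDiv_apply, divOf_apply, FractionalIdeal.coeIdeal_span_singleton]

variable {m : ℕ} [NeZero m]

/-- The multiplicative function on ideals attached to `f : Div K →+ ZMod m`:
`I ↦ exp (2πi f(div I)/m)`, and `⊥ ↦ 0`. -/
noncomputable def divChar (f : Div K →+ ZMod m) : Ideal (𝓞 K) →*₀ ℂ where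
  toFun I := if I = ⊥ then 0 else ZMod.stdAddChar (f (idealDiv K I))
  map_zero' := by simp
  map_one' := by
    have h : (1 : Ideal (𝓞 K)) ≠ ⊥ := by
      rw [Ideal.one_eq_top]; exact top_ne_bot
    simp only [if_neg h, idealDiv_one, map_zero, AddChar.map_zero_eq_one]
  map_mul' I J := by
    by_cases hI : I = ⊥
    · simp [hI]
    by_cases hJ : J = ⊥
    · simp [hJ]
    have hIJ : I * J ≠ ⊥ := by
      rw [← Ideal.zero_eq_bot]
      exact mul_ne_zero hI hJ
    simp only [if_neg hI, if_neg hJ, if_neg hIJ, idealDiv_mul K hI hJ, map_add,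
      AddChar.map_add_eq_mul]

theorem divChar_apply_of_ne_bot (f : Div K →+ ZMod m) {I : Ideal (𝓞 K)} (hI : I ≠ ⊥) :
    divChar K f I = ZMod.stdAddChar (f (idealDiv K I)) := if_neg hI

theorem divChar_asIdeal (f : Div K →+ ZMod m) (v : HeightOneSpectrum (𝓞 K)) :
    divChar K f v.asIdeal = ZMod.stdAddChar (f (Finsupp.single v 1)) := by
  rw [divChar_apply_of_ne_bot K f v.ne_bot, idealDiv_asIdeal]

theorem norm_divChar_le (f : Div K →+ ZMod m) (I : Ideal (𝓞 K)) : ‖divChar K f I‖ ≤ 1 := by
  by_cases hI : I = ⊥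
  · have : divChar K f I = 0 := by rw [hI]; exact map_zero _
    rw [this, norm_zero]; exact zero_le_one
  · rw [divChar_apply_of_ne_bot K f hI, ZMod.stdAddChar_apply, Circle.norm_coe]

theorem re_divChar_asIdeal (f : Div K →+ ZMod m) (v : HeightOneSpectrum (𝓞 K)) :
    (divChar K f v.asIdeal).re =
      Real.cos (2 * Real.pi * ((f (Finsupp.single v 1)).val : ℝ) / (m : ℝ)) := by
  rw [divChar_asIdeal, ZMod.stdAddChar_apply, ZMod.toCircle_apply]
  have : (2 * (Real.pi : ℂ) * Complex.I * ((f (Finsupp.single v 1)).val : ℂ) / (m : ℂ)) =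
      ((2 * Real.pi * ((f (Finsupp.single v 1)).val : ℝ) / (m : ℝ) : ℝ) : ℂ) * Complex.I := by
    push_cast; ring
  rw [this, Complex.exp_ofReal_mul_I_re]

/-- Dirichlet coefficients of a function on ideals: `n ↦ ∑_{N I = n} F I`. -/
noncomputable def idealCoeff (F : Ideal (𝓞 K) → ℂ) (n : ℕ) : ℂ :=
  ∑ᶠ I : {I : Ideal (𝓞 K) // Ideal.absNorm I = n}, F I

end

end Fermat.Agent.S14
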