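import Fermat.Agent.S14.NormLeOneCover

/-!
# S14 package D2(a): the frontier of `normLeOne K` is Lipschitz-covered

Shim: the theorem `Fermat.Agent.S14.isLipschitzCovered_frontier_normLeOne` is proved in
`Fermat/Agent/S14/NormLeOneCover.lean` (helper13).
-/
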