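import Fermat.Agent.S14.LatticeCount
import Fermat.Agent.S14.ClassCountFrontier

/-!
# S14 package D2(b): counting ideals in a class with a power-saving error term

Rate version of Mathlib's `NumberField.Ideal.tendsto_norm_le_and_mk_eq_div_atTop`.
-/

namespace Fermat.Agent.S14

open NumberField IsDedekindDomain MeasureTheory Ideal

open scoped nonZeroDivisors Real

open Filter InfinitePlace mixedEmbedding euclidean fundamentalCone Submodule Topology
open NumberField.Units

section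

variable (K : Type) [Field K] [NumberField K]

variable {C : ClassGroup (𝓞 K)} {J : (Ideal (𝓞 K))⁰} {s : ℝ}

/-- Copy of a private Mathlib lemma. -/
theorem classCount_aux₁ (hJ : ClassGroup.mk0 J = C⁻¹) :
    Nat.card {I : (Ideal (𝓞 K))⁰ // absNorm (I : Ideal (𝓞 K)) ≤ s ∧ ClassGroup.mk0 I = C}
      = Nat.card {I : (Ideal (𝓞 K))⁰ // (J : Ideal (𝓞 K)) ∣ I ∧ IsPrincipal (I : Ideal (𝓞 K)) ∧
        absNorm (I : Ideal (𝓞 K)) ≤ s * absNorm (J : Ideal (𝓞 K))} := by
  simp_rw [← nonZeroDivisors_dvd_iff_dvd_coe]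
  refine Nat.card_congr ?_
  refine ((Equiv.dvd J).subtypeEquiv fun I ↦ ?_).trans
    (Equiv.subtypeSubtypeEquivSubtypeInter (fun I : (Ideal (𝓞 K))⁰ ↦ J ∣ I) _)
  rw [← ClassGroup.mk0_eq_one_iff (SetLike.coe_mem _)]
  simp_rw [Equiv.dvd_apply, Submonoid.coe_mul, ← Submonoid.mul_def, _root_.map_mul, hJ,
    inv_mul_eq_one, Nat.cast_mul, mul_comm s, eq_comm, and_comm, and_congr_left_iff]
  exact fun _ ↦
    (mul_le_mul_iff_of_pos_left (Nat.cast_pos.mpr (absNorm_pos_of_nonZeroDivisors J))).symm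

open scoped Classical in
/-- Copy of a private Mathlib definition. -/
noncomputable def classCount_aux₂ :
    ↑({x | x ∈ (toMixed K) ⁻¹' fundamentalCone K ∧ mixedEmbedding.norm ((toMixed K) x) ≤ s} ∩
      (ZLattice.comap ℝ (idealLattice K ((FractionalIdeal.mk0 K) J)) (toMixed K).toLinearMap))
        ≃ {a : idealSet K J // mixedEmbedding.norm (a : mixedSpace K) ≤ s} := by
  rw [ZLattice.coe_comap]
  refine (((toMixed K).toEquiv.image _).trans (Equiv.subtypeEquivProp ?_)).trans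
    (Equiv.subtypeSubtypeEquivSubtypeInter _ (mixedEmbedding.norm · ≤ s)).symm
  ext
  simp_rw [mem_idealSet, Set.mem_image, Set.mem_inter_iff, Set.mem_preimage, SetLike.mem_coe,
    mem_idealLattice, FractionalIdeal.coe_mk0]
  constructor
  · rintro ⟨_, ⟨⟨hx₁, hx₂⟩, _, ⟨x, hx₃, rfl⟩, h⟩, rfl⟩
    exact ⟨⟨hx₁, x, hx₃, h⟩, hx₂⟩
  · rintro ⟨⟨hx₁, ⟨x, hx₂, rfl⟩⟩, hx₃⟩
    exact ⟨(toMixed K).symm (mixedEmbedding K x), ⟨⟨hx₁, hx₃⟩, ⟨(x : K), by simp [hx₂], rfl⟩⟩, rfl⟩

/-- Preimages of Lipschitz-covered sets under continuous linear equivalences are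
Lipschitz-covered. -/
theorem IsLipschitzCovered.preimage_continuousLinearEquiv {E E' : Type*}
    [NormedAddCommGroup E] [NormedSpace ℝ E] [NormedAddCommGroup E'] [NormedSpace ℝ E']
    {d : ℕ} {A : Set E} (hA : IsLipschitzCovered d A) (e : E' ≃L[ℝ] E) :
    IsLipschitzCovered d (e ⁻¹' A) := by
  obtain ⟨m, φ, M, hφ, hcov⟩ := hA
  refine ⟨m, fun i => e.symm ∘ φ i, ‖(e.symm : E →L[ℝ] E')‖₊ * M,
    fun i => (e.symm : E →L[ℝ] E').lipschitz.comp (hφ i), ?_⟩
  intro x hx
  obtain ⟨i, hi⟩ := Set.mem_iUnion.mp (hcov hx)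
  obtain ⟨u, hu, hux⟩ := hi
  refine Set.mem_iUnion.mpr ⟨i, u, hu, ?_⟩
  simp [hux]

/-- The density of ideals in a class. -/
noncomputable def classCountKappa : ℝ :=
  (2 ^ nrRealPlaces K * (2 * π) ^ nrComplexPlaces K * regulator K) /
    (torsionOrder K * Real.sqrt |discr K|)

theorem classCountKappa_pos : 0 < classCountKappa K := by
  unfold classCountKappa
  have h1 : (0 : ℝ) < torsionOrder K := Nat.cast_pos.mpr (torsionOrder_pos K)
  have h2 : (0 : ℝ) < Real.sqrt |discr K| :=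
    Real.sqrt_pos.mpr (abs_pos.mpr (Int.cast_ne_zero.mpr (discr_ne_zero K)))
  have h3 := regulator_pos K
  positivity

open scoped Classical in
theorem classCount_rate_class (C : ClassGroup (𝓞 K)) :
    ∃ B : ℝ, ∀ x : ℝ, 1 ≤ x →
      |(Nat.card {I : (Ideal (𝓞 K))⁰ //
            (absNorm (I : Ideal (𝓞 K)) : ℝ) ≤ x ∧ ClassGroup.mk0 I = C} : ℝ) -
          classCountKappa K * x| ≤ B * x ^ (1 - 1 / (Module.finrank ℚ K : ℝ)) := by
  have h₁ : ∀ s : ℝ,
    {x | x ∈ toMixed K ⁻¹' fundamentalCone K ∧ mixedEmbedding.norm (toMixed K x) ≤ s} =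
      toMixed K ⁻¹' {x | x ∈ fundamentalCone K ∧ mixedEmbedding.norm x ≤ s} := fun _ ↦ rfl
  have h₂ : {x | x ∈ fundamentalCone K ∧ mixedEmbedding.norm x ≤ 1} = normLeOne K := by ext; simp
  obtain ⟨J, hJ⟩ := ClassGroup.mk0_surjective C⁻¹
  have h₃ : (absNorm J.1 : ℝ) ≠ 0 := (Nat.cast_ne_zero.mpr (absNorm_ne_zero_of_nonZeroDivisors J))
  have ha1 : (1 : ℝ) ≤ absNorm J.1 := by
    exact_mod_cast Nat.one_le_iff_ne_zero.mpr (absNorm_ne_zero_of_nonZeroDivisors J)
  have hw : (0 : ℝ) < torsionOrder K := Nat.cast_pos.mpr (torsionOrder_pos K)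
  obtain ⟨B, hB⟩ := card_le_sub_le
    (ZLattice.comap ℝ (mixedEmbedding.idealLattice K (FractionalIdeal.mk0 K J))
      (toMixed K).toLinearMap)
    (F := fun x ↦ mixedEmbedding.norm (toMixed K x)) (X := (toMixed K) ⁻¹' (fundamentalCone K))
    (fun _ _ _ h ↦ by rwa [Set.mem_preimage, map_smul, smul_mem_iff_mem h.ne'])
    (fun _ _ h ↦ by rw [map_smul, mixedEmbedding.norm_smul, euclidean.finrank, abs_of_nonneg h])
    ((toMixed K).antilipschitz.isBounded_preimage (isBounded_normLeOne K))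
    ((toMixed K).continuous.measurable (measurableSet_normLeOne K))
    (by
      rw [h₁, ← (toMixed K).coe_toHomeomorph, ← Homeomorph.preimage_frontier,
        (toMixed K).coe_toHomeomorph, h₂, euclidean.finrank]
      exact (isLipschitzCovered_frontier_normLeOne K).preimage_continuousLinearEquiv (toMixed K))
  have hvol : volume.real
      {x | x ∈ (toMixed K) ⁻¹' (fundamentalCone K) ∧ mixedEmbedding.norm (toMixed K x) ≤ 1} /
        ZLattice.covolume (ZLattice.comap ℝ
          (mixedEmbedding.idealLattice K (FractionalIdeal.mk0 K J)) (toMixed K).toLinearMap) =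
      classCountKappa K * torsionOrder K / absNorm J.1 := by
    rw [h₁, h₂, MeasureTheory.measureReal_def, (volumePreserving_toMixed K).measure_preimage
      (measurableSet_normLeOne K).nullMeasurableSet, volume_normLeOne, ZLattice.covolume_comap
      _ _ _ (volumePreserving_toMixed K), covolume_idealLattice, ENNReal.toReal_mul,
      ENNReal.toReal_mul, ENNReal.toReal_pow, ENNReal.toReal_pow, ENNReal.toReal_ofNat,
      ENNReal.coe_toReal, NNReal.coe_real_pi, ENNReal.toReal_ofReal (regulator_pos K).le,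
      FractionalIdeal.coe_mk0, FractionalIdeal.coeIdeal_absNorm, Rat.cast_natCast, classCountKappa]
    have h4 : Real.sqrt |(discr K : ℝ)| ≠ 0 :=
      (Real.sqrt_pos.mpr (abs_pos.mpr (Int.cast_ne_zero.mpr (discr_ne_zero K)))).ne'
    field_simp
    have h6 : ((1 : ℝ) / 2) ^ nrComplexPlaces K * 2 ^ nrComplexPlaces K = 1 := by
      rw [← mul_pow]; norm_num
    linear_combination (-(π ^ nrComplexPlaces K * regulator K)) * h6
  refine ⟨B * (absNorm J.1 : ℝ) ^ (1 - 1 / (Module.finrank ℚ K : ℝ)) / torsionOrder K,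
    fun x hx => ?_⟩
  have hx0 : (0 : ℝ) ≤ x := zero_le_one.trans hx
  have hc : (1 : ℝ) ≤ x * absNorm J.1 := by nlinarith
  have hBc := hB (x * absNorm J.1) hc
  have hcard : (Nat.card ({x_1 | x_1 ∈ (toMixed K) ⁻¹' (fundamentalCone K) ∧
        mixedEmbedding.norm (toMixed K x_1) ≤ x * absNorm J.1} ∩
      (ZLattice.comap ℝ (mixedEmbedding.idealLattice K (FractionalIdeal.mk0 K J))
        (toMixed K).toLinearMap : Set (euclidean.mixedSpace K)) : Set (euclidean.mixedSpace K)) : ℝ)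
      = (Nat.card {I : (Ideal (𝓞 K))⁰ //
            (absNorm (I : Ideal (𝓞 K)) : ℝ) ≤ x ∧ ClassGroup.mk0 I = C} : ℝ) * torsionOrder K := by
    rw [classCount_aux₁ K hJ, Nat.card_congr (classCount_aux₂ K), ← card_isPrincipal_dvd_norm_le,
      Nat.cast_mul]
  rw [hcard, hvol, euclidean.finrank, Real.mul_rpow hx0 (Nat.cast_nonneg _)] at hBc
  set N : ℝ := (Nat.card {I : (Ideal (𝓞 K))⁰ //
            (absNorm (I : Ideal (𝓞 K)) : ℝ) ≤ x ∧ ClassGroup.mk0 I = C} : ℝ) with hN
  have h5 : N * torsionOrder K - classCountKappa K * torsionOrder K / absNorm J.1 *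
      (x * absNorm J.1) = (N - classCountKappa K * x) * torsionOrder K := by
    field_simp
  rw [h5, abs_mul, abs_of_pos hw] at hBc
  rw [div_mul_eq_mul_div, le_div_iff₀ hw]
  calc |N - classCountKappa K * x| * torsionOrder K
      ≤ B * (x ^ (1 - 1 / (Module.finrank ℚ K : ℝ)) *
          (absNorm J.1 : ℝ) ^ (1 - 1 / (Module.finrank ℚ K : ℝ))) := hBc
    _ = _ := by ring

/-- (D2) Number of integral ideals of norm `≤ x` in an ideal class: `κ x + O(x^(1-1/n))`, `κ`
independent of the class. -/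
theorem classCount_rate :
    ∃ κ C : ℝ, 0 < κ ∧ ∀ (c : ClassGroup (𝓞 K)) (x : ℝ), 1 ≤ x →
      |(Nat.card {I : nonZeroDivisors (Ideal (𝓞 K)) //
            (Ideal.absNorm (I : Ideal (𝓞 K)) : ℝ) ≤ x ∧ ClassGroup.mk0 I = c} : ℝ) - κ * x| ≤
        C * x ^ (1 - 1 / (Module.finrank ℚ K : ℝ)) := by
  classical
  choose B hB using classCount_rate_class K
  refine ⟨classCountKappa K, ∑ c, |B c|, classCountKappa_pos K, fun c x hx => ?_⟩
  refine (hB c x hx).trans ?_
  have hx0 : (0 : ℝ) ≤ x ^ (1 - 1 / (Module.finrank ℚ K : ℝ)) :=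
    Real.rpow_nonneg (zero_le_one.trans hx) _
  refine mul_le_mul_of_nonneg_right ?_ hx0
  exact (le_abs_self _).trans
    (Finset.single_le_sum (f := fun c => |B c|) (fun _ _ => abs_nonneg _) (Finset.mem_univ c))

end

end Fermat.Agent.S14
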