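import Fermat.Agent.S14.PrimeSumsDefs
import Fermat.Agent.S14.ClassCount

/-!
# S14 (D3b-1): the L-series of a nontrivial class character is bounded on `(1,2)`

Abel summation (`LSeries_eq_mul_integral`) from the class-wise ideal count with rate
(`classCount_rate`, black box) and the vanishing of the sum of a nontrivial character.
-/

namespace Fermat.Agent.S14

open NumberField IsDedekindDomain MeasureTheory
open scoped nonZeroDivisors

/-! ### Generic Abel summation bound -/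

/-- If the partial sums of `a` are `≤ B N^θ` with `0 ≤ θ < 1`, then `|L(a,s)| ≤ 2B/(1-θ)` for
`1 < s < 2`. -/
theorem clb_abel_bound (a : ℕ → ℂ) {θ B : ℝ} (hθ0 : 0 ≤ θ) (hθ1 : θ < 1) (hB : 0 ≤ B)
    (hA : ∀ N : ℕ, 1 ≤ N → ‖∑ k ∈ Finset.Icc 1 N, a k‖ ≤ B * (N : ℝ) ^ θ)
    {s : ℝ} (hs1 : 1 < s) (hs2 : s < 2) (hS : LSeriesSummable a (s : ℂ)) :
    ‖LSeries a (s : ℂ)‖ ≤ 2 * B / (1 - θ) := by
  have hsre : ((s : ℂ)).re = s := Complex.ofReal_re s
  have hθs : θ < ((s : ℂ)).re := by rw [hsre]; linarith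
  have hO : (fun n : ℕ ↦ ∑ k ∈ Finset.Icc 1 n, a k) =O[Filter.atTop] fun n ↦ (n : ℝ) ^ θ := by
    refine Asymptotics.IsBigO.of_bound B ?_
    filter_upwards [Filter.eventually_ge_atTop 1] with N hN
    rw [Real.norm_of_nonneg (Real.rpow_nonneg (Nat.cast_nonneg N) θ)]
    exact hA N hN
  rw [LSeries_eq_mul_integral a hθ0 hθs hS hO]
  -- bound the integral
  have hexp : θ - s - 1 < -1 := by linarith
  have hint : IntegrableOn (fun t : ℝ ↦ B * t ^ (θ - s - 1)) (Set.Ioi 1) :=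
    (integrableOn_Ioi_rpow_of_lt hexp zero_lt_one).const_mul B
  have hbound : ∀ᵐ t : ℝ ∂(volume.restrict (Set.Ioi (1 : ℝ))),
      ‖(∑ k ∈ Finset.Icc 1 ⌊t⌋₊, a k) * (t : ℂ) ^ (-((s : ℂ) + 1))‖ ≤ B * t ^ (θ - s - 1) := by
    refine ae_restrict_of_forall_mem measurableSet_Ioi fun t ht => ?_
    have ht1 : (1 : ℝ) < t := ht
    have ht0 : 0 < t := lt_trans zero_lt_one ht1
    have hfl : 1 ≤ ⌊t⌋₊ := Nat.one_le_iff_ne_zero.mpr (Nat.floor_pos.mpr ht1.le).ne'
    have h1 : ‖∑ k ∈ Finset.Icc 1 ⌊t⌋₊, a k‖ ≤ B * t ^ θ := by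
      refine (hA _ hfl).trans ?_
      gcongr
      exact Nat.floor_le ht0.le
    have h2 : ‖(t : ℂ) ^ (-((s : ℂ) + 1))‖ = t ^ (-(s + 1)) := by
      rw [Complex.norm_cpow_eq_rpow_re_of_pos ht0]
      simp
    rw [norm_mul, h2]
    calc ‖∑ k ∈ Finset.Icc 1 ⌊t⌋₊, a k‖ * t ^ (-(s + 1))
        ≤ (B * t ^ θ) * t ^ (-(s + 1)) := by
          gcongr
      _ = B * t ^ (θ - s - 1) := by
          rw [mul_assoc, ← Real.rpow_add ht0]
          congr 2
          ring
  have hnorm := norm_integral_le_of_norm_le hint hbound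
  have hval : ∫ t in Set.Ioi (1 : ℝ), B * t ^ (θ - s - 1) = B / (s - θ) := by
    rw [integral_const_mul, integral_Ioi_rpow_of_lt hexp zero_lt_one]
    rw [Real.one_rpow]
    have : θ - s - 1 + 1 = -(s - θ) := by ring
    rw [this]
    have hne : s - θ ≠ 0 := by linarith
    field_simp
  rw [hval] at hnorm
  rw [norm_mul]
  have hsn : ‖(s : ℂ)‖ = s := by
    rw [Complex.norm_real, Real.norm_of_nonneg (by linarith)]
  rw [hsn]
  have hpos : 0 < s - θ := by linarith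
  have hpos' : 0 < 1 - θ := by linarith
  calc s * ‖∫ t in Set.Ioi (1 : ℝ), (∑ k ∈ Finset.Icc 1 ⌊t⌋₊, a k) * (t : ℂ) ^ (-((s : ℂ) + 1))‖
      ≤ s * (B / (s - θ)) := by gcongr
    _ ≤ 2 * (B / (1 - θ)) := by
        have h3 : B / (s - θ) ≤ B / (1 - θ) := by
          apply div_le_div_of_nonneg_left hB hpos'
          linarith
        have h4 : 0 ≤ B / (1 - θ) := div_nonneg hB hpos'.le
        nlinarith
    _ = 2 * B / (1 - θ) := by ring

/-! ### The character of the class group attached to `f` -/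

section classChar

variable {m : ℕ} [NeZero m] {K : Type} [Field K] [NumberField K] (f : Div K →+ ZMod m)

theorem clb_divChar_span_singleton (hprin : ∀ x : K, x ≠ 0 → f (divOf K x) = 0)
    {x : 𝓞 K} (hx : x ≠ 0) : divChar K f (Ideal.span {x}) = 1 := by
  have hne : (Ideal.span {x} : Ideal (𝓞 K)) ≠ ⊥ := by simpa using hx
  have hx' : (x : K) ≠ 0 := by simpa using hx
  rw [divChar_apply_of_ne_bot K f hne, idealDiv_span_singleton, hprin _ hx',
    AddChar.map_zero_eq_one]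

/-- `divChar K f` is constant on ideal classes. -/
theorem clb_divChar_eq_of_mk0_eq (hprin : ∀ x : K, x ≠ 0 → f (divOf K x) = 0)
    (I J : (Ideal (𝓞 K))⁰) (h : ClassGroup.mk0 I = ClassGroup.mk0 J) :
    divChar K f (I : Ideal (𝓞 K)) = divChar K f (J : Ideal (𝓞 K)) := by
  obtain ⟨x, y, hx, hy, hxy⟩ := ClassGroup.mk0_eq_mk0_iff.mp h
  have := congrArg (divChar K f) hxy
  rwa [map_mul, map_mul, clb_divChar_span_singleton f hprin hx,
    clb_divChar_span_singleton f hprin hy, one_mul, one_mul] at this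

/-- The function on the class group induced by `divChar K f`. -/
noncomputable def clb_classChar (c : ClassGroup (𝓞 K)) : ℂ :=
  divChar K f ((Classical.choose (ClassGroup.mk0_surjective c) : (Ideal (𝓞 K))⁰) : Ideal (𝓞 K))

theorem clb_classChar_mk0 (hprin : ∀ x : K, x ≠ 0 → f (divOf K x) = 0)
    (I : (Ideal (𝓞 K))⁰) : clb_classChar f (ClassGroup.mk0 I) = divChar K f (I : Ideal (𝓞 K)) :=
  clb_divChar_eq_of_mk0_eq f hprin _ _
    (Classical.choose_spec (ClassGroup.mk0_surjective (ClassGroup.mk0 I)))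

theorem clb_classChar_mul_mk0 (hprin : ∀ x : K, x ≠ 0 → f (divOf K x) = 0)
    (c : ClassGroup (𝓞 K)) (J : (Ideal (𝓞 K))⁰) :
    clb_classChar f (c * ClassGroup.mk0 J) = clb_classChar f c * divChar K f (J : Ideal (𝓞 K)) := by
  obtain ⟨I, rfl⟩ := ClassGroup.mk0_surjective c
  rw [← map_mul, clb_classChar_mk0 f hprin, clb_classChar_mk0 f hprin, Submonoid.coe_mul, map_mul]

theorem clb_norm_classChar_le (c : ClassGroup (𝓞 K)) : ‖clb_classChar f c‖ ≤ 1 :=
  norm_divChar_le K f _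

/-- The sum of a nontrivial class character vanishes. -/
theorem clb_sum_classChar (hprin : ∀ x : K, x ≠ 0 → f (divOf K x) = 0) (hf : f ≠ 0) :
    ∑ c : ClassGroup (𝓞 K), clb_classChar f c = 0 := by
  -- a place where `f` does not vanish
  obtain ⟨v, hv⟩ : ∃ v : HeightOneSpectrum (𝓞 K), f (Finsupp.single v 1) ≠ 0 := by
    by_contra! h
    apply hf
    refine Finsupp.addHom_ext fun v n => ?_
    have : Finsupp.single v n = n • Finsupp.single v (1 : ℤ) := by
      rw [Finsupp.smul_single, smul_eq_mul, mul_one]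
    rw [this, map_zsmul, h v, smul_zero, AddMonoidHom.zero_apply]
  have hχv : divChar K f v.asIdeal ≠ 1 := by
    rw [divChar_asIdeal]
    intro h1
    apply hv
    have h2 : ZMod.stdAddChar (f (Finsupp.single v 1)) = ZMod.stdAddChar (0 : ZMod m) := by
      rw [h1, AddChar.map_zero_eq_one]
    exact ZMod.injective_stdAddChar h2
  set J : (Ideal (𝓞 K))⁰ := ⟨v.asIdeal, mem_nonZeroDivisors_iff_ne_zero.mpr v.ne_bot⟩ with hJ
  have hsum : ∑ c : ClassGroup (𝓞 K), clb_classChar f (c * ClassGroup.mk0 J) =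
      ∑ c : ClassGroup (𝓞 K), clb_classChar f c :=
    Equiv.sum_comp (Equiv.mulRight (ClassGroup.mk0 J)) (clb_classChar f)
  simp_rw [clb_classChar_mul_mk0 f hprin] at hsum
  rw [← Finset.sum_mul] at hsum
  have h3 : (∑ c : ClassGroup (𝓞 K), clb_classChar f c) * (divChar K f v.asIdeal - 1) = 0 := by
    rw [mul_sub, mul_one]
    exact sub_eq_zero.mpr hsum
  rcases mul_eq_zero.mp h3 with h4 | h4
  · exact h4
  · exact absurd (sub_eq_zero.mp h4) hχv

end classChar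

/-! ### Partial sums of the coefficients as sums over ideals -/

section count

variable (K : Type) [Field K] [NumberField K]

/-- The finite set of nonzero ideals of norm `≤ N`. -/
noncomputable def clb_idealsLE (N : ℕ) : Finset (Ideal (𝓞 K))⁰ :=
  (Ideal.finite_setOfPred_absNorm_le₀ (S := 𝓞 K) N).toFinset

variable {K}

theorem clb_mem_idealsLE {N : ℕ} {I : (Ideal (𝓞 K))⁰} :
    I ∈ clb_idealsLE K N ↔ Ideal.absNorm (I : Ideal (𝓞 K)) ≤ N := by
  rw [clb_idealsLE, Set.Finite.mem_toFinset]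
  rfl

theorem clb_one_le_absNorm (I : (Ideal (𝓞 K))⁰) : 1 ≤ Ideal.absNorm (I : Ideal (𝓞 K)) := by
  rw [Nat.one_le_iff_ne_zero, Ne, Ideal.absNorm_eq_zero_iff]
  exact mem_nonZeroDivisors_iff_ne_zero.mp I.2

open scoped Classical in
theorem clb_idealCoeff_eq (F : Ideal (𝓞 K) → ℂ) {k N : ℕ} (hk1 : 1 ≤ k) (hkN : k ≤ N) :
    idealCoeff K F k =
      ∑ I ∈ (clb_idealsLE K N).filter (fun I : (Ideal (𝓞 K))⁰ => Ideal.absNorm (I : Ideal (𝓞 K)) = k),
        F (I : Ideal (𝓞 K)) := by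
  classical
  have hfin : {I : Ideal (𝓞 K) | Ideal.absNorm I = k}.Finite :=
    Ideal.finite_setOfPred_absNorm_eq k
  have h1 : idealCoeff K F k = ∑ I ∈ hfin.toFinset, F I := by
    rw [idealCoeff, ← finsum_mem_eq_finite_toFinset_sum F hfin]
    exact finsum_set_coe_eq_finsum_mem {I : Ideal (𝓞 K) | Ideal.absNorm I = k}
  have h2 : hfin.toFinset =
      ((clb_idealsLE K N).filter (fun I : (Ideal (𝓞 K))⁰ => Ideal.absNorm (I : Ideal (𝓞 K)) = k)).image
        (fun I : (Ideal (𝓞 K))⁰ => (I : Ideal (𝓞 K))) := by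
    ext I
    simp only [Set.Finite.mem_toFinset, Set.mem_ofPred_eq, Finset.mem_image, Finset.mem_filter,
      clb_mem_idealsLE]
    constructor
    · intro hI
      have hI0 : I ≠ ⊥ := by
        intro h0
        rw [h0, Ideal.absNorm_bot] at hI
        omega
      exact ⟨⟨I, mem_nonZeroDivisors_iff_ne_zero.mpr hI0⟩, ⟨by simpa [hI] using hkN, hI⟩, rfl⟩
    · rintro ⟨J, ⟨_, hJ⟩, rfl⟩
      exact hJ
  rw [h1, h2, Finset.sum_image]
  intro I _ J _ hIJ
  exact Subtype.ext hIJ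

theorem clb_sum_idealCoeff (F : Ideal (𝓞 K) → ℂ) (N : ℕ) :
    ∑ k ∈ Finset.Icc 1 N, idealCoeff K F k =
      ∑ I ∈ clb_idealsLE K N, F (I : Ideal (𝓞 K)) := by
  classical
  rw [← Finset.sum_fiberwise_of_maps_to (s := clb_idealsLE K N) (t := Finset.Icc 1 N)
    (g := fun I : (Ideal (𝓞 K))⁰ => Ideal.absNorm (I : Ideal (𝓞 K)))]
  · refine Finset.sum_congr rfl fun k hk => ?_
    rw [Finset.mem_Icc] at hk
    exact clb_idealCoeff_eq F hk.1 hk.2
  · intro I hI
    rw [Finset.mem_Icc]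
    exact ⟨clb_one_le_absNorm I, clb_mem_idealsLE.mp hI⟩

open scoped Classical in
/-- The number of nonzero ideals of norm `≤ N` in the class `c` (as in `classCount_rate`). -/
theorem clb_card_class (N : ℕ) (c : ClassGroup (𝓞 K)) :
    Nat.card {I : (Ideal (𝓞 K))⁰ //
        (Ideal.absNorm (I : Ideal (𝓞 K)) : ℝ) ≤ (N : ℝ) ∧ ClassGroup.mk0 I = c} =
      ((clb_idealsLE K N).filter (fun I : (Ideal (𝓞 K))⁰ => ClassGroup.mk0 I = c)).card := by
  classical
  have h : ∀ I : (Ideal (𝓞 K))⁰,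
      ((Ideal.absNorm (I : Ideal (𝓞 K)) : ℝ) ≤ (N : ℝ) ∧ ClassGroup.mk0 I = c) ↔
        I ∈ (clb_idealsLE K N).filter (fun I : (Ideal (𝓞 K))⁰ => ClassGroup.mk0 I = c) := by
    intro I
    rw [Finset.mem_filter, clb_mem_idealsLE, Nat.cast_le]
  rw [Nat.card_congr (Equiv.subtypeEquivRight h), Nat.card_eq_finsetCard]

end count

/-! ### The bound -/

section main

variable {m : ℕ} [NeZero m] {K : Type} [Field K] [NumberField K] (f : Div K →+ ZMod m)

open scoped Classical in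
theorem clb_sum_divChar_eq (hprin : ∀ x : K, x ≠ 0 → f (divOf K x) = 0) (N : ℕ) :
    ∑ I ∈ clb_idealsLE K N, divChar K f (I : Ideal (𝓞 K)) =
      ∑ c : ClassGroup (𝓞 K), clb_classChar f c *
        (((clb_idealsLE K N).filter
          (fun I : (Ideal (𝓞 K))⁰ => ClassGroup.mk0 I = c)).card : ℂ) := by
  rw [← Finset.sum_fiberwise (clb_idealsLE K N) (fun I : (Ideal (𝓞 K))⁰ => ClassGroup.mk0 I)]
  refine Finset.sum_congr rfl fun c _ => ?_
  have h : ∀ I ∈ (clb_idealsLE K N).filter (fun I : (Ideal (𝓞 K))⁰ => ClassGroup.mk0 I = c),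
      divChar K f (I : Ideal (𝓞 K)) = clb_classChar f c := by
    intro I hI
    rw [Finset.mem_filter] at hI
    rw [← hI.2, clb_classChar_mk0 f hprin]
  rw [Finset.sum_congr rfl h, Finset.sum_const, nsmul_eq_mul, mul_comm]

/-- The hypothesis provided by `classCount_rate`. -/
def clb_Rate (K : Type) [Field K] [NumberField K] (κ C θ : ℝ) : Prop :=
  ∀ (c : ClassGroup (𝓞 K)) (x : ℝ), 1 ≤ x →
    |(Nat.card {I : (Ideal (𝓞 K))⁰ //
        (Ideal.absNorm (I : Ideal (𝓞 K)) : ℝ) ≤ x ∧ ClassGroup.mk0 I = c} : ℝ) - κ * x| ≤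
      C * x ^ θ

open scoped Classical in
theorem clb_rate_nat {κ C θ : ℝ} (hrate : clb_Rate K κ C θ) (c : ClassGroup (𝓞 K)) {N : ℕ}
    (hN : 1 ≤ N) :
    |((((clb_idealsLE K N).filter
        (fun I : (Ideal (𝓞 K))⁰ => ClassGroup.mk0 I = c)).card : ℕ) : ℝ) - κ * N| ≤
      C * (N : ℝ) ^ θ := by
  have h := hrate c (N : ℝ) (by exact_mod_cast hN)
  rwa [clb_card_class] at h

theorem clb_rate_nonneg {κ C θ : ℝ} (hrate : clb_Rate K κ C θ) : 0 ≤ C := by
  have h := hrate 1 1 le_rfl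
  simp only [Real.one_rpow, mul_one] at h
  exact (abs_nonneg _).trans h

/-- The partial sums of the coefficients of a nontrivial class character are `O(N^θ)`. -/
theorem clb_norm_sum_le (hprin : ∀ x : K, x ≠ 0 → f (divOf K x) = 0) (hf : f ≠ 0)
    {κ C θ : ℝ} (hrate : clb_Rate K κ C θ) {N : ℕ} (hN : 1 ≤ N) :
    ‖∑ k ∈ Finset.Icc 1 N, idealCoeff K (divChar K f) k‖ ≤
      ((Fintype.card (ClassGroup (𝓞 K)) : ℝ) * C) * (N : ℝ) ^ θ := by
  classical
  rw [clb_sum_idealCoeff, clb_sum_divChar_eq f hprin]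
  set cnt : ClassGroup (𝓞 K) → ℕ := fun c =>
    ((clb_idealsLE K N).filter (fun I : (Ideal (𝓞 K))⁰ => ClassGroup.mk0 I = c)).card with hcnt
  have h0 : ∑ c : ClassGroup (𝓞 K), clb_classChar f c * (cnt c : ℂ) =
      ∑ c : ClassGroup (𝓞 K), clb_classChar f c * (((cnt c : ℝ) - κ * N : ℝ) : ℂ) := by
    have h1 : ∑ c : ClassGroup (𝓞 K), clb_classChar f c * ((κ * N : ℝ) : ℂ) = 0 := by
      rw [← Finset.sum_mul, clb_sum_classChar f hprin hf, zero_mul]
    rw [← sub_zero (∑ c : ClassGroup (𝓞 K), clb_classChar f c * (cnt c : ℂ)), ← h1,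
      ← Finset.sum_sub_distrib]
    refine Finset.sum_congr rfl fun c _ => ?_
    push_cast
    ring
  change ‖∑ c : ClassGroup (𝓞 K), clb_classChar f c * (cnt c : ℂ)‖ ≤ _
  rw [h0]
  calc ‖∑ c : ClassGroup (𝓞 K), clb_classChar f c * (((cnt c : ℝ) - κ * N : ℝ) : ℂ)‖
      ≤ ∑ c : ClassGroup (𝓞 K), ‖clb_classChar f c * (((cnt c : ℝ) - κ * N : ℝ) : ℂ)‖ :=
        norm_sum_le _ _
    _ ≤ ∑ _c : ClassGroup (𝓞 K), C * (N : ℝ) ^ θ := by
        refine Finset.sum_le_sum fun c _ => ?_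
        rw [norm_mul, Complex.norm_real, Real.norm_eq_abs]
        calc ‖clb_classChar f c‖ * |(cnt c : ℝ) - κ * N|
            ≤ 1 * |(cnt c : ℝ) - κ * N| := by
              gcongr
              exact clb_norm_classChar_le f c
          _ = |(cnt c : ℝ) - κ * N| := one_mul _
          _ ≤ C * (N : ℝ) ^ θ := clb_rate_nat hrate c hN
    _ = ((Fintype.card (ClassGroup (𝓞 K)) : ℝ) * C) * (N : ℝ) ^ θ := by
        rw [Finset.sum_const, Finset.card_univ, nsmul_eq_mul]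
        ring

/-- The number of nonzero ideals of norm `≤ N` is `O(N)`. -/
theorem clb_card_idealsLE_le {κ C θ : ℝ} (hθ : θ ≤ 1) (hrate : clb_Rate K κ C θ) {N : ℕ}
    (hN : 1 ≤ N) :
    ((clb_idealsLE K N).card : ℝ) ≤
      ((Fintype.card (ClassGroup (𝓞 K)) : ℝ) * (|κ| + C)) * (N : ℝ) := by
  classical
  have hC : 0 ≤ C := clb_rate_nonneg hrate
  have hN1 : (1 : ℝ) ≤ (N : ℝ) := by exact_mod_cast hN
  have hN0 : (0 : ℝ) ≤ (N : ℝ) := by linarith
  have hpow : (N : ℝ) ^ θ ≤ (N : ℝ) := by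
    calc (N : ℝ) ^ θ ≤ (N : ℝ) ^ (1 : ℝ) := Real.rpow_le_rpow_of_exponent_le hN1 hθ
      _ = N := Real.rpow_one _
  have hcard : (clb_idealsLE K N).card =
      ∑ c : ClassGroup (𝓞 K), ((clb_idealsLE K N).filter
        (fun I : (Ideal (𝓞 K))⁰ => ClassGroup.mk0 I = c)).card :=
    Finset.card_eq_sum_card_fiberwise (f := fun I : (Ideal (𝓞 K))⁰ => ClassGroup.mk0 I)
      (t := Finset.univ) (fun _ _ => Finset.mem_univ _)
  rw [hcard, Nat.cast_sum]
  calc ∑ c : ClassGroup (𝓞 K), ((((clb_idealsLE K N).filter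
        (fun I : (Ideal (𝓞 K))⁰ => ClassGroup.mk0 I = c)).card : ℕ) : ℝ)
      ≤ ∑ _c : ClassGroup (𝓞 K), (|κ| + C) * (N : ℝ) := by
        refine Finset.sum_le_sum fun c _ => ?_
        have h := clb_rate_nat hrate c hN
        have h1 := (abs_le.mp h).2
        have h2 : κ * N ≤ |κ| * N := by
          gcongr
          exact le_abs_self κ
        have h3 : C * (N : ℝ) ^ θ ≤ C * N := by gcongr
        nlinarith
    _ = ((Fintype.card (ClassGroup (𝓞 K)) : ℝ) * (|κ| + C)) * (N : ℝ) := by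
        rw [Finset.sum_const, Finset.card_univ, nsmul_eq_mul]
        ring

/-- Absolute convergence of the L-series for `s > 1`. -/
theorem clb_summable {κ C θ : ℝ} (hθ : θ ≤ 1) (hrate : clb_Rate K κ C θ) {s : ℝ} (hs : 1 < s) :
    LSeriesSummable (idealCoeff K (divChar K f)) (s : ℂ) := by
  classical
  refine LSeriesSummable_of_sum_norm_bigO (r := 1) ?_ zero_le_one (by simpa using hs)
  refine Asymptotics.IsBigO.of_bound ((Fintype.card (ClassGroup (𝓞 K)) : ℝ) * (|κ| + C)) ?_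
  filter_upwards [Filter.eventually_ge_atTop 1] with N hN
  rw [Real.rpow_one, Real.norm_of_nonneg (Nat.cast_nonneg N),
    Real.norm_of_nonneg (Finset.sum_nonneg fun _ _ => norm_nonneg _)]
  refine le_trans ?_ (clb_card_idealsLE_le hθ hrate hN)
  have hcard : (clb_idealsLE K N).card =
      ∑ k ∈ Finset.Icc 1 N, ((clb_idealsLE K N).filter
        (fun I : (Ideal (𝓞 K))⁰ => Ideal.absNorm (I : Ideal (𝓞 K)) = k)).card :=
    Finset.card_eq_sum_card_fiberwise
      (f := fun I : (Ideal (𝓞 K))⁰ => Ideal.absNorm (I : Ideal (𝓞 K)))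
      (t := Finset.Icc 1 N) (fun I hI => by
        rw [Finset.mem_coe, Finset.mem_Icc]
        exact ⟨clb_one_le_absNorm I, clb_mem_idealsLE.mp hI⟩)
  rw [hcard, Nat.cast_sum]
  refine Finset.sum_le_sum fun k hk => ?_
  rw [Finset.mem_Icc] at hk
  rw [clb_idealCoeff_eq _ hk.1 hk.2]
  calc ‖∑ I ∈ (clb_idealsLE K N).filter
          (fun I : (Ideal (𝓞 K))⁰ => Ideal.absNorm (I : Ideal (𝓞 K)) = k),
          divChar K f (I : Ideal (𝓞 K))‖
      ≤ ∑ I ∈ (clb_idealsLE K N).filter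
          (fun I : (Ideal (𝓞 K))⁰ => Ideal.absNorm (I : Ideal (𝓞 K)) = k),
          ‖divChar K f (I : Ideal (𝓞 K))‖ := norm_sum_le _ _
    _ ≤ ∑ _I ∈ (clb_idealsLE K N).filter
          (fun I : (Ideal (𝓞 K))⁰ => Ideal.absNorm (I : Ideal (𝓞 K)) = k), (1 : ℝ) :=
        Finset.sum_le_sum fun I _ => norm_divChar_le K f _
    _ = _ := by rw [Finset.sum_const, nsmul_eq_mul, mul_one]

/-- The bound, from the rate hypothesis. -/
theorem clb_norm_LSeries_le_of_rate (hprin : ∀ x : K, x ≠ 0 → f (divOf K x) = 0) (hf : f ≠ 0)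
    {κ C θ : ℝ} (hθ0 : 0 ≤ θ) (hθ1 : θ < 1) (hrate : clb_Rate K κ C θ) {s : ℝ} (hs1 : 1 < s)
    (hs2 : s < 2) :
    ‖LSeries (idealCoeff K (divChar K f)) (s : ℂ)‖ ≤
      2 * ((Fintype.card (ClassGroup (𝓞 K)) : ℝ) * C) / (1 - θ) :=
  clb_abel_bound _ hθ0 hθ1 (mul_nonneg (Nat.cast_nonneg _) (clb_rate_nonneg hrate))
    (fun _ hN => clb_norm_sum_le f hprin hf hrate hN) hs1 hs2 (clb_summable f hθ1.le hrate hs1)

end main

/-- (D3b-1) The L-series of a nontrivial class character is bounded on `(1,2)`. -/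
theorem norm_LSeries_idealCoeff_divChar_le {m : ℕ} [NeZero m] {K : Type} [Field K] [NumberField K]
    (f : Div K →+ ZMod m) (hprin : ∀ x : K, x ≠ 0 → f (divOf K x) = 0) (hf : f ≠ 0) :
    ∃ M : ℝ, ∀ s : ℝ, 1 < s → s < 2 →
      ‖LSeries (idealCoeff K (divChar K f)) (s : ℂ)‖ ≤ M := by
  obtain ⟨κ, C, _, hrate⟩ := classCount_rate K
  have hn : (1 : ℝ) ≤ (Module.finrank ℚ K : ℝ) := by
    exact_mod_cast Module.finrank_pos (R := ℚ) (M := K)
  have hθ0 : (0 : ℝ) ≤ 1 - 1 / (Module.finrank ℚ K : ℝ) := by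
    rw [sub_nonneg, div_le_one (by linarith)]
    exact hn
  have hθ1 : 1 - 1 / (Module.finrank ℚ K : ℝ) < 1 := by
    have : 0 < 1 / (Module.finrank ℚ K : ℝ) := by positivity
    linarith
  exact ⟨_, fun s hs1 hs2 => clb_norm_LSeries_le_of_rate f hprin hf hθ0 hθ1 hrate hs1 hs2⟩

end Fermat.Agent.S14
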