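import Mathlib

/-!
# S14, package D1: counting lattice points with a power-saving error term

For a bounded set `D ⊆ ι → ℝ` whose frontier is covered by finitely many Lipschitz images of
the unit cube `[0,1]^d`, the number of points of `ℤ^ι` in `t • D` is
`vol(D) t^n + O(t^d)` (`n = card ι`; the classical case is `d = n - 1`).
No measurability assumption on `D` is needed.
-/

set_option autoImplicit false
set_option linter.unusedSectionVars false

noncomputable section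

namespace Fermat.Agent.S14

open MeasureTheory Set Pointwise
open scoped Classical

section Cubes

variable {ι : Type*} [Fintype ι]

/-- The half-open unit cube with lower corner `k`. -/
def lcCube (k : ι → ℤ) : Set (ι → ℝ) := Set.pi Set.univ fun i => Set.Ico (k i : ℝ) ((k i : ℝ) + 1)

theorem mem_lcCube {k : ι → ℤ} {x : ι → ℝ} :
    x ∈ lcCube k ↔ ∀ i, (k i : ℝ) ≤ x i ∧ x i < (k i : ℝ) + 1 := by
  simp [lcCube, Set.mem_pi]

theorem mem_lcCube_iff_floor {k : ι → ℤ} {x : ι → ℝ} : x ∈ lcCube k ↔ ∀ i, ⌊x i⌋ = k i := by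
  rw [mem_lcCube]
  refine forall_congr' fun i => ?_
  rw [Int.floor_eq_iff]

theorem mem_lcCube_floor (x : ι → ℝ) : x ∈ lcCube (fun i => ⌊x i⌋) :=
  mem_lcCube_iff_floor.mpr fun _ => rfl

theorem intCast_mem_lcCube (k : ι → ℤ) : (fun i => (k i : ℝ)) ∈ lcCube k :=
  mem_lcCube_iff_floor.mpr fun i => Int.floor_intCast (k i)

theorem lcCube_disjoint {k k' : ι → ℤ} (h : k ≠ k') : Disjoint (lcCube k) (lcCube k') := by
  rw [Set.disjoint_left]
  intro x hx hx'
  apply h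
  funext i
  rw [← mem_lcCube_iff_floor.mp hx i, ← mem_lcCube_iff_floor.mp hx' i]

theorem measurableSet_lcCube (k : ι → ℤ) : MeasurableSet (lcCube k) :=
  MeasurableSet.univ_pi fun _ => measurableSet_Ico

theorem volume_lcCube (k : ι → ℤ) : volume (lcCube k) = 1 := by
  rw [lcCube, Real.volume_pi_Ico]
  simp

theorem convex_lcCube (k : ι → ℤ) : Convex ℝ (lcCube k) :=
  convex_pi fun _ _ => convex_Ico _ _

theorem isPreconnected_lcCube (k : ι → ℤ) : IsPreconnected (lcCube k) :=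
  (convex_lcCube k).isPreconnected

end Cubes

/-- A preconnected set which meets `A` and its complement meets the frontier of `A`. -/
theorem lc_inter_frontier_nonempty {X : Type*} [TopologicalSpace X] {C A : Set X}
    (hC : IsPreconnected C) (h1 : (C ∩ A).Nonempty) (h2 : (C ∩ Aᶜ).Nonempty) :
    (C ∩ frontier A).Nonempty := by
  by_contra hne
  rw [Set.not_nonempty_iff_eq_empty] at hne
  have hsub : C ⊆ interior A ∪ interior Aᶜ := by
    intro x hx
    by_cases hxA : x ∈ interior A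
    · exact Or.inl hxA
    · right
      rw [interior_compl]
      intro hcl
      have : x ∈ C ∩ frontier A := ⟨hx, hcl, hxA⟩
      rw [hne] at this
      exact this
  have hdisj : Disjoint (interior A) (interior Aᶜ) :=
    Set.disjoint_left.mpr fun x hx hx' => interior_subset hx' (interior_subset hx)
  rcases hC.subset_or_subset isOpen_interior isOpen_interior hdisj hsub with h | h
  · obtain ⟨x, hxC, hxA⟩ := h2
    exact hxA (interior_subset (h hxC))
  · obtain ⟨x, hxC, hxA⟩ := h1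
    exact (interior_subset (h hxC)) hxA

section IndexBox

variable {ι : Type*} [Fintype ι]

/-- The finite box of cube indices within sup-distance `R` of `x₀`. -/
def lcBox (x₀ : ι → ℝ) (R : ℝ) : Finset (ι → ℤ) :=
  Fintype.piFinset fun i => Finset.Icc ⌊x₀ i - R⌋ ⌊x₀ i + R⌋

theorem mem_lcBox_of_mem_lcCube {x₀ : ι → ℝ} {R : ℝ} {k : ι → ℤ} {y : ι → ℝ}
    (hy : y ∈ lcCube k) (hd : ∀ i, |y i - x₀ i| ≤ R) : k ∈ lcBox x₀ R := by
  rw [lcBox, Fintype.mem_piFinset]
  intro i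
  rw [Finset.mem_Icc, ← mem_lcCube_iff_floor.mp hy i]
  have := abs_le.mp (hd i)
  constructor
  · exact Int.floor_le_floor (by linarith [this.1])
  · exact Int.floor_le_floor (by linarith [this.2])

theorem card_lcBox_le (x₀ : ι → ℝ) {R : ℝ} (_hR : 0 ≤ R) :
    (lcBox x₀ R).card ≤ (⌈2 * R⌉₊ + 2) ^ Fintype.card ι := by
  rw [lcBox, Fintype.card_piFinset]
  have : ∀ i, (Finset.Icc ⌊x₀ i - R⌋ ⌊x₀ i + R⌋).card ≤ ⌈2 * R⌉₊ + 2 := by
    intro i
    rw [Int.card_Icc]
    have h1 : (⌊x₀ i + R⌋ : ℝ) ≤ x₀ i + R := Int.floor_le _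
    have h2 : x₀ i - R - 1 < (⌊x₀ i - R⌋ : ℝ) := by
      have := Int.lt_floor_add_one (x₀ i - R)
      linarith
    have h3 : ((⌊x₀ i + R⌋ - ⌊x₀ i - R⌋ : ℤ) : ℝ) < 2 * R + 1 := by
      push_cast
      linarith
    have h4 : (2 * R : ℝ) ≤ ((⌈2 * R⌉₊ : ℕ) : ℝ) := Nat.le_ceil _
    have h5 : ((⌊x₀ i + R⌋ - ⌊x₀ i - R⌋ : ℤ) : ℝ) < (((⌈2 * R⌉₊ : ℕ) : ℤ) + 1 : ℤ) := by
      push_cast
      push_cast at h3
      linarith
    have h6 : ⌊x₀ i + R⌋ - ⌊x₀ i - R⌋ < ((⌈2 * R⌉₊ : ℕ) : ℤ) + 1 := by exact_mod_cast h5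
    omega
  calc ∏ i, (Finset.Icc ⌊x₀ i - R⌋ ⌊x₀ i + R⌋).card
      ≤ ∏ _i : ι, (⌈2 * R⌉₊ + 2) := Finset.prod_le_prod' fun i _ => this i
    _ = (⌈2 * R⌉₊ + 2) ^ Fintype.card ι := by
        rw [Finset.prod_const, Finset.card_univ]

end IndexBox

section Sandwich

variable {ι : Type*} [Fintype ι]

/-- An integer vector as a real vector. -/
def lcPt (k : ι → ℤ) : ι → ℝ := fun i => (k i : ℝ)

theorem lcPt_injective : Function.Injective (lcPt : (ι → ℤ) → ι → ℝ) := by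
  intro k k' h
  funext i
  have := congrFun h i
  simp only [lcPt] at this
  exact_mod_cast this

theorem lcPt_mem_lcCube (k : ι → ℤ) : lcPt k ∈ lcCube k := intCast_mem_lcCube k

/-- The integer points of a bounded set are counted by a filter of the index box. -/
theorem lc_natCard_eq {A : Set (ι → ℝ)} {R : ℝ} (hA : ∀ y ∈ A, ∀ i, |y i| ≤ R) :
    Nat.card ↥(A ∩ Set.range (lcPt : (ι → ℤ) → ι → ℝ))
      = ((lcBox (0 : ι → ℝ) R).filter fun k => lcPt k ∈ A).card := by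
  have himg : A ∩ Set.range (lcPt : (ι → ℤ) → ι → ℝ)
      = lcPt '' (((lcBox (0 : ι → ℝ) R).filter fun k => lcPt k ∈ A : Finset (ι → ℤ)) :
        Set (ι → ℤ)) := by
    ext x
    constructor
    · rintro ⟨hxA, k, rfl⟩
      refine ⟨k, ?_, rfl⟩
      rw [Finset.mem_coe, Finset.mem_filter]
      refine ⟨mem_lcBox_of_mem_lcCube (lcPt_mem_lcCube k) fun i => ?_, hxA⟩
      simpa using hA _ hxA i
    · rintro ⟨k, hk, rfl⟩
      rw [Finset.mem_coe, Finset.mem_filter] at hk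
      exact ⟨hk.2, k, rfl⟩
  rw [_root_.Nat.card_coe_set_eq, himg, Set.ncard_image_of_injective _ lcPt_injective,
    Set.ncard_coe_finset]

/-- The sandwich: the number of integer points of a bounded set `A` and its (outer) volume
differ by at most the number of unit cubes meeting the frontier of `A`. -/
theorem lc_sandwich {A : Set (ι → ℝ)} {R : ℝ} (hA : ∀ y ∈ A, ∀ i, |y i| ≤ R) :
    volume A ≠ ⊤ ∧
    |(((lcBox (0 : ι → ℝ) R).filter fun k => lcPt k ∈ A).card : ℝ) - (volume A).toReal|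
      ≤ (((lcBox (0 : ι → ℝ) R).filter fun k => (lcCube k ∩ frontier A).Nonempty).card : ℝ) := by
  set Bx := lcBox (0 : ι → ℝ) R with hBx
  set Zs := Bx.filter fun k => lcPt k ∈ A with hZs
  set Is := Bx.filter fun k => lcCube k ⊆ A with hIs
  set Os := Bx.filter fun k => (lcCube k ∩ A).Nonempty with hOs
  set Fs := Bx.filter fun k => (lcCube k ∩ frontier A).Nonempty with hFs
  have hbox : ∀ {k : ι → ℤ} {y : ι → ℝ}, y ∈ lcCube k → y ∈ A → k ∈ Bx := by
    intro k y hy hyA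
    exact mem_lcBox_of_mem_lcCube hy fun i => by simpa using hA y hyA i
  have hIZ : Is ⊆ Zs := by
    intro k hk
    rw [hIs, Finset.mem_filter] at hk
    rw [hZs, Finset.mem_filter]
    exact ⟨hk.1, hk.2 (lcPt_mem_lcCube k)⟩
  have hZO : Zs ⊆ Os := by
    intro k hk
    rw [hZs, Finset.mem_filter] at hk
    rw [hOs, Finset.mem_filter]
    exact ⟨hk.1, lcPt k, lcPt_mem_lcCube k, hk.2⟩
  have hOIF : Os ⊆ Is ∪ Fs := by
    intro k hk
    rw [hOs, Finset.mem_filter] at hk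
    rw [Finset.mem_union]
    by_cases hsub : lcCube k ⊆ A
    · left
      rw [hIs, Finset.mem_filter]
      exact ⟨hk.1, hsub⟩
    · right
      rw [hFs, Finset.mem_filter]
      refine ⟨hk.1, lc_inter_frontier_nonempty (isPreconnected_lcCube k) hk.2 ?_⟩
      rw [Set.not_subset] at hsub
      obtain ⟨y, hy, hyA⟩ := hsub
      exact ⟨y, hy, hyA⟩
  have hvolI : (Is.card : ENNReal) ≤ volume A := by
    have hsub : (⋃ k ∈ Is, lcCube k) ⊆ A := by
      intro x hx
      simp only [Set.mem_iUnion] at hx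
      obtain ⟨k, hk, hxk⟩ := hx
      rw [hIs, Finset.mem_filter] at hk
      exact hk.2 hxk
    have hmeas : volume (⋃ k ∈ Is, lcCube k) = ∑ k ∈ Is, volume (lcCube k) :=
      measure_biUnion_finset (fun k _ k' _ hkk' => lcCube_disjoint hkk')
        (fun k _ => measurableSet_lcCube k)
    calc (Is.card : ENNReal) = ∑ k ∈ Is, volume (lcCube k) := by
          simp [volume_lcCube]
      _ = volume (⋃ k ∈ Is, lcCube k) := hmeas.symm
      _ ≤ volume A := measure_mono hsub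
  have hvolO : volume A ≤ (Os.card : ENNReal) := by
    have hsub : A ⊆ ⋃ k ∈ Os, lcCube k := by
      intro x hx
      simp only [Set.mem_iUnion]
      refine ⟨fun i => ⌊x i⌋, ?_, mem_lcCube_floor x⟩
      rw [hOs, Finset.mem_filter]
      exact ⟨hbox (mem_lcCube_floor x) hx, x, mem_lcCube_floor x, hx⟩
    calc volume A ≤ volume (⋃ k ∈ Os, lcCube k) := measure_mono hsub
      _ ≤ ∑ k ∈ Os, volume (lcCube k) := measure_biUnion_finset_le _ _
      _ = (Os.card : ENNReal) := by simp [volume_lcCube]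
  have hfin : volume A ≠ ⊤ := ne_top_of_le_ne_top (ENNReal.natCast_ne_top _) hvolO
  refine ⟨hfin, ?_⟩
  have h1 : (Is.card : ℝ) ≤ (volume A).toReal := by
    have := (ENNReal.toReal_le_toReal (ENNReal.natCast_ne_top _) hfin).mpr hvolI
    simpa using this
  have h2 : (volume A).toReal ≤ (Os.card : ℝ) := by
    have := (ENNReal.toReal_le_toReal hfin (ENNReal.natCast_ne_top _)).mpr hvolO
    simpa using this
  have h3 : (Is.card : ℝ) ≤ Zs.card := by exact_mod_cast Finset.card_le_card hIZ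
  have h4 : (Zs.card : ℝ) ≤ Os.card := by exact_mod_cast Finset.card_le_card hZO
  have h5 : (Os.card : ℝ) ≤ Is.card + Fs.card := by
    have := (Finset.card_le_card hOIF).trans (Finset.card_union_le _ _)
    exact_mod_cast this
  rw [abs_le]
  constructor <;> linarith

end Sandwich

section LipschitzCover

variable {ι κ : Type*} [Fintype ι] [Fintype κ]

/-- Two points of the unit cube whose coordinates, multiplied by `N`, have the same integer
parts are at sup-distance at most `1 / N`. -/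
theorem lc_dist_le_of_floor_eq {N : ℕ} (hN : 0 < N) {u u' : κ → ℝ}
    (hu : u ∈ Set.Icc (0 : κ → ℝ) 1) (hu' : u' ∈ Set.Icc (0 : κ → ℝ) 1)
    (h : ∀ l, ⌊(N : ℝ) * u l⌋₊ = ⌊(N : ℝ) * u' l⌋₊) : dist u u' ≤ 1 / N := by
  have hNpos : (0 : ℝ) < N := by exact_mod_cast hN
  rw [dist_pi_le_iff (by positivity)]
  intro l
  have h0 : 0 ≤ (N : ℝ) * u l := mul_nonneg hNpos.le (hu.1 l)
  have h0' : 0 ≤ (N : ℝ) * u' l := mul_nonneg hNpos.le (hu'.1 l)
  have h1 := Nat.floor_le h0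
  have h2 := Nat.lt_floor_add_one ((N : ℝ) * u l)
  have h1' := Nat.floor_le h0'
  have h2' := Nat.lt_floor_add_one ((N : ℝ) * u' l)
  rw [h l] at h1 h2
  rw [Real.dist_eq, le_div_iff₀ hNpos, ← abs_of_pos hNpos, ← abs_mul, abs_le]
  constructor <;> nlinarith [abs_of_pos hNpos]

/-- The number of unit cubes meeting a Lipschitz image of the unit cube `[0,1]^κ`. -/
theorem lc_card_le_of_lipschitzOn {ψ : (κ → ℝ) → (ι → ℝ)} {K : NNReal}
    (hψ : LipschitzOnWith K ψ (Set.Icc 0 1)) {M : ℝ} (hM : 0 ≤ M) {N : ℕ} (hN : 0 < N)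
    (hKN : (K : ℝ) ≤ M * N) (T : Finset (ι → ℤ))
    (hT : ∀ k ∈ T, (lcCube k ∩ ψ '' Set.Icc 0 1).Nonempty) :
    T.card ≤ (⌈2 * M⌉₊ + 2) ^ Fintype.card ι * (N + 1) ^ Fintype.card κ := by
  have hNpos : (0 : ℝ) < N := by exact_mod_cast hN
  have hex : ∀ k : ι → ℤ, ∃ u : κ → ℝ, k ∈ T → u ∈ Set.Icc (0 : κ → ℝ) 1 ∧ ψ u ∈ lcCube k := by
    intro k
    by_cases hk : k ∈ T
    · obtain ⟨y, hyk, u, hu, rfl⟩ := hT k hk
      exact ⟨u, fun _ => ⟨hu, hyk⟩⟩
    · exact ⟨0, fun h => absurd h hk⟩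
  choose u hu using hex
  let g : (ι → ℤ) → (κ → ℕ) := fun k l => ⌊(N : ℝ) * u k l⌋₊
  have hmaps : ∀ k ∈ T, g k ∈ Fintype.piFinset fun _ : κ => Finset.range (N + 1) := by
    intro k hk
    rw [Fintype.mem_piFinset]
    intro l
    rw [Finset.mem_range, Nat.lt_succ_iff]
    apply Nat.floor_le_of_le
    have := (hu k hk).1.2 l
    simp only [Pi.one_apply] at this
    nlinarith
  have hfiber : ∀ a ∈ Fintype.piFinset fun _ : κ => Finset.range (N + 1),
      (T.filter fun k => g k = a).card ≤ (⌈2 * M⌉₊ + 2) ^ Fintype.card ι := by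
    intro a _
    rcases (T.filter fun k => g k = a).eq_empty_or_nonempty with hemp | ⟨k₀, hk₀⟩
    · rw [hemp]; simp
    · rw [Finset.mem_filter] at hk₀
      refine le_trans (Finset.card_le_card ?_) (card_lcBox_le (ψ (u k₀)) hM)
      intro k hk
      rw [Finset.mem_filter] at hk
      refine mem_lcBox_of_mem_lcCube (hu k hk.1).2 fun i => ?_
      have hd : dist (u k) (u k₀) ≤ 1 / N := by
        refine lc_dist_le_of_floor_eq hN (hu k hk.1).1 (hu k₀ hk₀.1).1 fun l => ?_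
        have e1 := congrFun hk.2 l
        have e2 := congrFun hk₀.2 l
        simp only [g] at e1 e2
        rw [e1, e2]
      have h1 := hψ.dist_le_mul (u k) (hu k hk.1).1 (u k₀) (hu k₀ hk₀.1).1
      have h2 : dist (ψ (u k) i) (ψ (u k₀) i) ≤ dist (ψ (u k)) (ψ (u k₀)) :=
        dist_le_pi_dist _ _ i
      rw [Real.dist_eq] at h2
      have h3 : (K : ℝ) * dist (u k) (u k₀) ≤ M := by
        have hK0 : (0 : ℝ) ≤ K := K.coe_nonneg
        calc (K : ℝ) * dist (u k) (u k₀) ≤ K * (1 / N) := by gcongr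
          _ ≤ (M * N) * (1 / N) := by gcongr
          _ = M := by field_simp
      linarith
  have := Finset.card_le_mul_card_image_of_maps_to hmaps _ hfiber
  refine this.trans (le_of_eq ?_)
  rw [Fintype.card_piFinset]
  simp

/-- The number of unit cubes meeting a set covered by `m` Lipschitz images of the unit cube. -/
theorem lc_card_le_of_cover {F : Set (ι → ℝ)} {m : ℕ} {ψ : Fin m → (κ → ℝ) → (ι → ℝ)}
    {K : NNReal} (hψ : ∀ j, LipschitzOnWith K (ψ j) (Set.Icc 0 1))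
    (hcov : F ⊆ ⋃ j, ψ j '' Set.Icc 0 1) {M : ℝ} (hM : 0 ≤ M) {N : ℕ} (hN : 0 < N)
    (hKN : (K : ℝ) ≤ M * N) (T : Finset (ι → ℤ)) (hT : ∀ k ∈ T, (lcCube k ∩ F).Nonempty) :
    T.card ≤ m * ((⌈2 * M⌉₊ + 2) ^ Fintype.card ι * (N + 1) ^ Fintype.card κ) := by
  have hsub : T ⊆ (Finset.univ : Finset (Fin m)).biUnion fun j =>
      T.filter fun k => (lcCube k ∩ ψ j '' Set.Icc 0 1).Nonempty := by
    intro k hk
    obtain ⟨y, hyk, hyF⟩ := hT k hk
    obtain ⟨j, hj⟩ := Set.mem_iUnion.mp (hcov hyF)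
    rw [Finset.mem_biUnion]
    exact ⟨j, Finset.mem_univ _, Finset.mem_filter.mpr ⟨hk, y, hyk, hj⟩⟩
  calc T.card ≤ _ := Finset.card_le_card hsub
    _ ≤ ∑ j : Fin m, (T.filter fun k => (lcCube k ∩ ψ j '' Set.Icc 0 1).Nonempty).card :=
        Finset.card_biUnion_le
    _ ≤ ∑ _j : Fin m, ((⌈2 * M⌉₊ + 2) ^ Fintype.card ι * (N + 1) ^ Fintype.card κ) := by
        refine Finset.sum_le_sum fun j _ => ?_
        exact lc_card_le_of_lipschitzOn (hψ j) hM hN hKN _
          fun k hk => (Finset.mem_filter.mp hk).2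
    _ = m * ((⌈2 * M⌉₊ + 2) ^ Fintype.card ι * (N + 1) ^ Fintype.card κ) := by
        simp

end LipschitzCover

section Main

variable {ι κ : Type*} [Fintype ι] [Fintype κ]

/-- The standard lattice `ℤ^ι ⊆ ι → ℝ`. -/
def lcIntPts (ι : Type*) : Set (ι → ℝ) := Set.range (lcPt : (ι → ℤ) → ι → ℝ)

theorem mem_lcIntPts {x : ι → ℝ} : x ∈ lcIntPts ι ↔ ∀ i, ∃ k : ℤ, (k : ℝ) = x i := by
  constructor
  · rintro ⟨k, rfl⟩ i
    exact ⟨k i, rfl⟩
  · intro h
    choose k hk using h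
    exact ⟨k, funext hk⟩

theorem lc_frontier_smul {t : ℝ} (ht : t ≠ 0) (D : Set (ι → ℝ)) :
    frontier (t • D) = t • frontier D := by
  have h := (Homeomorph.smulOfNeZero t ht).image_frontier D
  simp only [Homeomorph.smulOfNeZero_apply, Set.image_smul] at h
  exact h.symm

/-- **Lattice point counting with a power-saving error term** (standard lattice).
If the frontier of the bounded set `D ⊆ ℝ^ι` is covered by `m` images of the unit cube
`[0,1]^κ` under maps which are `M`-Lipschitz on the cube (sup norms), then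
`#(ℤ^ι ∩ t • D) = vol(D) t^(card ι) + O(t^(card κ))` for `t ≥ 1`, with an explicit constant. -/
theorem lc_card_sub_volume_le_explicit {D : Set (ι → ℝ)} {m : ℕ}
    {φ : Fin m → (κ → ℝ) → (ι → ℝ)} {M : NNReal}
    (hD : Bornology.IsBounded D)
    (hφ : ∀ j, LipschitzOnWith M (φ j) (Set.Icc 0 1))
    (hcov : frontier D ⊆ ⋃ j, φ j '' Set.Icc 0 1) {t : ℝ} (ht : 1 ≤ t) :
    volume D ≠ ⊤ ∧
    |(Nat.card ↥(t • D ∩ lcIntPts ι) : ℝ) - (volume D).toReal * t ^ Fintype.card ι|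
      ≤ (m * ((⌈2 * (M : ℝ)⌉₊ + 2) ^ Fintype.card ι * 3 ^ Fintype.card κ) : ℕ)
          * t ^ Fintype.card κ := by
  have ht0 : 0 < t := lt_of_lt_of_le one_pos ht
  obtain ⟨R₀, hR₀⟩ := hD.subset_closedBall (0 : ι → ℝ)
  -- bound for `t • D`
  have hA : ∀ y ∈ t • D, ∀ i, |y i| ≤ t * R₀ := by
    rintro y ⟨x, hx, rfl⟩ i
    have h1 : ‖x‖ ≤ R₀ := by simpa using hR₀ hx
    have h2 : |x i| ≤ ‖x‖ := by
      have := norm_le_pi_norm x i
      simpa using this
    simp only [Pi.smul_apply, smul_eq_mul, abs_mul, abs_of_pos ht0]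
    exact mul_le_mul_of_nonneg_left (h2.trans h1) ht0.le
  obtain ⟨hfin, hsand⟩ := lc_sandwich hA
  rw [← lc_natCard_eq hA] at hsand
  -- volume of `t • D`
  have hvol : volume (t • D) = ENNReal.ofReal (t ^ Fintype.card ι) * volume D := by
    rw [Measure.addHaar_smul, Module.finrank_fintype_fun_eq_card, abs_of_pos (pow_pos ht0 _)]
  have hvolD : volume D ≠ ⊤ := by
    intro htop
    rw [hvol, htop, ENNReal.mul_top (by simpa using pow_pos ht0 _)] at hfin
    exact hfin rfl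
  refine ⟨hvolD, ?_⟩
  have hvol' : (volume (t • D)).toReal = (volume D).toReal * t ^ Fintype.card ι := by
    rw [hvol, ENNReal.toReal_mul, ENNReal.toReal_ofReal (pow_pos ht0 _).le, mul_comm]
  rw [lcIntPts, ← hvol']
  refine hsand.trans ?_
  -- the frontier of `t • D`
  set N : ℕ := ⌈t⌉₊ with hN
  have hNpos : 0 < N := Nat.ceil_pos.mpr ht0
  have hNt : t ≤ N := Nat.le_ceil t
  have hN3 : ((N + 1 : ℕ) : ℝ) ≤ 3 * t := by
    have := Nat.ceil_lt_add_one ht0.le
    push_cast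
    linarith
  let tn : NNReal := ⟨t, ht0.le⟩
  have hψ : ∀ j, LipschitzOnWith (tn * M) (fun u => t • φ j u) (Set.Icc 0 1) := by
    intro j
    refine LipschitzOnWith.of_dist_le_mul fun u hu u' hu' => ?_
    rw [dist_smul₀, Real.norm_of_nonneg ht0.le]
    have := (hφ j).dist_le_mul u hu u' hu'
    push_cast
    rw [mul_assoc]
    exact mul_le_mul_of_nonneg_left this ht0.le
  have hcov' : frontier (t • D) ⊆ ⋃ j, (fun u => t • φ j u) '' Set.Icc 0 1 := by
    rw [lc_frontier_smul ht0.ne']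
    rintro y ⟨x, hx, rfl⟩
    obtain ⟨j, u, hu, rfl⟩ := Set.mem_iUnion.mp (hcov hx)
    exact Set.mem_iUnion.mpr ⟨j, u, hu, rfl⟩
  have hKN : ((tn * M : NNReal) : ℝ) ≤ (M : ℝ) * N := by
    push_cast
    rw [mul_comm]
    exact mul_le_mul_of_nonneg_left hNt M.coe_nonneg
  have hcard := lc_card_le_of_cover hψ hcov' M.coe_nonneg hNpos hKN
    ((lcBox (0 : ι → ℝ) (t * R₀)).filter fun k => (lcCube k ∩ frontier (t • D)).Nonempty)
    fun k hk => (Finset.mem_filter.mp hk).2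
  have hcard' : ((((lcBox (0 : ι → ℝ) (t * R₀)).filter
      fun k => (lcCube k ∩ frontier (t • D)).Nonempty).card : ℕ) : ℝ)
      ≤ ((m * ((⌈2 * (M : ℝ)⌉₊ + 2) ^ Fintype.card ι * (N + 1) ^ Fintype.card κ) : ℕ) : ℝ) := by
    exact_mod_cast hcard
  refine hcard'.trans ?_
  push_cast
  have hpow : ((N : ℝ) + 1) ^ Fintype.card κ ≤ 3 ^ Fintype.card κ * t ^ Fintype.card κ := by
    rw [← mul_pow]
    have : (N : ℝ) + 1 ≤ 3 * t := by exact_mod_cast hN3
    gcongr
  calc (m : ℝ) * (((⌈2 * (M : ℝ)⌉₊ : ℝ) + 2) ^ Fintype.card ι * ((N : ℝ) + 1) ^ Fintype.card κ)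
      ≤ (m : ℝ) * (((⌈2 * (M : ℝ)⌉₊ : ℝ) + 2) ^ Fintype.card ι
          * (3 ^ Fintype.card κ * t ^ Fintype.card κ)) := by gcongr
    _ = (m : ℝ) * (((⌈2 * (M : ℝ)⌉₊ : ℝ) + 2) ^ Fintype.card ι * 3 ^ Fintype.card κ)
          * t ^ Fintype.card κ := by ring

/-- **Lattice point counting with a power-saving error term** (standard lattice), existential
form. -/
theorem lc_card_sub_volume_le {D : Set (ι → ℝ)} {m : ℕ}
    {φ : Fin m → (κ → ℝ) → (ι → ℝ)} {M : NNReal}
    (hD : Bornology.IsBounded D)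
    (hφ : ∀ j, LipschitzOnWith M (φ j) (Set.Icc 0 1))
    (hcov : frontier D ⊆ ⋃ j, φ j '' Set.Icc 0 1) :
    ∃ C : ℝ, 0 ≤ C ∧ ∀ t : ℝ, 1 ≤ t →
      |(Nat.card ↥(t • D ∩ lcIntPts ι) : ℝ) - (volume D).toReal * t ^ Fintype.card ι|
        ≤ C * t ^ Fintype.card κ :=
  ⟨_, Nat.cast_nonneg _, fun _ ht => (lc_card_sub_volume_le_explicit hD hφ hcov ht).2⟩

end Main

section Transport

open Module Bornology

variable {E : Type*} [NormedAddCommGroup E] [NormedSpace ℝ E] [FiniteDimensional ℝ E]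
variable {L : Submodule ℤ E} [DiscreteTopology L] [IsZLattice ℝ L]
variable {ι : Type*} [Fintype ι] (b : Basis ι ℤ L)
variable {κ : Type*} [Fintype κ]

/-- In the coordinates of a `ℤ`-basis, the lattice is the standard lattice. -/
theorem lc_mem_lattice_iff (x : E) :
    x ∈ L ↔ (b.ofZLatticeBasis ℝ L).equivFun x ∈ lcIntPts ι := by
  rw [mem_lcIntPts]
  conv_lhs => rw [← b.ofZLatticeBasis_span ℝ]
  rw [Basis.mem_span_iff_repr_mem]
  rfl

/-- Lattice point counting with a power-saving error term, general lattice, volume in the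
coordinates of a `ℤ`-basis of the lattice. -/
theorem lc_card_smul_inter_sub_le {s : Set E} (hs : IsBounded s) {m : ℕ}
    {φ : Fin m → (κ → ℝ) → E} {M : NNReal}
    (hφ : ∀ j, LipschitzOnWith M (φ j) (Set.Icc 0 1))
    (hcov : frontier s ⊆ ⋃ j, φ j '' Set.Icc 0 1) :
    ∃ C : ℝ, 0 ≤ C ∧ ∀ t : ℝ, 1 ≤ t →
      |(Nat.card ↥(t • s ∩ (L : Set E)) : ℝ)
        - (volume ((b.ofZLatticeBasis ℝ L).equivFun '' s)).toReal * t ^ Fintype.card ι|
        ≤ C * t ^ Fintype.card κ := by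
  set e := (b.ofZLatticeBasis ℝ L).equivFun with he
  set eL := (b.ofZLatticeBasis ℝ L).equivFunL with heL
  have heq : ∀ x, eL x = e x := fun _ => rfl
  have hD : IsBounded (e '' s) := by
    rw [← NormedSpace.isVonNBounded_iff ℝ] at hs ⊢
    exact hs.image (eL : E →L[ℝ] ι → ℝ)
  have hψ : ∀ j, LipschitzOnWith (‖(eL : E →L[ℝ] ι → ℝ)‖₊ * M) (fun u => e (φ j u))
      (Set.Icc 0 1) := fun j =>
    ((eL : E →L[ℝ] ι → ℝ).lipschitz.comp_lipschitzOnWith (hφ j))
  have hcov' : frontier (e '' s) ⊆ ⋃ j, (fun u => e (φ j u)) '' Set.Icc 0 1 := by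
    have h1 : frontier (e '' s) = e '' frontier s := (eL.toHomeomorph.image_frontier s).symm
    rw [h1]
    rintro _ ⟨x, hx, rfl⟩
    obtain ⟨j, u, hu, rfl⟩ := Set.mem_iUnion.mp (hcov hx)
    exact Set.mem_iUnion.mpr ⟨j, u, hu, rfl⟩
  obtain ⟨C, hC0, hC⟩ := lc_card_sub_volume_le hD hψ hcov'
  refine ⟨C, hC0, fun t ht => ?_⟩
  have ht0 : t ≠ 0 := (lt_of_lt_of_le one_pos ht).ne'
  have hcard : Nat.card ↥(t • s ∩ (L : Set E)) = Nat.card ↥(t • (e '' s) ∩ lcIntPts ι) := by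
    refine Nat.card_congr (e.toEquiv.subtypeEquiv fun x => ?_)
    rw [Set.mem_inter_iff, Set.mem_inter_iff, SetLike.mem_coe, lc_mem_lattice_iff b x,
      Set.mem_smul_set_iff_inv_smul_mem₀ ht0, Set.mem_smul_set_iff_inv_smul_mem₀ ht0]
    have : t⁻¹ • e.toEquiv x = e (t⁻¹ • x) := (map_smul e t⁻¹ x).symm
    rw [this]
    constructor
    · rintro ⟨h1, h2⟩
      exact ⟨⟨_, h1, rfl⟩, h2⟩
    · rintro ⟨⟨y, hy, hxy⟩, h2⟩
      rw [e.injective hxy] at hy
      exact ⟨hy, h2⟩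
  rw [hcard]
  exact hC t ht

end Transport

section InnerProduct

open Module Bornology

variable {E : Type*} [NormedAddCommGroup E] [InnerProductSpace ℝ E] [FiniteDimensional ℝ E]
  [MeasurableSpace E] [BorelSpace E]
variable (L : Submodule ℤ E) [DiscreteTopology L] [IsZLattice ℝ L]
variable {κ : Type*} [Fintype κ]

/-- Lattice point counting with a power-saving error term in a Euclidean space:
`#(t • s ∩ L) = (vol s / covol L) t^n + O(t^(card κ))`. -/
theorem lc_card_smul_inter_sub_le' {s : Set E} (hs₁ : IsBounded s) (hs₂ : NullMeasurableSet s)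
    {m : ℕ} {φ : Fin m → (κ → ℝ) → E} {M : NNReal}
    (hφ : ∀ j, LipschitzOnWith M (φ j) (Set.Icc 0 1))
    (hcov : frontier s ⊆ ⋃ j, φ j '' Set.Icc 0 1) :
    ∃ C : ℝ, 0 ≤ C ∧ ∀ t : ℝ, 1 ≤ t →
      |(Nat.card ↥(t • s ∩ (L : Set E)) : ℝ)
        - volume.real s / ZLattice.covolume L * t ^ finrank ℝ E| ≤ C * t ^ Fintype.card κ := by
  let b := Module.Free.chooseBasis ℤ L
  obtain ⟨C, hC0, hC⟩ := lc_card_smul_inter_sub_le b hs₁ hφ hcov
  refine ⟨C, hC0, fun t ht => ?_⟩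
  have h := hC t ht
  rw [ZLattice.volume_image_eq_volume_div_covolume' L b hs₂, ENNReal.toReal_div,
    ENNReal.toReal_ofReal (ZLattice.covolume_pos L volume).le,
    ← finrank_eq_card_chooseBasisIndex, ZLattice.rank ℝ L] at h
  exact h

/-- A bounded set whose frontier is covered by finitely many Lipschitz images of the unit
cube of dimension `d`. (Verbatim from `AnalyticSpec.lean`.) -/
def IsLipschitzCovered {E : Type*} [PseudoEMetricSpace E] (d : ℕ) (A : Set E) : Prop :=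
  ∃ (m : ℕ) (φ : Fin m → (Fin d → ℝ) → E) (M : NNReal),
    (∀ i, LipschitzWith M (φ i)) ∧ A ⊆ ⋃ i, φ i '' Set.Icc 0 1

/-- Dilates of the unit sublevel set of a homogeneous function on a cone. -/
theorem lc_smul_sublevel {X : Set E} {F : E → ℝ} {n : ℕ}
    (hX : ∀ ⦃x⦄ ⦃r : ℝ⦄, x ∈ X → 0 < r → r • x ∈ X)
    (h₁ : ∀ x ⦃r : ℝ⦄, 0 ≤ r → F (r • x) = r ^ n * (F x)) {t : ℝ} (ht : 0 < t) :
    t • {x ∈ X | F x ≤ 1} = {x ∈ X | F x ≤ t ^ n} := by
  ext x
  simp_rw [Set.mem_smul_set_iff_inv_smul_mem₀ ht.ne', Set.mem_ofPred_eq, h₁ _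
    (inv_pos_of_pos ht).le, inv_pow, inv_mul_le_iff₀ (pow_pos ht _), mul_one, and_congr_left_iff]
  exact fun _ ↦ ⟨fun h ↦ (smul_inv_smul₀ ht.ne' x) ▸ hX h ht, fun h ↦ hX h (inv_pos_of_pos ht)⟩

/-- (D1) Rate version of Mathlib's `ZLattice.covolume.tendsto_card_le_div'`: if the frontier of
`{x ∈ X | F x ≤ 1}` is covered by finitely many Lipschitz images of `[0,1]^(n-1)`, the number of
lattice points with `F x ≤ c` is `(vol / covol) * c + O(c^(1-1/n))`. -/
theorem card_le_sub_le {E : Type*} [NormedAddCommGroup E] [InnerProductSpace ℝ E]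
    [FiniteDimensional ℝ E] [MeasurableSpace E] [BorelSpace E] [Nontrivial E]
    (L : Submodule ℤ E) [DiscreteTopology L] [IsZLattice ℝ L] {X : Set E} {F : E → ℝ}
    (hX : ∀ ⦃x⦄ ⦃r : ℝ⦄, x ∈ X → 0 < r → r • x ∈ X)
    (h₁ : ∀ x ⦃r : ℝ⦄, 0 ≤ r → F (r • x) = r ^ Module.finrank ℝ E * (F x))
    (h₂ : Bornology.IsBounded {x ∈ X | F x ≤ 1}) (h₃ : MeasurableSet {x ∈ X | F x ≤ 1})
    (h₄ : IsLipschitzCovered (Module.finrank ℝ E - 1) (frontier {x ∈ X | F x ≤ 1})) :
    ∃ C : ℝ, ∀ c : ℝ, 1 ≤ c →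
      |(Nat.card ({x ∈ X | F x ≤ c} ∩ L : Set E) : ℝ) -
          volume.real {x ∈ X | F x ≤ 1} / ZLattice.covolume L * c| ≤
        C * c ^ (1 - 1 / (Module.finrank ℝ E : ℝ)) := by
  obtain ⟨m, φ, M, hφ, hcov⟩ := h₄
  obtain ⟨C, -, hC⟩ := lc_card_smul_inter_sub_le' L h₂ h₃.nullMeasurableSet
    (fun j => (hφ j).lipschitzOnWith) hcov
  refine ⟨C, fun c hc => ?_⟩
  have hn : 0 < Module.finrank ℝ E := Module.finrank_pos
  have hn' : (Module.finrank ℝ E : ℝ) ≠ 0 := by exact_mod_cast hn.ne'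
  have hc0 : 0 ≤ c := le_trans zero_le_one hc
  set t : ℝ := c ^ ((Module.finrank ℝ E : ℝ)⁻¹) with ht
  have ht1 : 1 ≤ t := Real.one_le_rpow hc (by positivity)
  have ht0 : 0 < t := lt_of_lt_of_le one_pos ht1
  have htn : t ^ Module.finrank ℝ E = c := Real.rpow_inv_natCast_pow hc0 hn.ne'
  have htk : t ^ Fintype.card (Fin (Module.finrank ℝ E - 1))
      = c ^ (1 - 1 / (Module.finrank ℝ E : ℝ)) := by
    rw [Fintype.card_fin, ht, ← Real.rpow_natCast, ← Real.rpow_mul hc0]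
    congr 1
    rw [Nat.cast_sub hn, Nat.cast_one]
    field_simp
  have h := hC t ht1
  rw [lc_smul_sublevel hX h₁ ht0, htn, htk] at h
  exact h

end InnerProduct

end Fermat.Agent.S14
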