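import Fermat.Agent.S14.Artin

/-!
# S14, package G3 (auxiliary file): restriction maps, inertia, Frobenius in towers
-/

set_option autoImplicit false

namespace Fermat.Agent.S14

open NumberField IsDedekindDomain
open scoped Pointwise

section Inertia

variable {K : Type*} [Field K] [NumberField K] {L : Type*} [Field L] [NumberField L] [Algebra K L]
  [IsGalois K L]

/-- The inertia group of a prime in a Galois extension of number fields has `e` elements. -/
theorem cross_card_inertia (P : Ideal (𝓞 L)) [P.IsPrime] :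
    Nat.card (P.inertia (L ≃ₐ[K] L)) = P.ramificationIdx (𝓞 K) := by
  have : P.LiesOver (P.under (𝓞 K)) := ⟨rfl⟩
  rw [Ideal.card_inertia_eq_ramificationIdxIn (P.under (𝓞 K)) P,
    Ideal.ramificationIdxIn_eq_ramificationIdx (P.under (𝓞 K)) P (L ≃ₐ[K] L)]

/-- At an unramified prime the inertia group is trivial. -/
theorem cross_inertia_eq_bot (P : Ideal (𝓞 L)) [P.IsPrime] [Algebra.IsUnramifiedAt (𝓞 K) P] :
    P.inertia (L ≃ₐ[K] L) = ⊥ := by
  rw [← Subgroup.card_eq_one, cross_card_inertia, Ideal.ramificationIdx_eq_one]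

/-- A prime with trivial inertia group is unramified. -/
theorem cross_isUnramifiedAt_of_inertia (P : Ideal (𝓞 L)) [P.IsPrime]
    (h : P.inertia (L ≃ₐ[K] L) = ⊥) : Algebra.IsUnramifiedAt (𝓞 K) P := by
  rw [← Ideal.ramificationIdx_eq_one_iff, ← cross_card_inertia, h, Subgroup.card_bot]

end Inertia

section CrossRes

variable (K : Type*) [Field K] (L : Type*) [Field L] [Algebra K L] [Normal K L]
  {F : Type*} [Field F] [Algebra K F] {N : Type*} [Field N] [Algebra K N] [Algebra F N]
  [Algebra L N] [IsScalarTower K F N] [IsScalarTower K L N]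

/-- Restriction `Gal(N/F) → Gal(L/K)` for `K ⊆ F ⊆ N`, `K ⊆ L ⊆ N`, `L/K` normal. -/
noncomputable def crossRes : (N ≃ₐ[F] N) →* (L ≃ₐ[K] L) :=
  (AlgEquiv.restrictNormalHom L).comp (AlgEquiv.restrictScalarsHom K)

theorem crossRes_commutes (τ : N ≃ₐ[F] N) (y : L) :
    algebraMap L N (crossRes K L τ y) = τ (algebraMap L N y) := by
  show algebraMap L N ((τ.restrictScalars K).restrictNormal L y) = τ (algebraMap L N y)
  rw [AlgEquiv.restrictNormal_commutes]
  rfl

variable {K L}

/-- A `K`-automorphism of `L` is determined by its effect inside `N`. -/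
theorem crossRes_eq_of_commutes {τ : N ≃ₐ[F] N} {h : L ≃ₐ[K] L}
    (hh : ∀ y : L, τ (algebraMap L N y) = algebraMap L N (h y)) : crossRes K L τ = h := by
  ext y
  apply (algebraMap L N).injective
  rw [crossRes_commutes, hh]

theorem crossRes_eq_one_iff {τ : N ≃ₐ[F] N} :
    crossRes K L τ = 1 ↔ ∀ y : L, τ (algebraMap L N y) = algebraMap L N y := by
  constructor
  · intro h y
    rw [← crossRes_commutes K L, h]
    rfl
  · intro h
    exact crossRes_eq_of_commutes (h := 1) h

end CrossRes

section CrossResInt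

variable {K : Type*} [Field K] [NumberField K] {L : Type*} [Field L] [NumberField L] [Algebra K L]
  [Normal K L]
  {F : Type*} [Field F] [NumberField F] [Algebra K F] {N : Type*} [Field N] [NumberField N]
  [Algebra K N] [Algebra F N] [Algebra L N] [IsScalarTower K F N] [IsScalarTower K L N]

omit [NumberField K] [NumberField L] [NumberField F] [NumberField N] in
theorem crossRes_smul_algebraMap (τ : N ≃ₐ[F] N) (y : 𝓞 L) :
    algebraMap (𝓞 L) (𝓞 N) (crossRes K L τ • y) = τ • algebraMap (𝓞 L) (𝓞 N) y := by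
  apply Subtype.ext
  exact crossRes_commutes K L τ (y : L)

/-- Inertia elements restrict to inertia elements. -/
theorem crossRes_mem_inertia {Q : Ideal (𝓞 N)} {τ : N ≃ₐ[F] N} (hτ : τ ∈ Q.inertia (N ≃ₐ[F] N)) :
    crossRes K L τ ∈ (Q.under (𝓞 L)).inertia (L ≃ₐ[K] L) := by
  intro y
  show crossRes K L τ • y - y ∈ Q.under (𝓞 L)
  rw [Ideal.under_def, Ideal.mem_comap, map_sub, crossRes_smul_algebraMap]
  exact hτ (algebraMap (𝓞 L) (𝓞 N) y)

/-- A Frobenius element (relative to `K`) restricts to a Frobenius element. -/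
theorem crossRes_isArithFrobAt [IsGalois K L] [IsGalois K N] {Q : Ideal (𝓞 N)} {σ : N ≃ₐ[K] N}
    (hσ : IsArithFrobAt (𝓞 K) σ Q) :
    IsArithFrobAt (𝓞 K) (crossRes K L σ) (Q.under (𝓞 L)) := by
  intro y
  show crossRes K L σ • y - y ^ Nat.card (𝓞 K ⧸ (Q.under (𝓞 L)).under (𝓞 K)) ∈ Q.under (𝓞 L)
  rw [Ideal.under_under, Ideal.under_def (𝓞 L), Ideal.mem_comap, map_sub, map_pow,
    crossRes_smul_algebraMap]
  exact hσ (algebraMap (𝓞 L) (𝓞 N) y)

end CrossResInt

end Fermat.Agent.S14
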