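import Mathlib
import Fermat.Prelude.Def_ExtCitation_AdmissibleExtension_v2
import Fermat.Agent.S54.Frobenius

/-!
# S14, package A (Plumbing), leaf A-U: lifting inertia from a finite level to `Gal(Qbar/Q)`
-/

set_option autoImplicit false
set_option linter.style.haveILetI false
set_option linter.unusedVariables false
set_option linter.unusedSectionVars false

open scoped Pointwise
noncomputable section

namespace Fermat.Agent.S14

open NumberField Fermat.Agent.S54

local instance plumbU_isAlgebraic : Algebra.IsAlgebraic ℚ (AlgebraicClosure ℚ) :=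
  AlgebraicClosure.isAlgebraic ℚ
local instance plumbU_isAlgClosure : IsAlgClosure ℚ (AlgebraicClosure ℚ) :=
  ⟨inferInstance, inferInstance⟩
local instance plumbU_normal : Normal ℚ (AlgebraicClosure ℚ) :=
  IsAlgClosure.normal ℚ (AlgebraicClosure ℚ)
local instance plumbU_isGalois : IsGalois ℚ (AlgebraicClosure ℚ) := inferInstance

local instance plumbU_topZb : TopologicalSpace Zb := ⊥
local instance plumbU_discZb : DiscreteTopology Zb := ⟨rfl⟩

section Level

variable (L : IntermediateField ℚ (AlgebraicClosure ℚ))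

/-- the absolute Galois group of `L`. -/
abbrev plumbU_GL := Qb ≃ₐ[L] Qb

/-- the inclusion `𝓞 L → Zb`. -/
def plumbU_toZb : 𝓞 L →+* Zb where
  toFun x := ⟨((x : L) : Qb), by
    have h : IsIntegral ℤ (x : L) := x.2
    exact h.map (IsScalarTower.toAlgHom ℤ L Qb)⟩
  map_one' := rfl
  map_mul' _ _ := rfl
  map_zero' := rfl
  map_add' _ _ := rfl

theorem plumbU_toZb_coe (x : 𝓞 L) : ((plumbU_toZb L x : Zb) : Qb) = ((x : L) : Qb) := rfl

theorem plumbU_toZb_injective : Function.Injective (plumbU_toZb L) := by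
  intro x y h
  have := congrArg (fun z : Zb => (z : Qb)) h
  simp only [plumbU_toZb_coe] at this
  exact RingOfIntegers.ext (Subtype.ext this)

local instance plumbU_algebra : Algebra (𝓞 L) Zb := (plumbU_toZb L).toAlgebra

theorem plumbU_algebraMap_eq (x : 𝓞 L) : algebraMap (𝓞 L) Zb x = plumbU_toZb L x := rfl

local instance plumbU_smulCommClass : SMulCommClass (plumbU_GL L) (𝓞 L) Zb where
  smul_comm g x b := by
    apply Subtype.ext
    show g ((plumbU_toZb L x : Zb) * b : Zb) = ((plumbU_toZb L x : Zb) * (g • b) : Zb)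
    push_cast
    rw [map_mul]
    congr 1
    exact g.commutes (x : L)

theorem plumbU_continuousSMul : ContinuousSMul (plumbU_GL L) Zb := by
  rw [continuousSMul_iff_stabilizer_isOpen]
  intro b
  have hb : IsIntegral L (b : Qb) := (b.2 : IsIntegral ℤ (b : Qb)).tower_top
  have h := stabilizer_isOpen_of_isIntegral (K := L) (L := Qb) (b : Qb)
  convert h using 2
  ext g
  simp only [MulAction.mem_stabilizer_iff]
  constructor
  · intro hg
    have := congrArg (Subtype.val) hg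
    simpa using this
  · intro hg
    apply Subtype.ext
    simpa using hg

local instance plumbU_contZb : ContinuousSMul (plumbU_GL L) Zb := plumbU_continuousSMul L

theorem plumbU_isInvariant : Algebra.IsInvariant (𝓞 L) Zb (plumbU_GL L) := by
  constructor
  intro b hb
  have h1 : (b : Qb) ∈ Set.range (algebraMap L Qb) := by
    rw [InfiniteGalois.mem_range_algebraMap_iff_fixed]
    intro f
    have := congrArg Subtype.val (hb f)
    simpa using this
  obtain ⟨y, hy⟩ := h1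
  have h2 : IsIntegral ℤ y := by
    have h3 : IsIntegral ℤ (algebraMap L Qb y) := by rw [hy]; exact b.2
    exact (isIntegral_algebraMap_iff (algebraMap L Qb).injective).mp h3
  refine ⟨⟨y, h2⟩, Subtype.ext ?_⟩
  rw [← hy]
  rfl

local instance plumbU_invZb : Algebra.IsInvariant (𝓞 L) Zb (plumbU_GL L) := plumbU_isInvariant L

/-- restriction of scalars `Gal(Qbar/L) → Gal(Qbar/ℚ)`. -/
def plumbU_res : plumbU_GL L →* GQ := AlgEquiv.restrictScalarsHom ℚ

theorem plumbU_res_apply (g : plumbU_GL L) (x : Qb) : plumbU_res L g x = g x := rfl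

theorem plumbU_res_smul (g : plumbU_GL L) (b : Zb) : plumbU_res L g • b = g • b := rfl

theorem plumbU_res_smul_ideal (g : plumbU_GL L) (Q : Ideal Zb) : plumbU_res L g • Q = g • Q := by
  ext b
  rw [Ideal.mem_pointwise_smul_iff_inv_smul_mem, Ideal.mem_pointwise_smul_iff_inv_smul_mem,
    ← map_inv, plumbU_res_smul]

theorem plumbU_restrictNormal_res [Normal ℚ L] (g : plumbU_GL L) (τ : GQ) :
    (plumbU_res L g * τ).restrictNormal L = τ.restrictNormal L := by
  ext x
  show algebraMap L Qb ((plumbU_res L g * τ).restrictNormal L x) =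
    algebraMap L Qb (τ.restrictNormal L x)
  rw [AlgEquiv.restrictNormal_commutes, AlgEquiv.restrictNormal_commutes, AlgEquiv.mul_apply,
    ← AlgEquiv.restrictNormal_commutes, plumbU_res_apply]
  exact g.commutes _

theorem exists_inertia_lift (L : IntermediateField ℚ (AlgebraicClosure ℚ)) [FiniteDimensional ℚ L]
    [IsGalois ℚ L] (P : Ideal (𝓞 L)) [P.IsPrime] (hP : P ≠ ⊥) (σ : L ≃ₐ[ℚ] L)
    (hσ : σ ∈ Ideal.inertia (L ≃ₐ[ℚ] L) P) :
    ∃ (ℓ : ℕ) (A : ValuationSubring (AlgebraicClosure ℚ))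
      (τ : AlgebraicClosure ℚ ≃ₐ[ℚ] AlgebraicClosure ℚ),
      ℓ.Prime ∧ A.LiesOverPrime ℓ ∧ ((ℓ : ℕ) : 𝓞 L) ∈ P ∧ τ ∈ A.inertiaSubgroupIn ℚ ∧
        τ.restrictNormal L = σ := by
  classical
  haveI : NumberField L := { to_charZero := inferInstance, to_finiteDimensional := inferInstance }
  -- Step 1: the residue characteristic
  have hPmax : P.IsMaximal := Ideal.IsPrime.isMaximal inferInstance hP
  haveI : Finite (𝓞 L ⧸ P) := Ideal.finiteQuotientOfFreeOfNeBot P hP
  haveI : IsDomain (𝓞 L ⧸ P) := Ideal.Quotient.isDomain P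
  set ℓ := ringChar (𝓞 L ⧸ P) with hℓdef
  haveI hchar : CharP (𝓞 L ⧸ P) ℓ := ringChar.charP _
  have hℓ : ℓ.Prime := CharP.char_is_prime (𝓞 L ⧸ P) ℓ
  have hℓP : ((ℓ : ℕ) : 𝓞 L) ∈ P := by
    rw [← Ideal.Quotient.eq_zero_iff_mem, map_natCast]
    exact CharP.cast_eq_zero _ _
  -- Step 2: a prime of `Zb` over `P`
  haveI : Algebra.IsIntegral (𝓞 L) Zb :=
    Algebra.IsInvariant.isIntegral_of_profinite (G := plumbU_GL L)
  have hker : RingHom.ker (algebraMap (𝓞 L) Zb) ≤ P := by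
    show RingHom.ker (plumbU_toZb L) ≤ P
    rw [(RingHom.injective_iff_ker_eq_bot _).mp (plumbU_toZb_injective L)]
    exact bot_le
  obtain ⟨Q', hQ'prime, hQ'⟩ := Ideal.exists_ideal_over_prime_of_isIntegral_of_isDomain P hker
  -- Step 3: a valuation subring dominating `Q'`
  let e : Zb.toSubring →+* Zb :=
    { toFun := fun x => ⟨x.1, x.2⟩
      map_one' := rfl
      map_mul' := fun _ _ => rfl
      map_zero' := rfl
      map_add' := fun _ _ => rfl }
  have hI : Q'.comap e ≠ ⊤ := (Ideal.IsPrime.comap e).ne_top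
  obtain ⟨A, _, hA⟩ := Ideal.image_subset_nonunits_valuationSubring (Q'.comap e) hI
  have hQ'A : ∀ b : Zb, b ∈ Q' → (b : Qb) ∈ A.nonunits := fun b hb =>
    hA ⟨⟨b.1, b.2⟩, hb, rfl⟩
  have hAℓ : A.LiesOverPrime ℓ := by
    have h1 : plumbU_toZb L ((ℓ : ℕ) : 𝓞 L) ∈ Q' := by
      rw [← hQ'] at hℓP
      exact hℓP
    have h2 := hQ'A _ h1
    rw [map_natCast] at h2
    show (ℓ : Qb) ∈ A.nonunits
    simpa using h2
  set Q := primeBelow A with hQdef
  have hQ'Q : Q' ≤ Q := fun b hb => (mem_primeBelow_iff A b).mpr (hQ'A b hb)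
  have hQP : Q.comap (algebraMap (𝓞 L) Zb) = P := by
    have h1 : P ≤ Q.comap (algebraMap (𝓞 L) Zb) := by
      rw [← hQ']
      exact Ideal.comap_mono hQ'Q
    have h2 : Q.comap (algebraMap (𝓞 L) Zb) ≠ ⊤ := (Ideal.IsPrime.comap _).ne_top
    exact (hPmax.eq_of_le h2 h1).symm
  -- Step 4: a lift of `σ`
  obtain ⟨τ₀, hτ₀⟩ := AlgEquiv.restrictNormalHom_surjective (F := ℚ) (K₁ := L) Qb σ
  have hτ₀' : τ₀.restrictNormal L = σ := hτ₀
  -- compatibility of the two actions
  have hcomm : ∀ (τ : GQ) (x : 𝓞 L),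
      τ • plumbU_toZb L x = plumbU_toZb L ((τ.restrictNormal L) • x) := by
    intro τ x
    apply Subtype.ext
    show τ ((x : L) : Qb) = (((τ.restrictNormal L) (x : L) : L) : Qb)
    exact (AlgEquiv.restrictNormal_commutes τ L (x : L)).symm
  have hσstab : ∀ (ρ : L ≃ₐ[ℚ] L), ρ ∈ Ideal.inertia (L ≃ₐ[ℚ] L) P → ∀ x : 𝓞 L,
      ρ • x ∈ P ↔ x ∈ P := by
    intro ρ hρ x
    have h1 : ρ • P = P := Ideal.inertia_le_stabilizer P hρ
    conv_lhs => rw [← h1]
    exact Ideal.smul_mem_pointwise_smul_iff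
  -- Step 5: move `τ₀ • Q` back to `Q`
  have hunder : (τ₀ • Q).under (𝓞 L) = Q.under (𝓞 L) := by
    show (τ₀ • Q).comap (algebraMap (𝓞 L) Zb) = Q.comap (algebraMap (𝓞 L) Zb)
    rw [hQP]
    ext x
    rw [Ideal.mem_comap, Ideal.mem_pointwise_smul_iff_inv_smul_mem, plumbU_algebraMap_eq, hcomm,
      ← plumbU_algebraMap_eq, ← Ideal.mem_comap, hQP]
    have h2 : (τ₀⁻¹).restrictNormal L = σ⁻¹ := by
      rw [← hτ₀]
      exact map_inv (AlgEquiv.restrictNormalHom L) τ₀
    rw [h2]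
    exact hσstab σ⁻¹ (inv_mem hσ) x
  obtain ⟨g, hg⟩ := Algebra.IsInvariant.exists_smul_of_under_eq_of_profinite (A := 𝓞 L)
    (G := plumbU_GL L) (τ₀ • Q) Q hunder
  set τ₁ : GQ := plumbU_res L g * τ₀ with hτ₁def
  have hτ₁Q : τ₁ • Q = Q := by
    rw [hτ₁def, mul_smul, plumbU_res_smul_ideal, ← hg]
  have hτ₁L : τ₁.restrictNormal L = σ := by
    rw [hτ₁def, plumbU_restrictNormal_res, hτ₀']
  -- Step 6: correct the action on the residue field
  haveI hQℓ := primeBelow_liesOver A ℓ hℓ hAℓ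
  haveI hQlies : Q.LiesOver P := ⟨hQP.symm⟩
  let φ₁ : (Zb ⧸ Q) ≃ₐ[ℤ ⧸ Ideal.span {(ℓ : ℤ)}] (Zb ⧸ Q) :=
    Ideal.Quotient.stabilizerHom Q (Ideal.span {(ℓ : ℤ)}) GQ ⟨τ₁, hτ₁Q⟩
  have hφ₁ : ∀ b : Zb, φ₁ (Ideal.Quotient.mk Q b) = Ideal.Quotient.mk Q (τ₁ • b) := fun b => rfl
  let σbar : (Zb ⧸ Q) ≃ₐ[𝓞 L ⧸ P] (Zb ⧸ Q) := AlgEquiv.ofRingEquiv (f := φ₁.toRingEquiv) (by
    intro y
    obtain ⟨x, rfl⟩ := Ideal.Quotient.mk_surjective y
    show φ₁ (Ideal.Quotient.mk Q (algebraMap (𝓞 L) Zb x)) =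
      Ideal.Quotient.mk Q (algebraMap (𝓞 L) Zb x)
    rw [hφ₁, Ideal.Quotient.eq, plumbU_algebraMap_eq, hcomm, ← map_sub, ← plumbU_algebraMap_eq,
      ← Ideal.mem_comap, hQP, hτ₁L]
    exact hσ x)
  have hσbar : ∀ b : Zb, σbar (Ideal.Quotient.mk Q b) = Ideal.Quotient.mk Q (τ₁ • b) := fun b => rfl
  obtain ⟨ρ, hρ⟩ := Ideal.Quotient.stabilizerHom_surjective_of_profinite (G := plumbU_GL L)
    P Q σbar
  have hρ' : ∀ b : Zb, Ideal.Quotient.mk Q ((ρ : plumbU_GL L) • b) = Ideal.Quotient.mk Q (τ₁ • b) := by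
    intro b
    rw [← hσbar, ← hρ]
    rfl
  set τ : GQ := plumbU_res L (ρ : plumbU_GL L)⁻¹ * τ₁ with hτdef
  have hτQ : τ • Q = Q := by
    rw [hτdef, mul_smul, hτ₁Q, plumbU_res_smul_ideal]
    exact MulAction.mem_stabilizer_iff.mp (inv_mem ρ.2)
  have hτL : τ.restrictNormal L = σ := by
    rw [hτdef, plumbU_restrictNormal_res, hτ₁L]
  have hτtriv : ∀ b : Zb, τ • b - b ∈ Q := by
    intro b
    -- apply `ρ`
    have h1 : (ρ : plumbU_GL L) • (τ • b) = τ₁ • b := by
      rw [hτdef, mul_smul, plumbU_res_smul, smul_inv_smul]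
    have h2 := hρ' (τ • b)
    rw [h1, Ideal.Quotient.eq, ← smul_sub] at h2
    have h3 : τ₁ • (b - τ • b) ∈ τ₁ • Q := by rw [hτ₁Q]; exact h2
    rw [Ideal.smul_mem_pointwise_smul_iff] at h3
    have h4 := Q.neg_mem h3
    rwa [neg_sub] at h4
  -- Step 7: `τ` lies in the inertia group of `A`
  have hτstab : τ ∈ MulAction.stabilizer GQ (primeBelow A) := MulAction.mem_stabilizer_iff.mpr hτQ
  have hτmem : τ ∈ A.decompositionSubgroup ℚ := by
    rw [MulAction.mem_stabilizer_iff]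
    apply le_antisymm
    · intro x hx
      rw [ValuationSubring.mem_pointwise_smul_iff_inv_smul_mem] at hx
      have := smul_mem_of_mem_stabilizer A ℓ hℓ hAℓ τ hτstab _ hx
      simpa using this
    · intro x hx
      rw [ValuationSubring.mem_pointwise_smul_iff_inv_smul_mem]
      exact smul_mem_of_mem_stabilizer A ℓ hℓ hAℓ τ⁻¹ (inv_mem hτstab) x hx
  refine ⟨ℓ, A, τ, hℓ, hAℓ, hℓP, ⟨⟨τ, hτmem⟩, ?_, rfl⟩, hτL⟩
  -- first for integral elements
  have hint : ∀ b : Zb, (⟨τ, hτmem⟩ : A.decompositionSubgroup ℚ) •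
      IsLocalRing.residue A (toValuationSubring A b) =
      IsLocalRing.residue A (toValuationSubring A b) := by
    intro b
    rw [← IsLocalRing.ResidueField.residue_smul, ← sub_eq_zero, ← map_sub,
      IsLocalRing.residue_eq_zero_iff]
    have h2 : toValuationSubring A (τ • b - b) ∈ IsLocalRing.maximalIdeal A := hτtriv b
    have h3 : (⟨τ, hτmem⟩ : A.decompositionSubgroup ℚ) • toValuationSubring A b -
        toValuationSubring A b = toValuationSubring A (τ • b - b) := by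
      rw [map_sub]
      rfl
    rw [h3]
    exact h2
  have hall : ∀ xbar : IsLocalRing.ResidueField A,
      (⟨τ, hτmem⟩ : A.decompositionSubgroup ℚ) • xbar = xbar := by
    intro xbar
    obtain ⟨a, rfl⟩ := IsLocalRing.residue_surjective xbar
    obtain ⟨y, b, hy, hb, hyA, hyn, hxy⟩ := exists_integral_mul_eq A ℓ hℓ hAℓ a.1 a.2
      ((IsFractionRing.isAlgebraic_iff ℤ ℚ Qb).mpr (Algebra.IsAlgebraic.isAlgebraic a.1))
    have hmul : a * toValuationSubring A ⟨y, hy⟩ = toValuationSubring A ⟨b, hb⟩ := Subtype.ext hxy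
    have hyres : IsLocalRing.residue A (toValuationSubring A ⟨y, hy⟩) ≠ 0 := by
      rw [Ne, IsLocalRing.residue_eq_zero_iff, ← ValuationSubring.coe_mem_nonunits_iff]
      exact hyn
    have h1 := congrArg
      (fun t => (⟨τ, hτmem⟩ : A.decompositionSubgroup ℚ) • IsLocalRing.residue A t) hmul
    simp only [map_mul, smul_mul', hint] at h1
    have h2 := congrArg (fun t => IsLocalRing.residue A t) hmul
    simp only [map_mul] at h2
    rw [← h2] at h1
    exact mul_right_cancel₀ hyres h1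
  show (⟨τ, hτmem⟩ : A.decompositionSubgroup ℚ) ∈ (MulSemiringAction.toRingAut
    (A.decompositionSubgroup ℚ) (IsLocalRing.ResidueField A)).ker
  rw [MonoidHom.mem_ker]
  ext xbar
  exact hall xbar


end Level

end Fermat.Agent.S14
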