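import Mathlib
import Fermat.Prelude.Def_ExtCitation_AdmissibleExtension_v2

/-!
# S14, package A (Plumbing), part 1: the module side

`V` an admissible extension with line `C`.  Pure module theory + the mod `p` cyclotomic character.
-/

set_option autoImplicit false
set_option linter.unusedSectionVars false

namespace Fermat.Agent.S14

open ExtCitation

/-- The absolute Galois group of `ℚ`. -/
abbrev PlumbG : Type := AlgebraicClosure ℚ ≃ₐ[ℚ] AlgebraicClosure ℚ

section Cyclo

variable (p : ℕ) [Fact p.Prime]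

/-- The mod `p` cyclotomic character as a monoid hom on `Gal(Qbar/Q)`. -/
noncomputable def plumbChi : PlumbG →* (ZMod p)ˣ :=
  haveI : NeZero p := ⟨(Fact.out : p.Prime).ne_zero⟩
  (modularCyclotomicCharacter (AlgebraicClosure ℚ) (card_rootsOfUnity_eq_self p)).comp
    (MulSemiringAction.toRingAut PlumbG (AlgebraicClosure ℚ))

theorem plumb_cycloExp_cast (σ : PlumbG) :
    ((cycloExp p σ : ℕ) : ZMod p) = ((plumbChi p σ : (ZMod p)ˣ) : ZMod p) := by
  have : NeZero p := ⟨(Fact.out : p.Prime).ne_zero⟩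
  unfold cycloExp
  rw [ZMod.natCast_zmod_val]
  rfl

theorem plumb_cycloExp_mul (σ τ : PlumbG) :
    ((cycloExp p (σ * τ) : ℕ) : ZMod p) =
      ((cycloExp p σ : ℕ) : ZMod p) * ((cycloExp p τ : ℕ) : ZMod p) := by
  rw [plumb_cycloExp_cast, plumb_cycloExp_cast, plumb_cycloExp_cast, map_mul, Units.val_mul]

theorem plumb_cycloExp_one : ((cycloExp p (1 : PlumbG) : ℕ) : ZMod p) = 1 := by
  rw [plumb_cycloExp_cast, map_one, Units.val_one]

theorem plumb_cycloExp_ne_zero (σ : PlumbG) : ((cycloExp p σ : ℕ) : ZMod p) ≠ 0 := by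
  rw [plumb_cycloExp_cast]
  exact Units.ne_zero _

/-- The defining property: `σ ζ = ζ ^ cycloExp σ` for a `p`-th root of unity `ζ`. -/
theorem plumb_cycloExp_spec (σ : PlumbG) {ζ : AlgebraicClosure ℚ} (hζ : ζ ^ p = 1) :
    σ ζ = ζ ^ cycloExp p σ := by
  have : NeZero p := ⟨(Fact.out : p.Prime).ne_zero⟩
  have hu : IsUnit ζ := IsUnit.of_pow_eq_one hζ (NeZero.ne p)
  obtain ⟨t, rfl⟩ := hu
  have ht : t ∈ rootsOfUnity p (AlgebraicClosure ℚ) := by
    rw [mem_rootsOfUnity]
    exact Units.ext (by simpa using hζ)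
  have h := modularCyclotomicCharacter.spec (AlgebraicClosure ℚ) (card_rootsOfUnity_eq_self p)
    (σ : AlgebraicClosure ℚ ≃+* AlgebraicClosure ℚ) ht
  simpa [cycloExp] using h

theorem plumb_cast_eq_of_pow_eq {p : ℕ} [Fact p.Prime] {ζ : AlgebraicClosure ℚ}
    (hζ : IsPrimitiveRoot ζ p) {a b : ℕ} (h : ζ ^ a = ζ ^ b) : (a : ZMod p) = (b : ZMod p) := by
  have hp : 0 < p := (Fact.out : p.Prime).pos
  have h1 : ζ ^ (a % p) = ζ ^ (b % p) := by
    have ha : ζ ^ (a % p) = ζ ^ a := by
      conv_rhs => rw [← Nat.mod_add_div a p, pow_add, pow_mul, hζ.pow_eq_one, one_pow, mul_one]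
    have hb : ζ ^ (b % p) = ζ ^ b := by
      conv_rhs => rw [← Nat.mod_add_div b p, pow_add, pow_mul, hζ.pow_eq_one, one_pow, mul_one]
    rw [ha, hb, h]
  have h2 := hζ.pow_inj (Nat.mod_lt a hp) (Nat.mod_lt b hp) h1
  rw [ZMod.natCast_eq_natCast_iff]
  exact h2

/-- If `σ` fixes a primitive `p`-th root of unity then `cycloExp σ ≡ 1`. -/
theorem plumb_cycloExp_eq_one_of_fix (σ : PlumbG) {ζ : AlgebraicClosure ℚ}
    (hζ : IsPrimitiveRoot ζ p) (h : σ ζ = ζ) : ((cycloExp p σ : ℕ) : ZMod p) = 1 := by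
  have h1 := plumb_cycloExp_spec p σ hζ.pow_eq_one
  rw [h] at h1
  have h2 : ζ ^ cycloExp p σ = ζ ^ 1 := by rw [← h1, pow_one]
  have h3 := plumb_cast_eq_of_pow_eq hζ h2
  simpa using h3

/-- If `σ ζ = ζ ^ k` for a primitive `p`-th root of unity then `cycloExp σ ≡ k`. -/
theorem plumb_cycloExp_eq_of_pow (σ : PlumbG) {ζ : AlgebraicClosure ℚ}
    (hζ : IsPrimitiveRoot ζ p) (k : ℕ) (h : σ ζ = ζ ^ k) :
    ((cycloExp p σ : ℕ) : ZMod p) = (k : ZMod p) := by
  have h1 := plumb_cycloExp_spec p σ hζ.pow_eq_one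
  rw [h] at h1
  exact (plumb_cast_eq_of_pow_eq hζ h1).symm

end Cyclo

section Module

variable {p : ℕ} [Fact p.Prime] {V : Type} [AddCommGroup V] [Module (ZMod p) V]
  [DistribMulAction PlumbG V] [SMulCommClass PlumbG (ZMod p) V] {C : Submodule (ZMod p) V}

/-- Elements with trivial cyclotomic character move vectors inside `C`. -/
theorem plumb_smul_sub_mem (hadm : IsAdmissibleExtension p V C) (h : PlumbG)
    (hh : ((cycloExp p h : ℕ) : ZMod p) = 1) (x : V) : h • x - x ∈ C := by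
  have h1 := hadm.cyclo_quot h x
  rwa [hh, one_smul] at h1

theorem plumb_exists_not_mem (hadm : IsAdmissibleExtension p V C) : ∃ x₀ : V, x₀ ∉ C := by
  by_contra hcon
  push Not at hcon
  have htop : C = ⊤ := by
    ext x
    simp [hcon x]
  have h1 := hadm.card_sub
  have h2 := hadm.card_total
  rw [htop] at h1
  have h3 : Nat.card (⊤ : Submodule (ZMod p) V) = Nat.card V :=
    Nat.card_congr (Submodule.topEquiv (R := ZMod p) (M := V)).toEquiv
  rw [h3, h2] at h1
  have hp := (Fact.out : p.Prime).one_lt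
  nlinarith

/-- `V = C ⊕ ⟨x₀⟩` for any `x₀ ∉ C`. -/
theorem plumb_exists_smul_sub_mem (hadm : IsAdmissibleExtension p V C) {x₀ : V} (hx₀ : x₀ ∉ C)
    (x : V) : ∃ a : ZMod p, x - a • x₀ ∈ C := by
  have hp : 0 < p := (Fact.out : p.Prime).pos
  have hcard : Nat.card (V ⧸ C) = p := by
    have h1 := Submodule.card_eq_card_quotient_mul_card C
    rw [hadm.card_total, hadm.card_sub] at h1
    have h2 : p * p = p * Nat.card (V ⧸ C) := by rw [← h1]; ring
    exact (Nat.eq_of_mul_eq_mul_left hp h2).symm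
  have : Finite (V ⧸ C) := Nat.finite_of_card_ne_zero (by rw [hcard]; exact hp.ne')
  let f : ZMod p → V ⧸ C := fun a => a • Submodule.Quotient.mk x₀
  have hinj : Function.Injective f := by
    intro a b hab
    by_contra hne
    have h1 : (a - b) • (Submodule.Quotient.mk x₀ : V ⧸ C) = 0 := by
      rw [sub_smul, sub_eq_zero]
      exact hab
    have h2 : (Submodule.Quotient.mk x₀ : V ⧸ C) = 0 := by
      have h3 : (a - b) ≠ 0 := sub_ne_zero.mpr hne
      have h4 := congrArg (fun y => (a - b)⁻¹ • y) h1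
      simp only [smul_smul, inv_mul_cancel₀ h3, one_smul, smul_zero] at h4
      exact h4
    rw [Submodule.Quotient.mk_eq_zero] at h2
    exact hx₀ h2
  have hbij : Function.Bijective f := by
    rw [Nat.bijective_iff_injective_and_card]
    exact ⟨hinj, by rw [hcard, Nat.card_zmod]⟩
  obtain ⟨a, ha⟩ := hbij.2 (Submodule.Quotient.mk x)
  refine ⟨a, ?_⟩
  rw [← Submodule.Quotient.mk_eq_zero, Submodule.Quotient.mk_sub, Submodule.Quotient.mk_smul,
    sub_eq_zero]
  exact ha.symm

/-- An element fixing `C` pointwise (automatic) and one vector outside `C` acts trivially. -/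
theorem plumb_smul_eq_self_of_fix (hadm : IsAdmissibleExtension p V C) {x₀ : V} (hx₀ : x₀ ∉ C)
    (h : PlumbG) (hh : h • x₀ = x₀) (x : V) : h • x = x := by
  obtain ⟨a, ha⟩ := plumb_exists_smul_sub_mem hadm hx₀ x
  have h1 := hadm.fixed_sub h _ ha
  rw [smul_sub, smul_comm, hh] at h1
  have h2 : h • x = (h • x - a • x₀) + a • x₀ := by abel
  rw [h2, h1]
  abel

/-- Powers of an element with trivial character: `h ^ n • x = x + n • (h • x - x)`. -/
theorem plumb_pow_smul (hadm : IsAdmissibleExtension p V C) (h : PlumbG)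
    (hh : ((cycloExp p h : ℕ) : ZMod p) = 1) (n : ℕ) (x : V) :
    (h ^ n) • x = x + (n : ZMod p) • (h • x - x) := by
  induction n generalizing x with
  | zero => simp
  | succ n ih =>
    rw [pow_succ, mul_smul]
    have h1 : h • x = x + (h • x - x) := by abel
    rw [ih (h • x)]
    have h2 : h • (h • x) - h • x = h • x - x := by
      have h3 := hadm.fixed_sub h _ (plumb_smul_sub_mem hadm h hh x)
      rw [smul_sub] at h3
      exact h3
    rw [h2]
    push_cast
    rw [add_smul, one_smul]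
    abel

/-- The conjugation formula: `σ⁻¹ h σ` acts like `h ^ k` when `k ≡ cycloExp σ`. -/
theorem plumb_conj_smul (hadm : IsAdmissibleExtension p V C) (h σ : PlumbG)
    (hh : ((cycloExp p h : ℕ) : ZMod p) = 1) (k : ℕ)
    (hk : ((cycloExp p σ : ℕ) : ZMod p) = (k : ZMod p)) (x : V) :
    (σ⁻¹ * h * σ) • x = (h ^ k) • x := by
  rw [plumb_pow_smul hadm h hh, mul_smul, mul_smul]
  -- write `σ x = χ x + d` with `d ∈ C`
  have hd := hadm.cyclo_quot σ x
  set d := σ • x - ((cycloExp p σ : ℕ) : ZMod p) • x with hd_def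
  have hσx : σ • x = ((cycloExp p σ : ℕ) : ZMod p) • x + d := by rw [hd_def]; abel
  have hc : h • x - x ∈ C := plumb_smul_sub_mem hadm h hh x
  -- `h (σ x) = σ x + χ (h x - x)`
  have h1 : h • (σ • x) = σ • x + ((cycloExp p σ : ℕ) : ZMod p) • (h • x - x) := by
    rw [hσx, smul_add, smul_comm, hadm.fixed_sub h d hd, smul_sub]
    abel
  rw [h1, smul_add, inv_smul_smul, hadm.fixed_sub σ⁻¹ _ (C.smul_mem _ hc), hk]

end Module

section Maschke

variable {p : ℕ} [Fact p.Prime] {V : Type} [AddCommGroup V] [Module (ZMod p) V]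
  [DistribMulAction PlumbG V] [SMulCommClass PlumbG (ZMod p) V] {C : Submodule (ZMod p) V}

local instance plumb_isAlgebraic : Algebra.IsAlgebraic ℚ (AlgebraicClosure ℚ) :=
  AlgebraicClosure.isAlgebraic ℚ
local instance plumb_isAlgClosure : IsAlgClosure ℚ (AlgebraicClosure ℚ) :=
  ⟨inferInstance, inferInstance⟩
local instance plumb_normal : Normal ℚ (AlgebraicClosure ℚ) :=
  IsAlgClosure.normal ℚ (AlgebraicClosure ℚ)
local instance plumb_isGalois : IsGalois ℚ (AlgebraicClosure ℚ) := inferInstance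

/-- A primitive `p`-th root of unity in `Qbar`. -/
theorem plumb_exists_primitiveRoot (p : ℕ) [Fact p.Prime] :
    ∃ ζ : AlgebraicClosure ℚ, IsPrimitiveRoot ζ p := by
  have : NeZero p := ⟨(Fact.out : p.Prime).ne_zero⟩
  have : NeZero (p : AlgebraicClosure ℚ) := ⟨Nat.cast_ne_zero.mpr (NeZero.ne p)⟩
  exact HasEnoughRootsOfUnity.exists_primitiveRoot (AlgebraicClosure ℚ) p

/-- Some element of the Galois group has nontrivial mod `p` cyclotomic character (`p ≥ 3`). -/
theorem plumb_exists_cycloExp_ne_one (h3 : 3 ≤ p) :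
    ∃ σ₀ : PlumbG, ((cycloExp p σ₀ : ℕ) : ZMod p) ≠ 1 := by
  obtain ⟨ζ, hζ⟩ := plumb_exists_primitiveRoot p
  by_contra hcon
  push Not at hcon
  have hfix : ∀ σ : PlumbG, σ ζ = ζ := by
    intro σ
    have h1 := plumb_cycloExp_spec p σ hζ.pow_eq_one
    have h2 : ζ ^ cycloExp p σ = ζ ^ 1 := by
      have h4 : ((cycloExp p σ : ℕ) : ZMod p) = ((1 : ℕ) : ZMod p) := by
        rw [hcon σ, Nat.cast_one]
      rw [ZMod.natCast_eq_natCast_iff] at h4
      have hp : 0 < p := (Fact.out : p.Prime).pos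
      calc ζ ^ cycloExp p σ = ζ ^ (cycloExp p σ % p) := by
            conv_lhs => rw [← Nat.mod_add_div (cycloExp p σ) p, pow_add, pow_mul, hζ.pow_eq_one,
              one_pow, mul_one]
        _ = ζ ^ (1 % p) := by rw [h4]
        _ = ζ ^ 1 := by
            conv_rhs => rw [← Nat.mod_add_div 1 p, pow_add, pow_mul, hζ.pow_eq_one,
              one_pow, mul_one]
    rw [h1, h2, pow_one]
  have hmem : ζ ∈ Set.range (algebraMap ℚ (AlgebraicClosure ℚ)) := by
    rw [InfiniteGalois.mem_range_algebraMap_iff_fixed]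
    exact hfix
  obtain ⟨q, hq⟩ := hmem
  have hq1 : q ^ p = 1 := by
    have h1 : algebraMap ℚ (AlgebraicClosure ℚ) (q ^ p) = algebraMap ℚ (AlgebraicClosure ℚ) 1 := by
      rw [map_pow, hq, hζ.pow_eq_one, map_one]
    exact (algebraMap ℚ (AlgebraicClosure ℚ)).injective h1
  have hodd : Odd p := (Fact.out : p.Prime).odd_of_ne_two (by omega)
  have hq2 : q = 1 := by
    have h1 : q ^ p = 1 ^ p := by rw [hq1, one_pow]
    exact hodd.pow_inj.mp h1
  have hζ1 : ζ = 1 := by rw [← hq, hq2, map_one]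
  have := hζ.unique (hζ1 ▸ IsPrimitiveRoot.one)
  omega

/-- The eigenspace complement: if the kernel of the cyclotomic character acts trivially on `V`,
the extension splits. -/
theorem plumb_splits_of_trivial (h3 : 3 ≤ p) (hadm : IsAdmissibleExtension p V C)
    (htriv : ∀ h : PlumbG, ((cycloExp p h : ℕ) : ZMod p) = 1 → ∀ x : V, h • x = x) :
    SplitsGlobally C := by
  obtain ⟨σ₀, hσ₀⟩ := plumb_exists_cycloExp_ne_one (p := p) h3
  set χ : ZMod p := ((cycloExp p σ₀ : ℕ) : ZMod p) with hχ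
  have hχ1 : χ - 1 ≠ 0 := sub_ne_zero.mpr hσ₀
  -- the eigenspace
  let E : Submodule (ZMod p) V :=
    { carrier := {x | σ₀ • x = χ • x}
      add_mem' := by
        intro a b ha hb
        simp only [Set.mem_ofPred_eq] at ha hb ⊢
        rw [smul_add, smul_add, ha, hb]
      zero_mem' := by simp
      smul_mem' := by
        intro c x hx
        simp only [Set.mem_ofPred_eq] at hx ⊢
        rw [smul_comm, hx, smul_comm] }
  have hE : ∀ x, x ∈ E ↔ σ₀ • x = χ • x := fun x => Iff.rfl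
  refine ⟨E, ?_, ?_⟩
  · intro τ x hx
    rw [hE] at hx ⊢
    -- the commutator acts trivially
    have hcomm : ((cycloExp p (τ⁻¹ * σ₀ * τ * σ₀⁻¹) : ℕ) : ZMod p) = 1 := by
      rw [plumb_cycloExp_mul, plumb_cycloExp_mul, plumb_cycloExp_mul]
      have h1 : ((cycloExp p τ⁻¹ : ℕ) : ZMod p) * ((cycloExp p τ : ℕ) : ZMod p) = 1 := by
        rw [← plumb_cycloExp_mul, inv_mul_cancel, plumb_cycloExp_one]
      have h2 : ((cycloExp p σ₀ : ℕ) : ZMod p) * ((cycloExp p σ₀⁻¹ : ℕ) : ZMod p) = 1 := by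
        rw [← plumb_cycloExp_mul, mul_inv_cancel, plumb_cycloExp_one]
      calc _ = (((cycloExp p τ⁻¹ : ℕ) : ZMod p) * ((cycloExp p τ : ℕ) : ZMod p)) *
            (((cycloExp p σ₀ : ℕ) : ZMod p) * ((cycloExp p σ₀⁻¹ : ℕ) : ZMod p)) := by ring
        _ = 1 := by rw [h1, h2, mul_one]
    have h4 := htriv _ hcomm (σ₀ • x)
    rw [mul_smul, inv_smul_smul, mul_smul, mul_smul] at h4
    -- `τ⁻¹ σ₀ τ x = σ₀ x`
    have h5 : σ₀ • τ • x = τ • σ₀ • x := by
      have := congrArg (fun y => τ • y) h4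
      simpa using this
    rw [h5, hx, smul_comm]
  · rw [isCompl_iff]
    constructor
    · rw [Submodule.disjoint_def]
      intro x hxC hxE
      rw [hE, hadm.fixed_sub σ₀ x hxC] at hxE
      have h1 : (χ - 1) • x = 0 := by rw [sub_smul, one_smul, ← hxE, sub_self]
      have h2 := congrArg (fun y => (χ - 1)⁻¹ • y) h1
      simpa [smul_smul, inv_mul_cancel₀ hχ1] using h2
    · rw [codisjoint_iff, eq_top_iff]
      intro x _
      have hc := hadm.cyclo_quot σ₀ x
      rw [← hχ] at hc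
      set c := σ₀ • x - χ • x with hc_def
      have hy : x + (χ - 1)⁻¹ • c ∈ E := by
        rw [hE, smul_add, smul_add, smul_comm σ₀, hadm.fixed_sub σ₀ c hc]
        have h1 : σ₀ • x = χ • x + c := by rw [hc_def]; abel
        rw [h1, smul_smul]
        have h2 : c = (χ - 1) • ((χ - 1)⁻¹ • c) := by
          rw [smul_smul, mul_inv_cancel₀ hχ1, one_smul]
        have h3 : χ * (χ - 1)⁻¹ = 1 + (χ - 1)⁻¹ := by
          field_simp
          ring
        rw [h3, add_smul, one_smul]
        abel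
      have hx : x = (-(χ - 1)⁻¹ • c) + (x + (χ - 1)⁻¹ • c) := by
        rw [neg_smul]; abel
      rw [hx]
      exact Submodule.add_mem_sup (C.smul_mem _ hc) hy

end Maschke

end Fermat.Agent.S14
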