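import Mathlib
import Fermat.Agent.S14.PlumbAction

/-!
# S14, package A (Plumbing), part 2: the field cut out by an admissible extension
-/

set_option autoImplicit false
set_option linter.unusedSectionVars false

namespace Fermat.Agent.S14

open ExtCitation NumberField

local instance plumbF_isAlgebraic : Algebra.IsAlgebraic ℚ (AlgebraicClosure ℚ) :=
  AlgebraicClosure.isAlgebraic ℚ
local instance plumbF_isAlgClosure : IsAlgClosure ℚ (AlgebraicClosure ℚ) :=
  ⟨inferInstance, inferInstance⟩
local instance plumbF_normal : Normal ℚ (AlgebraicClosure ℚ) :=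
  IsAlgClosure.normal ℚ (AlgebraicClosure ℚ)
local instance plumbF_isGalois : IsGalois ℚ (AlgebraicClosure ℚ) := inferInstance

section Kernel

variable (V : Type) [AddCommGroup V] [DistribMulAction PlumbG V]

/-- The kernel of the action of `Gal(Qbar/Q)` on `V`. -/
def plumbKer : Subgroup PlumbG where
  carrier := {σ | ∀ v : V, σ • v = v}
  mul_mem' := by
    intro a b ha hb v
    rw [mul_smul, hb v, ha v]
  one_mem' := fun v => one_smul _ v
  inv_mem' := by
    intro a ha v
    rw [inv_smul_eq_iff, ha v]

theorem mem_plumbKer {σ : PlumbG} : σ ∈ plumbKer V ↔ ∀ v : V, σ • v = v := Iff.rfl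

instance plumbKer_normal : (plumbKer V).Normal := by
  constructor
  intro n hn g v
  rw [mul_smul, mul_smul, hn, smul_inv_smul]

/-- The field cut out by `V`. -/
noncomputable def plumbL : IntermediateField ℚ (AlgebraicClosure ℚ) :=
  IntermediateField.fixedField (plumbKer V)

variable {V}

theorem plumb_fixingSubgroup (hopen : IsOpen {σ : PlumbG | ∀ v : V, σ • v = v}) :
    (plumbL V).fixingSubgroup = plumbKer V := by
  have hopen' : IsOpen ((plumbKer V : Subgroup PlumbG) : Set PlumbG) := hopen
  have hclosed : IsClosed ((plumbKer V : Subgroup PlumbG) : Set PlumbG) :=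
    (plumbKer V).isClosed_of_isOpen hopen'
  exact InfiniteGalois.fixingSubgroup_fixedField ⟨plumbKer V, hclosed⟩

theorem plumb_finiteDimensional (hopen : IsOpen {σ : PlumbG | ∀ v : V, σ • v = v}) :
    FiniteDimensional ℚ (plumbL V) := by
  rw [← InfiniteGalois.isOpen_iff_finite, plumb_fixingSubgroup hopen]
  exact hopen

theorem plumb_isGaloisL' (hopen : IsOpen {σ : PlumbG | ∀ v : V, σ • v = v}) :
    @IsGalois ℚ _ (plumbL V) _ (IntermediateField.algebra' (plumbL V)) := by
  rw [← InfiniteGalois.normal_iff_isGalois, plumb_fixingSubgroup hopen]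
  infer_instance

theorem plumb_isGaloisL (hopen : IsOpen {σ : PlumbG | ∀ v : V, σ • v = v}) :
    IsGalois ℚ (plumbL V) := by
  have h := plumb_isGaloisL' hopen
  convert h
  exact Subsingleton.elim _ _

end Kernel

end Fermat.Agent.S14
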