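import Mathlib
import Fermat.Agent.S14.PlumbField

/-!
# S14, package A (Plumbing), part 3: the finite Galois group cut out by an admissible extension
-/

set_option autoImplicit false
set_option linter.unusedSectionVars false

namespace Fermat.Agent.S14

open ExtCitation NumberField

local instance plumbG_isAlgebraic : Algebra.IsAlgebraic ℚ (AlgebraicClosure ℚ) :=
  AlgebraicClosure.isAlgebraic ℚ
local instance plumbG_isAlgClosure : IsAlgClosure ℚ (AlgebraicClosure ℚ) :=
  ⟨inferInstance, inferInstance⟩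
local instance plumbG_normal : Normal ℚ (AlgebraicClosure ℚ) :=
  IsAlgClosure.normal ℚ (AlgebraicClosure ℚ)
local instance plumbG_isGalois : IsGalois ℚ (AlgebraicClosure ℚ) := inferInstance

section Restrict

variable (L : IntermediateField ℚ (AlgebraicClosure ℚ)) [IsGalois ℚ L]

/-- Restriction `Gal(Qbar/Q) → Gal(L/Q)`. -/
noncomputable def plumbRes : PlumbG →* (L ≃ₐ[ℚ] L) := AlgEquiv.restrictNormalHom L

theorem plumbRes_apply (g : PlumbG) (x : L) : ((plumbRes L g x : L) : AlgebraicClosure ℚ) = g x :=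
  AlgEquiv.restrictNormal_commutes g L x

theorem plumbRes_surjective : Function.Surjective (plumbRes L) :=
  AlgEquiv.restrictNormalHom_surjective (AlgebraicClosure ℚ)

theorem plumbRes_eq_one_iff (g : PlumbG) : plumbRes L g = 1 ↔ g ∈ L.fixingSubgroup := by
  rw [IntermediateField.mem_fixingSubgroup_iff]
  constructor
  · intro h x hx
    have h1 := plumbRes_apply L g ⟨x, hx⟩
    rw [h] at h1
    exact h1.symm
  · intro h
    ext x
    rw [plumbRes_apply]
    exact h x x.2

theorem plumbRes_eq_iff (a b : PlumbG) : plumbRes L a = plumbRes L b ↔ b⁻¹ * a ∈ L.fixingSubgroup := by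
  rw [← plumbRes_eq_one_iff, map_mul, map_inv, inv_mul_eq_one, eq_comm]

end Restrict

section Module

variable {p : ℕ} [Fact p.Prime] {V : Type} [AddCommGroup V] [Module (ZMod p) V]
  [DistribMulAction PlumbG V] [SMulCommClass PlumbG (ZMod p) V] {C : Submodule (ZMod p) V}
variable (L : IntermediateField ℚ (AlgebraicClosure ℚ)) [IsGalois ℚ L]

/-- Elements acting the same way on `V` have the same restriction to `L`. -/
theorem plumbRes_eq_of_smul_eq (hL : L.fixingSubgroup = plumbKer V) (a b : PlumbG)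
    (h : ∀ x : V, a • x = b • x) : plumbRes L a = plumbRes L b := by
  rw [plumbRes_eq_iff, hL, mem_plumbKer]
  intro v
  rw [mul_smul, h, inv_smul_smul]

theorem plumb_smul_eq_of_plumbRes_eq (hL : L.fixingSubgroup = plumbKer V) (a b : PlumbG)
    (h : plumbRes L a = plumbRes L b) (x : V) : a • x = b • x := by
  rw [plumbRes_eq_iff, hL, mem_plumbKer] at h
  have h1 := h x
  rw [mul_smul, inv_smul_eq_iff] at h1
  exact h1

/-- The kernel of the action has trivial cyclotomic character. -/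
theorem plumb_cycloExp_eq_one_of_mem_ker (hadm : IsAdmissibleExtension p V C) (n : PlumbG)
    (hn : n ∈ plumbKer V) : ((cycloExp p n : ℕ) : ZMod p) = 1 := by
  obtain ⟨x₀, hx₀⟩ := plumb_exists_not_mem hadm
  by_contra hne
  have h1 := hadm.cyclo_quot n x₀
  rw [hn x₀] at h1
  have h2 : (1 - ((cycloExp p n : ℕ) : ZMod p)) • x₀ ∈ C := by rwa [sub_smul, one_smul]
  have h3 : (1 - ((cycloExp p n : ℕ) : ZMod p)) ≠ 0 := sub_ne_zero.mpr (Ne.symm hne)
  have h4 := C.smul_mem (1 - ((cycloExp p n : ℕ) : ZMod p))⁻¹ h2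
  rw [smul_smul, inv_mul_cancel₀ h3, one_smul] at h4
  exact hx₀ h4

theorem plumb_pow_eq_of_cast_eq {ζ : AlgebraicClosure ℚ} (hζ : ζ ^ p = 1) {a b : ℕ}
    (h : (a : ZMod p) = (b : ZMod p)) : ζ ^ a = ζ ^ b := by
  rw [ZMod.natCast_eq_natCast_iff'] at h
  rw [pow_eq_pow_mod a hζ, pow_eq_pow_mod b hζ, h]

theorem plumb_fix_of_cycloExp_eq_one (σ : PlumbG) {ζ : AlgebraicClosure ℚ} (hζ : ζ ^ p = 1)
    (h : ((cycloExp p σ : ℕ) : ZMod p) = 1) : σ ζ = ζ := by
  rw [plumb_cycloExp_spec p σ hζ]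
  have h1 : ζ ^ cycloExp p σ = ζ ^ 1 := plumb_pow_eq_of_cast_eq hζ (by simpa using h)
  rw [h1, pow_one]

theorem plumb_zeta_mem (hadm : IsAdmissibleExtension p V C) (hL : L.fixingSubgroup = plumbKer V)
    {ζ : AlgebraicClosure ℚ} (hζ : ζ ^ p = 1) : ζ ∈ L := by
  rw [← InfiniteGalois.fixedField_fixingSubgroup L, IntermediateField.mem_fixedField_iff]
  intro f hf
  rw [hL] at hf
  exact plumb_fix_of_cycloExp_eq_one f hζ (plumb_cycloExp_eq_one_of_mem_ker hadm f hf)

end Module

section Fixing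

theorem plumb_mem_fixingSubgroup_adjoin {E : Type*} [Field E] [Algebra ℚ E] (ζ : E)
    (γ : E ≃ₐ[ℚ] E) : γ ∈ (IntermediateField.adjoin ℚ {ζ}).fixingSubgroup ↔ γ ζ = ζ := by
  rw [IntermediateField.mem_fixingSubgroup_iff]
  constructor
  · intro h
    exact h ζ (IntermediateField.mem_adjoin_simple_self ℚ ζ)
  · intro h x hx
    have hγ : γ ∈ MulAction.stabilizer (E ≃ₐ[ℚ] E) ζ := by
      rw [MulAction.mem_stabilizer_iff]
      exact h
    have hle : Subgroup.zpowers γ ≤ MulAction.stabilizer (E ≃ₐ[ℚ] E) ζ :=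
      (Subgroup.zpowers_le).mpr hγ
    have h1 : IntermediateField.adjoin ℚ {ζ} ≤ IntermediateField.fixedField (Subgroup.zpowers γ) := by
      rw [IntermediateField.adjoin_simple_le_iff, IntermediateField.mem_fixedField_iff]
      intro f hf
      exact MulAction.mem_stabilizer_iff.mp (hle hf)
    exact (IntermediateField.mem_fixedField_iff _ _).mp (h1 hx) γ (Subgroup.mem_zpowers γ)

end Fixing

section Card

variable {p : ℕ} [Fact p.Prime] {V : Type} [AddCommGroup V] [Module (ZMod p) V]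
  [DistribMulAction PlumbG V] [SMulCommClass PlumbG (ZMod p) V] {C : Submodule (ZMod p) V}
variable (L : IntermediateField ℚ (AlgebraicClosure ℚ)) [IsGalois ℚ L]

theorem plumb_isPrimitiveRoot_coe {ζL : L} (hζL : IsPrimitiveRoot ζL p) :
    IsPrimitiveRoot (ζL : AlgebraicClosure ℚ) p :=
  IsPrimitiveRoot.coe_submonoidClass_iff.mpr hζL

/-- A lift of an element fixing `ζ` has trivial cyclotomic character. -/
theorem plumb_cycloExp_eq_one_of_plumbRes {ζL : L} (hζL : IsPrimitiveRoot ζL p) (g : PlumbG)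
    (hg : plumbRes L g ζL = ζL) : ((cycloExp p g : ℕ) : ZMod p) = 1 := by
  apply plumb_cycloExp_eq_one_of_fix p g (plumb_isPrimitiveRoot_coe L hζL)
  rw [← plumbRes_apply, hg]

theorem plumb_card_fixing_le [FiniteDimensional ℚ L] (hadm : IsAdmissibleExtension p V C)
    (hL : L.fixingSubgroup = plumbKer V) {ζL : L} (hζL : IsPrimitiveRoot ζL p) :
    Nat.card (IntermediateField.adjoin ℚ {ζL}).fixingSubgroup ≤ p := by
  obtain ⟨x₀, hx₀⟩ := plumb_exists_not_mem hadm
  have hfin : Finite C := Nat.finite_of_card_ne_zero (by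
    rw [hadm.card_sub]; exact (Fact.out : p.Prime).ne_zero)
  have hsurj := plumbRes_surjective L
  have hlift : ∀ γ : (IntermediateField.adjoin ℚ {ζL}).fixingSubgroup,
      ((cycloExp p (Function.surjInv hsurj γ.1) : ℕ) : ZMod p) = 1 := by
    intro γ
    apply plumb_cycloExp_eq_one_of_plumbRes L hζL
    rw [Function.surjInv_eq hsurj]
    exact (plumb_mem_fixingSubgroup_adjoin ζL γ.1).mp γ.2
  let b : (IntermediateField.adjoin ℚ {ζL}).fixingSubgroup → C := fun γ =>
    ⟨Function.surjInv hsurj γ.1 • x₀ - x₀, plumb_smul_sub_mem hadm _ (hlift γ) x₀⟩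
  have hb : Function.Injective b := by
    intro γ₁ γ₂ h12
    have h1 : Function.surjInv hsurj γ₁.1 • x₀ = Function.surjInv hsurj γ₂.1 • x₀ := by
      have h2 := congrArg Subtype.val h12
      simpa [b] using h2
    have h3 : ((Function.surjInv hsurj γ₂.1)⁻¹ * Function.surjInv hsurj γ₁.1) • x₀ = x₀ := by
      rw [mul_smul, h1, inv_smul_smul]
    have h4 := plumb_smul_eq_self_of_fix hadm hx₀ _ h3
    have h5 : plumbRes L (Function.surjInv hsurj γ₁.1) = plumbRes L (Function.surjInv hsurj γ₂.1) := by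
      rw [plumbRes_eq_iff, hL, mem_plumbKer]
      exact h4
    rw [Function.surjInv_eq hsurj, Function.surjInv_eq hsurj] at h5
    exact Subtype.ext h5
  have h6 := Nat.card_le_card_of_injective b hb
  rwa [hadm.card_sub] at h6

theorem plumb_card_fixing [FiniteDimensional ℚ L] (hadm : IsAdmissibleExtension p V C)
    (hL : L.fixingSubgroup = plumbKer V) {ζL : L} (hζL : IsPrimitiveRoot ζL p)
    (h₀ : PlumbG) (hh₀ : ((cycloExp p h₀ : ℕ) : ZMod p) = 1) (hne : h₀ ∉ plumbKer V) :
    Nat.card (IntermediateField.adjoin ℚ {ζL}).fixingSubgroup = p := by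
  apply le_antisymm (plumb_card_fixing_le L hadm hL hζL)
  have hζ := plumb_isPrimitiveRoot_coe L hζL
  have hmem : plumbRes L h₀ ∈ (IntermediateField.adjoin ℚ {ζL}).fixingSubgroup := by
    rw [plumb_mem_fixingSubgroup_adjoin]
    apply Subtype.ext
    rw [plumbRes_apply]
    exact plumb_fix_of_cycloExp_eq_one h₀ hζ.pow_eq_one hh₀
  have hne1 : plumbRes L h₀ ≠ 1 := by
    rw [Ne, plumbRes_eq_one_iff, hL]
    exact hne
  have hpow : plumbRes L h₀ ^ p = 1 := by
    rw [← map_pow, plumbRes_eq_one_iff, hL, mem_plumbKer]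
    intro v
    rw [plumb_pow_smul hadm h₀ hh₀, ZMod.natCast_self, zero_smul, add_zero]
  have hord : orderOf (plumbRes L h₀) = p := orderOf_eq_prime hpow hne1
  have hord' : orderOf (⟨plumbRes L h₀, hmem⟩ :
      (IntermediateField.adjoin ℚ {ζL}).fixingSubgroup) = p := by
    rw [← hord, ← Subgroup.orderOf_coe]
  have hfin : Finite (L ≃ₐ[ℚ] L) := inferInstance
  have hdvd := orderOf_dvd_natCard (⟨plumbRes L h₀, hmem⟩ :
      (IntermediateField.adjoin ℚ {ζL}).fixingSubgroup)
  rw [hord'] at hdvd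
  exact Nat.le_of_dvd Nat.card_pos hdvd

theorem plumb_hact (hadm : IsAdmissibleExtension p V C)
    (hL : L.fixingSubgroup = plumbKer V) {ζL : L} (hζL : IsPrimitiveRoot ζL p)
    (σ h : L ≃ₐ[ℚ] L) (k : ℕ) (hh : h ζL = ζL) (hσ : σ ζL = ζL ^ k) :
    σ⁻¹ * h * σ = h ^ k := by
  obtain ⟨s, rfl⟩ := plumbRes_surjective L σ
  obtain ⟨t, rfl⟩ := plumbRes_surjective L h
  have hζ := plumb_isPrimitiveRoot_coe L hζL
  have h1 := plumb_cycloExp_eq_one_of_plumbRes L hζL t hh
  have hs : s (ζL : AlgebraicClosure ℚ) = (ζL : AlgebraicClosure ℚ) ^ k := by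
    rw [← plumbRes_apply, hσ]
    simp
  have h2 := plumb_cycloExp_eq_of_pow p s hζ k hs
  rw [← map_inv, ← map_mul, ← map_mul, ← map_pow]
  exact plumbRes_eq_of_smul_eq L hL _ _ (plumb_conj_smul hadm t s h1 k h2)

end Card

end Fermat.Agent.S14
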