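import Mathlib
import Fermat.Agent.S14.Defs
import Fermat.Agent.S14.PlumbGalois
import Fermat.Agent.S14.PlumbInertia

/-!
# S14, package A (Plumbing), part 4: unramifiedness of the field cut out by an admissible extension
-/

set_option autoImplicit false
set_option linter.unusedSectionVars false

namespace Fermat.Agent.S14

open ExtCitation NumberField

local instance plumbUn_isAlgebraic : Algebra.IsAlgebraic ℚ (AlgebraicClosure ℚ) :=
  AlgebraicClosure.isAlgebraic ℚ
local instance plumbUn_isAlgClosure : IsAlgClosure ℚ (AlgebraicClosure ℚ) :=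
  ⟨inferInstance, inferInstance⟩
local instance plumbUn_normal : Normal ℚ (AlgebraicClosure ℚ) :=
  IsAlgClosure.normal ℚ (AlgebraicClosure ℚ)
local instance plumbUn_isGalois : IsGalois ℚ (AlgebraicClosure ℚ) := inferInstance

section Abstract

/-- An extension `L/K` (`K` an intermediate field of the Galois number field `L/ℚ`) is unramified
everywhere as soon as the inertia groups of `L/ℚ` meet `Gal(L/K)` trivially. -/
theorem plumb_isUnramifiedEverywhere (L : Type) [Field L] [NumberField L] [IsGalois ℚ L]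
    (K : IntermediateField ℚ L)
    (h : ∀ (P : Ideal (𝓞 L)) [P.IsPrime], P ≠ ⊥ → ∀ σ : L ≃ₐ[ℚ] L,
      σ ∈ Ideal.inertia (L ≃ₐ[ℚ] L) P → (∀ x ∈ K, σ x = x) → σ = 1) :
    IsUnramifiedEverywhere K L := by
  intro P _ hP
  have hcard : Nat.card (P.inertia (L ≃ₐ[K] L)) = 1 := by
    rw [Nat.card_eq_one_iff_unique]
    refine ⟨⟨?_⟩, ⟨1⟩⟩
    intro a b
    have key : ∀ c : P.inertia (L ≃ₐ[K] L), c = 1 := by
      intro c
      apply Subtype.ext
      have h1 : (c.1.restrictScalars ℚ) = 1 := by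
        apply h P hP
        · intro x
          exact c.2 x
        · intro x hx
          exact c.1.commutes ⟨x, hx⟩
      ext x
      have h2 := congrArg (fun f : L ≃ₐ[ℚ] L => f x) h1
      simpa using h2
    rw [key a, key b]
  rw [← Ideal.ramificationIdx_eq_one_iff,
    ← Ideal.ramificationIdxIn_eq_ramificationIdx (P.under (𝓞 K)) P (L ≃ₐ[K] L),
    ← Ideal.card_inertia_eq_ramificationIdxIn (G := (L ≃ₐ[K] L)) (P.under (𝓞 K)) P]
  exact hcard

end Abstract

section Concrete

variable {p : ℕ} [Fact p.Prime] {V : Type} [AddCommGroup V] [Module (ZMod p) V]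
  [DistribMulAction PlumbG V] [SMulCommClass PlumbG (ZMod p) V] {C : Submodule (ZMod p) V}
variable (L : IntermediateField ℚ (AlgebraicClosure ℚ)) [FiniteDimensional ℚ L] [IsGalois ℚ L]

/-- Inertia at any nonzero prime of `L` meets the stabiliser of `ζ_p` trivially. -/
theorem plumb_inertia_trivial (hadm : IsAdmissibleExtension p V C)
    (hL : L.fixingSubgroup = plumbKer V) {ζL : L} (hζL : IsPrimitiveRoot ζL p)
    (P : Ideal (𝓞 L)) [P.IsPrime] (hP : P ≠ ⊥) (σ : L ≃ₐ[ℚ] L)
    (hσ : σ ∈ Ideal.inertia (L ≃ₐ[ℚ] L) P) (hfix : σ ζL = ζL) : σ = 1 := by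
  obtain ⟨ℓ, A, τ, hℓ, hA, -, hτ, hτσ⟩ := exists_inertia_lift L P hP σ hσ
  have hτσ' : plumbRes L τ = σ := hτσ
  subst hτσ'
  have hχ : ((cycloExp p τ : ℕ) : ZMod p) = 1 :=
    plumb_cycloExp_eq_one_of_plumbRes L hζL τ hfix
  suffices hs : ∀ x : V, τ • x = x by
    rw [plumbRes_eq_one_iff, hL]
    exact hs
  by_cases hℓp : ℓ = p
  · rw [hℓp] at hA
    obtain ⟨C', hC', hcompl⟩ := hadm.locally_split A hA
    have hτD : τ ∈ A.decompositionSubgroup ℚ := by
      obtain ⟨t, -, rfl⟩ := hτ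
      exact t.2
    intro x
    have hx : x ∈ C ⊔ C' := by
      rw [hcompl.sup_eq_top]
      exact Submodule.mem_top
    obtain ⟨c, hc, c', hc', rfl⟩ := Submodule.mem_sup.mp hx
    rw [smul_add, hadm.fixed_sub τ c hc]
    have h1 : τ • c' - c' ∈ C := plumb_smul_sub_mem hadm τ hχ c'
    have h2 : τ • c' - c' ∈ C' := C'.sub_mem (hC' τ hτD c' hc') hc'
    have h3 : τ • c' - c' = 0 := (Submodule.disjoint_def.mp hcompl.disjoint) _ h1 h2
    rw [sub_eq_zero.mp h3]
  · exact hadm.unramified_outside ℓ hℓ hℓp A hA τ hτ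

end Concrete

end Fermat.Agent.S14
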