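import Mathlib
import Fermat.Agent.S14.Defs
import Fermat.Agent.S14.PlumbUnram

/-!
# S14, package A (Plumbing): from the frozen hypothesis to the data of Theorem M
-/

set_option autoImplicit false

namespace Fermat.Agent.S14

open ExtCitation NumberField

/-- (A) PLUMBING. From an admissible extension `0 → C → V → V/C → 0` (`C` trivial line, `V/C` the
mod-`p` cyclotomic character, open kernel, unramified outside `p`, locally split at `p`): either it
splits globally, or the fixed field `L` of the kernel is a number field, Galois over `ℚ`, containing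
`ζ_p`, of degree `p` over `K = ℚ(ζ_p)`, unramified over `K` at every finite prime, with
`σ⁻¹ h σ = h ^ χ(σ)` for `h ∈ Gal(L/K)`. -/
theorem plumbing {p : ℕ} [Fact p.Prime] (h3 : 3 ≤ p) (V : Type) [AddCommGroup V]
    [Module (ZMod p) V] [DistribMulAction (AlgebraicClosure ℚ ≃ₐ[ℚ] AlgebraicClosure ℚ) V]
    [SMulCommClass (AlgebraicClosure ℚ ≃ₐ[ℚ] AlgebraicClosure ℚ) (ZMod p) V]
    (C : Submodule (ZMod p) V) (hadm : ExtCitation.IsAdmissibleExtensionCts p V C) :
    ExtCitation.SplitsGlobally C ∨
      ∃ (L : Type) (_ : Field L) (_ : NumberField L) (_ : IsGalois ℚ L) (ζ : L),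
        IsPrimitiveRoot ζ p ∧
        Module.finrank (IntermediateField.adjoin ℚ {ζ}) L = p ∧
        IsUnramifiedEverywhere (IntermediateField.adjoin ℚ {ζ}) L ∧
        ∀ (σ h : L ≃ₐ[ℚ] L) (k : ℕ), h ζ = ζ → σ ζ = ζ ^ k → σ⁻¹ * h * σ = h ^ k := by
  have hadm' := hadm.toIsAdmissibleExtension
  by_cases htriv : ∀ h : PlumbG, ((cycloExp p h : ℕ) : ZMod p) = 1 → ∀ x : V, h • x = x
  · exact Or.inl (plumb_splits_of_trivial h3 hadm' htriv)
  · right
    push Not at htriv
    obtain ⟨h₀, hh₀, hne⟩ := htriv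
    have hopen := hadm.open_kernel
    have := plumb_finiteDimensional hopen
    have := plumb_isGaloisL hopen
    have hL := plumb_fixingSubgroup hopen
    obtain ⟨ζ, hζ⟩ := plumb_exists_primitiveRoot p
    have hmem := plumb_zeta_mem (plumbL V) hadm' hL hζ.pow_eq_one
    have hζL : IsPrimitiveRoot (⟨ζ, hmem⟩ : plumbL V) p :=
      IsPrimitiveRoot.coe_submonoidClass_iff.mp hζ
    have : NumberField (plumbL V) := ⟨⟩
    refine ⟨plumbL V, inferInstance, inferInstance, inferInstance, ⟨ζ, hmem⟩, hζL, ?_, ?_, ?_⟩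
    · rw [← IsGalois.card_fixingSubgroup_eq_finrank]
      refine plumb_card_fixing (plumbL V) hadm' hL hζL h₀ hh₀ ?_
      rw [mem_plumbKer]
      push Not
      exact hne
    · apply plumb_isUnramifiedEverywhere
      intro P _ hP σ hσ hfix
      exact plumb_inertia_trivial (plumbL V) hadm' hL hζL P hP σ hσ
        (hfix _ (IntermediateField.mem_adjoin_simple_self ℚ _))
    · exact plumb_hact (plumbL V) hadm' hL hζL

end Fermat.Agent.S14
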