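import Mathlib

/-!
# S14, package J: factorisation of the Jacobi sum `J(χ,χ)` in `ℤ[ζ_p]`

Let `𝔮` be a prime of degree one of `ℚ(ζ_p)` over `q ≠ p`, `χ` the `p`-th power residue character
modulo `𝔮` (`χ(x) ≡ x^((q-1)/p) mod 𝔮`, values in `μ_p ∪ {0}`), `J = ∑ χ(x) χ(1-x)`.  Then
`σ_s(J) ≡ ∑ x^(ms) (1-x)^(ms) mod 𝔮` (`m = (q-1)/p`), which vanishes iff `2s < p`; together with
`J * conj J = q` this gives `(J) = ∏_{1 ≤ j ≤ (p-1)/2} σ_j⁻¹(𝔮)`.
-/

set_option autoImplicit false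

namespace Fermat.Agent.S14

open Finset NumberField IsDedekindDomain Polynomial
open scoped Pointwise

section FiniteField

variable {F : Type*} [Field F] [Fintype F]

/-- Power sums over a finite field. -/
theorem jac_sum_pow (e : ℕ) (he : 0 < e) :
    ∑ x : F, x ^ e = if Fintype.card F - 1 ∣ e then -1 else 0 := by
  classical
  let φ : Fˣ ↪ F := ⟨fun x ↦ x, Units.val_injective⟩
  have : univ.map φ = univ \ {0} := by
    ext x
    simpa only [mem_map, mem_univ, Function.Embedding.coeFn_mk, true_and, mem_sdiff,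
      mem_singleton, φ] using! isUnit_iff_ne_zero
  calc
    ∑ x : F, x ^ e = ∑ x ∈ univ \ {(0 : F)}, x ^ e := by
      rw [← sum_sdiff ({0} : Finset F).subset_univ, sum_singleton, zero_pow he.ne', add_zero]
    _ = ∑ x : Fˣ, (x ^ e : F) := by simp [φ, ← this, univ.sum_map φ]
    _ = _ := FiniteField.sum_pow_units F e

/-- The key finite-field computation behind the factorisation of Jacobi sums. -/
theorem jac_sum_pow_mul_one_sub_pow {q : ℕ} (hq : Fintype.card F = q) (hqp : q.Prime) {k : ℕ}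
    (hk0 : 0 < k) (hk : k < q - 1) :
    (∑ x : F, x ^ k * (1 - x) ^ k = 0) ↔ 2 * k < q - 1 := by
  classical
  have hchar : CharP F q := by
    obtain ⟨p, hp⟩ := CharP.exists F
    have hpp : p.Prime := CharP.char_is_prime F p
    obtain ⟨n, hn⟩ := FiniteField.card F p
    rw [hq] at hn
    have : q = p := by
      have hdvd : p ∣ q := by rw [hn.2]; exact dvd_pow_self p n.ne_zero
      exact ((Nat.prime_dvd_prime_iff_eq hpp hqp).mp hdvd).symm
    rw [this]; exact hp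
  have hexp : ∀ x : F, x ^ k * (1 - x) ^ k =
      ∑ m ∈ range (k + 1), ((-1 : F) ^ m * (k.choose m : F)) * x ^ (k + m) := by
    intro x
    have h1 : (1 - x) ^ k = ∑ m ∈ range (k + 1), (-x) ^ m * 1 ^ (k - m) * (k.choose m : F) := by
      rw [← add_pow, neg_add_eq_sub]
    rw [h1, mul_sum]
    refine sum_congr rfl fun m _ => ?_
    rw [neg_pow, one_pow, pow_add]
    ring
  have hsum : ∑ x : F, x ^ k * (1 - x) ^ k =
      ∑ m ∈ range (k + 1), ((-1 : F) ^ m * (k.choose m : F)) *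
        (if q - 1 ∣ k + m then (-1 : F) else 0) := by
    simp_rw [hexp]
    rw [sum_comm]
    refine sum_congr rfl fun m _ => ?_
    rw [← mul_sum, jac_sum_pow (k + m) (by omega), hq]
  rw [hsum]
  constructor
  · intro h0
    by_contra hlt
    push Not at hlt
    -- the only contributing index is m = q - 1 - k
    have hm : q - 1 - k ∈ range (k + 1) := by
      rw [mem_range]; omega
    rw [sum_eq_single_of_mem (q - 1 - k) hm] at h0
    · have hd : q - 1 ∣ k + (q - 1 - k) := by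
        have : k + (q - 1 - k) = q - 1 := by omega
        rw [this]
      rw [if_pos hd] at h0
      have hne : ((k.choose (q - 1 - k) : ℕ) : F) ≠ 0 := by
        rw [Ne, CharP.cast_eq_zero_iff F q]
        intro hdvd
        have hle : q - 1 - k ≤ k := by omega
        have hdf : k.choose (q - 1 - k) ∣ k.factorial := by
          rw [← Nat.choose_mul_factorial_mul_factorial hle, mul_assoc]
          exact dvd_mul_right _ _
        have hfac := hqp.dvd_factorial.mp (dvd_trans hdvd hdf)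
        omega
      have : (-1 : F) ^ (q - 1 - k) * ((k.choose (q - 1 - k) : ℕ) : F) * (-1) ≠ 0 := by
        apply mul_ne_zero (mul_ne_zero (pow_ne_zero _ (neg_ne_zero.mpr one_ne_zero)) hne)
        exact neg_ne_zero.mpr one_ne_zero
      exact this h0
    · intro m hm' hne
      rw [mem_range] at hm'
      rw [if_neg, mul_zero]
      intro hd
      obtain ⟨c, hc⟩ := hd
      have hc1 : c = 1 := by
        have h1 : 0 < c := by
          rcases Nat.eq_zero_or_pos c with rfl | h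
          · omega
          · exact h
        have h2 : c < 2 := by
          by_contra hge
          push Not at hge
          have : (q - 1) * 2 ≤ (q - 1) * c := Nat.mul_le_mul_left _ hge
          omega
        omega
      rw [hc1, mul_one] at hc
      exact hne (by omega)
  · intro hlt
    apply sum_eq_zero
    intro m hm
    rw [mem_range] at hm
    rw [if_neg, mul_zero]
    intro hd
    have := Nat.le_of_dvd (by omega) hd
    omega

end FiniteField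

section ResidueChar

variable {R : Type*} [CommRing R] [IsDomain R] {p : ℕ} [hp : Fact p.Prime]
  (𝔮 : Ideal R) [h𝔮 : 𝔮.IsMaximal]

/-- A nontrivial `p`-th root of unity is not congruent to `1` modulo a prime not containing `p`. -/
theorem jac_one_sub_not_mem (hpq : (p : R) ∉ 𝔮) {η : R} (hη : η ^ p = 1) (hη1 : η ≠ 1) :
    1 - η ∉ 𝔮 := by
  intro hmem
  have hord : orderOf η = p := orderOf_eq_prime hη hη1
  have hprim : IsPrimitiveRoot η p := hord ▸ IsPrimitiveRoot.orderOf η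
  obtain ⟨n, hn⟩ : ∃ n, p = n + 1 := ⟨p - 1, (Nat.succ_pred_eq_of_pos hp.out.pos).symm⟩
  have hprod := IsPrimitiveRoot.prod_one_sub_pow_eq_order (n := n) (hn ▸ hprim)
  have hn0 : 0 < n := by
    have := hp.out.two_le
    omega
  have hdvd : (1 - η) ∣ ∏ k ∈ range n, (1 - η ^ (k + 1)) := by
    have h0 : 0 ∈ range n := mem_range.mpr hn0
    have := Finset.dvd_prod_of_mem (fun k => 1 - η ^ (k + 1)) h0
    simpa using this
  rw [hprod] at hdvd
  apply hpq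
  have : (p : R) = (n : R) + 1 := by rw [hn]; push_cast; ring
  rw [this]
  exact Ideal.mem_of_dvd 𝔮 hdvd hmem

/-- Reduction modulo `𝔮` on `p`-th roots of unity. -/
noncomputable def jacRed : rootsOfUnity p R →* rootsOfUnity p (R ⧸ 𝔮) :=
  restrictRootsOfUnity (Ideal.Quotient.mk 𝔮) p

theorem jacRed_injective (hpq : (p : R) ∉ 𝔮) : Function.Injective (jacRed (p := p) 𝔮) := by
  rw [injective_iff_map_eq_one]
  intro a ha
  by_contra hne
  have h1 : ((a : Rˣ) : R) ^ p = 1 := by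
    have := a.2
    rw [mem_rootsOfUnity] at this
    have h := congrArg Units.val this
    simpa using h
  have h2 : ((a : Rˣ) : R) ≠ 1 := by
    intro h
    apply hne
    ext
    exact h
  have h3 := jac_one_sub_not_mem 𝔮 hpq h1 h2
  apply h3
  rw [← Ideal.Quotient.eq_zero_iff_mem, map_sub, map_one, sub_eq_zero]
  have := congrArg (fun x : rootsOfUnity p (R ⧸ 𝔮) => ((x : (R ⧸ 𝔮)ˣ) : R ⧸ 𝔮)) ha
  simp only [jacRed, restrictRootsOfUnity_coe_apply] at this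
  simpa using this.symm

theorem jacRed_bijective {ζ : R} (hζ : IsPrimitiveRoot ζ p) (hpq : (p : R) ∉ 𝔮) :
    Function.Bijective (jacRed (p := p) 𝔮) := by
  have : NeZero p := ⟨hp.out.ne_zero⟩
  have : IsDomain (R ⧸ 𝔮) := Ideal.Quotient.isDomain 𝔮
  have : Finite (rootsOfUnity p (R ⧸ 𝔮)) := inferInstance
  apply (jacRed_injective 𝔮 hpq).bijective_of_nat_card_le
  rw [hζ.card_rootsOfUnity]
  exact card_rootsOfUnity (R ⧸ 𝔮) p

variable [Fintype (R ⧸ 𝔮)]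

theorem jac_units_pow_card_sub_one (x : (R ⧸ 𝔮)ˣ) : x ^ (Fintype.card (R ⧸ 𝔮) - 1) = 1 := by
  classical
  let := Ideal.Quotient.field 𝔮
  rw [← Fintype.card_units]
  exact pow_card_eq_one

/-- `x ↦ x ^ m` as a homomorphism from the units of the residue field to its `p`-th roots of
unity, where `m * p = q - 1`. -/
noncomputable def jacPowHom {m : ℕ} (hm : m * p = Fintype.card (R ⧸ 𝔮) - 1) :
    (R ⧸ 𝔮)ˣ →* rootsOfUnity p (R ⧸ 𝔮) where
  toFun x := ⟨x ^ m, by rw [mem_rootsOfUnity, ← pow_mul, hm, jac_units_pow_card_sub_one]⟩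
  map_one' := by ext; simp
  map_mul' x y := by ext; simp [mul_pow]

/-- The `p`-th power residue character modulo `𝔮`, with values in `R`. -/
noncomputable def jacResidueChar {ζ : R} (hζ : IsPrimitiveRoot ζ p) (hpq : (p : R) ∉ 𝔮) {m : ℕ}
    (hm : m * p = Fintype.card (R ⧸ 𝔮) - 1) : MulChar (R ⧸ 𝔮) R :=
  MulChar.ofUnitHom (((rootsOfUnity p R).subtype).comp
    ((MulEquiv.ofBijective _ (jacRed_bijective 𝔮 hζ hpq)).symm.toMonoidHom.comp (jacPowHom 𝔮 hm)))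

variable {ζ : R} (hζ : IsPrimitiveRoot ζ p) (hpq : (p : R) ∉ 𝔮) {m : ℕ}
    (hm : m * p = Fintype.card (R ⧸ 𝔮) - 1)

theorem jacResidueChar_unit_eq (x : (R ⧸ 𝔮)ˣ) :
    jacResidueChar 𝔮 hζ hpq hm x =
      (((MulEquiv.ofBijective _ (jacRed_bijective 𝔮 hζ hpq)).symm (jacPowHom 𝔮 hm x) :
        rootsOfUnity p R) : Rˣ) := by
  rw [jacResidueChar, MulChar.ofUnitHom_coe]
  rfl

theorem jacResidueChar_unit_spec (x : (R ⧸ 𝔮)ˣ) :
    Ideal.Quotient.mk 𝔮 (jacResidueChar 𝔮 hζ hpq hm x) = (x : R ⧸ 𝔮) ^ m := by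
  rw [jacResidueChar_unit_eq]
  have h2 := (MulEquiv.ofBijective _ (jacRed_bijective 𝔮 hζ hpq)).apply_symm_apply
    (jacPowHom 𝔮 hm x)
  have h3 := congrArg (fun y : rootsOfUnity p (R ⧸ 𝔮) => ((y : (R ⧸ 𝔮)ˣ) : R ⧸ 𝔮)) h2
  simp only [MulEquiv.ofBijective_apply, jacRed, restrictRootsOfUnity_coe_apply] at h3
  refine h3.trans ?_
  simp [jacPowHom]

theorem jacResidueChar_unit_pow (x : (R ⧸ 𝔮)ˣ) : (jacResidueChar 𝔮 hζ hpq hm x) ^ p = 1 := by
  rw [jacResidueChar_unit_eq]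
  have := ((MulEquiv.ofBijective _ (jacRed_bijective 𝔮 hζ hpq)).symm (jacPowHom 𝔮 hm x)).2
  rw [mem_rootsOfUnity] at this
  have h := congrArg Units.val this
  simpa using h

theorem jacResidueChar_spec (hm0 : 0 < m) (x : R ⧸ 𝔮) :
    Ideal.Quotient.mk 𝔮 (jacResidueChar 𝔮 hζ hpq hm x) = x ^ m := by
  let := Ideal.Quotient.field 𝔮
  by_cases hx : IsUnit x
  · obtain ⟨u, rfl⟩ := hx
    exact jacResidueChar_unit_spec 𝔮 hζ hpq hm u
  · rw [MulChar.map_nonunit _ hx, map_zero]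
    have : x = 0 := by
      by_contra h0
      exact hx (IsUnit.mk0 x h0)
    rw [this, zero_pow hm0.ne']

/-- The values of the residue character are `0` or powers of `ζ`. -/
theorem jacResidueChar_eq_zero_or_pow (x : R ⧸ 𝔮) :
    jacResidueChar 𝔮 hζ hpq hm x = 0 ∨ ∃ i : ℕ, jacResidueChar 𝔮 hζ hpq hm x = ζ ^ i := by
  by_cases hx : IsUnit x
  · right
    obtain ⟨u, rfl⟩ := hx
    have h := jacResidueChar_unit_pow 𝔮 hζ hpq hm u
    have : NeZero p := ⟨hp.out.ne_zero⟩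
    obtain ⟨i, _, hi⟩ := hζ.eq_pow_of_pow_eq_one h
    exact ⟨i, hi.symm⟩
  · left
    exact MulChar.map_nonunit _ hx

/-- The twisted Jacobi sums `J_s = ∑ χ(x)^s χ(1-x)^s`; `J_1` is the Jacobi sum `J(χ,χ)` and
`J_s` is its image under the automorphism `ζ ↦ ζ^s`. -/
noncomputable def jacSum (s : ℕ) : R :=
  ∑ x : R ⧸ 𝔮, (jacResidueChar 𝔮 hζ hpq hm x) ^ s * (jacResidueChar 𝔮 hζ hpq hm (1 - x)) ^ s

theorem jacSum_one : jacSum 𝔮 hζ hpq hm 1 =
    jacobiSum (jacResidueChar 𝔮 hζ hpq hm) (jacResidueChar 𝔮 hζ hpq hm) := by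
  simp [jacSum, jacobiSum]

/-- Galois conjugates of the Jacobi sum. -/
theorem map_jacSum_one {S : Type*} [FunLike S R R] [RingHomClass S R R] (σ : S) {s : ℕ}
    (hs : 0 < s) (hσ : σ ζ = ζ ^ s) : σ (jacSum 𝔮 hζ hpq hm 1) = jacSum 𝔮 hζ hpq hm s := by
  have key : ∀ x : R ⧸ 𝔮, s ≠ 0 → σ (jacResidueChar 𝔮 hζ hpq hm x) = (jacResidueChar 𝔮 hζ hpq hm x) ^ s := by
    intro x hs
    rcases jacResidueChar_eq_zero_or_pow 𝔮 hζ hpq hm x with h | ⟨i, hi⟩
    · rw [h, map_zero, zero_pow hs]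
    · rw [hi, map_pow, hσ, ← pow_mul, ← pow_mul, mul_comm]
  simp only [jacSum, pow_one, map_sum, map_mul]
  refine sum_congr rfl fun x _ => ?_
  rw [key x hs.ne', key (1 - x) hs.ne']

theorem mk_jacSum (hm0 : 0 < m) (s : ℕ) :
    Ideal.Quotient.mk 𝔮 (jacSum 𝔮 hζ hpq hm s) =
      ∑ x : R ⧸ 𝔮, x ^ (m * s) * (1 - x) ^ (m * s) := by
  simp only [jacSum, map_sum, map_mul, map_pow, jacResidueChar_spec 𝔮 hζ hpq hm hm0, ← pow_mul]

/-- **Stickelberger congruence for Jacobi sums**: `J_s ∈ 𝔮 ↔ 2 s < p`. -/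
theorem jacSum_mem_iff {q : ℕ} (hq : Fintype.card (R ⧸ 𝔮) = q) (hqp : q.Prime) {s : ℕ}
    (hs0 : 0 < s) (hsp : s < p) : jacSum 𝔮 hζ hpq hm s ∈ 𝔮 ↔ 2 * s < p := by
  let _ := Ideal.Quotient.field 𝔮
  have hm' : m * p = q - 1 := by rw [hm, hq]
  have hm0 : 0 < m := by
    rcases Nat.eq_zero_or_pos m with rfl | h
    · have := hqp.two_le
      omega
    · exact h
  rw [← Ideal.Quotient.eq_zero_iff_mem, mk_jacSum 𝔮 hζ hpq hm hm0,
    jac_sum_pow_mul_one_sub_pow hq hqp (Nat.mul_pos hm0 hs0)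
      (by rw [← hm']; exact Nat.mul_lt_mul_of_pos_left hsp hm0), ← hm']
  constructor
  · intro h
    have : m * (2 * s) < m * p := by linarith [h, mul_comm 2 (m * s), mul_assoc m 2 s]
    exact Nat.lt_of_mul_lt_mul_left this
  · intro h
    calc 2 * (m * s) = m * (2 * s) := by ring
      _ < m * p := Nat.mul_lt_mul_of_pos_left h hm0

include hm in
/-- There is a unit of the residue field whose `m`-th power is not `1` (as `m < q - 1`). -/
theorem jac_exists_pow_ne_one (hm0 : 0 < m) :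
    ∃ x : (R ⧸ 𝔮)ˣ, (x : R ⧸ 𝔮) ^ m ≠ 1 := by
  classical
  let _ := Ideal.Quotient.field 𝔮
  obtain ⟨g, hg⟩ := IsCyclic.exists_generator (α := (R ⧸ 𝔮)ˣ)
  refine ⟨g, fun h => ?_⟩
  have h1 : g ^ m = 1 := by
    ext
    simpa using h
  have hord : orderOf g = Fintype.card (R ⧸ 𝔮) - 1 := by
    rw [orderOf_eq_card_of_forall_mem_zpowers hg, Nat.card_eq_fintype_card, Fintype.card_units]
  have hdvd := orderOf_dvd_of_pow_eq_one h1
  rw [hord, ← hm] at hdvd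
  have hle := Nat.le_of_dvd hm0 hdvd
  have hp2 := hp.out.two_le
  nlinarith

theorem jacResidueChar_pow_ne_one (hm0 : 0 < m) {k : ℕ} (hk : ¬ p ∣ k) :
    ∃ x : (R ⧸ 𝔮)ˣ, (jacResidueChar 𝔮 hζ hpq hm x) ^ k ≠ 1 := by
  obtain ⟨x, hx⟩ := jac_exists_pow_ne_one 𝔮 hm hm0
  refine ⟨x, fun h => hx ?_⟩
  have h1 := jacResidueChar_unit_pow 𝔮 hζ hpq hm x
  have hcop : Nat.Coprime k p := (Nat.Coprime.symm ((Nat.Prime.coprime_iff_not_dvd hp.out).mpr hk))
  have h2 : (jacResidueChar 𝔮 hζ hpq hm x) ^ (Nat.gcd k p) = 1 := by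
    have := orderOf_dvd_of_pow_eq_one h
    have := orderOf_dvd_of_pow_eq_one h1
    exact orderOf_dvd_iff_pow_eq_one.mp (Nat.dvd_gcd ‹_› ‹_›)
  rw [hcop, pow_one] at h2
  rw [← jacResidueChar_spec 𝔮 hζ hpq hm hm0, h2, map_one]

/-- `J(χ,χ) * J(χ⁻¹,χ⁻¹) = q`. -/
theorem jacSum_one_mul_jacSum_pred [CharZero R] (hp2 : p ≠ 2) {q : ℕ}
    (hq : Fintype.card (R ⧸ 𝔮) = q) (hqp : q.Prime) :
    jacSum 𝔮 hζ hpq hm 1 * jacSum 𝔮 hζ hpq hm (p - 1) = q := by
  classical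
  let _ := Ideal.Quotient.field 𝔮
  have hm0 : 0 < m := by
    rcases Nat.eq_zero_or_pos m with rfl | h
    · have := hqp.two_le
      omega
    · exact h
  set K := FractionRing R
  have hinj : Function.Injective (algebraMap R K) := IsFractionRing.injective R K
  apply hinj
  set χ : MulChar (R ⧸ 𝔮) K := (jacResidueChar 𝔮 hζ hpq hm).ringHomComp (algebraMap R K) with hχdef
  have hχapp : ∀ x, χ x = algebraMap R K (jacResidueChar 𝔮 hζ hpq hm x) := fun x => rfl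
  have hchar : ringChar K ≠ ringChar (R ⧸ 𝔮) := by
    have h0 : ringChar K = 0 := by
      have : CharZero K := charZero_of_injective_algebraMap hinj
      exact ringChar.eq_zero
    have hq' : ringChar (R ⧸ 𝔮) ≠ 0 := by
      intro h
      have : CharZero (R ⧸ 𝔮) := by
        have := ringChar.of_eq h
        exact CharP.charP_to_charZero _
      exact not_finite (R ⧸ 𝔮)
    rw [h0]
    exact hq'.symm
  have hχ1 : χ ≠ 1 := by
    obtain ⟨x, hx⟩ := jacResidueChar_pow_ne_one 𝔮 hζ hpq hm hm0 (k := 1)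
      (fun h => hp.out.one_lt.ne' (Nat.dvd_one.mp h))
    intro h
    apply hx
    have := congrArg (fun ψ : MulChar (R ⧸ 𝔮) K => ψ x) h
    simp only [hχapp, MulChar.one_apply_coe] at this
    rw [pow_one]
    exact hinj (by rw [this, map_one])
  have hχ2 : χ * χ ≠ 1 := by
    obtain ⟨x, hx⟩ := jacResidueChar_pow_ne_one 𝔮 hζ hpq hm hm0 (k := 2)
      (fun h => hp2 ((Nat.prime_dvd_prime_iff_eq hp.out Nat.prime_two).mp h))
    intro h
    apply hx
    have := congrArg (fun ψ : MulChar (R ⧸ 𝔮) K => ψ x) h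
    simp only [MulChar.coeToFun_mul, Pi.mul_apply, hχapp, MulChar.one_apply_coe] at this
    rw [pow_two]
    exact hinj (by rw [map_mul, this, map_one])
  have key := jacobiSum_mul_jacobiSum_inv hchar hχ1 hχ1 hχ2
  rw [hq] at key
  rw [map_mul, map_natCast, ← key]
  congr 1
  · simp only [jacSum, jacobiSum, pow_one, map_sum, map_mul, hχapp]
  · simp only [jacSum, jacobiSum, map_sum, map_mul, map_pow]
    refine sum_congr rfl fun x _ => ?_
    have hinv : ∀ y : R ⧸ 𝔮, (algebraMap R K (jacResidueChar 𝔮 hζ hpq hm y)) ^ (p - 1) = χ⁻¹ y := by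
      intro y
      rw [MulChar.inv_apply_eq_inv', hχapp]
      by_cases hy : IsUnit y
      · obtain ⟨u, rfl⟩ := hy
        have h1 := jacResidueChar_unit_pow 𝔮 hζ hpq hm u
        have h2 : (algebraMap R K (jacResidueChar 𝔮 hζ hpq hm u)) ^ p = 1 := by
          rw [← map_pow, h1, map_one]
        apply eq_inv_of_mul_eq_one_left
        rw [← pow_succ, Nat.sub_add_cancel hp.out.one_le, h2]
      · rw [MulChar.map_nonunit _ hy, map_zero, inv_zero, zero_pow]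
        have := hp.out.two_le
        omega
    rw [hinv, hinv]

end ResidueChar

section ResidueChar

variable {R : Type*} [CommRing R] [IsDomain R] {p : ℕ} [hp : Fact p.Prime]
  (𝔮 : Ideal R) [h𝔮 : 𝔮.IsMaximal] [Fintype (R ⧸ 𝔮)]

theorem jac_dvd_card_sub_one {ζ : R} (hζ : IsPrimitiveRoot ζ p) (hpq : (p : R) ∉ 𝔮) :
    p ∣ Fintype.card (R ⧸ 𝔮) - 1 := by
  classical
  let _ := Ideal.Quotient.field 𝔮
  have : NeZero p := ⟨hp.out.ne_zero⟩
  have h1 : Nat.card (rootsOfUnity p (R ⧸ 𝔮)) = p := by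
    rw [← Nat.card_congr (Equiv.ofBijective _ (jacRed_bijective 𝔮 hζ hpq)), hζ.card_rootsOfUnity]
  have h2 := Subgroup.card_subgroup_dvd_card (rootsOfUnity p (R ⧸ 𝔮))
  rw [h1, Nat.card_eq_fintype_card, Fintype.card_units] at h2
  exact h2

/-- Every residue class modulo a prime of prime norm contains a natural number. -/
theorem jac_exists_nat_sub_mem {q : ℕ} (hq : Fintype.card (R ⧸ 𝔮) = q) (hqp : q.Prime) (y : R) :
    ∃ n : ℕ, y - n ∈ 𝔮 := by
  have : NeZero q := ⟨hqp.ne_zero⟩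
  obtain ⟨a, ha⟩ : ∃ a : ZMod q, ZMod.ringEquivOfPrime (R ⧸ 𝔮) hqp hq a = Ideal.Quotient.mk 𝔮 y :=
    (ZMod.ringEquivOfPrime (R ⧸ 𝔮) hqp hq).surjective _
  refine ⟨a.val, ?_⟩
  rw [← Ideal.Quotient.eq_zero_iff_mem, map_sub, map_natCast, sub_eq_zero, ← ha]
  conv_lhs => rw [← ZMod.natCast_zmod_val a]
  rw [map_natCast]

end ResidueChar

section Cyclotomic

variable {p : ℕ} [hp : Fact p.Prime] {K : Type} [Field K] [NumberField K]
  [IsCyclotomicExtension {p} ℚ K] {ζ : K} (hζ : IsPrimitiveRoot ζ p)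

include hζ in
/-- Automorphisms of the cyclotomic field. -/
theorem jac_exists_aut {s : ℕ} (hs : s.Coprime p) : ∃ σ : K ≃ₐ[ℚ] K, σ ζ = ζ ^ s := by
  have : NeZero p := ⟨hp.out.ne_zero⟩
  have hirr : Irreducible (cyclotomic p ℚ) := cyclotomic.irreducible_rat hp.out.pos
  have hζs : IsPrimitiveRoot (ζ ^ s) p := hζ.pow_of_coprime s hs
  have h1 : minpoly ℚ ζ = minpoly ℚ (ζ ^ s) := by
    rw [← hζ.minpoly_eq_cyclotomic_of_irreducible hirr,
      ← hζs.minpoly_eq_cyclotomic_of_irreducible hirr]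
  have h2 : minpoly ℚ (hζ.powerBasis ℚ).gen = minpoly ℚ (hζs.powerBasis ℚ).gen := by
    simpa using h1
  refine ⟨(hζ.powerBasis ℚ).equivOfMinpoly (hζs.powerBasis ℚ) h2, ?_⟩
  have := (hζ.powerBasis ℚ).equivOfMinpoly_gen (hζs.powerBasis ℚ) h2
  simpa using this

theorem jac_absNorm_smul (σ : K ≃ₐ[ℚ] K) (I : Ideal (𝓞 K)) :
    Ideal.absNorm (σ • I) = Ideal.absNorm I := by
  have e : (𝓞 K ⧸ I) ≃+* (𝓞 K ⧸ σ • I) :=
    Ideal.quotientEquiv I (σ • I) (MulSemiringAction.toRingEquiv (K ≃ₐ[ℚ] K) (𝓞 K) σ) rfl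
  rw [Ideal.absNorm_apply, Ideal.absNorm_apply, Submodule.cardQuot_apply,
    Submodule.cardQuot_apply]
  exact (Nat.card_congr e.toEquiv).symm

theorem jac_smul_span (σ : K ≃ₐ[ℚ] K) (x : 𝓞 K) :
    σ • Ideal.span {x} = Ideal.span {σ • x} := by
  rw [Ideal.pointwise_smul_def, Ideal.map_span, Set.image_singleton]
  rfl

include hζ in
theorem jac_smul_toInteger (τ : K ≃ₐ[ℚ] K) {s : ℕ} (hτ : τ ζ = ζ ^ s) :
    MulSemiringAction.toRingHom (K ≃ₐ[ℚ] K) (𝓞 K) τ hζ.toInteger = hζ.toInteger ^ s := by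
  apply RingOfIntegers.ext
  show τ ζ = ((hζ.toInteger ^ s : 𝓞 K) : K)
  rw [hτ]
  have : ((hζ.toInteger ^ s : 𝓞 K) : K) = (hζ.toInteger : K) ^ s := by push_cast; rfl
  rw [this]
  rfl

include hζ in
/-- Two automorphisms acting differently on `ζ` move a degree-one prime `𝔮 ∤ p` to different
primes. -/
theorem jac_inv_smul_ne (𝔮 : Ideal (𝓞 K)) [𝔮.IsMaximal] [Fintype (𝓞 K ⧸ 𝔮)] {q : ℕ}
    (hq : Fintype.card (𝓞 K ⧸ 𝔮) = q) (hqp : q.Prime) (hpq : (p : 𝓞 K) ∉ 𝔮)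
    (τ₁ τ₂ : K ≃ₐ[ℚ] K) {i j : ℕ} (hij : i < j) (hjp : j < p) (h₁ : τ₁ ζ = ζ ^ i)
    (h₂ : τ₂ ζ = ζ ^ j) : τ₁⁻¹ • 𝔮 ≠ τ₂⁻¹ • 𝔮 := by
  intro heq
  set ζ' : 𝓞 K := hζ.toInteger with hζ'def
  have hζ' : IsPrimitiveRoot ζ' p := hζ.toInteger_isPrimitiveRoot
  obtain ⟨n, hn⟩ := jac_exists_nat_sub_mem 𝔮 hq hqp (τ₁ • ζ')
  have hnat : ∀ τ : K ≃ₐ[ℚ] K, τ • ((n : ℕ) : 𝓞 K) = (n : 𝓞 K) := fun τ => by
    show MulSemiringAction.toRingHom (K ≃ₐ[ℚ] K) (𝓞 K) τ (n : 𝓞 K) = n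
    rw [map_natCast]
  have h3 : ζ' - n ∈ τ₁⁻¹ • 𝔮 := by
    rw [Ideal.mem_inv_pointwise_smul_iff, smul_sub, hnat]
    exact hn
  rw [heq, Ideal.mem_inv_pointwise_smul_iff, smul_sub, hnat] at h3
  have h4 : τ₁ • ζ' - τ₂ • ζ' ∈ 𝔮 := by
    have := 𝔮.sub_mem hn h3
    simpa using this
  have e1 : τ₁ • ζ' = ζ' ^ i := jac_smul_toInteger hζ τ₁ h₁
  have e2 : τ₂ • ζ' = ζ' ^ j := jac_smul_toInteger hζ τ₂ h₂
  rw [e1, e2] at h4
  have h5 : ζ' ^ i * (1 - ζ' ^ (j - i)) ∈ 𝔮 := by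
    have : ζ' ^ i * (1 - ζ' ^ (j - i)) = ζ' ^ i - ζ' ^ j := by
      rw [mul_sub, mul_one, ← pow_add, Nat.add_sub_cancel' hij.le]
    rw [this]; exact h4
  have hprime : 𝔮.IsPrime := Ideal.IsMaximal.isPrime inferInstance
  rcases hprime.mem_or_mem h5 with h6 | h6
  · have h7 : (ζ' ^ i) ^ p ∈ 𝔮 := Ideal.pow_mem_of_mem 𝔮 h6 p hp.out.pos
    rw [← pow_mul, mul_comm, pow_mul, hζ'.pow_eq_one, one_pow] at h7
    exact hprime.ne_top ((Ideal.eq_top_iff_one _).mpr h7)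
  · refine jac_one_sub_not_mem 𝔮 hpq (η := ζ' ^ (j - i)) ?_ ?_ h6
    · rw [← pow_mul, mul_comm, pow_mul, hζ'.pow_eq_one, one_pow]
    · exact hζ'.pow_ne_one_of_pos_of_lt (by omega) (by omega)

/-- (J) FACTORISATION OF THE JACOBI SUM `J(χ,χ)`, `χ` the `p`-th power residue character of a
degree-one prime `𝔮 ∤ p` of `ℚ(ζ_p)`: `(J) = ∏_{1 ≤ j ≤ (p-1)/2} σ_j⁻¹(𝔮)`, where `σ_j ζ = ζ^j`. -/
theorem jacobi_factorization {p : ℕ} [Fact p.Prime] (hp2 : p ≠ 2) {K : Type} [Field K]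
    [NumberField K] [IsCyclotomicExtension {p} ℚ K] {ζ : K} (hζ : IsPrimitiveRoot ζ p)
    (σ : ℕ → (K ≃ₐ[ℚ] K)) (hσ : ∀ j ∈ Finset.Icc 1 ((p - 1) / 2), σ j ζ = ζ ^ j)
    (v : HeightOneSpectrum (𝓞 K)) (hv : (Ideal.absNorm v.asIdeal).Prime)
    (hvp : Ideal.absNorm v.asIdeal ≠ p) :
    ∃ x : 𝓞 K, x ≠ 0 ∧
      Ideal.span {x} = ∏ j ∈ Finset.Icc 1 ((p - 1) / 2), (σ j)⁻¹ • v.asIdeal := by
  classical
  have hp : Fact p.Prime := inferInstance
  have hpodd : p % 2 = 1 := hp.out.eq_two_or_odd.resolve_left hp2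
  have hp3 : 3 ≤ p := by
    have := hp.out.two_le
    omega
  set 𝔮 := v.asIdeal with h𝔮def
  set q := Ideal.absNorm 𝔮 with hqdef
  have h𝔮 : 𝔮.IsMaximal := v.isMaximal
  have : Finite (𝓞 K ⧸ 𝔮) := Ideal.finiteQuotientOfFreeOfNeBot 𝔮 v.ne_bot
  let _ : Fintype (𝓞 K ⧸ 𝔮) := Fintype.ofFinite _
  have hq : Fintype.card (𝓞 K ⧸ 𝔮) = q := by
    rw [hqdef, Ideal.absNorm_apply, Submodule.cardQuot_apply, Nat.card_eq_fintype_card]
  have hqmem : (q : 𝓞 K) ∈ 𝔮 := Ideal.absNorm_mem 𝔮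
  have hpq : (p : 𝓞 K) ∉ 𝔮 := by
    intro hpmem
    have hcop : Nat.Coprime p q := (Nat.coprime_primes hp.out hv).mpr (Ne.symm hvp)
    obtain ⟨a, b, hab⟩ := Nat.Coprime.isCoprime hcop
    have h1 : (1 : 𝓞 K) = (a : 𝓞 K) * p + (b : 𝓞 K) * q := by
      have := congrArg (Int.cast : ℤ → 𝓞 K) hab
      push_cast at this
      exact this.symm
    have : (1 : 𝓞 K) ∈ 𝔮 := by
      rw [h1]
      exact 𝔮.add_mem (𝔮.mul_mem_left _ hpmem) (𝔮.mul_mem_left _ hqmem)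
    exact h𝔮.ne_top ((Ideal.eq_top_iff_one _).mpr this)
  set ζ' : 𝓞 K := hζ.toInteger with hζ'def
  have hζ' : IsPrimitiveRoot ζ' p := hζ.toInteger_isPrimitiveRoot
  obtain ⟨m, hm⟩ : ∃ m, m * p = Fintype.card (𝓞 K ⧸ 𝔮) - 1 := by
    obtain ⟨m, hm⟩ := jac_dvd_card_sub_one 𝔮 hζ' hpq
    exact ⟨m, by rw [hm, mul_comm]⟩
  set J := jacSum 𝔮 hζ' hpq hm 1 with hJ
  -- conjugates of `J`
  have hconj : ∀ (τ : K ≃ₐ[ℚ] K) (s : ℕ), 0 < s → τ ζ = ζ ^ s →
      τ • J = jacSum 𝔮 hζ' hpq hm s := fun τ s hs hτ =>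
    map_jacSum_one 𝔮 hζ' hpq hm (MulSemiringAction.toRingHom (K ≃ₐ[ℚ] K) (𝓞 K) τ) hs
      (jac_smul_toInteger hζ τ hτ)
  have hmem : ∀ (τ : K ≃ₐ[ℚ] K) (s : ℕ), 0 < s → s < p → τ ζ = ζ ^ s →
      (J ∈ τ⁻¹ • 𝔮 ↔ 2 * s < p) := fun τ s hs hsp hτ => by
    rw [Ideal.mem_inv_pointwise_smul_iff, hconj τ s hs hτ]
    exact jacSum_mem_iff 𝔮 hζ' hpq hm hq hv hs hsp
  -- complex conjugation
  obtain ⟨c, hc⟩ := jac_exists_aut hζ (s := p - 1)
    ((Nat.coprime_self_sub_left hp.out.one_le).mpr (Nat.coprime_one_left p))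
  have hJJ : J * (c • J) = q := by
    rw [hconj c (p - 1) (by omega) hc]
    exact jacSum_one_mul_jacSum_pred 𝔮 hζ' hpq hm hp2 hq hv
  have hq0 : (q : 𝓞 K) ≠ 0 := by
    exact_mod_cast hv.ne_zero
  have hJ0 : J ≠ 0 := by
    intro h0
    rw [h0, zero_mul] at hJJ
    exact hq0 hJJ.symm
  refine ⟨J, hJ0, ?_⟩
  -- the norm of `J`
  have hfin : Module.finrank ℤ (𝓞 K) = p - 1 := by
    rw [RingOfIntegers.rank, IsCyclotomicExtension.finrank K
      (cyclotomic.irreducible_rat hp.out.pos), Nat.totient_prime hp.out]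
  have hN : Ideal.absNorm (Ideal.span {J}) = q ^ ((p - 1) / 2) := by
    have h1 : Ideal.absNorm (Ideal.span {J}) * Ideal.absNorm (Ideal.span {c • J}) =
        q ^ (p - 1) := by
      rw [← map_mul, Ideal.span_singleton_mul_span_singleton, hJJ, Ideal.absNorm_span_natCast,
        hfin]
    rw [← jac_smul_span, jac_absNorm_smul] at h1
    have h2 : q ^ (p - 1) = q ^ ((p - 1) / 2) * q ^ ((p - 1) / 2) := by
      rw [← pow_add]
      congr 1
      omega
    rw [h2] at h1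
    exact Nat.mul_self_inj.mp h1
  -- the primes `P_j`
  set P : ℕ → Ideal (𝓞 K) := fun j => (σ j)⁻¹ • 𝔮 with hPdef
  have hPnorm : ∀ j, Ideal.absNorm (P j) = q := fun j => jac_absNorm_smul _ _
  have hPmax : ∀ j, (P j).IsMaximal := fun j => by
    have hprime : (P j).IsPrime :=
      Ideal.isPrime_of_irreducible_absNorm (by rw [hPnorm]; exact hv.prime.irreducible)
    refine hprime.isMaximal ?_
    intro hbot
    have := hPnorm j
    rw [hbot, Ideal.absNorm_bot] at this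
    exact hv.ne_zero this.symm
  have hPJ : ∀ j ∈ Finset.Icc 1 ((p - 1) / 2), P j ∣ Ideal.span {J} := fun j hj => by
    rw [Ideal.dvd_iff_le, Ideal.span_singleton_le_iff_mem]
    have hj' := Finset.mem_Icc.mp hj
    exact (hmem (σ j) j (by omega) (by omega) (hσ j hj)).mpr (by omega)
  have hPcop : ((Finset.Icc 1 ((p - 1) / 2) : Finset ℕ) : Set ℕ).Pairwise (Function.onFun IsCoprime P) := by
    intro i hi j hj hij
    have hi' := Finset.mem_Icc.mp hi
    have hj' := Finset.mem_Icc.mp hj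
    show IsCoprime (P i) (P j)
    rw [Ideal.isCoprime_iff_sup_eq]
    apply Ideal.IsMaximal.coprime_of_ne (hPmax i) (hPmax j)
    rcases lt_or_gt_of_ne hij with h | h
    · exact jac_inv_smul_ne hζ 𝔮 hq hv hpq (σ i) (σ j) h (by omega) (hσ i hi) (hσ j hj)
    · exact (jac_inv_smul_ne hζ 𝔮 hq hv hpq (σ j) (σ i) h (by omega) (hσ j hj) (hσ i hi)).symm
  obtain ⟨𝔞, h𝔞⟩ := Finset.prod_dvd_of_coprime hPcop hPJ
  have hnorm := congrArg Ideal.absNorm h𝔞
  rw [map_mul, map_prod, hN, Finset.prod_congr rfl (fun j _ => hPnorm j), Finset.prod_const,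
    Nat.card_Icc, Nat.add_sub_cancel] at hnorm
  have h𝔞1 : Ideal.absNorm 𝔞 = 1 := by
    have hpos : 0 < q ^ ((p - 1) / 2) := pow_pos hv.pos _
    exact (Nat.eq_of_mul_eq_mul_left hpos (by rw [mul_one]; exact hnorm.symm))
  rw [Ideal.absNorm_eq_one_iff] at h𝔞1
  rw [h𝔞, h𝔞1, Ideal.mul_top]

end Cyclotomic

end Fermat.Agent.S14
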