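import Fermat.Agent.S14.Defs

/-!
# S14, package M: Theorem M from (R) reciprocity on good principal divisors, (J) the Jacobi sum
factorisation and (E1) density.

The three inputs are taken as hypotheses-as-arguments, in exactly the shapes of
`CoreSpec.lean` / `TopSpec.lean`.
-/

namespace Fermat.Agent.S14

open NumberField IsDedekindDomain
open scoped Pointwise IntermediateField

section Frob

variable {K L : Type} [Field K] [NumberField K] [Field L] [NumberField L] [Algebra K L]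
  [IsGalois K L]

/-- An element of the Galois group is determined by its action on the ring of integers. -/
theorem thmM_algEquiv_ext_of_smul {φ ρ : L ≃ₐ[K] L} (h : ∀ x : 𝓞 L, φ • x = ρ • x) : φ = ρ := by
  refine AlgEquiv.ext fun y => ?_
  obtain ⟨a, b, -, rfl⟩ := IsFractionRing.div_surjective (A := 𝓞 L) y
  have ha : φ (algebraMap (𝓞 L) L a) = ρ (algebraMap (𝓞 L) L a) :=
    congrArg (fun z : 𝓞 L => (z : L)) (h a)
  have hb : φ (algebraMap (𝓞 L) L b) = ρ (algebraMap (𝓞 L) L b) :=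
    congrArg (fun z : 𝓞 L => (z : L)) (h b)
  rw [map_div₀, map_div₀, ha, hb]

/-- In an abelian extension, at an unramified place, any arithmetic Frobenius at any prime above
`v` is `frobAt K L v`. -/
theorem thmM_frobAt_eq (hab : ∀ a b : L ≃ₐ[K] L, a * b = b * a)
    (v : HeightOneSpectrum (𝓞 K)) (hv : IsUnramifiedIn K L v)
    (Q : Ideal (𝓞 L)) [Q.IsPrime] (hQ : Q.LiesOver v.asIdeal) (φ : L ≃ₐ[K] L)
    (hφ : IsArithFrobAt (𝓞 K) φ Q) : frobAt K L v = φ := by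
  have hθ : IsArithFrobAt (𝓞 K) (frobAt K L v) (primeAbove K L v) :=
    IsArithFrobAt.arithFrobAt (𝓞 K) (L ≃ₐ[K] L) (primeAbove K L v)
  have hunder : (primeAbove K L v).under (𝓞 K) = Q.under (𝓞 K) := by
    rw [← (primeAbove_liesOver K L v).over, ← hQ.over]
  obtain ⟨η, hη⟩ := Algebra.IsInvariant.exists_smul_of_under_eq (𝓞 K) (𝓞 L) (L ≃ₐ[K] L)
    (primeAbove K L v) Q hunder
  have hθ' : IsArithFrobAt (𝓞 K) (frobAt K L v) Q := by
    have h1 := hθ.conj η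
    rw [← hη, hab η, mul_inv_cancel_right] at h1
    exact h1
  haveI : Algebra.IsUnramifiedAt (𝓞 K) Q := hv Q hQ
  have h2 := AlgHom.IsArithFrobAt.eq_of_isUnramifiedAt hθ' hφ
    (fun x hx => mem_nonZeroDivisors_of_ne_zero (by rintro rfl; exact hx (zero_mem _)))
  exact thmM_algEquiv_ext_of_smul fun x => DFunLike.congr_fun h2 x

end Frob

section Conj

variable {K L : Type} [Field K] [NumberField K] [Field L] [NumberField L] [Algebra K L]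
  [IsGalois K L]

/-- Conjugating a Frobenius by an automorphism `τ` of `L` over `ℚ`. -/
theorem thmM_conj_isArithFrobAt (τ : L ≃ₐ[ℚ] L) (φ ρ : L ≃ₐ[K] L)
    (hρ : ∀ y : L, τ (ρ y) = φ (τ y)) (P : Ideal (𝓞 L))
    (hN : Nat.card (𝓞 K ⧸ (τ⁻¹ • P).under (𝓞 K)) = Nat.card (𝓞 K ⧸ P.under (𝓞 K)))
    (hφ : IsArithFrobAt (𝓞 K) φ P) : IsArithFrobAt (𝓞 K) ρ (τ⁻¹ • P) := by
  intro x
  rw [hN, Ideal.mem_pointwise_smul_iff_inv_smul_mem, inv_inv, smul_sub, smul_pow']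
  have h := hφ (τ • x)
  have e : τ • (MulSemiringAction.toAlgHom (𝓞 K) (𝓞 L) ρ) x =
      (MulSemiringAction.toAlgHom (𝓞 K) (𝓞 L) φ) (τ • x) := Subtype.ext (hρ x)
  rw [e]
  exact h

end Conj

-- arithmetic
theorem thmM_sum_ne_zero {p : ℕ} [Fact p.Prime] (hp2 : p ≠ 2) :
    (∑ j ∈ Finset.Icc 1 ((p - 1) / 2), (j : ZMod p)) ≠ 0 := by
  have hp := (Fact.out : p.Prime)
  obtain ⟨m, hm⟩ : ∃ m, p = 2 * m + 1 := by
    rcases hp.eq_two_or_odd with h | h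
    · exact absurd h hp2
    · exact ⟨p / 2, by omega⟩
  have hm' : (p - 1) / 2 = m := by omega
  rw [hm']
  have h1 : (∑ j ∈ Finset.Icc 1 m, (j : ZMod p)) = ((∑ j ∈ Finset.range (m + 1), j : ℕ) : ZMod p) := by
    rw [Nat.cast_sum, Finset.range_eq_Ico, Finset.sum_eq_sum_Ico_succ_bot (by omega)]
    simp
    rfl
  intro h0
  rw [h1] at h0
  have h2 := Finset.sum_range_id_mul_two (m + 1)
  have h3 : ((8 * (∑ j ∈ Finset.range (m + 1), j) : ℕ) : ZMod p) = 0 := by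
    rw [Nat.cast_mul, h0, mul_zero]
  have h4 : 8 * (∑ j ∈ Finset.range (m + 1), j) + 1 = p * p := by
    have : (∑ j ∈ Finset.range (m + 1), j) * 2 = (m + 1) * m := by simpa using h2
    rw [hm]
    nlinarith
  have h5 : ((8 * (∑ j ∈ Finset.range (m + 1), j) + 1 : ℕ) : ZMod p) = 0 := by
    rw [h4]; simp
  rw [Nat.cast_add, h3, zero_add, Nat.cast_one] at h5
  exact one_ne_zero h5

section

variable {K : Type} [Field K] [NumberField K]

/-- The translate of a finite place by a field automorphism. -/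
noncomputable def thmMPlace (σ : K ≃ₐ[ℚ] K) (v : HeightOneSpectrum (𝓞 K)) :
    HeightOneSpectrum (𝓞 K) where
  asIdeal := σ • v.asIdeal
  isPrime := inferInstance
  ne_bot := by
    intro h
    apply v.ne_bot
    have : v.asIdeal = σ⁻¹ • (σ • v.asIdeal) := by rw [inv_smul_smul]
    rw [this, h, Ideal.pointwise_smul_def, Ideal.map_bot]

theorem thmM_card_quot_smul (σ : K ≃ₐ[ℚ] K) (I : Ideal (𝓞 K)) :
    Nat.card (𝓞 K ⧸ σ • I) = Nat.card (𝓞 K ⧸ I) :=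
  (Nat.card_congr (Ideal.quotientEquiv I (σ • I) (MulSemiringAction.toRingEquiv _ (𝓞 K) σ)
    (by rw [Ideal.pointwise_smul_def]; rfl)).toEquiv).symm

theorem thmM_absNorm_smul (σ : K ≃ₐ[ℚ] K) (I : Ideal (𝓞 K)) :
    Ideal.absNorm (σ • I) = Ideal.absNorm I := by
  rw [Ideal.absNorm_apply, Ideal.absNorm_apply, Submodule.cardQuot_apply, Submodule.cardQuot_apply]
  exact thmM_card_quot_smul σ I

end

section

variable {K : Type} [Field K] [NumberField K]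

theorem thmM_divOf_eq_sum {ι : Type*} (s : Finset ι) (w : ι → HeightOneSpectrum (𝓞 K)) (x : 𝓞 K)
    (hx : Ideal.span {x} = ∏ j ∈ s, (w j).asIdeal) :
    divOf K (x : K) = ∑ j ∈ s, Finsupp.single (w j) (1 : ℤ) := by
  classical
  ext u
  rw [divOf_apply, ← FractionalIdeal.coeIdeal_span_singleton, hx,
    ← FractionalIdeal.coeIdealHom_apply, map_prod, FractionalIdeal.count_prod]
  · rw [Finsupp.finsetSum_apply]
    refine Finset.sum_congr rfl fun j _ => ?_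
    rw [FractionalIdeal.coeIdealHom_apply, FractionalIdeal.count_maximal, Finsupp.single_apply]
  · intro j _
    rw [FractionalIdeal.coeIdealHom_apply]
    exact FractionalIdeal.coeIdeal_ne_zero.mpr (w j).ne_bot

end

theorem thmM_restrictScalars_pow {K L : Type} [Field K] [Field L] [Algebra K L] [Algebra ℚ K] [Algebra ℚ L]
    [IsScalarTower ℚ K L] (θ : L ≃ₐ[K] L) (j : ℕ) (y : L) : ((θ.restrictScalars ℚ) ^ j) y = (θ ^ j) y := by
  induction j generalizing y with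
  | zero => rfl
  | succ n ih =>
    rw [pow_succ, pow_succ, AlgEquiv.mul_apply, AlgEquiv.mul_apply, ih]
    rfl

/-- Existence of an automorphism of `L` raising `ζ` to the `j`-th power. -/
theorem thmM_exists_aut {p : ℕ} [Fact p.Prime] {L : Type} [Field L] [NumberField L]
    [IsGalois ℚ L] {ζ : L} (hζ : IsPrimitiveRoot ζ p) {j : ℕ} (hj : j.Coprime p) :
    ∃ τ : L ≃ₐ[ℚ] L, τ ζ = ζ ^ j := by
  have hp := (Fact.out : p.Prime)
  have hζj : IsPrimitiveRoot (ζ ^ j) p := hζ.pow_of_coprime j hj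
  have h1 : minpoly ℚ (ζ ^ j) = minpoly ℚ ζ := by
    rw [← Polynomial.cyclotomic_eq_minpoly_rat hζj hp.pos,
      ← Polynomial.cyclotomic_eq_minpoly_rat hζ hp.pos]
  exact minpoly.exists_algEquiv_of_root (Algebra.IsAlgebraic.isAlgebraic _)
    (by rw [h1]; exact minpoly.aeval ℚ ζ)

set_option maxHeartbeats 800000 in
theorem no_omega_inv_extension_core {p : ℕ} [Fact p.Prime] (hp2 : p ≠ 2) (L : Type) [Field L]
    [NumberField L] [IsGalois ℚ L] (ζ : L) (hζ : IsPrimitiveRoot ζ p)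
    (hdeg : Module.finrank ℚ⟮ζ⟯ L = p)
    (hunr : IsUnramifiedEverywhere ℚ⟮ζ⟯ L)
    (hact : ∀ (σ h : L ≃ₐ[ℚ] L) (k : ℕ), h ζ = ζ → σ ζ = ζ ^ k → σ⁻¹ * h * σ = h ^ k)
    (hR : ∀ ψ : (L ≃ₐ[ℚ⟮ζ⟯] L) →* Multiplicative (ZMod p), Function.Injective ψ →
      ∃ B : Finset ℕ, ∀ x : ℚ⟮ζ⟯, x ≠ 0 →
        (∀ v, divOf ℚ⟮ζ⟯ x v ≠ 0 → IsGoodPlace ℚ⟮ζ⟯ B v) →
        artin ℚ⟮ζ⟯ L ψ (divOf ℚ⟮ζ⟯ x) = 0)
    (hE1 : ∀ B : Finset ℕ, ∃ v : HeightOneSpectrum (𝓞 ℚ⟮ζ⟯), IsGoodPlace ℚ⟮ζ⟯ B v ∧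
      IsUnramifiedIn ℚ⟮ζ⟯ L v ∧ frobAt ℚ⟮ζ⟯ L v ≠ 1)
    (hJ : ∀ ζ' : ℚ⟮ζ⟯, IsPrimitiveRoot ζ' p → ∀ σ : ℕ → (ℚ⟮ζ⟯ ≃ₐ[ℚ] ℚ⟮ζ⟯),
      (∀ j ∈ Finset.Icc 1 ((p - 1) / 2), σ j ζ' = ζ' ^ j) →
      ∀ v : HeightOneSpectrum (𝓞 ℚ⟮ζ⟯), (Ideal.absNorm v.asIdeal).Prime →
      Ideal.absNorm v.asIdeal ≠ p →
      ∃ x : 𝓞 ℚ⟮ζ⟯, x ≠ 0 ∧
        Ideal.span {x} = ∏ j ∈ Finset.Icc 1 ((p - 1) / 2), (σ j)⁻¹ • v.asIdeal) :
    False := by
  classical
  have hp := (Fact.out : p.Prime)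
  haveI : NeZero p := ⟨hp.ne_zero⟩
  haveI hcyc : IsCyclotomicExtension {p} ℚ ℚ⟮ζ⟯ :=
    hζ.intermediateField_adjoin_isCyclotomicExtension ℚ
  haveI : IsGalois ℚ ℚ⟮ζ⟯ := IsCyclotomicExtension.isGalois {p} ℚ ℚ⟮ζ⟯
  set ζK : ℚ⟮ζ⟯ := IntermediateField.AdjoinSimple.gen ℚ ζ with hζKdef
  have hζKmap : algebraMap ℚ⟮ζ⟯ L ζK = ζ := IntermediateField.AdjoinSimple.algebraMap_gen ℚ ζ
  have hζK : IsPrimitiveRoot ζK p :=
    IsPrimitiveRoot.of_map_of_injective (f := algebraMap ℚ⟮ζ⟯ L) (by rw [hζKmap]; exact hζ)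
      (algebraMap ℚ⟮ζ⟯ L).injective
  -- the Galois group of `L/K`
  have hcard : Nat.card (L ≃ₐ[ℚ⟮ζ⟯] L) = p := by rw [IsGalois.card_aut_eq_finrank, hdeg]
  haveI : IsCyclic (L ≃ₐ[ℚ⟮ζ⟯] L) := isCyclic_of_prime_card hcard
  have hab : ∀ a b : L ≃ₐ[ℚ⟮ζ⟯] L, a * b = b * a := fun a b =>
    (IsCyclic.commGroup (α := L ≃ₐ[ℚ⟮ζ⟯] L)).mul_comm a b
  have hcard' : Nat.card (Multiplicative (ZMod p)) = p := by
    rw [Nat.card_congr Multiplicative.toAdd, Nat.card_zmod]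
  let e : (L ≃ₐ[ℚ⟮ζ⟯] L) ≃* Multiplicative (ZMod p) := mulEquivOfPrimeCardEq hcard hcard'
  obtain ⟨B, hB⟩ := hR e.toMonoidHom e.injective
  obtain ⟨v, hvgood, hvunr, hvfrob⟩ := hE1 (insert p B)
  have hq : (Ideal.absNorm v.asIdeal).Prime := hvgood.1
  have hqp : Ideal.absNorm v.asIdeal ≠ p := fun h => hvgood.2 (h ▸ Finset.mem_insert_self _ _)
  have hqB : Ideal.absNorm v.asIdeal ∉ B := fun h => hvgood.2 (Finset.mem_insert_of_mem h)
  -- automorphisms `τ j` of `L` with `τ j ζ = ζ ^ j`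
  have hτex : ∀ j : ℕ, ∃ τ : L ≃ₐ[ℚ] L, j ∈ Finset.Icc 1 ((p - 1) / 2) → τ ζ = ζ ^ j := by
    intro j
    by_cases hj : j ∈ Finset.Icc 1 ((p - 1) / 2)
    · have hjp : j.Coprime p := by
        rw [Finset.mem_Icc] at hj
        refine Nat.Coprime.symm ((Nat.Prime.coprime_iff_not_dvd hp).mpr fun hd => ?_)
        have h1 := Nat.le_of_dvd (by omega) hd
        have h2 := hp.two_le
        omega
      obtain ⟨τ, hτ⟩ := thmM_exists_aut hζ hjp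
      exact ⟨τ, fun _ => hτ⟩
    · exact ⟨1, fun h => absurd h hj⟩
  choose τ hτ using hτex
  set σ : ℕ → (ℚ⟮ζ⟯ ≃ₐ[ℚ] ℚ⟮ζ⟯) := fun j => (τ j).restrictNormal ℚ⟮ζ⟯ with hσdef
  have hστ : ∀ (j : ℕ) (y : ℚ⟮ζ⟯), algebraMap ℚ⟮ζ⟯ L (σ j y) = τ j (algebraMap ℚ⟮ζ⟯ L y) :=
    fun j y => AlgEquiv.restrictNormal_commutes (τ j) ℚ⟮ζ⟯ y
  have hσ : ∀ j ∈ Finset.Icc 1 ((p - 1) / 2), σ j ζK = ζK ^ j := by
    intro j hj
    apply (algebraMap ℚ⟮ζ⟯ L).injective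
    rw [hστ, map_pow, hζKmap, hτ j hj]
  obtain ⟨x, hx0, hx⟩ := hJ ζK hζK σ hσ v hq hqp
  -- the places occurring in the divisor of `x`
  set w : ℕ → HeightOneSpectrum (𝓞 ℚ⟮ζ⟯) := fun j => thmMPlace (σ j)⁻¹ v with hwdef
  have hdiv : divOf ℚ⟮ζ⟯ (x : ℚ⟮ζ⟯) =
      ∑ j ∈ Finset.Icc 1 ((p - 1) / 2), Finsupp.single (w j) (1 : ℤ) :=
    thmM_divOf_eq_sum _ w x hx
  have hwnorm : ∀ j, Ideal.absNorm (w j).asIdeal = Ideal.absNorm v.asIdeal :=
    fun j => thmM_absNorm_smul (σ j)⁻¹ v.asIdeal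
  have hxK : (x : ℚ⟮ζ⟯) ≠ 0 := by
    intro h
    exact hx0 (RingOfIntegers.coe_eq_zero_iff.mp h)
  have hgood : ∀ u, divOf ℚ⟮ζ⟯ (x : ℚ⟮ζ⟯) u ≠ 0 → IsGoodPlace ℚ⟮ζ⟯ B u := by
    intro u hu
    rw [hdiv, Finsupp.finsetSum_apply] at hu
    obtain ⟨j, -, hj⟩ := Finset.exists_ne_zero_of_sum_ne_zero hu
    rw [Finsupp.single_apply] at hj
    have huw : w j = u := by
      by_contra hne
      rw [if_neg hne] at hj
      exact hj rfl
    rw [← huw]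
    exact ⟨by rw [hwnorm]; exact hq, by rw [hwnorm]; exact hqB⟩
  have hart := hB (x : ℚ⟮ζ⟯) hxK hgood
  -- Frobenius elements at the places `w j`
  set θ : L ≃ₐ[ℚ⟮ζ⟯] L := frobAt ℚ⟮ζ⟯ L v with hθdef
  have hθ : IsArithFrobAt (𝓞 ℚ⟮ζ⟯) θ (primeAbove ℚ⟮ζ⟯ L v) :=
    IsArithFrobAt.arithFrobAt (𝓞 ℚ⟮ζ⟯) (L ≃ₐ[ℚ⟮ζ⟯] L) (primeAbove ℚ⟮ζ⟯ L v)
  have hθζ : (θ.restrictScalars ℚ) ζ = ζ := by
    change θ ζ = ζ
    exact (congrArg θ hζKmap).symm.trans ((θ.commutes ζK).trans hζKmap)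
  have hfrob : ∀ j ∈ Finset.Icc 1 ((p - 1) / 2), frobAt ℚ⟮ζ⟯ L (w j) = θ ^ j := by
    intro j hj
    have hconj := hact (τ j) (θ.restrictScalars ℚ) j hθζ (hτ j hj)
    have hρ : ∀ y : L, τ j ((θ ^ j) y) = θ (τ j y) := by
      intro y
      have h1 := DFunLike.congr_fun hconj y
      rw [thmM_restrictScalars_pow] at h1
      rw [← h1]
      simp [AlgEquiv.mul_apply]
    have hover : ((τ j)⁻¹ • primeAbove ℚ⟮ζ⟯ L v).LiesOver (w j).asIdeal := by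
      constructor
      ext y
      change y ∈ (σ j)⁻¹ • v.asIdeal ↔ algebraMap (𝓞 ℚ⟮ζ⟯) (𝓞 L) y ∈ (τ j)⁻¹ • primeAbove ℚ⟮ζ⟯ L v
      rw [Ideal.mem_pointwise_smul_iff_inv_smul_mem, Ideal.mem_pointwise_smul_iff_inv_smul_mem,
        inv_inv, inv_inv, (primeAbove_liesOver ℚ⟮ζ⟯ L v).over, Ideal.under_def, Ideal.mem_comap]
      have e1 : algebraMap (𝓞 ℚ⟮ζ⟯) (𝓞 L) (σ j • y) = τ j • algebraMap (𝓞 ℚ⟮ζ⟯) (𝓞 L) y :=
        Subtype.ext (hστ j y)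
      rw [e1]
    have hN : Nat.card (𝓞 ℚ⟮ζ⟯ ⧸ ((τ j)⁻¹ • primeAbove ℚ⟮ζ⟯ L v).under (𝓞 ℚ⟮ζ⟯)) =
        Nat.card (𝓞 ℚ⟮ζ⟯ ⧸ (primeAbove ℚ⟮ζ⟯ L v).under (𝓞 ℚ⟮ζ⟯)) := by
      rw [← hover.over, ← (primeAbove_liesOver ℚ⟮ζ⟯ L v).over]
      exact thmM_card_quot_smul (σ j)⁻¹ v.asIdeal
    have hunrw : IsUnramifiedIn ℚ⟮ζ⟯ L (w j) := by
      intro P' _ hP'
      refine hunr P' fun hbot => (w j).ne_bot ?_
      rw [hP'.over, hbot, Ideal.under_bot]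
    exact thmM_frobAt_eq hab (w j) hunrw _ hover (θ ^ j)
      (thmM_conj_isArithFrobAt (τ j) θ (θ ^ j) hρ _ hN hθ)
  -- the Artin symbol of `div x`
  set a : ZMod p := Multiplicative.toAdd (e θ) with hadef
  have ha : a ≠ 0 := by
    intro h0
    apply hvfrob
    apply e.injective
    rw [map_one]
    exact Multiplicative.toAdd.injective (by simpa [hadef] using h0)
  have hsum : (∑ j ∈ Finset.Icc 1 ((p - 1) / 2), (j : ZMod p)) * a = 0 := by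
    rw [← hart, hdiv, map_sum, Finset.sum_mul]
    refine Finset.sum_congr rfl fun j hj => ?_
    have h1 : artin ℚ⟮ζ⟯ L e.toMonoidHom (Finsupp.single (w j) 1) =
        Multiplicative.toAdd (e (frobAt ℚ⟮ζ⟯ L (w j))) := by
      simp [artin]
    rw [h1, hfrob j hj, map_pow, toAdd_pow, nsmul_eq_mul]
  exact thmM_sum_ne_zero hp2 ((mul_eq_zero.mp hsum).resolve_right ha)

/- INTEGRATION (checked against CoreSpec.lean / TopSpec.lean): once (R), (E1), (J) are real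
theorems, `no_omega_inv_extension` (exact TopSpec statement, same binders) is

  no_omega_inv_extension_core hp2 L ζ hζ hdeg hunr hact
    (fun ψ hψ => reciprocity_good hp2 hdeg
      (IsPrimitiveRoot.of_map_of_injective
        (f := algebraMap (IntermediateField.adjoin ℚ {ζ}) L)
        (by rw [IntermediateField.AdjoinSimple.algebraMap_gen ℚ ζ]; exact hζ)
        (algebraMap (IntermediateField.adjoin ℚ {ζ}) L).injective) hunr ψ hψ)
    (fun B => exists_good_frobAt_ne_one (hdeg ▸ (Fact.out : p.Prime).one_lt) B)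
    (fun ζ' hζ' σ hσ v hv hvp => by
      haveI : NeZero p := ⟨(Fact.out : p.Prime).ne_zero⟩
      haveI : IsCyclotomicExtension {p} ℚ (IntermediateField.adjoin ℚ {ζ}) :=
        hζ.intermediateField_adjoin_isCyclotomicExtension ℚ
      exact jacobi_factorization hp2 hζ' σ hσ v hv hvp)
-/

end Fermat.Agent.S14
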