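import Fermat.Agent.S14.Reciprocity
import Fermat.Agent.S14.Jacobi
import Fermat.Agent.S14.TheoremMCore

/-!
# S14, package M: Theorem M (wrapper around `TheoremMCore.lean`)
-/

namespace Fermat.Agent.S14

open NumberField IsDedekindDomain

/-- THEOREM M: there is no everywhere unramified cyclic extension `L` of `K = ℚ(ζ_p)` of degree `p`,
Galois over `ℚ`, on whose Galois group `Gal(K/ℚ)` acts through the inverse of the cyclotomic
character. -/
theorem no_omega_inv_extension {p : ℕ} [Fact p.Prime] (hp2 : p ≠ 2) (L : Type) [Field L]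
    [NumberField L] [IsGalois ℚ L] (ζ : L) (hζ : IsPrimitiveRoot ζ p)
    (hdeg : Module.finrank (IntermediateField.adjoin ℚ {ζ}) L = p)
    (hunr : IsUnramifiedEverywhere (IntermediateField.adjoin ℚ {ζ}) L)
    (hact : ∀ (σ h : L ≃ₐ[ℚ] L) (k : ℕ), h ζ = ζ → σ ζ = ζ ^ k → σ⁻¹ * h * σ = h ^ k) :
    False :=
  no_omega_inv_extension_core hp2 L ζ hζ hdeg hunr hact
    (fun ψ hψ => reciprocity_good hp2 hdeg
      (IsPrimitiveRoot.of_map_of_injective
        (f := algebraMap (IntermediateField.adjoin ℚ {ζ}) L)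
        (by rw [IntermediateField.AdjoinSimple.algebraMap_gen ℚ ζ]; exact hζ)
        (algebraMap (IntermediateField.adjoin ℚ {ζ}) L).injective) hunr ψ hψ)
    (fun B => exists_good_frobAt_ne_one (hdeg ▸ (Fact.out : p.Prime).one_lt) B)
    (fun ζ' hζ' σ hσ v hv hvp => by
      haveI : NeZero p := ⟨(Fact.out : p.Prime).ne_zero⟩
      haveI : IsCyclotomicExtension {p} ℚ (IntermediateField.adjoin ℚ {ζ}) :=
        hζ.intermediateField_adjoin_isCyclotomicExtension ℚ
      exact jacobi_factorization hp2 hζ' σ hσ v hv hvp)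

end Fermat.Agent.S14
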