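import Mathlib

set_option autoImplicit false

namespace Fermat.Agent.S14

open Subgroup

section

variable {X Y B : Type*} [CommGroup X] [CommGroup Y] [CommGroup B]

/-- Abstract form of the count of ambiguous classes in a cyclic extension.

Think of `X = (𝓞 L)ˣ`, `Y = Lˣ`, `B` = group of fractional ideals of `L`, `π y = (y)`,
`D = σ - 1`, `N = 1 + σ + ⋯ + σ^(p-1)` (written multiplicatively).  The subgroup
`π.range.comap DB` consists of the ideals whose class is `σ`-invariant, so the first factor on the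
left is the number of ambiguous classes. -/
theorem ambig_abstract (ι : X →* Y) (π : Y →* B) (DX NX : X →* X) (DY NY : Y →* Y)
    (DB NB : B →* B)
    (hι : Function.Injective ι) (hιπ : π.ker = ι.range)
    (hιD : ∀ x, ι (DX x) = DY (ι x)) (hιN : ∀ x, ι (NX x) = NY (ι x))
    (hπD : ∀ y, π (DY y) = DB (π y)) (hπN : ∀ y, π (NY y) = NB (π y))
    (hNDY : ∀ y, NY (DY y) = 1) (hDNY : ∀ y, DY (NY y) = 1)
    (hNDB : ∀ b, NB (DB b) = 1)
    (h90 : ∀ y, NY y = 1 → ∃ z, DY z = y)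
    (h0 : NX.range.relIndex DX.ker ≠ 0) :
    (π.range).relIndex ((π.range).comap DB) * DX.range.relIndex NX.ker ≤
      NX.range.relIndex DX.ker * ((DY.ker).map π).relIndex DB.ker := by
  set U : Subgroup Y := π.ker with hU
  set P : Subgroup B := π.range with hP
  set Q : Subgroup B := P.comap DB with hQ
  set FB : Subgroup B := DB.ker with hFB
  set FY : Subgroup Y := DY.ker with hFY
  set MY : Subgroup Y := NY.ker with hMY
  set V : Subgroup Y := U.comap DY with hV
  set W : Subgroup Y := U.comap NY with hW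
  -- basic memberships
  have hmemU : ∀ y, y ∈ U ↔ π y = 1 := fun y => MonoidHom.mem_ker
  have hU_D : ∀ u ∈ U, DY u ∈ U := by
    intro u hu
    rw [hmemU] at hu ⊢
    rw [hπD, hu, map_one]
  have hU_N : ∀ u ∈ U, NY u ∈ U := by
    intro u hu
    rw [hmemU] at hu ⊢
    rw [hπN, hu, map_one]
  have hU_le_V : U ≤ V := fun u hu => hU_D u hu
  have hU_le_W : U ≤ W := fun u hu => hU_N u hu
  have hFY_le_V : FY ≤ V := by
    intro y hy
    have : DY y = 1 := hy
    show DY y ∈ U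
    rw [this]
    exact one_mem _
  have hMY_le_W : MY ≤ W := by
    intro y hy
    have : NY y = 1 := hy
    show NY y ∈ U
    rw [this]
    exact one_mem _
  have hP_le_Q : P ≤ Q := by
    rintro b ⟨y, rfl⟩
    show DB (π y) ∈ P
    rw [← hπD]
    exact ⟨_, rfl⟩
  have hFB_le_Q : FB ≤ Q := by
    intro b hb
    have : DB b = 1 := hb
    show DB b ∈ P
    rw [this]
    exact one_mem _
  -- the unit indices computed in `Y`
  have hUrange : U = ι.range := hιπ
  have hUD : U.map DY = DX.range.map ι := by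
    ext y
    rw [hUrange]
    simp only [mem_map, MonoidHom.mem_range]
    constructor
    · rintro ⟨_, ⟨x, rfl⟩, rfl⟩
      exact ⟨DX x, ⟨x, rfl⟩, hιD x⟩
    · rintro ⟨_, ⟨x, rfl⟩, rfl⟩
      exact ⟨ι x, ⟨x, rfl⟩, (hιD x).symm⟩
  have hUN : U.map NY = NX.range.map ι := by
    ext y
    rw [hUrange]
    simp only [mem_map, MonoidHom.mem_range]
    constructor
    · rintro ⟨_, ⟨x, rfl⟩, rfl⟩
      exact ⟨NX x, ⟨x, rfl⟩, hιN x⟩
    · rintro ⟨_, ⟨x, rfl⟩, rfl⟩
      exact ⟨ι x, ⟨x, rfl⟩, (hιN x).symm⟩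
  have hUM : U ⊓ MY = NX.ker.map ι := by
    ext y
    rw [hUrange]
    simp only [mem_inf, mem_map, MonoidHom.mem_range, MonoidHom.mem_ker, hMY]
    constructor
    · rintro ⟨⟨x, rfl⟩, h⟩
      refine ⟨x, ?_, rfl⟩
      apply hι
      rw [hιN, h, map_one]
    · rintro ⟨x, hx, rfl⟩
      refine ⟨⟨x, rfl⟩, ?_⟩
      rw [← hιN, hx, map_one]
  have hUF : U ⊓ FY = DX.ker.map ι := by
    ext y
    rw [hUrange]
    simp only [mem_inf, mem_map, MonoidHom.mem_range, MonoidHom.mem_ker, hFY]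
    constructor
    · rintro ⟨⟨x, rfl⟩, h⟩
      refine ⟨x, ?_, rfl⟩
      apply hι
      rw [hιD, h, map_one]
    · rintro ⟨x, hx, rfl⟩
      refine ⟨⟨x, rfl⟩, ?_⟩
      rw [← hιD, hx, map_one]
  have hh1 : (U.map DY).relIndex (U ⊓ MY) = DX.range.relIndex NX.ker := by
    rw [hUD, hUM, relIndex_map_map_of_injective _ _ hι]
  have hh0 : (U.map NY).relIndex (U ⊓ FY) = NX.range.relIndex DX.ker := by
    rw [hUN, hUF, relIndex_map_map_of_injective _ _ hι]
  rw [← hh1, ← hh0]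
  rw [← hh0] at h0
  -- Step 1
  have hstep1 : P.relIndex (P ⊔ FB) * (P ⊔ FB).relIndex Q = P.relIndex Q :=
    relIndex_mul_relIndex P (P ⊔ FB) Q le_sup_left (sup_le hP_le_Q hFB_le_Q)
  -- Step 2 : `h1 * [P ⊔ FB : P] = hK`
  have hPFB : P ⊓ FB = V.map π := by
    ext b
    simp only [mem_inf, mem_map, hP, MonoidHom.mem_range, hFB, MonoidHom.mem_ker]
    constructor
    · rintro ⟨⟨y, rfl⟩, h⟩
      refine ⟨y, ?_, rfl⟩
      show DY y ∈ U
      rw [hmemU, hπD, h]
    · rintro ⟨y, hy, rfl⟩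
      refine ⟨⟨y, rfl⟩, ?_⟩
      have : DY y ∈ U := hy
      rw [hmemU, hπD] at this
      exact this
  have hVD : V.map DY = U ⊓ MY := by
    ext y
    simp only [mem_inf, mem_map, hMY, MonoidHom.mem_ker]
    constructor
    · rintro ⟨z, hz, rfl⟩
      exact ⟨hz, hNDY z⟩
    · rintro ⟨hyU, hyN⟩
      obtain ⟨z, rfl⟩ := h90 y hyN
      exact ⟨z, hyU, rfl⟩
  have hstep2a : P.relIndex (P ⊔ FB) = (V.map π).relIndex FB := by
    rw [relIndex_sup_left, ← hPFB, inf_relIndex_right]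
  have hstep2b : (FY.map π).relIndex (V.map π) * (V.map π).relIndex FB =
      (FY.map π).relIndex FB := by
    apply relIndex_mul_relIndex
    · exact map_mono hFY_le_V
    · rw [← hPFB]
      exact inf_le_right
  have hstep2c : (FY.map π).relIndex (V.map π) = (U.map DY).relIndex (U ⊓ MY) := by
    rw [← hVD, relIndex_map_map, relIndex_map_map, ← hU, ← hFY, sup_comm FY U,
      sup_eq_left.mpr hU_le_V, sup_eq_left.mpr hFY_le_V]
  -- Step 3 : `[Q : P ⊔ FB] ≤ h0`
  have hWN : W.map NY ≤ U ⊓ FY := by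
    rintro y ⟨z, hz, rfl⟩
    exact ⟨hz, hDNY z⟩
  have hPNB : P ⊓ NB.ker = W.map π := by
    ext b
    simp only [mem_inf, mem_map, hP, MonoidHom.mem_range, MonoidHom.mem_ker]
    constructor
    · rintro ⟨⟨y, rfl⟩, h⟩
      refine ⟨y, ?_, rfl⟩
      show NY y ∈ U
      rw [hmemU, hπN, h]
    · rintro ⟨y, hy, rfl⟩
      refine ⟨⟨y, rfl⟩, ?_⟩
      have : NY y ∈ U := hy
      rw [hmemU, hπN] at this
      exact this
  have hQD : Q.map DB ≤ W.map π := by
    rw [← hPNB]
    rintro b ⟨c, hc, rfl⟩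
    exact ⟨hc, hNDB c⟩
  have hPD : (P ⊔ FB).map DB = MY.map π := by
    have hkb : DB.ker.map DB = ⊥ := (Subgroup.map_eq_bot_iff _).mpr le_rfl
    rw [Subgroup.map_sup, hFB, hkb, sup_bot_eq]
    ext b
    simp only [mem_map, hP, MonoidHom.mem_range, hMY, MonoidHom.mem_ker]
    constructor
    · rintro ⟨_, ⟨y, rfl⟩, rfl⟩
      exact ⟨DY y, hNDY y, hπD y⟩
    · rintro ⟨y, hy, rfl⟩
      obtain ⟨z, rfl⟩ := h90 y hy
      exact ⟨π z, ⟨z, rfl⟩, (hπD z).symm⟩
  have hstep3a : (P ⊔ FB).relIndex Q = (MY.map π).relIndex (Q.map DB) := by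
    rw [← hPD, relIndex_map_map, ← hFB, sup_assoc, sup_idem, sup_eq_left.mpr hFB_le_Q]
  have hstep3b : (MY.map π).relIndex (W.map π) = (U.map NY).relIndex (W.map NY) := by
    rw [relIndex_map_map, relIndex_map_map, ← hU, ← hMY, sup_comm MY U,
      sup_eq_left.mpr hU_le_W, sup_eq_left.mpr hMY_le_W]
  have hstep3c : (U.map NY).relIndex (W.map NY) ≤ (U.map NY).relIndex (U ⊓ FY) :=
    relIndex_le_of_le_right hWN h0
  have hstep3d : (U.map NY).relIndex (W.map NY) ≠ 0 := by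
    intro h
    exact h0 (relIndex_eq_zero_of_le_right hWN h)
  have hstep3 : (P ⊔ FB).relIndex Q ≤ (U.map NY).relIndex (U ⊓ FY) := by
    rw [hstep3a]
    refine le_trans (relIndex_le_of_le_right hQD ?_) ?_
    · rw [hstep3b]; exact hstep3d
    · rw [hstep3b]; exact hstep3c
  -- conclusion
  calc P.relIndex Q * (U.map DY).relIndex (U ⊓ MY)
      = (P ⊔ FB).relIndex Q * ((FY.map π).relIndex (V.map π) * (V.map π).relIndex FB) := by
        rw [← hstep1, hstep2a, hstep2c]; ring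
    _ = (P ⊔ FB).relIndex Q * (FY.map π).relIndex FB := by rw [hstep2b]
    _ ≤ (U.map NY).relIndex (U ⊓ FY) * (FY.map π).relIndex FB :=
        Nat.mul_le_mul_right _ hstep3

end

end Fermat.Agent.S14
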