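import Mathlib

set_option autoImplicit false

namespace Fermat.Agent.S14

open NumberField
open scoped nonZeroDivisors

section lift

variable {R : Type*} [CommRing R] [IsDomain R] [IsDedekindDomain R] {A : Type*} [CommGroup A]

/-- A monoid homomorphism on the nonzero ideals which is trivial on principal ideals takes the
same value on ideals in the same class. -/
theorem classLift_aux (f : (Ideal R)⁰ →* A)
    (hf : ∀ I : (Ideal R)⁰, (I : Ideal R).IsPrincipal → f I = 1) {I J : (Ideal R)⁰}
    (h : ClassGroup.mk0 I = ClassGroup.mk0 J) : f I = f J := by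
  obtain ⟨x, y, hx, hy, hxy⟩ := ClassGroup.mk0_eq_mk0_iff.mp h
  let X : (Ideal R)⁰ := ⟨Ideal.span {x}, mem_nonZeroDivisors_iff_ne_zero.mpr (by simpa using hx)⟩
  let Y : (Ideal R)⁰ := ⟨Ideal.span {y}, mem_nonZeroDivisors_iff_ne_zero.mpr (by simpa using hy)⟩
  have h1 : X * I = Y * J := Subtype.ext hxy
  have h2 := congrArg f h1
  rw [map_mul, map_mul, hf X ⟨x, rfl⟩, hf Y ⟨y, rfl⟩, one_mul, one_mul] at h2
  exact h2

/-- Descend a homomorphism on nonzero ideals, trivial on principal ideals, to the class group. -/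
noncomputable def classLift (f : (Ideal R)⁰ →* A)
    (hf : ∀ I : (Ideal R)⁰, (I : Ideal R).IsPrincipal → f I = 1) : ClassGroup R →* A where
  toFun c := f (Classical.choose (ClassGroup.mk0_surjective c))
  map_one' := by
    have h := Classical.choose_spec (ClassGroup.mk0_surjective (1 : ClassGroup R))
    rw [classLift_aux f hf (h.trans (map_one ClassGroup.mk0).symm), map_one]
  map_mul' c d := by
    have hc := Classical.choose_spec (ClassGroup.mk0_surjective c)
    have hd := Classical.choose_spec (ClassGroup.mk0_surjective d)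
    have hcd := Classical.choose_spec (ClassGroup.mk0_surjective (c * d))
    rw [← map_mul]
    apply classLift_aux f hf
    rw [hcd, map_mul, hc, hd]

theorem classLift_mk0 (f : (Ideal R)⁰ →* A)
    (hf : ∀ I : (Ideal R)⁰, (I : Ideal R).IsPrincipal → f I = 1) (I : (Ideal R)⁰) :
    classLift f hf (ClassGroup.mk0 I) = f I :=
  classLift_aux f hf (Classical.choose_spec (ClassGroup.mk0_surjective (ClassGroup.mk0 I)))

end lift

section norm

variable (K L : Type*) [Field K] [NumberField K] [Field L] [NumberField L] [Algebra K L]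

/-- The relative norm of a nonzero ideal, as a nonzero ideal. -/
noncomputable def relNorm0 : (Ideal (𝓞 L))⁰ →* (Ideal (𝓞 K))⁰ where
  toFun I := ⟨Ideal.relNorm (𝓞 K) (I : Ideal (𝓞 L)), mem_nonZeroDivisors_iff_ne_zero.mpr
    (fun h => (mem_nonZeroDivisors_iff_ne_zero.mp I.2) (Ideal.relNorm_eq_bot_iff.mp h))⟩
  map_one' := Subtype.ext (by simp)
  map_mul' I J := Subtype.ext (by simp)

theorem coe_relNorm0 (I : (Ideal (𝓞 L))⁰) :
    ((relNorm0 K L I : (Ideal (𝓞 K))⁰) : Ideal (𝓞 K)) = Ideal.relNorm (𝓞 K) (I : Ideal (𝓞 L)) :=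
  rfl

/-- The norm map on ideal class groups. -/
noncomputable def classNorm : ClassGroup (𝓞 L) →* ClassGroup (𝓞 K) :=
  classLift ((ClassGroup.mk0 (R := 𝓞 K)).comp (relNorm0 K L)) (by
    rintro I ⟨x, hx⟩
    rw [MonoidHom.comp_apply, ClassGroup.mk0_eq_one_iff, coe_relNorm0]
    have : (I : Ideal (𝓞 L)) = Ideal.span {x} := hx
    rw [this, Ideal.relNorm_singleton]
    exact ⟨_, rfl⟩)

theorem classNorm_mk0 (I : (Ideal (𝓞 L))⁰) :
    classNorm K L (ClassGroup.mk0 I) = ClassGroup.mk0 (relNorm0 K L I) :=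
  classLift_mk0 _ _ I

end norm

end Fermat.Agent.S14
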