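import Mathlib
import Fermat.Agent.S11.Hilbert92

set_option autoImplicit false

/-!
# Galois action on fractional ideals, principal ideals, Hilbert 90 in group form
-/

namespace Fermat.Agent.S14

open NumberField Fermat.Agent.S11
open scoped nonZeroDivisors

section general

theorem fracAut_coeIdeal_aux {R S : Type*} [CommRing R] [CommRing S] [IsDomain R] [IsDomain S]
    (K L : Type*) [Field K] [Field L] [Algebra R K] [Algebra S L] [IsFractionRing R K]
    [IsFractionRing S L] (f : R ≃+* S) (I : Ideal R) :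
    FractionalIdeal.ringEquivOfRingEquiv K L f (I : FractionalIdeal R⁰ K) =
      ((I.map f : Ideal S) : FractionalIdeal S⁰ L) := by
  ext y
  rw [← FractionalIdeal.mem_coe, ← FractionalIdeal.val_eq_coe,
    FractionalIdeal.ringEquivOfRingEquiv_apply_val, FractionalIdeal.mem_coeIdeal]
  simp only [Submodule.mem_map, FractionalIdeal.val_eq_coe, FractionalIdeal.mem_coe,
    FractionalIdeal.mem_coeIdeal]
  constructor
  · rintro ⟨_, ⟨a, ha, rfl⟩, rfl⟩
    refine ⟨f a, Ideal.mem_map_of_mem _ ha, ?_⟩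
    exact (IsFractionRing.semilinearEquivOfRingEquiv_algebraMap K L f a).symm
  · rintro ⟨b, hb, rfl⟩
    obtain ⟨a, ha, rfl⟩ := (Ideal.mem_map_of_equiv f b).mp hb
    exact ⟨algebraMap R K a, ⟨a, ha, rfl⟩,
      IsFractionRing.semilinearEquivOfRingEquiv_algebraMap K L f a⟩

end general

section

variable {K L : Type*} [Field K] [NumberField K] [Field L] [NumberField L] [Algebra K L]

/-- The restriction of `σ` to the ring of integers, as a ring isomorphism. -/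
noncomputable def intAut (σ : L ≃ₐ[K] L) : 𝓞 L ≃+* 𝓞 L :=
  (galRestrict (𝓞 K) K L (𝓞 L) σ).toRingEquiv

theorem algebraMap_intAut (σ : L ≃ₐ[K] L) (x : 𝓞 L) :
    algebraMap (𝓞 L) L (intAut σ x) = σ (algebraMap (𝓞 L) L x) :=
  algebraMap_galRestrict_apply (𝓞 K) σ x

theorem intAut_algebraMap (σ : L ≃ₐ[K] L) (x : 𝓞 K) :
    intAut σ (algebraMap (𝓞 K) (𝓞 L) x) = algebraMap (𝓞 K) (𝓞 L) x :=
  AlgEquiv.commutes (galRestrict (𝓞 K) K L (𝓞 L) σ) x

theorem map_intAut (σ : L ≃ₐ[K] L) (I : Ideal (𝓞 L)) :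
    I.map (intAut σ) = I.map (galRestrict (𝓞 K) K L (𝓞 L) σ) := rfl

theorem fracField_intAut (σ : L ≃ₐ[K] L) (x : L) :
    IsFractionRing.ringEquivOfRingEquiv (K := L) (L := L) (intAut σ) x = σ x := by
  obtain ⟨a, b, hb, rfl⟩ := IsFractionRing.div_surjective (A := 𝓞 L) x
  rw [map_div₀, map_div₀, IsFractionRing.ringEquivOfRingEquiv_algebraMap,
    IsFractionRing.ringEquivOfRingEquiv_algebraMap, algebraMap_intAut, algebraMap_intAut]

theorem intAut_mul (σ τ : L ≃ₐ[K] L) : intAut (σ * τ) = (intAut τ).trans (intAut σ) := by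
  ext x
  show algebraMap (𝓞 L) L _ = algebraMap (𝓞 L) L _
  rw [RingEquiv.trans_apply, algebraMap_intAut, algebraMap_intAut, algebraMap_intAut]
  rfl

theorem intAut_one : intAut (1 : L ≃ₐ[K] L) = RingEquiv.refl (𝓞 L) := by
  ext x
  show algebraMap (𝓞 L) L _ = algebraMap (𝓞 L) L _
  rw [algebraMap_intAut]
  rfl

/-- The action of `σ` on the group of invertible fractional ideals of `L`. -/
noncomputable def fracAut (σ : L ≃ₐ[K] L) :
    (FractionalIdeal (𝓞 L)⁰ L)ˣ →* (FractionalIdeal (𝓞 L)⁰ L)ˣ :=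
  Units.map (FractionalIdeal.ringEquivOfRingEquiv L L (intAut σ) :
    FractionalIdeal (𝓞 L)⁰ L →* FractionalIdeal (𝓞 L)⁰ L)

theorem coe_fracAut (σ : L ≃ₐ[K] L) (I : (FractionalIdeal (𝓞 L)⁰ L)ˣ) :
    ((fracAut σ I : (FractionalIdeal (𝓞 L)⁰ L)ˣ) : FractionalIdeal (𝓞 L)⁰ L) =
      FractionalIdeal.ringEquivOfRingEquiv L L (intAut σ) (I : FractionalIdeal (𝓞 L)⁰ L) := rfl

theorem fracAut_mul (σ τ : L ≃ₐ[K] L) (I : (FractionalIdeal (𝓞 L)⁰ L)ˣ) :
    fracAut (σ * τ) I = fracAut σ (fracAut τ I) := by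
  apply Units.ext
  rw [coe_fracAut, coe_fracAut, coe_fracAut, intAut_mul,
    FractionalIdeal.ringEquivOfRingEquiv_trans_apply L L L]

theorem fracAut_one (I : (FractionalIdeal (𝓞 L)⁰ L)ˣ) : fracAut (1 : L ≃ₐ[K] L) I = I := by
  apply Units.ext
  rw [coe_fracAut, intAut_one, FractionalIdeal.ringEquivOfRingEquiv_refl]
  rfl

theorem fracAut_iterate (σ : L ≃ₐ[K] L) (i : ℕ) (I : (FractionalIdeal (𝓞 L)⁰ L)ˣ) :
    (fracAut σ)^[i] I = fracAut (σ ^ i) I := by
  induction i with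
  | zero => simp [fracAut_one]
  | succ i ih => rw [Function.iterate_succ_apply', ih, pow_succ', fracAut_mul]

/-- The action of `σ` on `Lˣ`. -/
noncomputable def fieldAut (σ : L ≃ₐ[K] L) : Lˣ →* Lˣ := Units.map (σ : L →* L)

theorem coe_fieldAut (σ : L ≃ₐ[K] L) (y : Lˣ) : ((fieldAut σ y : Lˣ) : L) = σ (y : L) := rfl

theorem coe_fieldAut_iterate (σ : L ≃ₐ[K] L) (i : ℕ) (y : Lˣ) :
    (((fieldAut σ)^[i] y : Lˣ) : L) = (σ ^ i) (y : L) := by
  induction i with
  | zero => simp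
  | succ i ih =>
    rw [Function.iterate_succ_apply', coe_fieldAut, ih, pow_succ', AlgEquiv.mul_apply]

theorem fracAut_toPrincipalIdeal (σ : L ≃ₐ[K] L) (y : Lˣ) :
    fracAut σ (toPrincipalIdeal (𝓞 L) L y) = toPrincipalIdeal (𝓞 L) L (fieldAut σ y) := by
  apply Units.ext
  rw [coe_fracAut, coe_toPrincipalIdeal, coe_toPrincipalIdeal,
    FractionalIdeal.ringEquivOfRingEquiv_spanSingleton, fracField_intAut]
  rfl

theorem fracAut_mk0 (σ : L ≃ₐ[K] L) (I J : (Ideal (𝓞 L))⁰)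
    (hJ : (J : Ideal (𝓞 L)) = (I : Ideal (𝓞 L)).map (intAut σ)) :
    fracAut σ (FractionalIdeal.mk0 L I) = FractionalIdeal.mk0 L J := by
  apply Units.ext
  rw [coe_fracAut, FractionalIdeal.coe_mk0, FractionalIdeal.coe_mk0, fracAut_coeIdeal_aux, hJ]

/-- The inclusion of the units of `𝓞 L` into `Lˣ`. -/
noncomputable def unitsIncl (L : Type*) [Field L] [NumberField L] : (𝓞 L)ˣ →* Lˣ :=
  Units.map (algebraMap (𝓞 L) L : 𝓞 L →* L)

theorem coe_unitsIncl (u : (𝓞 L)ˣ) : ((unitsIncl L u : Lˣ) : L) = ((u : 𝓞 L) : L) := rfl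

theorem unitsIncl_injective : Function.Injective (unitsIncl L) := by
  intro u v h
  apply units_coe_ext
  have := congrArg (fun y : Lˣ => (y : L)) h
  exact this

theorem unitsIncl_unitsAut (σ : L ≃ₐ[K] L) (u : (𝓞 L)ˣ) :
    unitsIncl L (unitsAut σ u) = fieldAut σ (unitsIncl L u) := by
  apply Units.ext
  rw [coe_unitsIncl, coe_fieldAut, coe_unitsIncl, coe_unitsAut]

theorem ker_toPrincipalIdeal :
    (toPrincipalIdeal (𝓞 L) L).ker = (unitsIncl L).range := by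
  ext y
  rw [MonoidHom.mem_ker, MonoidHom.mem_range]
  constructor
  · intro hy
    have h1 : FractionalIdeal.spanSingleton (𝓞 L)⁰ (y : L) =
        FractionalIdeal.spanSingleton (𝓞 L)⁰ (1 : L) := by
      rw [FractionalIdeal.spanSingleton_one]
      have := (toPrincipalIdeal_eq_iff (R := 𝓞 L) (K := L) (I := 1) (x := y)).mp hy
      simpa using this
    obtain ⟨z, hz⟩ := FractionalIdeal.spanSingleton_eq_spanSingleton.mp h1
    refine ⟨z⁻¹, ?_⟩
    apply Units.ext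
    rw [coe_unitsIncl]
    have h2 : ((z : 𝓞 L) : L) * (y : L) = 1 := by
      rw [← hz]
      rfl
    have h3 : (((z⁻¹ : (𝓞 L)ˣ) : 𝓞 L) : L) * ((z : 𝓞 L) : L) = 1 := by
      rw [← map_mul, ← Units.val_mul, inv_mul_cancel]
      simp
    calc (((z⁻¹ : (𝓞 L)ˣ) : 𝓞 L) : L) = (((z⁻¹ : (𝓞 L)ˣ) : 𝓞 L) : L) * (((z : 𝓞 L) : L) * y) := by
          rw [h2, mul_one]
      _ = (y : L) := by rw [← mul_assoc, h3, one_mul]
  · rintro ⟨u, rfl⟩
    rw [toPrincipalIdeal_eq_iff]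
    have : FractionalIdeal.spanSingleton (𝓞 L)⁰ ((unitsIncl L u : Lˣ) : L) =
        FractionalIdeal.spanSingleton (𝓞 L)⁰ (1 : L) := by
      rw [FractionalIdeal.spanSingleton_eq_spanSingleton]
      refine ⟨u⁻¹, ?_⟩
      rw [coe_unitsIncl]
      show (((u⁻¹ : (𝓞 L)ˣ) : 𝓞 L) : L) * ((u : 𝓞 L) : L) = 1
      rw [← map_mul, ← Units.val_mul, inv_mul_cancel]
      simp
    rw [this, FractionalIdeal.spanSingleton_one]
    rfl

end

end Fermat.Agent.S14
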