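import Mathlib
import Fermat.Agent.S11.Hilbert92
import Fermat.Agent.S14.HerbrandAbstract

set_option autoImplicit false

namespace Fermat.Agent.S14

open NumberField Fermat.Agent.S11

section general

variable {X : Type*} [CommGroup X]

/-- Telescoping identity behind `x ^ p = (σ - 1) y` for `y = ∏ (σ^i x)^i`. -/
theorem map_prod_pow_mul_prod (s : X →* X) (x : X) (n : ℕ) :
    s (∏ i ∈ Finset.range (n + 1), (s^[i] x) ^ i) * ∏ i ∈ Finset.range (n + 1), s^[i] x =
      (∏ i ∈ Finset.range (n + 1), (s^[i] x) ^ i) * (s^[n + 1] x) ^ n * x := by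
  induction n with
  | zero => simp
  | succ n ih =>
    rw [Finset.prod_range_succ (fun i => (s^[i] x) ^ i) (n + 1),
      Finset.prod_range_succ (fun i => s^[i] x) (n + 1), map_mul, map_pow,
      ← Function.iterate_succ_apply' s (n + 1) x]
    calc s (∏ i ∈ Finset.range (n + 1), (s^[i] x) ^ i) * (s^[n + 1 + 1] x) ^ (n + 1) *
          ((∏ i ∈ Finset.range (n + 1), s^[i] x) * s^[n + 1] x)
        = (s (∏ i ∈ Finset.range (n + 1), (s^[i] x) ^ i) * ∏ i ∈ Finset.range (n + 1), s^[i] x) *
            ((s^[n + 1 + 1] x) ^ (n + 1) * s^[n + 1] x) := by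
          simp only [mul_assoc, mul_comm, mul_left_comm]
      _ = ((∏ i ∈ Finset.range (n + 1), (s^[i] x) ^ i) * (s^[n + 1] x) ^ n * x) *
            ((s^[n + 1 + 1] x) ^ (n + 1) * s^[n + 1] x) := by rw [ih]
      _ = (∏ i ∈ Finset.range (n + 1), (s^[i] x) ^ i) * (s^[n + 1] x) ^ (n + 1) *
            (s^[n + 1 + 1] x) ^ (n + 1) * x := by
          rw [pow_succ (s^[n + 1] x) n]
          simp only [mul_assoc, mul_comm, mul_left_comm]

theorem divHom_prod_pow_mul_normHom (p : ℕ) (hp : 0 < p) (s : X →* X) (x : X)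
    (hs : s^[p] x = x) :
    divHom s (∏ i ∈ Finset.range p, (s^[i] x) ^ i) * normHom p s x = x ^ p := by
  obtain ⟨n, rfl⟩ : ∃ n, p = n + 1 := ⟨p - 1, by omega⟩
  have h := map_prod_pow_mul_prod s x n
  rw [hs] at h
  rw [divHom_apply, S11.normHom_apply, div_mul_eq_mul_div, h, pow_succ]
  rw [div_eq_iff_eq_mul]
  simp only [mul_assoc, mul_comm, mul_left_comm]

theorem normHom_iterate (p : ℕ) (s : X →* X) (hs : ∀ x, s^[p] x = x) (x : X) (i : ℕ) :
    normHom p s (s^[i] x) = normHom p s x := by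
  induction i with
  | zero => rfl
  | succ i ih => rw [Function.iterate_succ_apply', normHom_map p s hs, ih]

theorem exists_pow_eq_divHom_of_normHom_eq_one (p : ℕ) (hp : 0 < p) (s : X →* X)
    (hs : ∀ x, s^[p] x = x) (x : X) (hx : normHom p s x = 1) :
    ∃ y, normHom p s y = 1 ∧ x ^ p = divHom s y := by
  refine ⟨∏ i ∈ Finset.range p, (s^[i] x) ^ i, ?_, ?_⟩
  · rw [map_prod]
    apply Finset.prod_eq_one
    intro i _
    rw [map_pow, normHom_iterate p s hs, hx, one_pow]
  · have := divHom_prod_pow_mul_normHom p hp s x (hs x)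
    rw [hx, mul_one] at this
    exact this.symm

end general

/-- **Herbrand quotient of the units** (the inequality we need): in a cyclic extension `L/K` of
odd prime degree `p` of number fields with `ζ_p ∈ K`,
`p * [E_K : N E_L] ≤ [ker N : (σ - 1) E_L]`, and both indices are finite. -/
theorem herbrand_units {p : ℕ} [hp : Fact p.Prime] (hp2 : p ≠ 2) {K L : Type*} [Field K]
    [NumberField K] [Field L] [NumberField L] [Algebra K L] [IsGalois K L]
    (hdeg : Module.finrank K L = p) (σ : L ≃ₐ[K] L)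
    (hσ : ∀ τ : L ≃ₐ[K] L, τ ∈ Subgroup.zpowers σ) {ζ : K} (hζ : IsPrimitiveRoot ζ p) :
    (divHom (unitsAut σ)).range.relIndex (normHom p (unitsAut σ)).ker ≠ 0 ∧
    (normHom p (unitsAut σ)).range.relIndex (divHom (unitsAut σ)).ker ≠ 0 ∧
    p * (normHom p (unitsAut σ)).range.relIndex (divHom (unitsAut σ)).ker ≤
      (divHom (unitsAut σ)).range.relIndex (normHom p (unitsAut σ)).ker := by
  have hp0 : p ≠ 0 := hp.out.ne_zero
  set s := unitsAut σ with hs
  -- `σ ^ p = 1`
  have hcard : Nat.card (L ≃ₐ[K] L) = p := by rw [IsGalois.card_aut_eq_finrank, hdeg]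
  have hσp : σ ^ p = 1 := by rw [← hcard]; exact pow_card_eq_one'
  have hsp : ∀ x, s^[p] x = x := by
    intro x
    apply units_coe_ext
    rw [coe_unitsAut_iterate, hσp, AlgEquiv.one_apply]
  -- `ζ` in `L`
  have hζL : IsPrimitiveRoot (algebraMap K L ζ) p :=
    hζ.map_of_injective (algebraMap K L).injective
  -- `p`-th roots of unity of `L` are fixed by `σ`
  have hfix : ∀ x : L, x ^ p = 1 → σ x = x := by
    intro x hx
    have : NeZero p := ⟨hp0⟩
    obtain ⟨i, -, rfl⟩ := hζL.eq_pow_of_pow_eq_one hx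
    rw [map_pow, AlgEquiv.commutes]
  -- the unit `ζ`
  obtain ⟨u, hu⟩ := hζL.toInteger_isPrimitiveRoot.isUnit hp0
  have hprim : IsPrimitiveRoot u p := by
    rw [← IsPrimitiveRoot.coe_units_iff, hu]
    exact hζL.toInteger_isPrimitiveRoot
  -- hypotheses of the abstract lemma
  have hND : ∀ x, normHom p s (divHom s x) = 1 := by
    intro x
    rw [divHom_apply, map_div, normHom_map p s hsp, div_self']
  have hDN : ∀ x, divHom s (normHom p s x) = 1 := by
    intro x
    rw [divHom_apply, map_normHom p s hsp, div_self']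
  have hNF : ∀ x, divHom s x = 1 → normHom p s x = x ^ p := by
    intro x hx
    rw [divHom_apply, div_eq_one] at hx
    exact normHom_of_fixed p s x hx
  have hT : ∀ x, x ^ p = 1 → divHom s x = 1 := by
    intro x hx
    rw [divHom_apply, div_eq_one]
    apply units_coe_ext
    rw [hs, coe_unitsAut]
    apply hfix
    have := congrArg (unitsCoeHom L) hx
    simpa [unitsCoeHom_apply] using this
  have hDM : ∀ x, normHom p s x = 1 →
      ∃ y, normHom p s y = 1 ∧ (divHom s)^[p - 1] x = y ^ p := by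
    intro x hx
    exact exists_pow_eq_iterate_of_prod_eq_one p s x hx
  have hPM : ∀ x, normHom p s x = 1 → ∃ y, normHom p s y = 1 ∧ x ^ p = divHom s y :=
    fun x hx => exists_pow_eq_divHom_of_normHom_eq_one p hp.out.pos s hsp x hx
  have hζ1 : u ≠ 1 := hprim.ne_one hp.out.one_lt
  have hζp : u ^ p = 1 := hprim.pow_eq_one
  have hTfin : Finite (powMonoidHom p : (𝓞 L)ˣ →* (𝓞 L)ˣ).ker := by
    have hle : (powMonoidHom p : (𝓞 L)ˣ →* (𝓞 L)ˣ).ker ≤ NumberField.Units.torsion L := by
      intro x hx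
      rw [MonoidHom.mem_ker, powMonoidHom_apply] at hx
      rw [NumberField.Units.torsion, CommGroup.mem_torsion]
      exact isOfFinOrder_iff_pow_eq_one.mpr ⟨p, hp.out.pos, hx⟩
    exact Finite.of_injective (Subgroup.inclusion hle) (Subgroup.inclusion_injective hle)
  have hidxL := index_powMonoidHom_range_units L p hζL
  rw [rank_add_one_eq_mul hp2 hdeg hζ] at hidxL
  have hX : (powMonoidHom p : (𝓞 L)ˣ →* (𝓞 L)ˣ).range.index ≠ 0 := by
    rw [hidxL]
    exact pow_ne_zero _ hp0
  have hXge : p ^ (p * (NumberField.Units.rank K + 1)) ≤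
      (powMonoidHom p : (𝓞 L)ˣ →* (𝓞 L)ˣ).range.index := hidxL.ge
  -- the fixed units
  let f : (𝓞 K)ˣ →* (𝓞 L)ˣ := Units.map (algebraMap (𝓞 K) (𝓞 L) : 𝓞 K →* 𝓞 L)
  have hker : (divHom s).ker = Subgroup.map f ⊤ := by
    ext x
    simp only [MonoidHom.mem_ker, divHom_apply, div_eq_one, Subgroup.mem_map, Subgroup.mem_top,
      true_and]
    constructor
    · intro hx
      have hx' : σ ((x : 𝓞 L) : L) = ((x : 𝓞 L) : L) := by
        rw [← coe_unitsAut, ← hs, hx]
      exact exists_unit_of_fixed σ hσ x hx'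
    · rintro ⟨e, rfl⟩
      apply units_coe_ext
      rw [hs, coe_unitsAut]
      exact AlgEquiv.commutes σ ((e : 𝓞 K) : K)
  have hkerp : ((divHom s).ker).map (powMonoidHom p) =
      Subgroup.map f (powMonoidHom p : (𝓞 K)ˣ →* (𝓞 K)ˣ).range := by
    rw [hker, MonoidHom.range_eq_map, Subgroup.map_map, Subgroup.map_map]
    congr 1
    ext x
    simp
  have hidxK := index_powMonoidHom_range_units K p hζ
  have hF := relIndex_map_map_le f
    (A := (powMonoidHom p : (𝓞 K)ˣ →* (𝓞 K)ˣ).range) (B := ⊤) le_top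
    (by rw [Subgroup.relIndex_top_right, hidxK]; exact pow_ne_zero _ hp0)
  rw [Subgroup.relIndex_top_right, hidxK, ← hker, ← hkerp] at hF
  exact herbrand_units_abstract p (divHom s) (normHom p s) u
    (NumberField.Units.rank K + 1) hND hDN hNF hT hDM hPM hζ1 hζp hTfin hX hXge hF.2 hF.1

end Fermat.Agent.S14
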