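import Fermat.Agent.S14.Defs

/-!
# S14 package C, leaf C-INV: Galois-stable ideals in an everywhere unramified extension

In a Galois extension of number fields which is unramified at all finite primes, a nonzero ideal
of `𝓞 L` which is stable under the Galois group is extended from `𝓞 K`.
-/

namespace Fermat.Agent.S14

open NumberField IsDedekindDomain
open scoped Pointwise

section

variable {K L : Type} [Field K] [NumberField K] [Field L] [NumberField L] [Algebra K L]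

/-- The pointwise action of the Galois group on ideals of `𝓞 L` is the map along `galRestrict`. -/
theorem invId_smul_eq_map (τ : L ≃ₐ[K] L) (I : Ideal (𝓞 L)) :
    τ • I = I.map (galRestrict (𝓞 K) K L (𝓞 L) τ) := by
  have h : (MulSemiringAction.toRingHom (L ≃ₐ[K] L) (𝓞 L) τ) =
      ((galRestrict (𝓞 K) K L (𝓞 L) τ : 𝓞 L ≃ₐ[𝓞 K] 𝓞 L) : 𝓞 L →+* 𝓞 L) := by
    ext x
    simp only [MulSemiringAction.toRingHom_apply, RingHom.coe_coe]
    exact (algebraMap_galRestrict_apply (𝓞 K) τ x).symm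
  rw [Ideal.pointwise_smul_def, h]
  rfl

/-- The extension of an ideal of `𝓞 K` is stable under the Galois group. -/
theorem invId_map_map_algebraMap (J : Ideal (𝓞 K)) (τ : L ≃ₐ[K] L) :
    (J.map (algebraMap (𝓞 K) (𝓞 L))).map (galRestrict (𝓞 K) K L (𝓞 L) τ) =
      J.map (algebraMap (𝓞 K) (𝓞 L)) := by
  have h : ((galRestrict (𝓞 K) K L (𝓞 L) τ : 𝓞 L ≃ₐ[𝓞 K] 𝓞 L) : 𝓞 L →+* 𝓞 L).comp
      (algebraMap (𝓞 K) (𝓞 L)) = algebraMap (𝓞 K) (𝓞 L) := by
    ext x
    simp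
  calc (J.map (algebraMap (𝓞 K) (𝓞 L))).map (galRestrict (𝓞 K) K L (𝓞 L) τ)
      = (J.map (algebraMap (𝓞 K) (𝓞 L))).map
          ((galRestrict (𝓞 K) K L (𝓞 L) τ : 𝓞 L ≃ₐ[𝓞 K] 𝓞 L) : 𝓞 L →+* 𝓞 L) := rfl
    _ = J.map (algebraMap (𝓞 K) (𝓞 L)) := by rw [Ideal.map_map, h]

variable [IsGalois K L]

/-- In an everywhere unramified Galois extension, the extension of a nonzero prime `v` of `𝓞 K`
contains every Galois-stable ideal contained in a prime above `v`. -/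
theorem invId_le_map_under (hunr : IsUnramifiedEverywhere K L) (I : Ideal (𝓞 L))
    (hinv : ∀ τ : L ≃ₐ[K] L, I.map (galRestrict (𝓞 K) K L (𝓞 L) τ) = I)
    (P : Ideal (𝓞 L)) [P.IsPrime] (hP0 : P ≠ ⊥) (hIP : I ≤ P) :
    I ≤ (P.under (𝓞 K)).map (algebraMap (𝓞 K) (𝓞 L)) := by
  classical
  set v : Ideal (𝓞 K) := P.under (𝓞 K) with hv
  have hv0 : v ≠ ⊥ := by
    intro h
    exact hP0 (Ideal.eq_bot_of_comap_eq_bot (R := 𝓞 K) h)
  have : v.IsPrime := inferInstance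
  have : v.IsMaximal := Ring.DimensionLEOne.maximalOfPrime hv0 inferInstance
  have : P.LiesOver v := ⟨rfl⟩
  rw [Ideal.map_algebraMap_eq_finsetProd_pow (R := 𝓞 L) hv0, ← Ideal.dvd_iff_le]
  have hmem : ∀ Q ∈ (v.primesOver (𝓞 L)).toFinset, Q.IsPrime ∧ Q.LiesOver v ∧ Q ≠ ⊥ := by
    intro Q hQ
    rw [Set.mem_toFinset] at hQ
    obtain ⟨hQ1, hQ2⟩ := hQ
    exact ⟨hQ1, hQ2, Ideal.ne_bot_of_liesOver_of_ne_bot hv0 Q⟩
  have hprod : ∏ Q ∈ (v.primesOver (𝓞 L)).toFinset, Q ^ Q.ramificationIdx (𝓞 K) =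
      ∏ Q ∈ (v.primesOver (𝓞 L)).toFinset, Q := by
    refine Finset.prod_congr rfl fun Q hQ => ?_
    obtain ⟨hQ1, hQ2, hQ0⟩ := hmem Q hQ
    have : Algebra.IsUnramifiedAt (𝓞 K) Q := hunr Q hQ0
    rw [Ideal.ramificationIdx_eq_one_of_isUnramifiedAt (R := 𝓞 K) (p := Q), pow_one]
  rw [hprod]
  refine Finset.prod_primes_dvd I (fun Q hQ => ?_) (fun Q hQ => ?_)
  · obtain ⟨hQ1, hQ2, hQ0⟩ := hmem Q hQ
    exact Ideal.prime_of_isPrime hQ0 hQ1
  · obtain ⟨hQ1, hQ2, hQ0⟩ := hmem Q hQ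
    rw [Ideal.dvd_iff_le]
    obtain ⟨σ, rfl⟩ := Ideal.exists_smul_eq_of_isGaloisGroup v P Q (L ≃ₐ[K] L)
    rw [invId_smul_eq_map, ← hinv σ]
    exact Ideal.map_mono hIP

/-- (C-INV) In a Galois extension of number fields which is unramified at all finite primes, a
nonzero ideal of `𝓞 L` which is stable under the Galois group is extended from `𝓞 K`. -/
theorem exists_map_eq_of_invariant
    (hunr : IsUnramifiedEverywhere K L) (I : Ideal (𝓞 L)) (hI : I ≠ ⊥)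
    (hinv : ∀ τ : L ≃ₐ[K] L, I.map (galRestrict (𝓞 K) K L (𝓞 L) τ) = I) :
    ∃ J : Ideal (𝓞 K), J.map (algebraMap (𝓞 K) (𝓞 L)) = I := by
  revert hI hinv
  induction I using IsNoetherian.induction with
  | hgt I ih =>
    intro hI hinv
    by_cases htop : I = ⊤
    · exact ⟨⊤, by rw [htop, Ideal.map_top]⟩
    obtain ⟨P, hPmax, hIP⟩ := Ideal.exists_le_maximal I htop
    have hPprime : P.IsPrime := hPmax.isPrime
    have hP0 : P ≠ ⊥ := fun h => hI (le_bot_iff.mp (h ▸ hIP))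
    set V : Ideal (𝓞 L) := (P.under (𝓞 K)).map (algebraMap (𝓞 K) (𝓞 L)) with hV
    have hIV : I ≤ V := invId_le_map_under hunr I hinv P hP0 hIP
    have hVP : V ≤ P := Ideal.map_comap_le
    have hV0 : V ≠ ⊥ := fun h => hI (le_bot_iff.mp (h ▸ hIV))
    obtain ⟨I', hI'⟩ := Ideal.dvd_iff_le.mpr hIV
    have hI'0 : I' ≠ ⊥ := by
      rintro rfl
      exact hI (by rw [hI', Ideal.mul_bot])
    have hII' : I ≤ I' := by
      rw [hI']
      exact Ideal.mul_le_right (I := V) (J := I')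
    have hlt : I < I' := by
      refine lt_of_le_of_ne hII' fun h => ?_
      have h1 : V * I' = ⊤ * I' := by rw [← hI', Ideal.top_mul, h]
      have h2 : V = ⊤ := mul_right_cancel₀ hI'0 h1
      exact hPmax.ne_top (top_le_iff.mp (h2 ▸ hVP))
    have hinv' : ∀ τ : L ≃ₐ[K] L, I'.map (galRestrict (𝓞 K) K L (𝓞 L) τ) = I' := by
      intro τ
      have h1 := hinv τ
      have h3 : (V * I').map (galRestrict (𝓞 K) K L (𝓞 L) τ) =
          V.map (galRestrict (𝓞 K) K L (𝓞 L) τ) * I'.map (galRestrict (𝓞 K) K L (𝓞 L) τ) :=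
        Ideal.map_mul _ _ _
      rw [hI', h3, invId_map_map_algebraMap] at h1
      exact mul_left_cancel₀ hV0 h1
    obtain ⟨J', hJ'⟩ := ih I' hlt hI'0 hinv'
    refine ⟨P.under (𝓞 K) * J', ?_⟩
    rw [Ideal.map_mul, hJ', hI']

end

end Fermat.Agent.S14
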