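import Mathlib
import Fermat.Agent.S14.FracAut
import Fermat.Agent.S14.ClassNorm
import Fermat.Agent.S14.AmbigAbstract
import Fermat.Agent.S14.HerbrandUnits
import Fermat.Agent.S14.InvariantIdeal

set_option autoImplicit false

/-!
# The count of ambiguous ideal classes and the second inequality on the level of class groups
-/

namespace Fermat.Agent.S14

open NumberField Fermat.Agent.S11
open scoped nonZeroDivisors

section general

variable {X Y : Type*} [CommGroup X] [CommGroup Y]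

theorem divHom_semiconj (f : X →* Y) (s : X →* X) (t : Y →* Y) (h : ∀ x, f (s x) = t (f x))
    (x : X) : f (divHom s x) = divHom t (f x) := by
  rw [divHom_apply, divHom_apply, map_div, h]

theorem iterate_semiconj (f : X →* Y) (s : X →* X) (t : Y →* Y) (h : ∀ x, f (s x) = t (f x))
    (i : ℕ) (x : X) : f (s^[i] x) = t^[i] (f x) := by
  induction i with
  | zero => rfl
  | succ i ih => rw [Function.iterate_succ_apply', Function.iterate_succ_apply', h, ih]

theorem normHom_semiconj (p : ℕ) (f : X →* Y) (s : X →* X) (t : Y →* Y)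
    (h : ∀ x, f (s x) = t (f x)) (x : X) : f (S11.normHom p s x) = S11.normHom p t (f x) := by
  rw [S11.normHom_apply, S11.normHom_apply, map_prod]
  exact Finset.prod_congr rfl fun i _ => iterate_semiconj f s t h i x

theorem normHom_divHom_eq_one (p : ℕ) (s : X →* X) (hs : ∀ x, s^[p] x = x) (x : X) :
    S11.normHom p s (divHom s x) = 1 := by
  rw [divHom_apply, map_div, normHom_map p s hs, div_self']

theorem divHom_normHom_eq_one (p : ℕ) (s : X →* X) (hs : ∀ x, s^[p] x = x) (x : X) :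
    divHom s (S11.normHom p s x) = 1 := by
  rw [divHom_apply, map_normHom p s hs, div_self']

end general

section fracNorm

variable {K L : Type*} [Field K] [NumberField K] [Field L] [NumberField L] [Algebra K L]

/-- The norm of the class of an invertible fractional ideal. -/
noncomputable def fracNorm (K L : Type*) [Field K] [NumberField K] [Field L] [NumberField L]
    [Algebra K L] : (FractionalIdeal (𝓞 L)⁰ L)ˣ →* ClassGroup (𝓞 K) :=
  (classNorm K L).comp (ClassGroup.mk L)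

theorem fracNorm_mk0 (I : (Ideal (𝓞 L))⁰) :
    fracNorm K L (FractionalIdeal.mk0 L I) = ClassGroup.mk0 (relNorm0 K L I) := by
  rw [fracNorm, MonoidHom.comp_apply, ClassGroup.mk_mk0, classNorm_mk0]

theorem fracNorm_toPrincipalIdeal (y : Lˣ) :
    fracNorm K L (toPrincipalIdeal (𝓞 L) L y) = 1 := by
  rw [fracNorm, MonoidHom.comp_apply]
  have : ClassGroup.mk L (toPrincipalIdeal (𝓞 L) L y) = 1 := by
    rw [ClassGroup.mk_eq_one_iff, coe_toPrincipalIdeal, FractionalIdeal.coe_spanSingleton]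
    exact ⟨_, rfl⟩
  rw [this, map_one]

theorem exists_toPrincipalIdeal_mul_eq_mk0 (b : (FractionalIdeal (𝓞 L)⁰ L)ˣ) :
    ∃ (y : Lˣ) (A : (Ideal (𝓞 L))⁰), toPrincipalIdeal (𝓞 L) L y * b = FractionalIdeal.mk0 L A := by
  obtain ⟨a, aI, ha, hb⟩ :=
    FractionalIdeal.exists_eq_spanSingleton_mul (b : FractionalIdeal (𝓞 L)⁰ L)
  have ha0 : algebraMap (𝓞 L) L a ≠ 0 := by
    rw [Ne, map_eq_zero_iff _ (FaithfulSMul.algebraMap_injective (𝓞 L) L)]
    exact ha
  have hmul : FractionalIdeal.spanSingleton (𝓞 L)⁰ (algebraMap (𝓞 L) L a) *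
      (b : FractionalIdeal (𝓞 L)⁰ L) = (aI : FractionalIdeal (𝓞 L)⁰ L) := by
    rw [hb, ← mul_assoc, FractionalIdeal.spanSingleton_mul_spanSingleton, mul_inv_cancel₀ ha0,
      FractionalIdeal.spanSingleton_one, one_mul]
  have haI : aI ≠ ⊥ := by
    intro h
    rw [h] at hmul
    simp only [FractionalIdeal.coeIdeal_bot, mul_eq_zero,
      FractionalIdeal.spanSingleton_eq_zero_iff] at hmul
    exact hmul.elim ha0 b.ne_zero
  refine ⟨Units.mk0 _ ha0, ⟨aI, mem_nonZeroDivisors_iff_ne_zero.mpr haI⟩, ?_⟩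
  apply Units.ext
  rw [Units.val_mul, coe_toPrincipalIdeal, FractionalIdeal.coe_mk0, Units.val_mk0, hmul]

theorem fracNorm_fracAut (σ : L ≃ₐ[K] L) (b : (FractionalIdeal (𝓞 L)⁰ L)ˣ) :
    fracNorm K L (fracAut σ b) = fracNorm K L b := by
  obtain ⟨y, A, hyA⟩ := exists_toPrincipalIdeal_mul_eq_mk0 b
  have h1 : fracNorm K L b = fracNorm K L (FractionalIdeal.mk0 L A) := by
    rw [← hyA, map_mul, fracNorm_toPrincipalIdeal, one_mul]
  have hA' : (A : Ideal (𝓞 L)).map (intAut σ) ∈ (Ideal (𝓞 L))⁰ := by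
    rw [mem_nonZeroDivisors_iff_ne_zero]
    intro h
    have := (Ideal.map_eq_bot_iff_of_injective (intAut σ).injective).mp h
    exact (mem_nonZeroDivisors_iff_ne_zero.mp A.2) this
  have h2 : fracNorm K L (fracAut σ b) =
      fracNorm K L (FractionalIdeal.mk0 L ⟨(A : Ideal (𝓞 L)).map (intAut σ), hA'⟩) := by
    rw [← fracAut_mk0 σ A ⟨_, hA'⟩ rfl, ← hyA, map_mul, map_mul, fracAut_toPrincipalIdeal,
      fracNorm_toPrincipalIdeal, one_mul]
  rw [h1, h2, fracNorm_mk0, fracNorm_mk0]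
  congr 1
  apply Subtype.ext
  rw [coe_relNorm0, coe_relNorm0]
  show Ideal.relNorm (𝓞 K) (Ideal.map (intAut σ) (A : Ideal (𝓞 L))) = _
  rw [map_intAut]
  exact Ideal.relNorm_map_algEquiv (galRestrict (𝓞 K) K L (𝓞 L) σ) (A : Ideal (𝓞 L))

end fracNorm

section main

variable {K L : Type} [Field K] [NumberField K] [Field L] [NumberField L] [Algebra K L]

theorem hilbert90_units [IsGalois K L] {p : ℕ} (hdeg : Module.finrank K L = p) (σ : L ≃ₐ[K] L)
    (hσ : ∀ τ : L ≃ₐ[K] L, τ ∈ Subgroup.zpowers σ) (y : Lˣ)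
    (hy : S11.normHom p (fieldAut σ) y = 1) : ∃ z, divHom (fieldAut σ) z = y := by
  have hnorm : Algebra.norm K (y : L) = 1 := by
    apply (algebraMap K L).injective
    rw [Algebra.norm_eq_prod_automorphisms, map_one, prod_aut_eq_prod_range hdeg σ hσ]
    have := congrArg (fun z : Lˣ => (z : L)) hy
    simp only [S11.normHom_apply, Units.coe_prod, Units.val_one] at this
    rw [← this]
    refine Finset.prod_congr rfl fun i _ => ?_
    rw [coe_fieldAut_iterate]
  have : IsCyclic (L ≃ₐ[K] L) := ⟨σ, hσ⟩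
  obtain ⟨z, hz⟩ := groupCohomology.exists_div_of_norm_eq_one hσ hnorm
  refine ⟨z⁻¹, ?_⟩
  apply Units.ext
  rw [divHom_apply, ← hz, map_inv, inv_div_inv, Units.val_div_eq_div_val, coe_fieldAut]

variable (K L) in
/-- Extension of invertible fractional ideals from `K` to `L`. -/
noncomputable def extFrac : (FractionalIdeal (𝓞 K)⁰ K)ˣ →* (FractionalIdeal (𝓞 L)⁰ L)ˣ :=
  Units.map (FractionalIdeal.extendedHom (A := 𝓞 K) (K := K) L (𝓞 L)).toMonoidHom

theorem coe_extFrac (J : (FractionalIdeal (𝓞 K)⁰ K)ˣ) :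
    ((extFrac K L J : (FractionalIdeal (𝓞 L)⁰ L)ˣ) : FractionalIdeal (𝓞 L)⁰ L) =
      FractionalIdeal.extendedHom L (𝓞 L) (J : FractionalIdeal (𝓞 K)⁰ K) := rfl

theorem fracMap_eq_algebraMap (x : K) :
    IsFractionRing.map (FaithfulSMul.algebraMap_injective (𝓞 K) (𝓞 L)) x = algebraMap K L x := by
  obtain ⟨a, b, hb, rfl⟩ := IsFractionRing.div_surjective (A := 𝓞 K) x
  rw [map_div₀, map_div₀, IsFractionRing.map, IsLocalization.map_eq, IsLocalization.map_eq]
  rfl

theorem extFrac_toPrincipalIdeal (x : Kˣ) :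
    extFrac K L (toPrincipalIdeal (𝓞 K) K x) =
      toPrincipalIdeal (𝓞 L) L (Units.map (algebraMap K L : K →* L) x) := by
  apply Units.ext
  rw [coe_extFrac, coe_toPrincipalIdeal, coe_toPrincipalIdeal,
    FractionalIdeal.extendedHom_spanSingleton, fracMap_eq_algebraMap]
  rfl

theorem exists_extFrac_eq_of_invariant [IsGalois K L] (hunr : IsUnramifiedEverywhere K L)
    (I : (FractionalIdeal (𝓞 L)⁰ L)ˣ) (hinv : ∀ τ : L ≃ₐ[K] L, fracAut τ I = I) :
    ∃ J : (FractionalIdeal (𝓞 K)⁰ K)ˣ, extFrac K L J = I := by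
  obtain ⟨a, aI, ha, hI⟩ :=
    FractionalIdeal.exists_eq_spanSingleton_mul (I : FractionalIdeal (𝓞 L)⁰ L)
  obtain ⟨c, hc⟩ := RingOfIntegers.dvd_norm K a
  set n : 𝓞 K := RingOfIntegers.norm K a with hn
  have hn0 : n ≠ 0 := by
    intro h
    have h1 : (algebraMap (𝓞 K) (𝓞 L) n : L) = 0 := by rw [h]; simp
    rw [hn, RingOfIntegers.coe_algebraMap_norm, map_eq_zero, Algebra.norm_eq_zero_iff] at h1
    exact ha (RingOfIntegers.ext h1)
  set d' : L := algebraMap K L (algebraMap (𝓞 K) K n) with hd'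
  have hd'0 : d' ≠ 0 := by
    rw [hd', Ne, map_eq_zero, map_eq_zero_iff _ (FaithfulSMul.algebraMap_injective (𝓞 K) K)]
    exact hn0
  have hd'ac : d' = algebraMap (𝓞 L) L a * algebraMap (𝓞 L) L c := by
    rw [← map_mul, ← hc]
    rfl
  have ha0 : algebraMap (𝓞 L) L a ≠ 0 := by
    rw [Ne, map_eq_zero_iff _ (FaithfulSMul.algebraMap_injective (𝓞 L) L)]
    exact ha
  set 𝔄 : Ideal (𝓞 L) := Ideal.span {c} * aI with h𝔄
  have hkey : (𝔄 : FractionalIdeal (𝓞 L)⁰ L) =
      FractionalIdeal.spanSingleton (𝓞 L)⁰ d' * (I : FractionalIdeal (𝓞 L)⁰ L) := by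
    rw [h𝔄, FractionalIdeal.coeIdeal_mul, FractionalIdeal.coeIdeal_span_singleton, hI,
      ← mul_assoc, FractionalIdeal.spanSingleton_mul_spanSingleton, hd'ac]
    congr 2
    field_simp
  have hIne : (I : FractionalIdeal (𝓞 L)⁰ L) ≠ 0 := I.ne_zero
  have h𝔄0 : 𝔄 ≠ ⊥ := by
    intro h
    have : (𝔄 : FractionalIdeal (𝓞 L)⁰ L) = 0 := by rw [h]; simp
    rw [hkey, mul_eq_zero, FractionalIdeal.spanSingleton_eq_zero_iff] at this
    exact this.elim hd'0 hIne
  have h𝔄inv : ∀ τ : L ≃ₐ[K] L, 𝔄.map (galRestrict (𝓞 K) K L (𝓞 L) τ) = 𝔄 := by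
    intro τ
    rw [← map_intAut]
    apply FractionalIdeal.coeIdeal_injective (K := L)
    show ((Ideal.map (intAut τ) 𝔄 : Ideal (𝓞 L)) : FractionalIdeal (𝓞 L)⁰ L) =
      (𝔄 : FractionalIdeal (𝓞 L)⁰ L)
    rw [← fracAut_coeIdeal_aux L L, hkey, map_mul,
      FractionalIdeal.ringEquivOfRingEquiv_spanSingleton, fracField_intAut, ← coe_fracAut, hinv τ,
      hd', AlgEquiv.commutes]
  obtain ⟨J₀, hJ₀⟩ := exists_map_eq_of_invariant hunr 𝔄 h𝔄0 h𝔄inv
  set Jf : FractionalIdeal (𝓞 K)⁰ K :=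
    FractionalIdeal.spanSingleton (𝓞 K)⁰ (algebraMap (𝓞 K) K n)⁻¹ *
      (J₀ : FractionalIdeal (𝓞 K)⁰ K) with hJf
  have hext : FractionalIdeal.extendedHom L (𝓞 L) Jf = (I : FractionalIdeal (𝓞 L)⁰ L) := by
    rw [hJf, map_mul, FractionalIdeal.extendedHom_spanSingleton, fracMap_eq_algebraMap,
      FractionalIdeal.extendedHom_coeIdeal_eq_map, hJ₀, hkey, ← mul_assoc,
      FractionalIdeal.spanSingleton_mul_spanSingleton, map_inv₀, ← hd', inv_mul_cancel₀ hd'0,
      FractionalIdeal.spanSingleton_one, one_mul]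
  have hJf0 : Jf ≠ 0 := by
    intro h
    rw [h, map_zero] at hext
    exact hIne hext.symm
  refine ⟨Units.mk0 Jf hJf0, ?_⟩
  apply Units.ext
  rw [coe_extFrac, Units.val_mk0, hext]

end main

end Fermat.Agent.S14
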