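import Fermat.Agent.S14.Defs
import Fermat.Agent.S14.LatticeCount
import Fermat.Agent.S14.ClassCount
import Fermat.Agent.S14.PrimeSums

/-!
# S14: the analytic packages D1, D2, D3 (pure import shim)

Consumers (packages E and F) only use `nvPow` and the four real-variable statements
`primeSum_summable`, `primeSum_sub_log_bounded`, `primeSum_cos_le`, `primeSum_not_good_le`,
all provided by `PrimeSums.lean`.
-/
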