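import Mathlib
import Fermat.Agent.S14.NormDiv

/-!
# S14-AP: approximation lemmas for principal divisors
-/

set_option autoImplicit false

namespace Fermat.Agent.S14

open NumberField IsDedekindDomain WithZero
open scoped nonZeroDivisors

section Basic

variable {F : Type} [Field F] [NumberField F]

/-- The coefficient of the principal divisor of a nonzero integer, via `Associates.count`. -/
theorem approx_divOf_coe (a : 𝓞 F) (ha : a ≠ 0) (v : HeightOneSpectrum (𝓞 F)) :
    divOf F (a : F) v =
      ((Associates.mk v.asIdeal).count (Associates.mk (Ideal.span {a} : Ideal (𝓞 F))).factors : ℤ) := by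
  classical
  rw [divOf_apply]
  have h1 : FractionalIdeal.spanSingleton (𝓞 F)⁰ (a : F) =
      ((Ideal.span {a} : Ideal (𝓞 F)) : FractionalIdeal (𝓞 F)⁰ F) :=
    (FractionalIdeal.coeIdeal_span_singleton a).symm
  rw [h1, FractionalIdeal.count_coe]
  simpa using ha

/-- The valuation at `v` is `exp (- ord_v)`. -/
theorem approx_valuation_coe (a : 𝓞 F) (ha : a ≠ 0) (v : HeightOneSpectrum (𝓞 F)) :
    v.valuation F (a : F) = exp (-(divOf F (a : F) v)) := by
  rw [approx_divOf_coe a ha v]
  have := v.valuation_of_algebraMap (K := F) a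
  rw [show ((a : 𝓞 F) : F) = algebraMap (𝓞 F) F a from rfl, this, v.intValuation_if_neg ha]

theorem approx_divOf_inv (x : F) : divOf F x⁻¹ = - divOf F x := by
  ext v
  rw [Finsupp.neg_apply, divOf_apply, divOf_apply, ← FractionalIdeal.spanSingleton_inv,
    FractionalIdeal.count_inv]

theorem approx_divOf_div {x y : F} (hx : x ≠ 0) (hy : y ≠ 0) :
    divOf F (x / y) = divOf F x - divOf F y := by
  rw [div_eq_mul_inv, divOf_mul' F hx (inv_ne_zero hy), approx_divOf_inv, sub_eq_add_neg]

/-- The valuation at `v` is `exp (- ord_v)`, for all nonzero elements. -/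
theorem approx_valuation_eq (x : F) (hx : x ≠ 0) (v : HeightOneSpectrum (𝓞 F)) :
    v.valuation F x = exp (-(divOf F x v)) := by
  obtain ⟨a, b, hb, rfl⟩ := IsFractionRing.div_surjective (A := 𝓞 F) x
  have hb0 : b ≠ 0 := nonZeroDivisors.ne_zero hb
  have hb0' : (algebraMap (𝓞 F) F b) ≠ 0 := by
    simpa using hb0
  have ha0' : (algebraMap (𝓞 F) F a) ≠ 0 := by
    intro h
    apply hx
    rw [h, zero_div]
  have ha0 : a ≠ 0 := by
    rintro rfl
    exact ha0' (map_zero _)
  rw [map_div₀, approx_divOf_div ha0' hb0', Finsupp.sub_apply]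
  have h1 := approx_valuation_coe a ha0 v
  have h2 := approx_valuation_coe b hb0 v
  change v.valuation F (algebraMap (𝓞 F) F a) = _ at h1
  change v.valuation F (algebraMap (𝓞 F) F b) = _ at h2
  rw [h1, h2, ← exp_sub]
  congr 1
  change -(divOf F (algebraMap (𝓞 F) F a) v) - -(divOf F (algebraMap (𝓞 F) F b) v) = _
  ring

/-- `n ≤ ord_v a ↔ a ∈ v ^ n` for a nonzero integer `a`. -/
theorem approx_le_divOf_iff (a : 𝓞 F) (ha : a ≠ 0) (v : HeightOneSpectrum (𝓞 F)) (n : ℕ) :
    (n : ℤ) ≤ divOf F (a : F) v ↔ a ∈ v.asIdeal ^ n := by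
  rw [← v.intValuation_le_pow_iff_mem, ← v.valuation_of_algebraMap (K := F)]
  have := approx_valuation_coe a ha v
  change v.valuation F (algebraMap (𝓞 F) F a) = _ at this
  rw [this, exp_le_exp, neg_le_neg_iff]

end Basic

/-- (AP2) For `v ∈ S` there is an element of valuation `1` at `v` and `0` at the other places of
`S`. -/
theorem exists_uniformizer_away {F : Type} [Field F] [NumberField F]
    (S : Finset (HeightOneSpectrum (𝓞 F))) (v : HeightOneSpectrum (𝓞 F)) :
    ∃ x : F, x ≠ 0 ∧ divOf F x v = 1 ∧ ∀ v' ∈ S, v' ≠ v → divOf F x v' = 0 := by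
  classical
  obtain ⟨π, hπ⟩ := v.intValuation_exists_uniformizer
  have hπ1 : π ∈ v.asIdeal ^ 1 := by
    rw [← v.intValuation_le_pow_iff_mem, hπ]
    rfl
  have hπ2 : π ∉ v.asIdeal ^ 2 := by
    rw [← v.intValuation_le_pow_iff_mem, hπ, exp_le_exp]
    norm_num
  obtain ⟨y, hy⟩ := IsDedekindDomain.exists_forall_sub_mem_ideal (s := insert v S)
    (fun w : HeightOneSpectrum (𝓞 F) => w.asIdeal) (fun w => if w = v then 2 else 1)
    (fun w _ => w.prime)
    (fun w _ w' _ hww' h => hww' (HeightOneSpectrum.ext h))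
    (fun w => if (w : HeightOneSpectrum (𝓞 F)) = v then π else 1)
  have hyv := hy v (Finset.mem_insert_self v S)
  simp only [if_true] at hyv
  have hy1 : y ∈ v.asIdeal ^ 1 := by
    have h3 : y - π ∈ v.asIdeal ^ 1 := Ideal.pow_le_pow_right (by norm_num) hyv
    have : y = (y - π) + π := by ring
    rw [this]
    exact Ideal.add_mem _ h3 hπ1
  have hy2 : y ∉ v.asIdeal ^ 2 := by
    intro h
    apply hπ2
    have : π = y - (y - π) := by ring
    rw [this]
    exact Ideal.sub_mem _ h hyv
  have hy0 : y ≠ 0 := by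
    rintro rfl
    exact hy2 (Ideal.zero_mem _)
  refine ⟨(y : F), ?_, ?_, ?_⟩
  · exact_mod_cast hy0
  · have h1 := (approx_le_divOf_iff y hy0 v 1).mpr hy1
    have h2 := (approx_le_divOf_iff y hy0 v 2).not.mpr hy2
    push_cast at h1 h2
    omega
  · intro v' hv' hne
    have hyv' := hy v' (Finset.mem_insert_of_mem hv')
    simp only [if_neg hne, pow_one] at hyv'
    rw [(divOf_algebraMap_nonneg y hy0 v').2]
    intro hmem
    have h1 : (1 : 𝓞 F) ∈ v'.asIdeal := by
      have : (1 : 𝓞 F) = y - (y - 1) := by ring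
      rw [this]
      exact Ideal.sub_mem _ hmem hyv'
    exact v'.isPrime.ne_top ((Ideal.eq_top_iff_one _).mpr h1)

/-- (AP1) APPROXIMATION. An element of `F` with valuation `0` at the finitely many places of `S` is a
quotient of two integers of `F` that lie in no place of `S`. -/
theorem exists_coprime_fraction {F : Type} [Field F] [NumberField F]
    (S : Finset (HeightOneSpectrum (𝓞 F))) (y : F) (hy : y ≠ 0)
    (hS : ∀ v ∈ S, divOf F y v = 0) :
    ∃ a b : 𝓞 F, a ≠ 0 ∧ b ≠ 0 ∧ (∀ v ∈ S, a ∉ v.asIdeal) ∧ (∀ v ∈ S, b ∉ v.asIdeal) ∧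
      y = (a : F) / (b : F) := by
  classical
  rcases S.eq_empty_or_nonempty with hSe | ⟨v₀, hv₀⟩
  · subst hSe
    obtain ⟨a, b, hb, rfl⟩ := IsFractionRing.div_surjective (A := 𝓞 F) y
    have hb0 : b ≠ 0 := nonZeroDivisors.ne_zero hb
    have ha0 : a ≠ 0 := by
      rintro rfl
      apply hy
      rw [map_zero, zero_div]
    exact ⟨a, b, ha0, hb0, by simp, by simp, rfl⟩
  set D := divOf F y with hD
  obtain ⟨b, hb⟩ := IsDedekindDomain.exists_forall_sub_mem_ideal (s := S ∪ D.support)
    (fun w : HeightOneSpectrum (𝓞 F) => w.asIdeal)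
    (fun w => if w ∈ S then 1 else (-(D w)).toNat)
    (fun w _ => w.prime)
    (fun w _ w' _ hww' h => hww' (HeightOneSpectrum.ext h))
    (fun w => if (w : HeightOneSpectrum (𝓞 F)) ∈ S then 1 else 0)
  have hbS : ∀ w ∈ S, b ∉ w.asIdeal := by
    intro w hw hmem
    have h1 := hb w (Finset.mem_union_left _ hw)
    simp only [if_pos hw, pow_one] at h1
    have h2 : (1 : 𝓞 F) ∈ w.asIdeal := by
      have : (1 : 𝓞 F) = b - (b - 1) := by ring
      rw [this]
      exact Ideal.sub_mem _ hmem h1
    exact w.isPrime.ne_top ((Ideal.eq_top_iff_one _).mpr h2)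
  have hb0 : b ≠ 0 := by
    rintro rfl
    exact hbS v₀ hv₀ (Ideal.zero_mem _)
  have hb0' : (b : F) ≠ 0 := by exact_mod_cast hb0
  have hord : ∀ w : HeightOneSpectrum (𝓞 F), 0 ≤ divOf F ((b : F) * y) w := by
    intro w
    rw [divOf_mul' F hb0' hy, Finsupp.add_apply]
    have hnn := (divOf_algebraMap_nonneg b hb0 w).1
    by_cases hneg : 0 ≤ D w
    · exact add_nonneg hnn hneg
    · push Not at hneg
      have hwS : w ∉ S := fun hw => by
        have := hS w hw
        omega
      have hwD : w ∈ D.support := by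
        rw [Finsupp.mem_support_iff]
        omega
      have h1 := hb w (Finset.mem_union_right _ hwD)
      simp only [if_neg hwS, sub_zero] at h1
      have h2 := (approx_le_divOf_iff b hb0 w _).mpr h1
      rw [Int.toNat_of_nonneg (by omega)] at h2
      change 0 ≤ divOf F (b : F) w + D w
      omega
  have hint : (b : F) * y ∈ (algebraMap (𝓞 F) F).range := by
    apply HeightOneSpectrum.mem_integers_of_valuation_le_one
    intro w
    rw [approx_valuation_eq _ (mul_ne_zero hb0' hy) w, ← exp_zero, exp_le_exp]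
    have := hord w
    omega
  obtain ⟨a, ha⟩ := hint
  have ha' : (a : F) = (b : F) * y := ha
  have ha0 : a ≠ 0 := by
    rintro rfl
    have : (b : F) * y = 0 := by rw [← ha']; simp
    exact mul_ne_zero hb0' hy this
  refine ⟨a, b, ha0, hb0, ?_, hbS, ?_⟩
  · intro w hw
    rw [← (divOf_algebraMap_nonneg a ha0 w).2, ha', divOf_mul' F hb0' hy, Finsupp.add_apply,
      hS w hw, add_zero, (divOf_algebraMap_nonneg b hb0 w).2]
    exact hbS w hw
  · rw [ha', mul_div_cancel_left₀ _ hb0']

end Fermat.Agent.S14
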