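import Fermat.Agent.S14.Defs

/-!
# S14, package B: Frobenius elements and the additive Artin symbol (API)
-/

set_option autoImplicit false

namespace Fermat.Agent.S14

open NumberField IsDedekindDomain

variable (K : Type*) [Field K] [NumberField K] (L : Type*) [Field L] [NumberField L] [Algebra K L]

/-- The chosen place of `L` above the finite place `v` of `K`. -/
noncomputable def placeAbove (v : HeightOneSpectrum (𝓞 K)) : HeightOneSpectrum (𝓞 L) where
  asIdeal := primeAbove K L v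
  isPrime := inferInstance
  ne_bot := primeAbove_ne_bot K L v

/-- (B0) -/
theorem placeBelow_placeAbove (v : HeightOneSpectrum (𝓞 K)) :
    placeBelow K L (placeAbove K L v) = v := by
  apply HeightOneSpectrum.ext
  show (primeAbove K L v).under (𝓞 K) = v.asIdeal
  exact (Ideal.LiesOver.over (P := primeAbove K L v) (p := v.asIdeal)).symm

/-- (B0') -/
theorem normDiv_single (w : HeightOneSpectrum (𝓞 L)) (n : ℤ) :
    normDiv K L (Finsupp.single w n) =
      Finsupp.single (placeBelow K L w) (((w.asIdeal.inertiaDeg (𝓞 K) : ℕ) : ℤ) * n) := by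
  simp [normDiv]

instance artin_liesOver_placeBelow (w : HeightOneSpectrum (𝓞 L)) :
    w.asIdeal.LiesOver (placeBelow K L w).asIdeal := ⟨rfl⟩

/-- (B0''') the absolute norm of a place above `v` is `N(v)^f`. -/
theorem absNorm_eq_pow_inertiaDeg (w : HeightOneSpectrum (𝓞 L)) :
    Ideal.absNorm w.asIdeal =
      Ideal.absNorm (placeBelow K L w).asIdeal ^ (w.asIdeal.inertiaDeg (𝓞 K)) := by
  exact (Ideal.absNorm_pow_inertiaDeg (placeBelow K L w).asIdeal w.asIdeal).symm

/-- Places above `v` are the primes over `v.asIdeal`. -/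
noncomputable def placesAboveEquiv (v : HeightOneSpectrum (𝓞 K)) :
    {w : HeightOneSpectrum (𝓞 L) // placeBelow K L w = v} ≃ v.asIdeal.primesOver (𝓞 L) where
  toFun w := ⟨w.1.asIdeal, w.1.isPrime, ⟨by
    have := congrArg HeightOneSpectrum.asIdeal w.2
    exact this.symm⟩⟩
  invFun P := ⟨⟨P.1, P.2.1, by
      intro h
      have h1 : v.asIdeal = P.1.under (𝓞 K) := P.2.2.over
      rw [h, Ideal.under_bot] at h1
      exact v.ne_bot h1⟩, by
    apply HeightOneSpectrum.ext
    exact P.2.2.over.symm⟩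
  left_inv w := rfl
  right_inv P := rfl

theorem finrank_ringOfIntegers_eq : Module.finrank (𝓞 K) (𝓞 L) = Module.finrank K L :=
  (IsFractionRing.finrank_eq (𝓞 K) K (𝓞 L) L).symm

theorem sum_ramificationIdx_mul_inertiaDeg_eq (v : HeightOneSpectrum (𝓞 K)) :
    ∑ q : v.asIdeal.primesOver (𝓞 L), q.1.ramificationIdx (𝓞 K) * q.1.inertiaDeg (𝓞 K) =
      Module.finrank K L := by
  rw [Ideal.sum_ramification_inertia_eq_finrank, finrank_ringOfIntegers_eq]

/-- (B0'') finitely many places above a place, at most `[L:K]`. -/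
theorem card_placesAbove_le (v : HeightOneSpectrum (𝓞 K)) :
    Finite {w : HeightOneSpectrum (𝓞 L) // placeBelow K L w = v} ∧
      Nat.card {w : HeightOneSpectrum (𝓞 L) // placeBelow K L w = v} ≤ Module.finrank K L := by
  refine ⟨Finite.of_equiv _ (placesAboveEquiv K L v).symm, ?_⟩
  rw [Nat.card_congr (placesAboveEquiv K L v), Nat.card_eq_fintype_card,
    ← sum_ramificationIdx_mul_inertiaDeg_eq K L v, Fintype.card_eq_sum_ones]
  refine Finset.sum_le_sum fun q _ => ?_
  have : q.1.IsPrime := q.2.1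
  exact Right.one_le_mul (Ideal.ramificationIdx_pos q.1 (𝓞 K)) (Ideal.inertiaDeg_pos q.1 (𝓞 K))

/-- Only finitely many places of `K` ramify in `L`. -/
theorem finite_not_isUnramifiedIn : {v : HeightOneSpectrum (𝓞 K) | ¬ IsUnramifiedIn K L v}.Finite := by
  have hD : differentIdeal (𝓞 K) (𝓞 L) ≠ ⊥ := differentIdeal_ne_bot
  have hfin : {w : HeightOneSpectrum (𝓞 L) | w.asIdeal ∣ differentIdeal (𝓞 K) (𝓞 L)}.Finite :=
    Ideal.finite_factors hD
  refine (hfin.image (placeBelow K L)).subset ?_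
  intro v hv
  simp only [Set.mem_ofPred_eq, IsUnramifiedIn, not_forall] at hv
  obtain ⟨P, hP, hlies, hram⟩ := hv
  have hP0 : P ≠ ⊥ := by
    intro h
    have h1 : v.asIdeal = P.under (𝓞 K) := hlies.over
    rw [h, Ideal.under_bot] at h1
    exact v.ne_bot h1
  refine ⟨⟨P, hP, hP0⟩, ?_, ?_⟩
  · exact dvd_differentIdeal_iff.mpr hram
  · apply HeightOneSpectrum.ext
    exact hlies.over.symm

section Galois

open scoped Pointwise

variable [IsGalois K L]

/-- (B1) -/
theorem isArithFrobAt_frobAt (v : HeightOneSpectrum (𝓞 K)) :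
    IsArithFrobAt (𝓞 K) (frobAt K L v) (primeAbove K L v) :=
  IsArithFrobAt.arithFrobAt (𝓞 K) (L ≃ₐ[K] L) (primeAbove K L v)

variable {K L} in
/-- Uniqueness of the Frobenius element at an unramified prime. -/
theorem artin_frob_unique (P : Ideal (𝓞 L)) [P.IsPrime] [Algebra.IsUnramifiedAt (𝓞 K) P]
    {σ τ : L ≃ₐ[K] L} (hσ : IsArithFrobAt (𝓞 K) σ P) (hτ : IsArithFrobAt (𝓞 K) τ P) : σ = τ := by
  have h := AlgHom.IsArithFrobAt.eq_of_isUnramifiedAt hσ hτ (by
    intro x hx
    rw [mem_nonZeroDivisors_iff_ne_zero]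
    rintro rfl
    exact hx (Ideal.zero_mem P))
  have hf : FaithfulSMul (L ≃ₐ[K] L) (𝓞 L) := IsGaloisGroup.faithful (𝓞 K)
  apply hf.eq_of_smul_eq_smul
  intro x
  exact DFunLike.congr_fun h x

variable {K L} in
/-- Powers of a Frobenius element act as iterated `q`-power maps on the residue ring. -/
theorem artin_mk_pow_smul {P : Ideal (𝓞 L)} {σ : L ≃ₐ[K] L} (hσ : IsArithFrobAt (𝓞 K) σ P)
    (n : ℕ) (x : 𝓞 L) :
    Ideal.Quotient.mk P (σ ^ n • x) =
      Ideal.Quotient.mk P x ^ (Nat.card (𝓞 K ⧸ P.under (𝓞 K))) ^ n := by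
  induction n with
  | zero => simp
  | succ n ih =>
    rw [pow_succ', mul_smul]
    have := AlgHom.IsArithFrobAt.mk_apply hσ (σ ^ n • x)
    simp only [MulSemiringAction.toAlgHom_apply] at this
    rw [this, ih, ← pow_mul, pow_succ]

variable {K L} in
/-- At an unramified prime, the order of a Frobenius element is the residue degree. -/
theorem artin_orderOf_frob (P : Ideal (𝓞 L)) [P.IsPrime] (hP0 : P ≠ ⊥)
    [Algebra.IsUnramifiedAt (𝓞 K) P]
    {σ : L ≃ₐ[K] L} (hσ : IsArithFrobAt (𝓞 K) σ P) : orderOf σ = P.inertiaDeg (𝓞 K) := by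
  classical
  set p := P.under (𝓞 K) with hp
  have hPmax : P.IsMaximal := Ring.DimensionLEOne.maximalOfPrime hP0 inferInstance
  have hp0 : p ≠ ⊥ := by
    intro h
    exact hP0 (Ideal.eq_bot_of_comap_eq_bot (R := 𝓞 K) h)
  have hpmax : p.IsMaximal := Ring.DimensionLEOne.maximalOfPrime hp0 inferInstance
  have hlies : P.LiesOver p := ⟨rfl⟩
  set q := Nat.card (𝓞 K ⧸ p) with hq
  set f := P.inertiaDeg (𝓞 K) with hf
  have hfinP : Finite (𝓞 L ⧸ P) := Ideal.finiteQuotientOfFreeOfNeBot _ hP0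
  have hfinp : Finite (𝓞 K ⧸ p) := Ideal.finiteQuotientOfFreeOfNeBot _ hp0
  let _ : Field (𝓞 L ⧸ P) := Ideal.Quotient.field P
  let _ : Fintype (𝓞 L ⧸ P) := Fintype.ofFinite _
  have hcard : Fintype.card (𝓞 L ⧸ P) = q ^ f := by
    rw [← Nat.card_eq_fintype_card]
    have := Ideal.cardQuot_pow_inertiaDeg p P
    rw [← Submodule.cardQuot_apply, ← this]
    rfl
  have hq1 : 1 < q := by
    rw [hq]
    have : Nontrivial (𝓞 K ⧸ p) := Ideal.Quotient.nontrivial_iff.mpr hpmax.ne_top
    exact Finite.one_lt_card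
  have hfpos : 0 < f := Ideal.inertiaDeg_pos P (𝓞 K)
  -- (ii) σ ^ f = 1
  have hpowf : σ ^ f = 1 := by
    have hfrob : IsArithFrobAt (𝓞 K) (σ ^ (f + 1)) P := by
      intro x
      rw [← Ideal.Quotient.eq]
      have h1 := artin_mk_pow_smul hσ (f + 1) x
      simp only [MulSemiringAction.toAlgHom_apply]
      rw [h1, pow_succ, pow_mul, ← hp, ← hq, ← hcard, FiniteField.pow_card, map_pow]
    have := artin_frob_unique P hfrob hσ
    rw [pow_succ] at this
    exact mul_eq_right.mp this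
  have hdvd : orderOf σ ∣ f := orderOf_dvd_of_pow_eq_one hpowf
  -- (iii) f ≤ orderOf σ
  set m := orderOf σ with hm
  have hmpos : 0 < m := orderOf_pos σ
  have hroots : ∀ y : 𝓞 L ⧸ P, y ^ q ^ m = y := by
    intro y
    obtain ⟨x, rfl⟩ := Ideal.Quotient.mk_surjective y
    have h1 := artin_mk_pow_smul hσ m x
    rw [hm, pow_orderOf_eq_one, one_smul] at h1
    exact h1.symm
  have hle : q ^ f ≤ q ^ m := by
    rw [← hcard]
    have hne : (Polynomial.X ^ q ^ m - Polynomial.X : Polynomial (𝓞 L ⧸ P)) ≠ 0 :=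
      FiniteField.X_pow_card_pow_sub_X_ne_zero _ hmpos.ne' hq1
    have hsub : (Finset.univ : Finset (𝓞 L ⧸ P)).val ⊆
        (Polynomial.X ^ q ^ m - Polynomial.X : Polynomial (𝓞 L ⧸ P)).roots := by
      intro y _
      rw [Polynomial.mem_roots hne]
      simp [hroots y]
    have := Polynomial.card_le_degree_of_subset_roots hsub
    rwa [FiniteField.X_pow_card_pow_sub_X_natDegree_eq _ hmpos.ne' hq1, Finset.card_univ] at this
  have hfm : f ≤ m := (Nat.pow_le_pow_iff_right hq1).mp hle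
  exact Nat.le_antisymm (Nat.le_of_dvd hfpos hdvd) hfm

/-- (B2) In an abelian extension the Frobenius at an unramified place does not depend on the
chosen prime above it. -/
theorem frobAt_eq_of_isArithFrobAt (hcomm : ∀ a b : L ≃ₐ[K] L, a * b = b * a)
    (v : HeightOneSpectrum (𝓞 K)) (hv : IsUnramifiedIn K L v) (P : Ideal (𝓞 L)) [P.IsPrime]
    (hP : P.LiesOver v.asIdeal) (σ : L ≃ₐ[K] L) (hσ : IsArithFrobAt (𝓞 K) σ P) :
    σ = frobAt K L v := by
  have hunder : (primeAbove K L v).under (𝓞 K) = P.under (𝓞 K) := by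
    rw [← (primeAbove_liesOver K L v).over, ← hP.over]
  obtain ⟨τ, hτ⟩ := Algebra.IsInvariant.exists_smul_of_under_eq (𝓞 K) (𝓞 L) (L ≃ₐ[K] L)
    (primeAbove K L v) P hunder
  have h1 := (isArithFrobAt_frobAt K L v).conj τ
  rw [← hτ, hcomm τ, mul_inv_cancel_right] at h1
  have : Algebra.IsUnramifiedAt (𝓞 K) P := hv P hP
  exact artin_frob_unique P hσ h1

/-- All places above `v` have the residue degree of the chosen one. -/
theorem artin_inertiaDeg_eq_primeAbove (w : HeightOneSpectrum (𝓞 L)) :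
    w.asIdeal.inertiaDeg (𝓞 K) = (primeAbove K L (placeBelow K L w)).inertiaDeg (𝓞 K) := by
  have hunder : (primeAbove K L (placeBelow K L w)).under (𝓞 K) = w.asIdeal.under (𝓞 K) := by
    rw [← (primeAbove_liesOver K L (placeBelow K L w)).over]
    rfl
  obtain ⟨τ, hτ⟩ := Algebra.IsInvariant.exists_smul_of_under_eq (𝓞 K) (𝓞 L) (L ≃ₐ[K] L)
    (primeAbove K L (placeBelow K L w)) w.asIdeal hunder
  rw [hτ, Ideal.inertiaDeg_smul]

/-- (B3) At an unramified place the order of the Frobenius is the residue degree of every place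
above it. -/
theorem orderOf_frobAt (v : HeightOneSpectrum (𝓞 K)) (hv : IsUnramifiedIn K L v)
    (w : HeightOneSpectrum (𝓞 L)) (hw : placeBelow K L w = v) :
    orderOf (frobAt K L v) = w.asIdeal.inertiaDeg (𝓞 K) := by
  subst hw
  have : Algebra.IsUnramifiedAt (𝓞 K) (primeAbove K L (placeBelow K L w)) :=
    hv _ (primeAbove_liesOver K L _)
  rw [artin_inertiaDeg_eq_primeAbove K L w]
  exact artin_orderOf_frob _ (primeAbove_ne_bot K L _) (isArithFrobAt_frobAt K L _)

theorem artin_one_lt_absNorm (v : HeightOneSpectrum (𝓞 K)) : 1 < Ideal.absNorm v.asIdeal := by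
  have h0 : Ideal.absNorm v.asIdeal ≠ 0 := by
    rw [Ne, Ideal.absNorm_eq_zero_iff]
    exact v.ne_bot
  have h1 : Ideal.absNorm v.asIdeal ≠ 1 := by
    rw [Ne, Ideal.absNorm_eq_one_iff]
    exact v.isPrime.ne_top
  omega

/-- (B3a) -/
theorem frobAt_eq_one_of_absNorm_eq (v : HeightOneSpectrum (𝓞 K)) (hv : IsUnramifiedIn K L v)
    (w : HeightOneSpectrum (𝓞 L)) (hw : placeBelow K L w = v)
    (h : Ideal.absNorm w.asIdeal = Ideal.absNorm v.asIdeal) : frobAt K L v = 1 := by
  rw [← orderOf_eq_one_iff, orderOf_frobAt K L v hv w hw]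
  have h1 := absNorm_eq_pow_inertiaDeg K L w
  rw [hw, h] at h1
  have h2 : Ideal.absNorm v.asIdeal ^ 1 = Ideal.absNorm v.asIdeal ^ w.asIdeal.inertiaDeg (𝓞 K) := by
    rw [pow_one]
    exact h1
  exact (Nat.pow_right_injective (artin_one_lt_absNorm K v) h2).symm

/-- (B3b) -/
theorem absNorm_eq_of_frobAt_eq_one (v : HeightOneSpectrum (𝓞 K)) (hv : IsUnramifiedIn K L v)
    (h : frobAt K L v = 1) (w : HeightOneSpectrum (𝓞 L)) (hw : placeBelow K L w = v) :
    Ideal.absNorm w.asIdeal = Ideal.absNorm v.asIdeal ∧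
      normDiv K L (Finsupp.single w 1) = Finsupp.single v 1 := by
  have hf : w.asIdeal.inertiaDeg (𝓞 K) = 1 := by
    rw [← orderOf_frobAt K L v hv w hw, h, orderOf_one]
  constructor
  · rw [absNorm_eq_pow_inertiaDeg K L w, hf, pow_one, hw]
  · rw [normDiv_single, hf, hw]
    simp

/-- (B3c) an unramified place with trivial Frobenius splits completely. -/
theorem card_placesAbove_of_frobAt_eq_one (v : HeightOneSpectrum (𝓞 K))
    (hv : IsUnramifiedIn K L v) (h : frobAt K L v = 1) :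
    Nat.card {w : HeightOneSpectrum (𝓞 L) // placeBelow K L w = v} = Module.finrank K L := by
  rw [Nat.card_congr (placesAboveEquiv K L v), Nat.card_eq_fintype_card,
    ← sum_ramificationIdx_mul_inertiaDeg_eq K L v, Fintype.card_eq_sum_ones]
  refine Finset.sum_congr rfl fun q _ => ?_
  have hq : q.1.IsPrime := q.2.1
  have : Algebra.IsUnramifiedAt (𝓞 K) q.1 := hv q.1 q.2.2
  have he : q.1.ramificationIdx (𝓞 K) = 1 := Ideal.ramificationIdx_eq_one q.1 (𝓞 K)
  have hf : q.1.inertiaDeg (𝓞 K) = 1 := by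
    have := orderOf_frobAt K L v hv ((placesAboveEquiv K L v).symm q).1
      ((placesAboveEquiv K L v).symm q).2
    rw [h, orderOf_one] at this
    exact this.symm
  rw [he, hf]

/-- (B4) -/
theorem artin_single {p : ℕ} (ψ : (L ≃ₐ[K] L) →* Multiplicative (ZMod p))
    (v : HeightOneSpectrum (𝓞 K)) (n : ℤ) :
    artin K L ψ (Finsupp.single v n) = (n : ZMod p) * Multiplicative.toAdd (ψ (frobAt K L v)) := by
  simp [artin]

/-- (B6) `IsUnramifiedEverywhere` gives `IsUnramifiedIn` at every place. -/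
theorem IsUnramifiedEverywhere.isUnramifiedIn (hunr : IsUnramifiedEverywhere K L)
    (v : HeightOneSpectrum (𝓞 K)) : IsUnramifiedIn K L v := by
  intro P _ hP
  apply hunr P
  intro h
  have h1 : v.asIdeal = P.under (𝓞 K) := hP.over
  rw [h, Ideal.under_bot] at h1
  exact v.ne_bot h1

/-- (B5) The Artin symbol kills norms (unramified case). -/
theorem artin_normDiv {p : ℕ} (hunr : IsUnramifiedEverywhere K L)
    (ψ : (L ≃ₐ[K] L) →* Multiplicative (ZMod p)) (D : Div L) :
    artin K L ψ (normDiv K L D) = 0 := by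
  induction D using Finsupp.induction_linear with
  | zero => simp
  | add D₁ D₂ h₁ h₂ => rw [map_add, map_add, h₁, h₂, add_zero]
  | single w n =>
    rw [normDiv_single, artin_single]
    have hord := orderOf_frobAt K L (placeBelow K L w)
      (IsUnramifiedEverywhere.isUnramifiedIn K L hunr _) w rfl
    have h1 : ψ (frobAt K L (placeBelow K L w)) ^ (w.asIdeal.inertiaDeg (𝓞 K)) = 1 := by
      rw [← map_pow, ← hord, pow_orderOf_eq_one, map_one]
    have h2 : ((w.asIdeal.inertiaDeg (𝓞 K) : ℕ) : ZMod p) *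
        Multiplicative.toAdd (ψ (frobAt K L (placeBelow K L w))) = 0 := by
      have := congrArg Multiplicative.toAdd h1
      rw [toAdd_pow, toAdd_one, nsmul_eq_mul] at this
      exact this
    push_cast
    rw [mul_right_comm, h2, zero_mul]

end Galois

/-! ### Extras: conjugation of Frobenius elements in a tower `k ⊆ K ⊆ L` -/

section Tower

open scoped Pointwise

variable {k : Type*} [Field k] {K : Type*} [Field K] [NumberField K] {L : Type*} [Field L]
  [NumberField L] [Algebra K L] [Algebra k K] [Algebra k L] [IsScalarTower k K L] [Normal k K]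

/-- Compatibility of the Galois actions on `𝓞 K` and `𝓞 L` in a tower `k ⊆ K ⊆ L`. -/
theorem artin_smul_algebraMap (τ : L ≃ₐ[k] L) (x : 𝓞 K) :
    τ • (algebraMap (𝓞 K) (𝓞 L) x) = algebraMap (𝓞 K) (𝓞 L) (τ.restrictNormal K • x) := by
  apply Subtype.ext
  show τ (algebraMap K L (x : K)) = algebraMap K L (τ.restrictNormal K (x : K))
  exact (AlgEquiv.restrictNormal_commutes τ K (x : K)).symm

theorem artin_under_smul (τ : L ≃ₐ[k] L) (P : Ideal (𝓞 L)) :
    (τ • P).under (𝓞 K) = τ.restrictNormal K • P.under (𝓞 K) := by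
  ext x
  rw [Ideal.under_def, Ideal.mem_comap, Ideal.mem_pointwise_smul_iff_inv_smul_mem,
    Ideal.mem_pointwise_smul_iff_inv_smul_mem, Ideal.under_def, Ideal.mem_comap]
  have h1 : τ⁻¹ • (algebraMap (𝓞 K) (𝓞 L) x) =
      algebraMap (𝓞 K) (𝓞 L) ((τ.restrictNormal K)⁻¹ • x) := by
    rw [artin_smul_algebraMap]
    show algebraMap (𝓞 K) (𝓞 L) (AlgEquiv.restrictNormalHom K τ⁻¹ • x) =
      algebraMap (𝓞 K) (𝓞 L) ((AlgEquiv.restrictNormalHom K τ)⁻¹ • x)
    rw [map_inv]
  rw [h1]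

theorem artin_card_quot_smul (σ : K ≃ₐ[k] K) (I : Ideal (𝓞 K)) :
    Nat.card (𝓞 K ⧸ σ • I) = Nat.card (𝓞 K ⧸ I) := by
  refine (Nat.card_congr (Ideal.quotientEquiv I (σ • I)
    (MulSemiringAction.toRingEquiv (K ≃ₐ[k] K) (𝓞 K) σ) ?_).toEquiv).symm
  rfl

/-- Conjugating a Frobenius at `P` (relative to `K`) by `τ ∈ Gal(L/k)` gives a Frobenius at
`τ • P`. -/
theorem artin_isArithFrobAt_conj [IsGalois K L] (τ : L ≃ₐ[k] L) {h h' : L ≃ₐ[K] L}
    (hh' : ∀ x : L, h' x = τ (h (τ.symm x))) {P : Ideal (𝓞 L)}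
    (hP : IsArithFrobAt (𝓞 K) h P) : IsArithFrobAt (𝓞 K) h' (τ • P) := by
  intro y
  rw [artin_under_smul, artin_card_quot_smul, Ideal.mem_pointwise_smul_iff_inv_smul_mem,
    smul_sub, smul_pow']
  have h1 : τ⁻¹ • ((MulSemiringAction.toAlgHom (𝓞 K) (𝓞 L) h') y) = h • (τ⁻¹ • y) := by
    apply Subtype.ext
    show τ⁻¹ (h' (y : L)) = h (τ⁻¹ (y : L))
    rw [hh']
    show τ.symm (τ (h (τ.symm (y : L)))) = h (τ.symm (y : L))
    rw [AlgEquiv.symm_apply_apply]
  rw [h1]
  exact hP (τ⁻¹ • y)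

/-- **Conjugation of Frobenius elements** in a tower `k ⊆ K ⊆ L` (`K/k` normal, `L/K` abelian):
if `v' = τ|_K • v` and `h' = τ ∘ Frob_v ∘ τ⁻¹` then `h' = Frob_{v'}`. -/
theorem frobAt_eq_of_conj [IsGalois K L] (hcomm : ∀ a b : L ≃ₐ[K] L, a * b = b * a)
    (v v' : HeightOneSpectrum (𝓞 K)) (hv' : IsUnramifiedIn K L v') (τ : L ≃ₐ[k] L)
    (hvv' : v'.asIdeal = τ.restrictNormal K • v.asIdeal) (h' : L ≃ₐ[K] L)
    (hh' : ∀ x : L, h' x = τ (frobAt K L v (τ.symm x))) : h' = frobAt K L v' := by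
  have hfrob := artin_isArithFrobAt_conj τ hh' (isArithFrobAt_frobAt K L v)
  have hprime : (τ • primeAbove K L v).IsPrime := Ideal.IsPrime.smul τ
  have hlies : (τ • primeAbove K L v).LiesOver v'.asIdeal := by
    constructor
    rw [artin_under_smul, hvv', ← (primeAbove_liesOver K L v).over]
  exact frobAt_eq_of_isArithFrobAt K L hcomm v' hv' (τ • primeAbove K L v) hlies h' hfrob

end Tower

end Fermat.Agent.S14
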