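import Fermat.Agent.S14.Defs

/-!
# S14, package G (two-prime lemma / crossing with `ℚ(ζ_r)`): shared definitions

Setting: `K ⊆ L ⊆ M` number fields, `M/K` Galois (in the application `M = L(ζ_r)`),
`α β : Gal(M/K) → ℤ/p` two characters (`α = ψ ∘ res_L`, `β = ψ_r ∘ cyc_r`).
* `diagField α β` : the fixed field `F` of `{g | α g = β g}`;
* `upChar F α`    : `α` restricted to `Gal(M/F)`;
* `topField F α`  : the fixed field `C` (over `F`) of the kernel of `upChar F α`;
* `topChar F α`   : the induced injective character of `Gal(C/F)`.
-/

namespace Fermat.Agent.S14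

open NumberField IsDedekindDomain

/-- Extension by zero to `ℕ` of a character of `(ℤ/r)ˣ` with values in `ℤ/p` (written
additively). -/
noncomputable def charNat {r p : ℕ} (ψr : (ZMod r)ˣ →* Multiplicative (ZMod p)) (n : ℕ) : ZMod p :=
  open scoped Classical in
  if h : IsUnit (n : ZMod r) then Multiplicative.toAdd (ψr h.unit) else 0

section aux

variable {p : ℕ} {K M : Type} [Field K] [Field M] [Algebra K M]

/-- The diagonal field: fixed field of the subgroup of `Gal(M/K)` on which `α` and `β` agree. -/
noncomputable def diagField (α β : (M ≃ₐ[K] M) →* Multiplicative (ZMod p)) :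
    IntermediateField K M :=
  IntermediateField.fixedField (α / β).ker

/-- A character of `Gal(M/K)` restricted to `Gal(M/F)`. -/
noncomputable def upChar (F : IntermediateField K M)
    (α : (M ≃ₐ[K] M) →* Multiplicative (ZMod p)) : (M ≃ₐ[F] M) →* Multiplicative (ZMod p) :=
  α.comp (AlgEquiv.restrictScalarsHom K)

/-- The fixed field over `F` of the kernel of `upChar F α`. -/
noncomputable def topField (F : IntermediateField K M)
    (α : (M ≃ₐ[K] M) →* Multiplicative (ZMod p)) : IntermediateField F M :=
  IntermediateField.fixedField (upChar F α).ker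

instance isGalois_diagField [FiniteDimensional K M] [IsGalois K M]
    (α β : (M ≃ₐ[K] M) →* Multiplicative (ZMod p)) : IsGalois K (diagField α β) := by
  unfold diagField; infer_instance

instance isGalois_topField [FiniteDimensional K M] [IsGalois K M] (F : IntermediateField K M)
    (α : (M ≃ₐ[K] M) →* Multiplicative (ZMod p)) : IsGalois F (topField F α) := by
  unfold topField; infer_instance

/-- The (injective) character of `Gal(topField F α / F)` induced by `α`. -/
noncomputable def topChar [FiniteDimensional K M] [IsGalois K M] (F : IntermediateField K M)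
    (α : (M ≃ₐ[K] M) →* Multiplicative (ZMod p)) :
    (topField F α ≃ₐ[F] topField F α) →* Multiplicative (ZMod p) :=
  (QuotientGroup.kerLift (upChar F α)).comp
    (IsGalois.normalAutEquivQuotient (upChar F α).ker).symm.toMonoidHom

variable {L : Type} [Field L] [Algebra K L] [Algebra L M] [IsScalarTower K L M]

/-- `α = ψ ∘ res_L`. -/
noncomputable def alphaChar [Normal K L] (ψ : (L ≃ₐ[K] L) →* Multiplicative (ZMod p)) :
    (M ≃ₐ[K] M) →* Multiplicative (ZMod p) :=
  ψ.comp (AlgEquiv.restrictNormalHom L)

/-- `β = ψ_r ∘ cyc_r`. -/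
noncomputable def betaChar (K : Type) [Field K] [Algebra K M] {r : ℕ} [NeZero r] {ζr : M}
    (hζr : IsPrimitiveRoot ζr r)
    (ψr : (ZMod r)ˣ →* Multiplicative (ZMod p)) : (M ≃ₐ[K] M) →* Multiplicative (ZMod p) :=
  ψr.comp (hζr.autToPow K)

end aux

end Fermat.Agent.S14
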