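import Fermat.Agent.S14.AuxPrimeCore
import Fermat.Agent.S14.Density

/-!
# S14 package G1: choice of the auxiliary prime `r`

One-line wrapper: `exists_aux_prime` (exact `AuxSpec` statement) from `exists_aux_prime_core` and
(E1) `exists_good_frobAt_ne_one`. At integration replace the import of `CoreSpec` by the file
proving `exists_good_frobAt_ne_one` (`Density.lean`): DONE, this file imports `Density.lean`.
-/

namespace Fermat.Agent.S14

open NumberField IsDedekindDomain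

/-- (G1) CHOICE OF THE AUXILIARY PRIME `r`. -/
theorem exists_aux_prime {p : ℕ} [Fact p.Prime] (hp2 : p ≠ 2) {q q₀ : ℕ} (hq : q.Prime)
    (hq₀ : q₀.Prime) (hne : q ≠ q₀) (hqp : q ≠ p) (hq₀p : q₀ ≠ p) (d : ℤ) (c₀ : ZMod p)
    (hc₀ : c₀ ≠ 0) (B : Finset ℕ) :
    ∃ (r : ℕ) (_ : Fact r.Prime) (χ : (ZMod r)ˣ →* Multiplicative (ZMod p)),
      r ∉ B ∧ r ≠ q ∧ r ≠ q₀ ∧ r ≠ p ∧ Function.Surjective χ ∧
      (∀ u : (ZMod r)ˣ, (u : ZMod r) = (q₀ : ZMod r) → Multiplicative.toAdd (χ u) = c₀) ∧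
      (∀ u : (ZMod r)ˣ, (u : ZMod r) = (q : ZMod r) →
        Multiplicative.toAdd (χ u) = (d : ZMod p) * c₀) :=
  exists_aux_prime_core (fun h B => exists_good_frobAt_ne_one h B) hq hq₀ hne d c₀ hc₀ B

end Fermat.Agent.S14
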