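import Fermat.Agent.S14.Defs

/-!
# S14 package G1: choice of the auxiliary prime `r` (core, E1 as a hypothesis)
-/

namespace Fermat.Agent.S14

open NumberField IsDedekindDomain Polynomial

/-! ## Part A: characters of `(ℤ/r)ˣ` with values in `ℤ/p` -/

/-- If `p ∣ r - 1` and `u₀` is not a `p`-th power in `(ℤ/r)ˣ`, there is a surjective character
`χ : (ℤ/r)ˣ → ℤ/p` with `χ u₀ = c₀` for any prescribed `c₀ ≠ 0`. -/
theorem auxPrime_exists_char {p r : ℕ} [Fact p.Prime] [Fact r.Prime] (hpr : p ∣ r - 1)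
    (u₀ : (ZMod r)ˣ) (hu₀ : ¬ ∃ y : (ZMod r)ˣ, u₀ = y ^ p) (c₀ : ZMod p) (hc₀ : c₀ ≠ 0) :
    ∃ χ : (ZMod r)ˣ →* Multiplicative (ZMod p), Function.Surjective χ ∧
      Multiplicative.toAdd (χ u₀) = c₀ := by
  obtain ⟨g, hg⟩ := IsCyclic.exists_generator (α := (ZMod r)ˣ)
  have hord : orderOf g = r - 1 := by
    rw [orderOf_eq_card_of_forall_mem_zpowers hg, Nat.card_eq_fintype_card, ZMod.card_units]
  have hg' : orderOf (Multiplicative.ofAdd (1 : ZMod p)) ∣ orderOf g := by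
    rw [hord, orderOf_ofAdd_eq_addOrderOf, ZMod.addOrderOf_one]
    exact hpr
  set χ₀ : (ZMod r)ˣ →* Multiplicative (ZMod p) := monoidHomOfForallMemZpowers hg hg' with hχ₀
  have hχ₀g : χ₀ g = Multiplicative.ofAdd (1 : ZMod p) := monoidHomOfForallMemZpowers_apply_gen hg hg'
  have hχ₀pow : ∀ k : ℕ, Multiplicative.toAdd (χ₀ (g ^ k)) = (k : ZMod p) := by
    intro k
    rw [map_pow, hχ₀g, ← ofAdd_nsmul, toAdd_ofAdd, nsmul_eq_mul, mul_one]
  obtain ⟨k, hk⟩ : ∃ k : ℕ, g ^ k = u₀ := by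
    obtain ⟨k, hk⟩ := (mem_powers_iff_mem_zpowers.mpr (hg u₀))
    exact ⟨k, hk⟩
  set t : ZMod p := Multiplicative.toAdd (χ₀ u₀) with ht
  have ht0 : t ≠ 0 := by
    intro h0
    rw [ht, ← hk, hχ₀pow, ZMod.natCast_eq_zero_iff] at h0
    obtain ⟨m, rfl⟩ := h0
    exact hu₀ ⟨g ^ m, by rw [← hk, ← pow_mul, mul_comm]⟩
  set c : ZMod p := c₀ * t⁻¹ with hc
  have hc0 : c ≠ 0 := mul_ne_zero hc₀ (inv_ne_zero ht0)
  refine ⟨(AddMonoidHom.toMultiplicative (AddMonoidHom.mulLeft c)).comp χ₀, ?_, ?_⟩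
  · intro z
    refine ⟨g ^ (Multiplicative.toAdd z * c⁻¹).val, ?_⟩
    apply Multiplicative.toAdd.injective
    simp only [MonoidHom.comp_apply, AddMonoidHom.toMultiplicative_apply_apply, toAdd_ofAdd,
      AddMonoidHom.coe_mulLeft, hχ₀pow, ZMod.natCast_val, ZMod.cast_id', id_eq]
    field_simp
  · simp only [MonoidHom.comp_apply, AddMonoidHom.toMultiplicative_apply_apply, toAdd_ofAdd,
      AddMonoidHom.coe_mulLeft]
    rw [← ht, hc, mul_assoc, inv_mul_cancel₀ ht0, mul_one]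

/-- Arithmetic form: if `q * q₀ ^ (p - d')` is a `p`-th power mod `r` and `q₀` is not, there is a
surjective character with `χ q₀ = c₀` and `χ q = d c₀`. -/
theorem auxPrime_exists_char' {p r q q₀ : ℕ} [Fact p.Prime] [Fact r.Prime] (hpr : p ∣ r - 1)
    (hq : q.Prime) (hq₀ : q₀.Prime) (hrq : r ≠ q) (hrq₀ : r ≠ q₀) (d : ℤ) (c₀ : ZMod p)
    (hc₀ : c₀ ≠ 0)
    (ha : ∃ y : ZMod r, ((q * q₀ ^ (p - (d : ZMod p).val) : ℕ) : ZMod r) = y ^ p)
    (hb : ¬ ∃ y : ZMod r, (q₀ : ZMod r) = y ^ p) :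
    ∃ χ : (ZMod r)ˣ →* Multiplicative (ZMod p), Function.Surjective χ ∧
      (∀ u : (ZMod r)ˣ, (u : ZMod r) = (q₀ : ZMod r) → Multiplicative.toAdd (χ u) = c₀) ∧
      (∀ u : (ZMod r)ˣ, (u : ZMod r) = (q : ZMod r) →
        Multiplicative.toAdd (χ u) = (d : ZMod p) * c₀) := by
  have hr : r.Prime := Fact.out
  have hp : p.Prime := Fact.out
  have hq0 : (q : ZMod r) ≠ 0 := by
    rw [Ne, ZMod.natCast_eq_zero_iff]
    exact fun h => hrq ((Nat.prime_dvd_prime_iff_eq hr hq).mp h)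
  have hq₀0 : (q₀ : ZMod r) ≠ 0 := by
    rw [Ne, ZMod.natCast_eq_zero_iff]
    exact fun h => hrq₀ ((Nat.prime_dvd_prime_iff_eq hr hq₀).mp h)
  set u₀ : (ZMod r)ˣ := Units.mk0 (q₀ : ZMod r) hq₀0 with hu₀
  have hu₀' : ¬ ∃ y : (ZMod r)ˣ, u₀ = y ^ p := by
    rintro ⟨y, hy⟩
    refine hb ⟨(y : ZMod r), ?_⟩
    have := congrArg (fun u : (ZMod r)ˣ => (u : ZMod r)) hy
    simpa [hu₀] using this
  obtain ⟨χ, hχs, hχ₀⟩ := auxPrime_exists_char hpr u₀ hu₀' c₀ hc₀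
  refine ⟨χ, hχs, ?_, ?_⟩
  · intro u hu
    have : u = u₀ := Units.ext (by rw [hu, hu₀, Units.val_mk0])
    rw [this, hχ₀]
  · intro u hu
    obtain ⟨y, hy⟩ := ha
    set k : ℕ := p - (d : ZMod p).val with hk
    have hy0 : y ≠ 0 := by
      rintro rfl
      rw [zero_pow hp.ne_zero, Nat.cast_mul, Nat.cast_pow] at hy
      exact (mul_ne_zero hq0 (pow_ne_zero _ hq₀0)) hy
    have h1 : u * u₀ ^ k = (Units.mk0 y hy0) ^ p := by
      apply Units.ext
      rw [Units.val_mul, Units.val_pow_eq_pow_val, Units.val_pow_eq_pow_val, hu, hu₀,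
        Units.val_mk0, Units.val_mk0, ← hy, Nat.cast_mul, Nat.cast_pow]
    have h2 := congrArg (fun z => Multiplicative.toAdd (χ z)) h1
    simp only [map_mul, map_pow, toAdd_mul, toAdd_pow, hχ₀] at h2
    have h3 : (p : ZMod p) = 0 := ZMod.natCast_self p
    have h4 : ((k : ℕ) : ZMod p) = - (d : ZMod p) := by
      have hle : (d : ZMod p).val ≤ p := (ZMod.val_lt _).le
      rw [hk, Nat.cast_sub hle, h3, zero_sub, ZMod.natCast_val, ZMod.cast_id', id_eq]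
    rw [nsmul_eq_mul, nsmul_eq_mul, h3, zero_mul, h4] at h2
    linear_combination h2

/-! ## Part B2: local analysis at a degree-one place with nontrivial Frobenius -/

/-- Two coprime natural numbers cannot both lie in a proper ideal. -/
theorem auxPrime_not_mem_of_coprime {R : Type*} [CommRing R] (P : Ideal R) (hP : P ≠ ⊤)
    {m n : ℕ} (h : Nat.Coprime m n) (hm : (m : R) ∈ P) : (n : R) ∉ P := by
  intro hn
  apply hP
  rw [Ideal.eq_top_iff_one]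
  obtain ⟨x, y, hxy⟩ := Nat.isCoprime_iff_coprime.mpr h
  have h1 : ((x * m + y * n : ℤ) : R) = 1 := by rw [hxy, Int.cast_one]
  rw [← h1]
  push_cast
  exact P.add_mem (P.mul_mem_left _ hm) (P.mul_mem_left _ hn)

/-- Congruent natural numbers mod `r` have difference in any ideal containing `r`. -/
theorem auxPrime_sub_mem_of_zmod_eq {R : Type*} [CommRing R] (P : Ideal R) {r : ℕ}
    (hr : (r : R) ∈ P) {m n : ℕ} (h : (m : ZMod r) = (n : ZMod r)) : (m : R) - (n : R) ∈ P := by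
  have h1 : ((m : ℤ) : ZMod r) = ((n : ℤ) : ZMod r) := by simpa using h
  rw [ZMod.intCast_eq_intCast_iff_dvd_sub] at h1
  obtain ⟨c, hc⟩ := h1
  have h2 : (m : R) - (n : R) = -((r : R) * (c : R)) := by
    have := congrArg (fun z : ℤ => (z : R)) hc
    push_cast at this
    linear_combination -this
  rw [h2]
  exact P.neg_mem (P.mul_mem_right _ hr)

/-- A nontrivial `p`-th root of unity is not congruent to `1` modulo a proper ideal containing a
prime `r ≠ p`. -/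
theorem auxPrime_root_sub_one_not_mem {R : Type*} [CommRing R] [IsDomain R] (P : Ideal R)
    (hP : P ≠ ⊤) {p r : ℕ} (hp : p.Prime) (hr : r.Prime) (hrp : r ≠ p) (hrP : (r : R) ∈ P)
    {ξ : R} (hξ : ξ ^ p = 1) (hξ1 : ξ ≠ 1) : ξ - 1 ∉ P := by
  intro hmem
  have hsum : ∑ i ∈ Finset.range p, ξ ^ i = 0 := by
    have h1 : (∑ i ∈ Finset.range p, ξ ^ i) * (ξ - 1) = 0 := by rw [geom_sum_mul, hξ, sub_self]
    exact (mul_eq_zero.mp h1).resolve_right (sub_ne_zero.mpr hξ1)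
  have hpow : ∀ i : ℕ, ξ ^ i - 1 ∈ P := by
    intro i
    obtain ⟨c, hc⟩ := sub_dvd_pow_sub_pow ξ 1 i
    rw [one_pow] at hc
    rw [hc]
    exact P.mul_mem_right _ hmem
  have hp_mem : (p : R) ∈ P := by
    have h2 : (p : R) = -(∑ i ∈ Finset.range p, (ξ ^ i - 1)) := by
      rw [Finset.sum_sub_distrib, hsum]
      simp
    rw [h2]
    exact P.neg_mem (P.sum_mem fun i _ => hpow i)
  exact auxPrime_not_mem_of_coprime P hP ((Nat.coprime_primes hr hp).mpr hrp) hrP hp_mem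

/-- Local analysis: at a place `v` of `K ∋ ζ_p, a^(1/p)` of prime norm `r ∤ p b` whose Frobenius in
`L = K(b^(1/p))` is nontrivial: `p ∣ r - 1`, `a` is a `p`-th power mod `r`, `b` is not. -/
theorem auxPrime_local {K L : Type} [Field K] [NumberField K] [Field L] [NumberField L]
    [Algebra K L] [IsGalois K L] {p : ℕ} [Fact p.Prime] {ζ : K} (hζ : IsPrimitiveRoot ζ p)
    {a b : ℕ} {α : K} (hα : α ^ p = a) {β : L} (hβ : β ^ p = b)
    (hgen : ∀ σ : L ≃ₐ[K] L, σ β = β → σ = 1)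
    (v : HeightOneSpectrum (𝓞 K)) {r : ℕ} [Fact r.Prime] (hr : Ideal.absNorm v.asIdeal = r)
    (hrp : r ≠ p) (hrb : ¬ r ∣ b) (hfrob : frobAt K L v ≠ 1) :
    p ∣ r - 1 ∧ (∃ y : ZMod r, (a : ZMod r) = y ^ p) ∧
      ¬ ∃ y : ZMod r, (b : ZMod r) = y ^ p := by
  classical
  have hp : p.Prime := Fact.out
  have hrP : r.Prime := Fact.out
  -- integrality
  have hζi : IsIntegral ℤ ζ := hζ.isIntegral hp.pos
  have hαi : IsIntegral ℤ α := IsIntegral.of_pow hp.pos (by rw [hα]; exact isIntegral_natCast a)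
  have hβi : IsIntegral ℤ β := IsIntegral.of_pow hp.pos (by rw [hβ]; exact isIntegral_natCast b)
  set ζ' : 𝓞 K := ⟨ζ, hζi⟩ with hζ'
  set α' : 𝓞 K := ⟨α, hαi⟩ with hα'
  set β' : 𝓞 L := ⟨β, hβi⟩ with hβ'
  have hζ'p : IsPrimitiveRoot ζ' p :=
    IsPrimitiveRoot.of_map_of_injective (f := algebraMap (𝓞 K) K) hζ
      (FaithfulSMul.algebraMap_injective (𝓞 K) K)
  have hα'p : α' ^ p = (a : 𝓞 K) := RingOfIntegers.ext (by simpa [hα'] using hα)
  have hβ'p : β' ^ p = (b : 𝓞 L) := RingOfIntegers.ext (by simpa [hβ'] using hβ)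
  -- the residue field at `v`
  have hvtop : v.asIdeal ≠ ⊤ := v.isPrime.ne_top
  have hrv : (r : 𝓞 K) ∈ v.asIdeal := hr ▸ Ideal.absNorm_mem v.asIdeal
  have hfin : Finite (𝓞 K ⧸ v.asIdeal) := Ideal.finiteQuotientOfFreeOfNeBot _ v.ne_bot
  letI : Fintype (𝓞 K ⧸ v.asIdeal) := Fintype.ofFinite _
  have hcard : Fintype.card (𝓞 K ⧸ v.asIdeal) = r := by
    rw [← Nat.card_eq_fintype_card, ← hr, Ideal.absNorm_apply, Submodule.cardQuot_apply]
  set e : ZMod r ≃+* (𝓞 K ⧸ v.asIdeal) := ZMod.ringEquivOfPrime _ hrP hcard with he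
  -- `p ∣ r - 1`
  have hdvd : p ∣ r - 1 := by
    set z : ZMod r := e.symm (Ideal.Quotient.mk v.asIdeal ζ') with hz
    have hzp : z ^ p = 1 := by
      rw [hz, ← map_pow, ← map_pow, hζ'p.pow_eq_one, map_one, map_one]
    have hz1 : z ≠ 1 := by
      intro h
      have h1 : Ideal.Quotient.mk v.asIdeal ζ' = 1 := by
        have := congrArg e h
        rwa [hz, RingEquiv.apply_symm_apply, map_one] at this
      rw [← map_one (Ideal.Quotient.mk v.asIdeal), Ideal.Quotient.eq] at h1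
      exact auxPrime_root_sub_one_not_mem v.asIdeal hvtop hp hrP hrp hrv hζ'p.pow_eq_one
        (hζ'p.ne_one hp.one_lt) h1
    have hz0 : z ≠ 0 := by
      rintro h
      rw [h, zero_pow hp.ne_zero] at hzp
      exact zero_ne_one hzp
    have hord : orderOf z = p := orderOf_eq_prime hzp hz1
    rw [← hord]
    exact orderOf_dvd_of_pow_eq_one (ZMod.pow_card_sub_one_eq_one hz0)
  refine ⟨hdvd, ⟨e.symm (Ideal.Quotient.mk v.asIdeal α'), ?_⟩, ?_⟩
  · rw [← map_pow, ← map_pow, hα'p, map_natCast, map_natCast]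
  -- `b` is not a `p`-th power mod `r`
  rintro ⟨y, hy⟩
  apply hfrob
  apply hgen
  set P : Ideal (𝓞 L) := primeAbove K L v with hP
  have hPtop : P ≠ ⊤ := (primeAbove_isPrime K L v).ne_top
  have hPv : v.asIdeal = P.under (𝓞 K) := (primeAbove_liesOver K L v).over
  have hrPL : (r : 𝓞 L) ∈ P := by
    have h1 : (r : 𝓞 K) ∈ P.under (𝓞 K) := hPv ▸ hrv
    rw [Ideal.mem_comap, map_natCast] at h1
    exact h1
  have hσ : IsArithFrobAt (𝓞 K) (frobAt K L v) P :=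
    IsArithFrobAt.arithFrobAt (𝓞 K) (L ≃ₐ[K] L) (primeAbove K L v)
  set σ : L ≃ₐ[K] L := frobAt K L v with hσdef
  have hσβ : σ • β' - β' ^ r ∈ P := by
    have h1 := hσ β'
    rw [← hPv] at h1
    have h2 : Nat.card (𝓞 K ⧸ v.asIdeal) = r := by
      rw [← hr, Ideal.absNorm_apply, Submodule.cardQuot_apply]
    rw [h2] at h1
    exact h1
  -- a root of unity `η` with `β' ≡ η Y mod P`
  set Y : ℕ := y.val with hY
  have hYy : ((Y : ℕ) : ZMod r) = y := ZMod.natCast_zmod_val y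
  set ζL : 𝓞 L := algebraMap (𝓞 K) (𝓞 L) ζ' with hζL
  have hζLp : IsPrimitiveRoot ζL p :=
    hζ'p.map_of_injective (FaithfulSMul.algebraMap_injective (𝓞 K) (𝓞 L))
  have hbY : β' ^ p - (Y : 𝓞 L) ^ p ∈ P := by
    rw [hβ'p]
    have h1 : ((b : ℕ) : ZMod r) = ((Y ^ p : ℕ) : ZMod r) := by
      rw [Nat.cast_pow, hYy, hy]
    have h2 := auxPrime_sub_mem_of_zmod_eq P hrPL h1
    rwa [Nat.cast_pow] at h2
  rw [hζLp.pow_sub_pow_eq_prod_sub_mul _ _ hp.pos,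
    (primeAbove_isPrime K L v).prod_mem_iff] at hbY
  obtain ⟨η, hη, hηmem⟩ := hbY
  have hηp : η ^ p = 1 := ((mem_nthRootsFinset hp.pos 1).mp hη)
  have hr1 : r = (r - 1) + 1 := (Nat.sub_add_cancel hrP.one_le).symm
  have hηr : η ^ r = η := by
    obtain ⟨c, hc⟩ := hdvd
    rw [hr1, pow_succ, hc, pow_mul, hηp, one_pow, one_mul]
  have hYr : (Y : 𝓞 L) ^ r - (Y : 𝓞 L) ∈ P := by
    have h1 : ((Y ^ r : ℕ) : ZMod r) = ((Y : ℕ) : ZMod r) := by
      rw [Nat.cast_pow, ZMod.pow_card]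
    have h2 := auxPrime_sub_mem_of_zmod_eq P hrPL h1
    rwa [Nat.cast_pow] at h2
  have hβr : β' ^ r - β' ∈ P := by
    obtain ⟨c, hc⟩ := sub_dvd_pow_sub_pow β' (η * (Y : 𝓞 L)) r
    have h1 : β' ^ r - β' = (β' - η * (Y : 𝓞 L)) * c + η * ((Y : 𝓞 L) ^ r - (Y : 𝓞 L)) -
        (β' - η * (Y : 𝓞 L)) := by
      rw [← hc, mul_pow, hηr]
      ring
    rw [h1]
    exact P.sub_mem (P.add_mem (P.mul_mem_right _ hηmem) (P.mul_mem_left _ hYr)) hηmem
  have hσβ' : σ • β' - β' ∈ P := by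
    have h1 : σ • β' - β' = (σ • β' - β' ^ r) + (β' ^ r - β') := by ring
    rw [h1]
    exact P.add_mem hσβ hβr
  -- `σ β = ζ ^ j β`
  have hb0 : b ≠ 0 := fun h => hrb (h ▸ dvd_zero r)
  have hβ0 : β ≠ 0 := by
    rintro rfl
    rw [zero_pow hp.ne_zero] at hβ
    exact hb0 (by exact_mod_cast hβ.symm)
  have hζLK : IsPrimitiveRoot (algebraMap K L ζ) p := hζ.map_of_injective (algebraMap K L).injective
  have hquot : (σ β / β) ^ p = 1 := by
    rw [div_pow, ← map_pow, hβ, map_natCast, div_self]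
    exact_mod_cast hb0
  haveI : NeZero p := ⟨hp.ne_zero⟩
  obtain ⟨j, -, hj⟩ := hζLK.eq_pow_of_pow_eq_one hquot
  have hσβj : σ • β' = ζL ^ j * β' := by
    apply RingOfIntegers.ext
    have h1 : σ β = (algebraMap K L ζ) ^ j * β := by
      rw [hj, div_mul_cancel₀ _ hβ0]
    have h2 : ((σ • β' : 𝓞 L) : L) = σ β := rfl
    have h3 : ((ζL ^ j * β' : 𝓞 L) : L) = (algebraMap K L ζ) ^ j * β := by
      rw [RingOfIntegers.coe_eq_algebraMap, map_mul, map_pow]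
      rfl
    rw [h2, h3, h1]
  have hβP : β' ∉ P := by
    intro h
    have h1 : (b : 𝓞 L) ∈ P := by
      rw [← hβ'p]
      exact P.pow_mem_of_mem h p hp.pos
    exact auxPrime_not_mem_of_coprime P hPtop
      ((Nat.Prime.coprime_iff_not_dvd hrP).mpr hrb) hrPL h1
  have hζj : ζL ^ j - 1 ∈ P := by
    have h1 : (ζL ^ j - 1) * β' ∈ P := by
      have h2 : (ζL ^ j - 1) * β' = σ • β' - β' := by rw [hσβj]; ring
      rw [h2]
      exact hσβ'
    exact ((primeAbove_isPrime K L v).mem_or_mem h1).resolve_right hβP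
  have hζj1 : ζL ^ j = 1 := by
    by_contra hne
    exact auxPrime_root_sub_one_not_mem P hPtop hp hrP hrp hrPL
      (by rw [← pow_mul, mul_comm, pow_mul, hζLp.pow_eq_one, one_pow]) hne hζj
  have h3 : σ • β' = β' := by rw [hσβj, hζj1, one_mul]
  have h4 := congrArg (fun x : 𝓞 L => (x : L)) h3
  exact h4

/-! ## Part B1: the Kummer tower `ℚ(ζ_p) ⊆ ℚ(ζ_p, a^(1/p)) ⊆ ℚ(ζ_p, a^(1/p), b^(1/p))` -/

/-- A rational number which is a `p`-th power in `ℚ(ζ_p)` has all its valuations divisible by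
`p` (take norms: the degree `p - 1` is prime to `p`). -/
theorem auxPrime_padicValRat_of_pow {p : ℕ} [Fact p.Prime] {K₀ : Type*} [Field K₀]
    [NumberField K₀] [IsCyclotomicExtension {p} ℚ K₀] {x : ℚ} {γ : K₀}
    (hγ : γ ^ p = algebraMap ℚ K₀ x) (ℓ : ℕ) [Fact ℓ.Prime] : (p : ℤ) ∣ padicValRat ℓ x := by
  have hp : p.Prime := Fact.out
  have hfin : Module.finrank ℚ K₀ = p - 1 := by
    rw [IsCyclotomicExtension.finrank (n := p) K₀ (Polynomial.cyclotomic.irreducible_rat hp.pos),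
      Nat.totient_prime hp]
  have hnorm : (Algebra.norm ℚ γ) ^ p = x ^ (p - 1) := by
    rw [← map_pow, hγ, Algebra.norm_algebraMap, hfin]
  have h1 := congrArg (padicValRat ℓ) hnorm
  rw [padicValRat.pow, padicValRat.pow] at h1
  have hcop : IsCoprime (p : ℤ) ((p - 1 : ℕ) : ℤ) := by
    rw [Nat.isCoprime_iff_coprime]
    exact (Nat.Prime.coprime_iff_not_dvd hp).mpr
      (Nat.not_dvd_of_pos_of_lt (Nat.sub_pos_of_lt hp.one_lt) (Nat.sub_lt hp.pos one_pos))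
  exact hcop.dvd_of_dvd_mul_left ⟨_, h1.symm⟩

/-- Kummer theory: if `b^(1/p)` lies in the Kummer extension `F(a^(1/p))` (with `ζ_p ∈ F`), then
`b ∈ ⟨a⟩ · Fˣᵖ`. -/
theorem auxPrime_kummer {F E : Type*} [Field F] [Field E] [Algebra F E] {p : ℕ} (hp : p.Prime)
    {ζ : F} (hζ : IsPrimitiveRoot ζ p) {a : F} (ha0 : a ≠ 0) (H : Irreducible (X ^ p - C a))
    [IsSplittingField F E (X ^ p - C a)] {α : E} (hα : α ^ p = algebraMap F E a) {b : F}
    (hb : b ≠ 0) {β₀ : E} (hβ₀ : β₀ ^ p = algebraMap F E b) :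
    ∃ (i : ℕ) (γ : F), b = γ ^ p * a ^ i := by
  haveI : NeZero p := ⟨hp.ne_zero⟩
  have hprim : (primitiveRoots p F).Nonempty := ⟨ζ, (mem_primitiveRoots hp.pos).mpr hζ⟩
  haveI : FiniteDimensional F E := IsSplittingField.finiteDimensional E (X ^ p - C a)
  haveI : IsGalois F E := isGalois_of_isSplittingField_X_pow_sub_C hprim H E
  have hinj : Function.Injective (algebraMap F E) := (algebraMap F E).injective
  have hα0 : α ≠ 0 := by
    rintro rfl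
    rw [zero_pow hp.ne_zero] at hα
    exact ha0 (hinj (by rw [← hα, map_zero]))
  have hβ0 : β₀ ≠ 0 := by
    rintro rfl
    rw [zero_pow hp.ne_zero] at hβ₀
    exact hb (hinj (by rw [← hβ₀, map_zero]))
  set ζE : E := algebraMap F E ζ with hζE
  have hζEp : IsPrimitiveRoot ζE p := hζ.map_of_injective hinj
  -- the generator of the Galois group
  set σ : E ≃ₐ[F] E := (autEquivZmod H E hζ).symm (Multiplicative.ofAdd ((1 : ℕ) : ZMod p)) with hσ
  have hσα : σ α = ζE * α := by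
    have := autEquivZmod_symm_apply_natCast H E hα hζ 1
    rw [pow_one, Algebra.smul_def] at this
    exact this
  have hgen : ∀ τ : E ≃ₐ[F] E, ∃ m : ℕ, τ = σ ^ m := by
    intro τ
    refine ⟨(Multiplicative.toAdd (autEquivZmod H E hζ τ)).val, ?_⟩
    rw [hσ, ← map_pow, ← ofAdd_nsmul, nsmul_eq_mul, Nat.cast_one, mul_one, ZMod.natCast_val,
      ZMod.cast_id', id_eq, ofAdd_toAdd, MulEquiv.symm_apply_apply]
  -- `σ β₀ = ζ ^ i β₀`
  have hquot : (σ β₀ / β₀) ^ p = 1 := by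
    rw [div_pow, ← map_pow, hβ₀, AlgEquiv.commutes, div_self]
    rw [← hβ₀]
    exact pow_ne_zero _ hβ0
  obtain ⟨i, -, hi⟩ := hζEp.eq_pow_of_pow_eq_one hquot
  have hσβ : σ β₀ = ζE ^ i * β₀ := by rw [hi, div_mul_cancel₀ _ hβ0]
  set δ : E := β₀ / α ^ i with hδ
  have hσδ : σ δ = δ := by
    rw [hδ, map_div₀, map_pow, hσβ, hσα, mul_pow]
    have hζ0 : ζE ^ i ≠ 0 := pow_ne_zero _ (hζEp.ne_zero hp.ne_zero)
    field_simp
  have hfix : ∀ τ : E ≃ₐ[F] E, τ δ = δ := by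
    intro τ
    obtain ⟨m, rfl⟩ := hgen τ
    induction m with
    | zero => simp
    | succ m ih => rw [pow_succ, AlgEquiv.mul_apply, hσδ, ih]
  have hbot : δ ∈ (⊥ : IntermediateField F E) := (IsGalois.mem_bot_iff_fixed δ).mpr hfix
  obtain ⟨γ, hγ⟩ := IntermediateField.mem_bot.mp hbot
  refine ⟨i, γ, hinj ?_⟩
  rw [map_mul, map_pow, map_pow, hγ, ← hα, ← hβ₀, hδ, div_pow, ← pow_mul, ← pow_mul, mul_comm i p]
  field_simp

/-- `ℚ(ζ_p)`. -/
abbrev AuxK0 (p : ℕ) : Type := CyclotomicField p ℚ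

/-- `ℚ(ζ_p, a^(1/p))`. -/
abbrev AuxK1 (p a : ℕ) : Type :=
  (X ^ p - C ((a : ℕ) : AuxK0 p) : (AuxK0 p)[X]).SplittingField

/-- `ℚ(ζ_p, a^(1/p), b^(1/p))`. -/
abbrev AuxK2 (p a b : ℕ) : Type :=
  (X ^ p - C ((b : ℕ) : AuxK1 p a) : (AuxK1 p a)[X]).SplittingField

instance auxK0_isCyclotomicExtension (p : ℕ) [Fact p.Prime] :
    IsCyclotomicExtension {p} ℚ (AuxK0 p) := by
  have hp : p.Prime := Fact.out
  haveI : NeZero ((p : ℕ) : ℚ) := ⟨by exact_mod_cast hp.ne_zero⟩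
  exact CyclotomicField.isCyclotomicExtension p ℚ

instance auxK1_numberField (p a : ℕ) : NumberField (AuxK1 p a) :=
  NumberField.of_module_finite (AuxK0 p) (AuxK1 p a)

instance auxK2_numberField (p a b : ℕ) : NumberField (AuxK2 p a b) :=
  NumberField.of_module_finite (AuxK1 p a) (AuxK2 p a b)

/-- The statement (E1) of `CoreSpec.lean`, as a hypothesis. -/
def AuxE1 : Prop :=
  ∀ {K L : Type} [Field K] [NumberField K] [Field L] [NumberField L] [Algebra K L] [IsGalois K L],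
    1 < Module.finrank K L → ∀ B : Finset ℕ, ∃ v : HeightOneSpectrum (𝓞 K), IsGoodPlace K B v ∧
      IsUnramifiedIn K L v ∧ frobAt K L v ≠ 1

/-- Existence of the auxiliary prime, arithmetic form. -/
theorem auxPrime_exists_prime (hE1 : AuxE1) {p : ℕ} [Fact p.Prime] {q q₀ : ℕ} (hq : q.Prime)
    (hq₀ : q₀.Prime) (hne : q ≠ q₀) (k : ℕ) (B : Finset ℕ) :
    ∃ r : ℕ, r.Prime ∧ r ∉ B ∧ r ≠ q ∧ r ≠ q₀ ∧ r ≠ p ∧ p ∣ r - 1 ∧
      (∃ y : ZMod r, ((q * q₀ ^ k : ℕ) : ZMod r) = y ^ p) ∧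
      ¬ ∃ y : ZMod r, (q₀ : ZMod r) = y ^ p := by
  have hp : p.Prime := Fact.out
  haveI : NeZero p := ⟨hp.ne_zero⟩
  haveI : NeZero ((p : ℕ) : ℚ) := ⟨by exact_mod_cast hp.ne_zero⟩
  haveI : Fact q.Prime := ⟨hq⟩
  haveI : Fact q₀.Prime := ⟨hq₀⟩
  set a : ℕ := q * q₀ ^ k with ha
  have ha0 : a ≠ 0 := mul_ne_zero hq.ne_zero (pow_ne_zero _ hq₀.ne_zero)
  -- the base field
  set ζ₀ : AuxK0 p := IsCyclotomicExtension.zeta p ℚ (AuxK0 p) with hζ₀def
  have hζ₀ : IsPrimitiveRoot ζ₀ p := IsCyclotomicExtension.zeta_spec p ℚ (AuxK0 p)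
  have hprim₀ : (primitiveRoots p (AuxK0 p)).Nonempty := ⟨ζ₀, (mem_primitiveRoots hp.pos).mpr hζ₀⟩
  -- valuations of `a`
  have hvq : padicValRat q (a : ℚ) = 1 := by
    rw [padicValRat.of_nat, ha, padicValNat.mul hq.ne_zero (pow_ne_zero _ hq₀.ne_zero),
      padicValNat.pow, padicValNat_self, padicValNat_primes hne]
    simp
  have hvq₀ : padicValRat q₀ (a : ℚ) = k := by
    rw [padicValRat.of_nat, ha, padicValNat.mul hq.ne_zero (pow_ne_zero _ hq₀.ne_zero),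
      padicValNat.pow, padicValNat_self, padicValNat_primes hne.symm]
    simp
  have hp1 : ¬ (p : ℤ) ∣ 1 := by
    intro h
    have := Int.eq_one_of_dvd_one (by positivity) h
    exact hp.one_lt.ne' (by exact_mod_cast this)
  -- `X ^ p - a` is irreducible over `ℚ(ζ_p)`
  have H : Irreducible (X ^ p - C ((a : ℕ) : AuxK0 p)) := by
    refine X_pow_sub_C_irreducible_of_prime hp fun γ hγ => hp1 ?_
    have h1 := auxPrime_padicValRat_of_pow (p := p) (x := (a : ℚ)) (γ := γ)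
      (by rw [hγ, map_natCast]) q
    rwa [hvq] at h1
  -- the first Kummer layer
  set ζ₁ : AuxK1 p a := algebraMap (AuxK0 p) (AuxK1 p a) ζ₀ with hζ₁def
  have hζ₁ : IsPrimitiveRoot ζ₁ p :=
    hζ₀.map_of_injective (algebraMap (AuxK0 p) (AuxK1 p a)).injective
  have hprim₁ : (primitiveRoots p (AuxK1 p a)).Nonempty :=
    ⟨ζ₁, (mem_primitiveRoots hp.pos).mpr hζ₁⟩
  set α : AuxK1 p a := rootOfSplitsXPowSubC hp.pos ((a : ℕ) : AuxK0 p) (AuxK1 p a) with hαdef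
  have hα : α ^ p = algebraMap (AuxK0 p) (AuxK1 p a) ((a : ℕ) : AuxK0 p) :=
    rootOfSplitsXPowSubC_pow _ _
  have hα' : α ^ p = ((a : ℕ) : AuxK1 p a) :=
    hα.trans (map_natCast (algebraMap (AuxK0 p) (AuxK1 p a)) a)
  have haQ : ((a : ℕ) : ℚ) ≠ 0 := by exact_mod_cast ha0
  have hq₀Q : ((q₀ : ℕ) : ℚ) ≠ 0 := by exact_mod_cast hq₀.ne_zero
  -- `X ^ p - q₀` is irreducible over the first layer
  have H' : Irreducible (X ^ p - C ((q₀ : ℕ) : AuxK1 p a)) := by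
    refine X_pow_sub_C_irreducible_of_prime hp fun β₀ hβ₀ => ?_
    obtain ⟨i, γ, hγ⟩ := auxPrime_kummer hp hζ₀ (a := ((a : ℕ) : AuxK0 p))
      (by exact_mod_cast ha0) H hα (b := ((q₀ : ℕ) : AuxK0 p)) (by exact_mod_cast hq₀.ne_zero)
      (β₀ := β₀) (hβ₀.trans (map_natCast (algebraMap (AuxK0 p) (AuxK1 p a)) q₀).symm)
    have hγ' : γ ^ p = algebraMap ℚ (AuxK0 p) ((q₀ : ℚ) / (a : ℚ) ^ i) := by
      rw [map_div₀, map_pow, map_natCast, map_natCast,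
        eq_div_iff (pow_ne_zero _ (by exact_mod_cast ha0))]
      exact hγ.symm
    have h1 := auxPrime_padicValRat_of_pow hγ' q
    have h2 := auxPrime_padicValRat_of_pow hγ' q₀
    rw [padicValRat.div hq₀Q (pow_ne_zero _ haQ), padicValRat.pow, hvq, padicValRat.of_nat,
      padicValNat_primes hne] at h1
    rw [padicValRat.div hq₀Q (pow_ne_zero _ haQ), padicValRat.pow, hvq₀, padicValRat.of_nat,
      padicValNat_self] at h2
    have h3 : (p : ℤ) ∣ (i : ℤ) := by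
      have : (i : ℤ) = -(((0 : ℕ) : ℤ) - (i : ℤ) * 1) := by simp
      rw [this]
      exact (dvd_neg).mpr h1
    apply hp1
    have h4 : (1 : ℤ) = (((1 : ℕ) : ℤ) - (i : ℤ) * (k : ℤ)) + (i : ℤ) * k := by simp
    rw [h4]
    exact dvd_add h2 (Dvd.dvd.mul_right h3 _)
  -- the second Kummer layer
  haveI : IsGalois (AuxK1 p a) (AuxK2 p a q₀) :=
    isGalois_of_isSplittingField_X_pow_sub_C hprim₁ H' (AuxK2 p a q₀)
  have hfin : Module.finrank (AuxK1 p a) (AuxK2 p a q₀) = p :=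
    finrank_of_isSplittingField_X_pow_sub_C hprim₁ H' (AuxK2 p a q₀)
  set β : AuxK2 p a q₀ :=
    rootOfSplitsXPowSubC hp.pos ((q₀ : ℕ) : AuxK1 p a) (AuxK2 p a q₀) with hβdef
  have hβ : β ^ p = algebraMap (AuxK1 p a) (AuxK2 p a q₀) ((q₀ : ℕ) : AuxK1 p a) :=
    rootOfSplitsXPowSubC_pow _ _
  have hβ' : β ^ p = ((q₀ : ℕ) : AuxK2 p a q₀) :=
    hβ.trans (map_natCast (algebraMap (AuxK1 p a) (AuxK2 p a q₀)) q₀)
  have hgen : ∀ σ : AuxK2 p a q₀ ≃ₐ[AuxK1 p a] AuxK2 p a q₀, σ β = β → σ = 1 := by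
    intro σ hσ
    have htop := Algebra.adjoin_root_eq_top_of_isSplittingField hprim₁ H' hβ
    apply AlgEquiv.coe_toAlgHom_injective
    apply AlgHom.ext_of_adjoin_eq_top htop
    intro x hx
    rw [Set.mem_singleton_iff] at hx
    subst hx
    simpa using hσ
  obtain ⟨v, hgood, -, hfrob⟩ := hE1 (K := AuxK1 p a) (L := AuxK2 p a q₀)
    (by rw [hfin]; exact hp.one_lt) (B ∪ {p, q, q₀})
  obtain ⟨hrprime, hrB⟩ := hgood
  set r : ℕ := Ideal.absNorm v.asIdeal with hr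
  haveI : Fact r.Prime := ⟨hrprime⟩
  simp only [Finset.mem_union, Finset.mem_insert, Finset.mem_singleton, not_or] at hrB
  obtain ⟨hrB, hrp, hrq, hrq₀⟩ := hrB
  have hrb : ¬ r ∣ q₀ := fun h => hrq₀ ((Nat.prime_dvd_prime_iff_eq hrprime hq₀).mp h)
  obtain ⟨h1, h2, h3⟩ := auxPrime_local hζ₁ hα' hβ' hgen v hr.symm hrp hrb hfrob
  exact ⟨r, hrprime, hrB, hrq, hrq₀, hrp, h1, h2, h3⟩

/-- (G1), with (E1) as a hypothesis. -/
theorem exists_aux_prime_core (hE1 : AuxE1) {p : ℕ} [Fact p.Prime] {q q₀ : ℕ} (hq : q.Prime)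
    (hq₀ : q₀.Prime) (hne : q ≠ q₀) (d : ℤ) (c₀ : ZMod p) (hc₀ : c₀ ≠ 0) (B : Finset ℕ) :
    ∃ (r : ℕ) (_ : Fact r.Prime) (χ : (ZMod r)ˣ →* Multiplicative (ZMod p)),
      r ∉ B ∧ r ≠ q ∧ r ≠ q₀ ∧ r ≠ p ∧ Function.Surjective χ ∧
      (∀ u : (ZMod r)ˣ, (u : ZMod r) = (q₀ : ZMod r) → Multiplicative.toAdd (χ u) = c₀) ∧
      (∀ u : (ZMod r)ˣ, (u : ZMod r) = (q : ZMod r) →
        Multiplicative.toAdd (χ u) = (d : ZMod p) * c₀) := by
  obtain ⟨r, hr, hrB, hrq, hrq₀, hrp, hdvd, ha, hb⟩ :=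
    auxPrime_exists_prime hE1 (p := p) hq hq₀ hne (p - (d : ZMod p).val) B
  haveI : Fact r.Prime := ⟨hr⟩
  obtain ⟨χ, hχs, hχ₀, hχq⟩ := auxPrime_exists_char' hdvd hq hq₀ hrq hrq₀ d c₀ hc₀ ha hb
  exact ⟨r, ⟨hr⟩, χ, hrB, hrq, hrq₀, hrp, hχs, hχ₀, hχq⟩

end Fermat.Agent.S14
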