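import Fermat.Agent.S14.AuxGalois

/-!
# S14, package G, leaf G3c: total ramification over `r` in group form
-/

namespace Fermat.Agent.S14

open NumberField IsDedekindDomain


section

variable {K M : Type} [Field K] [NumberField K] [Field M] [NumberField M] [Algebra K M] [IsGalois K M]

/-- The inertia group has order the ramification index. -/
theorem auxr_card_inertia (𝔓 : Ideal (𝓞 M)) [𝔓.IsPrime] :
    Nat.card (𝔓.inertia (M ≃ₐ[K] M)) = 𝔓.ramificationIdx (𝓞 K) := by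
  have hl : 𝔓.LiesOver (𝔓.under (𝓞 K)) := ⟨rfl⟩
  rw [Ideal.card_inertia_eq_ramificationIdxIn (𝔓.under (𝓞 K)) 𝔓,
    Ideal.ramificationIdxIn_eq_ramificationIdx (𝔓.under (𝓞 K)) 𝔓 (M ≃ₐ[K] M)]

end




section

variable {K M : Type} [Field K] [NumberField K] [Field M] [NumberField M] [Algebra K M]

omit [NumberField M] in
/-- If `r` is unramified in `K`, the ramification index over `ℤ` of a prime of `M` over `r` is its
ramification index over `K`. -/
theorem auxr_ramificationIdx_int {r : ℕ} (hr : r.Prime) (hKr : ¬ (r : ℤ) ∣ NumberField.discr K)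
    (𝔓 : Ideal (𝓞 M)) [𝔓.IsPrime] (h𝔓 : (r : 𝓞 M) ∈ 𝔓) :
    𝔓.ramificationIdx ℤ = 𝔓.ramificationIdx (𝓞 K) := by
  have hl : 𝔓.LiesOver (𝔓.under (𝓞 K)) := ⟨rfl⟩
  have hrK : (r : 𝓞 K) ∈ 𝔓.under (𝓞 K) := by
    rw [Ideal.mem_comap, map_natCast]
    exact h𝔓
  have hunr : Algebra.IsUnramifiedAt ℤ (𝔓.under (𝓞 K)) :=
    (NumberField.not_dvd_discr_iff_forall_mem K (𝓞 K) (Nat.prime_iff_prime_int.mp hr)).mp hKr
      (𝔓.under (𝓞 K)) inferInstance (by simpa using hrK)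
  rw [Ideal.ramificationIdx_tower (R := ℤ) (𝔓.under (𝓞 K)) 𝔓,
    Ideal.ramificationIdx_eq_one (𝔓.under (𝓞 K)) ℤ, one_mul]

end




section

variable {M : Type} [Field M] [NumberField M]

/-- `r - 1` divides the ramification index over `ℤ` of a prime over `r` of a number field
containing the `r`-th roots of unity. -/
theorem auxr_sub_one_dvd_ramificationIdx {r : ℕ} (hr : r.Prime) {ζr : M}
    (hζr : IsPrimitiveRoot ζr r) (𝔓 : Ideal (𝓞 M)) [𝔓.IsPrime] (h𝔓 : (r : 𝓞 M) ∈ 𝔓) :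
    (r - 1) ∣ 𝔓.ramificationIdx ℤ := by
  have : Fact r.Prime := ⟨hr⟩
  have : NeZero r := ⟨hr.ne_zero⟩
  have hrp : Prime (r : ℤ) := Nat.prime_iff_prime_int.mp hr
  have hl : 𝔓.LiesOver (Ideal.span {(r : ℤ)}) :=
    (Ideal.liesOver_span_iff (Ideal.IsPrime.ne_top inferInstance) hrp).mpr (by simpa using h𝔓)
  have hmap : (Ideal.span {(r : ℤ)}).map (algebraMap ℤ (𝓞 M)) =
      Ideal.span {hζr.toInteger - 1} ^ (r - 1) := by
    rw [Ideal.map_span, Set.image_singleton, Ideal.span_singleton_pow]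
    rw [Ideal.span_singleton_eq_span_singleton]
    simpa using (IsCyclotomicExtension.Rat.associated_zeta_sub_one_pow_prime r hζr).symm
  have hne : (Ideal.span {(r : ℤ)}).map (algebraMap ℤ (𝓞 M)) ≠ ⊥ := by
    rw [Ideal.map_span, Set.image_singleton, Ne, Ideal.span_singleton_eq_bot]
    simpa using hr.ne_zero
  rw [Ideal.IsDedekindDomain.ramificationIdx_eq_normalizedFactors_count (Ideal.span {(r : ℤ)}) 𝔓 hne,
    hmap, UniqueFactorizationMonoid.normalizedFactors_pow, Multiset.count_nsmul]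
  exact dvd_mul_right _ _

end




section

variable {K E M : Type} [Field K] [NumberField K] [Field E] [NumberField E] [Field M]
  [NumberField M] [Algebra K E] [Algebra K M] [Algebra E M] [IsScalarTower K E M]

omit [NumberField K] [NumberField E] [NumberField M] in
/-- Restriction to a normal subextension commutes with the action on integers. -/
theorem auxr_algebraMap_restrictNormal_smul [Normal K E] (σ : M ≃ₐ[K] M) (y : 𝓞 E) :
    algebraMap (𝓞 E) (𝓞 M) (AlgEquiv.restrictNormalHom E σ • y) =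
      σ • algebraMap (𝓞 E) (𝓞 M) y := by
  apply RingOfIntegers.ext
  show algebraMap E M ((AlgEquiv.restrictNormalHom E σ) (y : E)) = σ (algebraMap E M (y : E))
  exact AlgEquiv.restrictNormal_commutes σ E (y : E)

omit [NumberField K] [NumberField E] [NumberField M] in
/-- Restriction to a normal subextension maps inertia groups into inertia groups. -/
theorem auxr_restrictNormal_mem_inertia [Normal K E] (𝔓 : Ideal (𝓞 M)) (σ : M ≃ₐ[K] M)
    (hσ : ∀ x : 𝓞 M, σ • x - x ∈ 𝔓) (y : 𝓞 E) :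
    AlgEquiv.restrictNormalHom E σ • y - y ∈ 𝔓.under (𝓞 E) := by
  rw [Ideal.mem_comap, map_sub, auxr_algebraMap_restrictNormal_smul]
  exact hσ _

end

section

variable {K L : Type} [Field K] [NumberField K] [Field L] [NumberField L] [Algebra K L]
  [IsGalois K L]

/-- In an unramified extension the inertia groups are trivial. -/
theorem auxr_eq_one_of_mem_inertia (hunr : IsUnramifiedEverywhere K L) (𝔮 : Ideal (𝓞 L))
    [𝔮.IsPrime] (h0 : 𝔮 ≠ ⊥) (τ : L ≃ₐ[K] L) (hτ : ∀ y : 𝓞 L, τ • y - y ∈ 𝔮) : τ = 1 := by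
  have hl : 𝔮.LiesOver (𝔮.under (𝓞 K)) := ⟨rfl⟩
  have hu : Algebra.IsUnramifiedAt (𝓞 K) 𝔮 := hunr 𝔮 h0
  have hcard : Nat.card (𝔮.inertia (L ≃ₐ[K] L)) = 1 := by
    rw [Ideal.card_inertia_eq_ramificationIdxIn (𝔮.under (𝓞 K)) 𝔮,
      Ideal.ramificationIdxIn_eq_ramificationIdx (𝔮.under (𝓞 K)) 𝔮 (L ≃ₐ[K] L),
      Ideal.ramificationIdx_eq_one 𝔮 (𝓞 K)]
  have hsub : Subsingleton (𝔮.inertia (L ≃ₐ[K] L)) :=
    (Nat.card_eq_one_iff_unique.mp hcard).1
  have hmem : τ ∈ 𝔮.inertia (L ≃ₐ[K] L) := hτ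
  have := Subsingleton.elim (⟨τ, hmem⟩ : 𝔮.inertia (L ≃ₐ[K] L)) 1
  exact congrArg Subtype.val this

end




section

variable {K L M : Type} [Field K] [Field L] [Field M] [Algebra K L] [Algebra K M] [Algebra L M]
  [IsScalarTower K L M]


/-- An automorphism of `M = L(ζ_r)` over `K` that restricts to the identity on `L` and fixes `ζ_r`
is the identity. -/
theorem auxr_eq_one_of_restrict_of_fix [Normal K L] {r : ℕ} [NeZero r]
    [IsCyclotomicExtension {r} L M] {ζr : M} (hζr : IsPrimitiveRoot ζr r) (σ : M ≃ₐ[K] M)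
    (hres : AlgEquiv.restrictNormalHom L σ = 1) (hfix : σ ζr = ζr) : σ = 1 := by
  have hL : ∀ y : L, σ (algebraMap L M y) = algebraMap L M y := by
    intro y
    have := AlgEquiv.restrictNormal_commutes σ L y
    rw [← this]
    have h1 : σ.restrictNormal L = 1 := hres
    rw [h1]
    rfl
  let A : Subalgebra L M :=
    { carrier := {x | σ x = x}
      mul_mem' := fun {a b} ha hb => by
        show σ (a * b) = a * b
        rw [map_mul, ha, hb]
      add_mem' := fun {a b} ha hb => by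
        show σ (a + b) = a + b
        rw [map_add, ha, hb]
      algebraMap_mem' := hL }
  have htop : A = ⊤ := by
    rw [eq_top_iff, ← IsCyclotomicExtension.adjoin_primitive_root_eq_top hζr]
    exact Algebra.adjoin_le (by
      intro x hx
      rw [Set.mem_singleton_iff] at hx
      subst hx
      exact hfix)
  ext x
  have : x ∈ A := by rw [htop]; exact Algebra.mem_top
  exact this

end


section G3c

variable {p : ℕ} [Fact p.Prime] {K L M : Type} [Field K] [NumberField K] [Field L] [NumberField L]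
  [Field M] [NumberField M] [Algebra K L] [Algebra K M] [Algebra L M] [IsScalarTower K L M]
  [IsGalois K L] [IsGalois K M]

variable {r : ℕ} [NeZero r] {ζr : M} (hζr : IsPrimitiveRoot ζr r)

/-- (G3c-1) -/
theorem exists_inertia_alphaChar_ne_betaChar [IsCyclotomicExtension {r} L M] (hr : r.Prime)
    (hKr : ¬ (r : ℤ) ∣ NumberField.discr K) (hunr : IsUnramifiedEverywhere K L)
    (ψ : (L ≃ₐ[K] L) →* Multiplicative (ZMod p))
    (ψr : (ZMod r)ˣ →* Multiplicative (ZMod p)) (hψr : ∃ u, ψr u ≠ 1)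
    (𝔓 : Ideal (𝓞 M)) [𝔓.IsPrime] (h𝔓 : (r : 𝓞 M) ∈ 𝔓) :
    ∃ ι : M ≃ₐ[K] M, (∀ x : 𝓞 M, ι • x - x ∈ 𝔓) ∧ alphaChar ψ ι = 1 ∧
      betaChar K hζr ψr ι ≠ 1 := by
  classical
  obtain ⟨u, hu⟩ := hψr
  have : Fact (1 < r) := ⟨hr.one_lt⟩
  have h𝔓0 : 𝔓 ≠ ⊥ := by
    rintro rfl
    have h0 : (r : 𝓞 M) = 0 := h𝔓
    exact hr.ne_zero (by exact_mod_cast h0)
  -- the inertia group restricts trivially to `L`
  have hres : ∀ σ ∈ 𝔓.inertia (M ≃ₐ[K] M), AlgEquiv.restrictNormalHom L σ = 1 := by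
    intro σ hσ
    have h𝔮0 : 𝔓.under (𝓞 L) ≠ ⊥ := fun h => h𝔓0 (Ideal.eq_bot_of_comap_eq_bot h)
    exact auxr_eq_one_of_mem_inertia hunr (𝔓.under (𝓞 L)) h𝔮0 _
      (auxr_restrictNormal_mem_inertia 𝔓 σ hσ)
  -- the cyclotomic character is injective on the inertia group
  let c : 𝔓.inertia (M ≃ₐ[K] M) → (ZMod r)ˣ := fun σ => hζr.autToPow K σ.1
  have hcinj : Function.Injective c := by
    intro σ τ h
    have h1 : hζr.autToPow K (σ.1⁻¹ * τ.1) = 1 := by
      rw [map_mul, map_inv]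
      exact inv_mul_eq_one.mpr h
    have h2 : (σ.1⁻¹ * τ.1) ζr = ζr := by
      have := hζr.autToPow_spec K (σ.1⁻¹ * τ.1)
      rw [h1, Units.val_one, ZMod.val_one, pow_one] at this
      exact this.symm
    have h3 : AlgEquiv.restrictNormalHom L (σ.1⁻¹ * τ.1) = 1 := by
      rw [map_mul, map_inv, hres σ.1 σ.2, hres τ.1 τ.2, inv_one, one_mul]
    have h4 := auxr_eq_one_of_restrict_of_fix hζr (σ.1⁻¹ * τ.1) h3 h2
    exact Subtype.ext (inv_mul_eq_one.mp h4)
  -- counting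
  have hcardI : Nat.card (𝔓.inertia (M ≃ₐ[K] M)) = 𝔓.ramificationIdx ℤ := by
    rw [auxr_card_inertia 𝔓, ← auxr_ramificationIdx_int hr hKr 𝔓 h𝔓]
  have hdvd : (r - 1) ∣ Nat.card (𝔓.inertia (M ≃ₐ[K] M)) := by
    rw [hcardI]
    exact auxr_sub_one_dvd_ramificationIdx hr hζr 𝔓 h𝔓
  have hunits : Nat.card (ZMod r)ˣ = r - 1 := by
    rw [Nat.card_eq_fintype_card, ZMod.card_units_eq_totient, Nat.totient_prime hr]
  have hle : Nat.card (ZMod r)ˣ ≤ Nat.card (𝔓.inertia (M ≃ₐ[K] M)) := by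
    rw [hunits]
    exact Nat.le_of_dvd Nat.card_pos hdvd
  have hbij : Function.Bijective c := hcinj.bijective_of_nat_card_le hle
  obtain ⟨ι, hι⟩ := hbij.2 u
  refine ⟨ι.1, ι.2, ?_, ?_⟩
  · show ψ (AlgEquiv.restrictNormalHom L ι.1) = 1
    rw [hres ι.1 ι.2, map_one]
  · show ψr (hζr.autToPow K ι.1) ≠ 1
    rw [show hζr.autToPow K ι.1 = u from hι]
    exact hu

/-- (G3c-2) -/
theorem smul_sub_mem_of_mem_diagField [IsCyclotomicExtension {r} L M] (hr : r.Prime)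
    (hKr : ¬ (r : ℤ) ∣ NumberField.discr K) (hunr : IsUnramifiedEverywhere K L)
    (ψ : (L ≃ₐ[K] L) →* Multiplicative (ZMod p))
    (ψr : (ZMod r)ˣ →* Multiplicative (ZMod p)) (hψr : ∃ u, ψr u ≠ 1)
    (𝔅 : Ideal (𝓞 (diagField (alphaChar ψ) (betaChar K hζr ψr)))) [𝔅.IsPrime]
    (h𝔅 : (r : 𝓞 (diagField (alphaChar ψ) (betaChar K hζr ψr))) ∈ 𝔅)
    (σ : diagField (alphaChar ψ) (betaChar K hζr ψr) ≃ₐ[K]
      diagField (alphaChar ψ) (betaChar K hζr ψr))
    (x : 𝓞 (diagField (alphaChar ψ) (betaChar K hζr ψr))) : σ • x - x ∈ 𝔅 := by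
  obtain ⟨⟨𝔓, h𝔓prime, h𝔓over⟩⟩ := (inferInstance : Nonempty (𝔅.primesOver (𝓞 M)))
  have h𝔓r : (r : 𝓞 M) ∈ 𝔓 := by
    have h1 := h𝔅
    rw [h𝔓over.over, Ideal.mem_comap, map_natCast] at h1
    exact h1
  obtain ⟨ι, hιI, hα, hβ⟩ :=
    exists_inertia_alphaChar_ne_betaChar hζr hr hKr hunr ψ ψr hψr 𝔓 h𝔓r
  have hne : alphaChar ψ ι ≠ betaChar K hζr ψr ι := by
    rw [hα]
    exact hβ.symm
  obtain ⟨n, hn⟩ := exists_pow_restrict_eq (alphaChar ψ) (betaChar K hζr ψr) ι hne σ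
  have hmem : ι ^ n ∈ 𝔓.inertia (M ≃ₐ[K] M) :=
    Subgroup.pow_mem _ (show ι ∈ 𝔓.inertia (M ≃ₐ[K] M) from hιI) n
  have h2 := auxr_restrictNormal_mem_inertia
    (E := diagField (alphaChar ψ) (betaChar K hζr ψr)) 𝔓 (ι ^ n) hmem x
  rw [hn, ← h𝔓over.over] at h2
  exact h2

end G3c

end Fermat.Agent.S14
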