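import Mathlib

/-!
# S14 package G4: the norm of an integer is a `p`-th power mod `r` when `p ∣ e(P/r)` for all `P ∣ r`

`norm_isPow_of_ramified` (exact statement of `AuxSpec.lean`).

Route: `(r) = 𝔞 ^ p` (all exponents divisible by `p`), `π` with `(π) = 𝔞 𝔟`, `𝔟` coprime to `𝔞`.
On `V = 𝓞 F / r = (ZMod r)^n` (coordinates in an integral basis) multiplication `g` by `π` satisfies
`g ^ p = 0` and `ker g ⊆ range g ^ (p - 1)`; multiplication `f` by `x` commutes with `g`; an abstract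
linear algebra lemma (`normMod_det_eq_pow`) gives `det f = (det of f on V / g V) ^ p`.
-/

namespace Fermat.Agent.S14

open NumberField IsDedekindDomain Matrix

universe u

section LinAlg

variable {k : Type*} [Field k]

theorem normMod_range_le_comap {V : Type*} [AddCommGroup V] [Module k V] (f g : V →ₗ[k] V)
    (hfg : ∀ v, f (g v) = g (f v)) : LinearMap.range g ≤ (LinearMap.range g).comap f := by
  rintro _ ⟨v, rfl⟩
  exact ⟨f v, (hfg v).symm⟩

/-- the quotient `V / gV` is `f`-equivariantly isomorphic to `gV / g(gV)` when `ker g ⊆ gV`. -/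
theorem normMod_det_mapQ_eq {V : Type*} [AddCommGroup V] [Module k V] [FiniteDimensional k V]
    (f g : V →ₗ[k] V) (hfg : ∀ v, f (g v) = g (f v))
    (hker : ∀ v, g v = 0 → v ∈ LinearMap.range g)
    (fW gW : LinearMap.range g →ₗ[k] LinearMap.range g)
    (hfW : ∀ w, (fW w : V) = f w) (hgW : ∀ w, (gW w : V) = g w)
    (h1 : LinearMap.range g ≤ (LinearMap.range g).comap f)
    (h2 : LinearMap.range gW ≤ (LinearMap.range gW).comap fW) :
    LinearMap.det ((LinearMap.range gW).mapQ (LinearMap.range gW) fW h2) =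
      LinearMap.det ((LinearMap.range g).mapQ (LinearMap.range g) f h1) := by
  -- the map `V → W / W'`
  let h : V →ₗ[k] (LinearMap.range g ⧸ LinearMap.range gW) :=
    (LinearMap.range gW).mkQ ∘ₗ g.rangeRestrict
  have hsurj : Function.Surjective h := by
    intro y
    obtain ⟨w, rfl⟩ := (LinearMap.range gW).mkQ_surjective y
    obtain ⟨v, hv⟩ := w.2
    exact ⟨v, by simp only [h, LinearMap.comp_apply]; congr 1; exact Subtype.ext hv⟩
  have hkerh : LinearMap.ker h = LinearMap.range g := by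
    ext v
    simp only [h, LinearMap.mem_ker, LinearMap.comp_apply, Submodule.mkQ_apply,
      Submodule.Quotient.mk_eq_zero]
    constructor
    · rintro ⟨w, hw⟩
      have h3 : g (v - w) = 0 := by
        have := congrArg Subtype.val hw
        rw [hgW] at this
        have this' : g w = g v := this
        rw [map_sub, this', sub_self]
      have h4 := hker _ h3
      have : v = (v - w) + w := by abel
      rw [this]
      exact (LinearMap.range g).add_mem h4 w.2
    · intro hv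
      exact ⟨⟨v, hv⟩, Subtype.ext (by rw [hgW]; rfl)⟩
  let e : (V ⧸ LinearMap.range g) ≃ₗ[k] (LinearMap.range g ⧸ LinearMap.range gW) :=
    (Submodule.quotEquivOfEq _ _ hkerh.symm).trans (h.quotKerEquivOfSurjective hsurj)
  have he : ∀ v : V, e (Submodule.Quotient.mk v) =
      (LinearMap.range gW).mkQ (g.rangeRestrict v) := fun v => rfl
  rw [← LinearMap.det_conj ((LinearMap.range g).mapQ (LinearMap.range g) f h1) e]
  congr 1
  apply LinearMap.ext
  intro y
  obtain ⟨y', rfl⟩ := e.surjective y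
  obtain ⟨v, rfl⟩ := (LinearMap.range g).mkQ_surjective y'
  rw [LinearMap.comp_apply, LinearMap.comp_apply, LinearEquiv.coe_coe, LinearEquiv.coe_coe,
    LinearEquiv.symm_apply_apply]
  simp only [Submodule.mkQ_apply, Submodule.mapQ_apply, he]
  congr 1
  apply Subtype.ext
  rw [hfW]
  exact hfg v

theorem normMod_det_eq_pow (p : ℕ) : ∀ {V : Type u} [AddCommGroup V] [Module k V]
    [FiniteDimensional k V] (f g : V →ₗ[k] V) (hfg : ∀ v, f (g v) = g (f v)) (_hg : g ^ p = 0)
    (_hker : ∀ v, g v = 0 → ∃ u, v = (g ^ (p - 1)) u),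
    LinearMap.det f = (LinearMap.det ((LinearMap.range g).mapQ (LinearMap.range g) f
      (normMod_range_le_comap f g hfg))) ^ p := by
  induction p with
  | zero =>
    intro V _ _ _ f g hfg hg hker
    have : Subsingleton V := ⟨fun a b => by
      have h1 : (g ^ 0) a = (g ^ 0) b := by rw [hg]; rfl
      simpa using h1⟩
    rw [pow_zero]
    exact LinearMap.det_eq_one_of_subsingleton f
  | succ p ih =>
    intro V _ _ _ f g hfg hg hker
    have hWf := normMod_range_le_comap f g hfg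
    have hWg := normMod_range_le_comap g g (fun _ => rfl)
    rw [LinearMap.det_eq_det_mul_det (LinearMap.range g) f hWf]
    rcases p with _ | p
    · -- g = 0
      have hg0 : g = 0 := by simpa using hg
      have : Subsingleton (LinearMap.range g) := by
        rw [hg0, LinearMap.range_zero]
        infer_instance
      rw [LinearMap.det_eq_one_of_subsingleton, one_mul, pow_one]
    · set fW := f.restrict (p := LinearMap.range g) (q := LinearMap.range g) hWf with hfW
      set gW := g.restrict (p := LinearMap.range g) (q := LinearMap.range g) hWg with hgW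
      have hfgW : ∀ w, fW (gW w) = gW (fW w) := by
        intro w
        apply Subtype.ext
        simp only [hfW, hgW, LinearMap.coe_restrict_apply]
        exact hfg w
      have hgW0 : gW ^ (p + 1) = 0 := by
        rw [hgW, Module.End.pow_restrict]
        apply LinearMap.ext
        rintro ⟨_, v, rfl⟩
        apply Subtype.ext
        simp only [LinearMap.coe_restrict_apply, LinearMap.zero_apply, ZeroMemClass.coe_zero]
        have : (g ^ (p + 1)) (g v) = (g ^ (p + 1 + 1)) v := by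
          rw [pow_succ (n := p + 1), Module.End.mul_apply]
        rw [this, hg, LinearMap.zero_apply]
      have hkerW : ∀ w, gW w = 0 → ∃ u, w = (gW ^ (p + 1 - 1)) u := by
        intro w hw
        have h3 : g w = 0 := by
          have := congrArg Subtype.val hw
          simpa [hgW] using this
        obtain ⟨u, hu⟩ := hker _ h3
        refine ⟨⟨g u, u, rfl⟩, Subtype.ext ?_⟩
        rw [hu, hgW, Module.End.pow_restrict]
        simp only [Nat.add_sub_cancel, LinearMap.coe_restrict_apply]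
        rw [pow_succ (n := p), Module.End.mul_apply]
      have key := ih fW gW hfgW hgW0 hkerW
      rw [key]
      have hker' : ∀ v, g v = 0 → v ∈ LinearMap.range g := by
        intro v hv
        obtain ⟨u, hu⟩ := hker v hv
        refine ⟨(g ^ p) u, ?_⟩
        rw [hu]
        simp only [Nat.add_sub_cancel]
        rw [pow_succ' (n := p), Module.End.mul_apply]
      rw [normMod_det_mapQ_eq f g hfg hker' fW gW (fun w => rfl) (fun w => rfl) hWf
        (normMod_range_le_comap fW gW hfgW), ← pow_succ]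

end LinAlg

section Ideals

variable {R : Type*} [CommRing R] [IsDedekindDomain R]

/-- if `𝔞 ≠ 0` there is `π` with `(π) = 𝔞 𝔟`, `𝔟` coprime to `𝔞`. -/
theorem normMod_exists_gen (𝔞 : Ideal R) (h0 : 𝔞 ≠ ⊥) :
    ∃ (π : R) (𝔟 : Ideal R), Ideal.span {π} = 𝔞 * 𝔟 ∧ 𝔞 ⊔ 𝔟 = ⊤ := by
  obtain ⟨π, hπ⟩ := IsDedekindDomain.exists_sup_span_eq (I := 𝔞 ^ 2) (J := 𝔞)
    (Ideal.pow_le_self two_ne_zero) (pow_ne_zero 2 h0)
  have h1 : Ideal.span {π} ≤ 𝔞 := hπ ▸ le_sup_right
  obtain ⟨𝔟, h𝔟⟩ := Ideal.dvd_iff_le.mpr h1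
  refine ⟨π, 𝔟, h𝔟, ?_⟩
  have h2 : 𝔞 * (𝔞 ⊔ 𝔟) = 𝔞 * ⊤ := by
    rw [Ideal.mul_sup, ← h𝔟, ← pow_two, hπ, Ideal.mul_top]
  exact mul_left_cancel₀ h0 h2

omit [IsDedekindDomain R] in
theorem normMod_pow_eq_sup (𝔞 𝔟 : Ideal R) (π : R) (hπ : Ideal.span {π} = 𝔞 * 𝔟)
    (hcop : 𝔞 ⊔ 𝔟 = ⊤) (i : ℕ) :
    𝔞 ^ i = 𝔞 ^ (i + 1) ⊔ Ideal.span {π ^ i} := by
  have h1 : Ideal.span {π ^ i} = 𝔞 ^ i * 𝔟 ^ i := by
    rw [← Ideal.span_singleton_pow, hπ, mul_pow]
  have h2 : 𝔞 ⊔ 𝔟 ^ i = ⊤ := by
    have : IsCoprime 𝔞 𝔟 := Ideal.isCoprime_iff_sup_eq.mpr hcop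
    exact Ideal.isCoprime_iff_sup_eq.mp this.pow_right
  rw [h1, pow_succ, ← Ideal.mul_sup, h2, Ideal.mul_top]

theorem normMod_mem_pow_of_mul_mem (𝔞 𝔟 : Ideal R) (h0 : 𝔞 ≠ ⊥) (π : R)
    (hπ : Ideal.span {π} = 𝔞 * 𝔟) (hcop : 𝔞 ⊔ 𝔟 = ⊤) (j : ℕ) (a : R)
    (ha : π * a ∈ 𝔞 ^ (j + 1)) : a ∈ 𝔞 ^ j := by
  have h1 : 𝔞 ^ (j + 1) ∣ 𝔞 * (𝔟 * Ideal.span {a}) := by
    rw [← mul_assoc, ← hπ, Ideal.span_singleton_mul_span_singleton, Ideal.dvd_iff_le,
      Ideal.span_singleton_le_iff_mem]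
    exact ha
  rw [pow_succ', mul_dvd_mul_iff_left h0] at h1
  have h2 : IsCoprime (𝔞 ^ j) 𝔟 := (Ideal.isCoprime_iff_sup_eq.mpr hcop).pow_left
  have h3 := h2.dvd_of_dvd_mul_left h1
  rw [Ideal.dvd_iff_le, Ideal.span_singleton_le_iff_mem] at h3
  exact h3

end Ideals

theorem normMod_exists_prime_over {F : Type*} [Field F] [NumberField F] (r : ℕ) [Fact r.Prime] :
    ∃ P : Ideal (𝓞 F), P.IsPrime ∧ (r : 𝓞 F) ∈ P := by
  have := Int.ideal_span_isMaximal_of_prime r
  obtain ⟨Q, hQ, hQr⟩ := Ideal.exists_ideal_over_maximal_of_isIntegral (S := 𝓞 F)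
    (Ideal.span {(r : ℤ)}) (by
      rw [(RingHom.injective_iff_ker_eq_bot _).mp (FaithfulSMul.algebraMap_injective ℤ (𝓞 F))]
      exact bot_le)
  refine ⟨Q, hQ.isPrime, ?_⟩
  have : (r : ℤ) ∈ Q.comap (algebraMap ℤ (𝓞 F)) := by
    rw [hQr]; exact Ideal.mem_span_singleton_self _
  simpa using this

theorem normMod_exists_root {F : Type*} [Field F] [NumberField F] (r p : ℕ) [Fact r.Prime]
    (he : ∀ (P : Ideal (𝓞 F)) [P.IsPrime], (r : 𝓞 F) ∈ P → p ∣ P.ramificationIdx ℤ) :
    ∃ 𝔞 : Ideal (𝓞 F), 𝔞 ^ p = Ideal.span {(r : 𝓞 F)} := by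
  classical
  have hr0 : (r : 𝓞 F) ≠ 0 := Nat.cast_ne_zero.mpr (Fact.out : r.Prime).ne_zero
  set I : Ideal (𝓞 F) := Ideal.span {(r : 𝓞 F)} with hI
  have hI0 : I ≠ ⊥ := by rwa [hI, Ne, Ideal.span_singleton_eq_bot]
  have hmap : (Ideal.span {(r : ℤ)}).map (algebraMap ℤ (𝓞 F)) = I := by
    rw [Ideal.map_span, Set.image_singleton]; simp [hI]
  have := Int.ideal_span_isMaximal_of_prime r
  obtain ⟨u, hu⟩ := Multiset.exists_smul_of_dvd_count
    (UniqueFactorizationMonoid.normalizedFactors I) (k := p) (by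
    intro P hP
    have hPprime : Prime P := UniqueFactorizationMonoid.prime_of_normalized_factor P hP
    have : P.IsPrime := Ideal.isPrime_of_prime hPprime
    have hle : I ≤ P :=
      Ideal.le_of_dvd (UniqueFactorizationMonoid.dvd_of_mem_normalizedFactors hP)
    have hrP : (r : 𝓞 F) ∈ P := hle (Ideal.mem_span_singleton_self _)
    have : P.LiesOver (Ideal.span {(r : ℤ)}) := ⟨by
      refine Ideal.IsMaximal.eq_of_le inferInstance Ideal.IsPrime.ne_top' ?_
      rw [Ideal.span_singleton_le_iff_mem, Ideal.under_def, Ideal.mem_comap]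
      simpa using hrP⟩
    have h4 := Ideal.IsDedekindDomain.ramificationIdx_eq_normalizedFactors_count
      (Ideal.span {(r : ℤ)}) P (hmap ▸ hI0)
    rw [hmap] at h4
    rw [← h4]
    exact he P hrP)
  refine ⟨u.prod, ?_⟩
  rw [← Multiset.prod_nsmul, ← hu, Ideal.prod_normalizedFactors_eq_self hI0]


theorem norm_isPow_of_ramified {F : Type} [Field F] [NumberField F] (r p : ℕ) [Fact r.Prime]
    (he : ∀ (P : Ideal (𝓞 F)) [P.IsPrime], (r : 𝓞 F) ∈ P → p ∣ P.ramificationIdx ℤ) (x : 𝓞 F) :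
    ∃ y : ZMod r, ((Algebra.norm ℤ x : ℤ) : ZMod r) = y ^ p := by
  classical
  have hr0 : (r : 𝓞 F) ≠ 0 := Nat.cast_ne_zero.mpr (Fact.out : r.Prime).ne_zero
  -- `p ≠ 0`
  have hp0 : p ≠ 0 := by
    rintro rfl
    obtain ⟨P, hP, hrP⟩ := normMod_exists_prime_over (F := F) r
    have h1 := he P hrP
    rw [zero_dvd_iff] at h1
    exact (Ideal.ramificationIdx_pos P ℤ).ne' h1
  obtain ⟨𝔞, h𝔞⟩ := normMod_exists_root r p he
  have h𝔞0 : 𝔞 ≠ ⊥ := by
    rintro rfl
    rw [Ideal.bot_pow hp0] at h𝔞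
    exact hr0 ((Ideal.span_singleton_eq_bot).mp h𝔞.symm)
  obtain ⟨π, 𝔟, hπ, hcop⟩ := normMod_exists_gen 𝔞 h𝔞0
  have hπ𝔞 : π ∈ 𝔞 := by
    have : Ideal.span {π} ≤ 𝔞 := hπ ▸ Ideal.mul_le_left
    exact this (Ideal.mem_span_singleton_self π)
  -- the matrices
  let b := RingOfIntegers.basis F
  let φ : ℤ →+* ZMod r := Int.castRingHom (ZMod r)
  let M : 𝓞 F →+* Matrix (Module.Free.ChooseBasisIndex ℤ (𝓞 F))
      (Module.Free.ChooseBasisIndex ℤ (𝓞 F)) (ZMod r) :=
    φ.mapMatrix.comp (Algebra.leftMulMatrix b).toRingHom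
  let red : 𝓞 F → (Module.Free.ChooseBasisIndex ℤ (𝓞 F) → ZMod r) := fun a i => φ (b.repr a i)
  have hred_mul : ∀ s a, red (s * a) = M s *ᵥ red a := by
    intro s a
    funext i
    have h1 := RingHom.map_mulVec φ (Algebra.leftMulMatrix b s) (b.repr a) i
    rw [Algebra.leftMulMatrix_mulVec_repr] at h1
    exact h1
  have hred_add : ∀ a c, red (a + c) = red a + red c := by
    intro a c
    funext i
    simp [red]
  have hred_surj : Function.Surjective red := by
    intro v
    refine ⟨b.equivFun.symm (fun i => ((v i).val : ℤ)), ?_⟩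
    have h1 : (b.repr (b.equivFun.symm (fun i => ((v i).val : ℤ))) :
        Module.Free.ChooseBasisIndex ℤ (𝓞 F) → ℤ) = fun i => ((v i).val : ℤ) := by
      rw [← b.equivFun_apply, LinearEquiv.apply_symm_apply]
    funext i
    simp only [red, φ, h1]
    simp
  have hred_zero : ∀ a, red a = 0 ↔ a ∈ Ideal.span {(r : 𝓞 F)} := by
    intro a
    constructor
    · intro h
      have h1 : ∀ i, (r : ℤ) ∣ b.repr a i := by
        intro i
        have := congrFun h i
        exact (ZMod.intCast_zmod_eq_zero_iff_dvd _ _).mp this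
      choose c hc using h1
      rw [Ideal.mem_span_singleton']
      refine ⟨∑ i, c i • b i, ?_⟩
      conv_rhs => rw [← b.sum_repr a]
      rw [Finset.sum_mul]
      refine Finset.sum_congr rfl fun i _ => ?_
      rw [hc i]
      simp only [zsmul_eq_mul, Int.cast_mul, Int.cast_natCast]
      ring
    · intro h
      obtain ⟨c, rfl⟩ := Ideal.mem_span_singleton'.mp h
      funext i
      have h2 : b.repr (c * (r : 𝓞 F)) = (r : ℤ) • b.repr c := by
        rw [← map_zsmul]
        congr 1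
        simp only [zsmul_eq_mul, Int.cast_natCast]
        ring
      simp [red, φ, h2]
  let f := Matrix.toLin' (M x)
  let g := Matrix.toLin' (M π)
  have hfg : ∀ v, f (g v) = g (f v) := by
    intro v
    simp only [f, g, Matrix.toLin'_apply, Matrix.mulVec_mulVec, ← map_mul, mul_comm x π]
  have hpow : ∀ n, g ^ n = Matrix.toLin' (M (π ^ n)) := by
    intro n
    rw [map_pow, Matrix.toLin'_pow]
  have hg : g ^ p = 0 := by
    rw [hpow]
    apply LinearMap.ext
    intro v
    obtain ⟨a, rfl⟩ := hred_surj v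
    rw [Matrix.toLin'_apply, ← hred_mul, LinearMap.zero_apply, hred_zero, ← h𝔞]
    exact Ideal.mul_mem_right _ _ (Ideal.pow_mem_pow hπ𝔞 p)
  have hker : ∀ v, g v = 0 → ∃ u, v = (g ^ (p - 1)) u := by
    intro v hv
    obtain ⟨a, rfl⟩ := hred_surj v
    rw [Matrix.toLin'_apply, ← hred_mul, hred_zero, ← h𝔞] at hv
    obtain ⟨j, rfl⟩ : ∃ j, p = j + 1 := Nat.exists_eq_succ_of_ne_zero hp0
    have h1 := normMod_mem_pow_of_mul_mem 𝔞 𝔟 h𝔞0 π hπ hcop j a hv
    rw [normMod_pow_eq_sup 𝔞 𝔟 π hπ hcop j, Submodule.mem_sup] at h1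
    obtain ⟨c, hc, d, hd, rfl⟩ := h1
    obtain ⟨t, rfl⟩ := Ideal.mem_span_singleton'.mp hd
    refine ⟨red t, ?_⟩
    rw [h𝔞, ← hred_zero] at hc
    rw [hred_add, hc, zero_add, Nat.add_sub_cancel, hpow, Matrix.toLin'_apply, ← hred_mul,
      mul_comm]
  have key := normMod_det_eq_pow (k := ZMod r) p f g hfg hg hker
  refine ⟨LinearMap.det ((LinearMap.range g).mapQ (LinearMap.range g) f
    (normMod_range_le_comap f g hfg)), ?_⟩
  rw [← key, LinearMap.det_toLin', Algebra.norm_eq_matrix_det b x]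
  exact RingHom.map_det φ _

end Fermat.Agent.S14
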