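import Fermat.Agent.S14.Defs
import Fermat.Agent.S14.Compositum
import Fermat.Agent.S14.NormDiv
import Fermat.Agent.S14.Approx
import Fermat.Agent.S14.AuxPrime
import Fermat.Agent.S14.NormMod
import Fermat.Agent.S14.Crossing

/-!
# S14: interface statements of package G (crossing with an auxiliary cyclotomic field `ℚ(ζ_r)`)

Spec file. Final product of package G: `two_prime` (statement in `CoreSpec.lean`), proved from
`first_inequality` (CoreSpec), `exists_good_frobAt_ne_one` (CoreSpec), `ArtinSpec` and the leaves
below.  See `blueprints/S14.md`, step (X).
-/

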