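import Mathlib

/-!
# S14 (C-CHAR): a proper subgroup with `p`-torsion quotient lies in the kernel of a surjective
character to `ℤ/p`.
-/

namespace Fermat.Agent.S14

/-- (C-CHAR) A proper subgroup of a commutative group whose quotient is killed by `p`
is contained in the kernel of a surjective character to `ℤ/p`. -/
theorem exists_surjective_zmod_of_ne_top {p : ℕ} [Fact p.Prime] {A : Type*} [CommGroup A]
    (S : Subgroup A) (hS : S ≠ ⊤) (hp : ∀ a : A, a ^ p ∈ S) :
    ∃ χ : A →* Multiplicative (ZMod p), Function.Surjective χ ∧ ∀ a ∈ S, χ a = 1 := by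
  classical
  -- the additive quotient, killed by `p`
  have hkill : ∀ x : Additive (A ⧸ S), p • x = 0 := by
    intro x
    induction x using Additive.rec with
    | ofMul x =>
    obtain ⟨a, rfl⟩ := QuotientGroup.mk_surjective x
    rw [← ofMul_pow, ← QuotientGroup.mk_pow]
    rw [(QuotientGroup.eq_one_iff (a ^ p)).mpr (hp a)]
    rfl
  have _ : Module (ZMod p) (Additive (A ⧸ S)) := AddCommGroup.zmodModule hkill
  -- a nonzero vector
  obtain ⟨a, ha⟩ : ∃ a : A, a ∉ S := by
    by_contra! h
    exact hS (by ext x; simp [h x])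
  set v : Additive (A ⧸ S) := Additive.ofMul (QuotientGroup.mk a) with hv
  have hv0 : v ≠ 0 := by
    intro h
    apply ha
    have : (QuotientGroup.mk a : A ⧸ S) = 1 := by
      have := congrArg Additive.toMul h
      simpa [hv] using this
    exact (QuotientGroup.eq_one_iff a).mp this
  -- a linear functional with value `1` on `v`
  obtain ⟨f, hf⟩ : ∃ f : Additive (A ⧸ S) →ₗ[ZMod p] ZMod p, f v = 1 :=
    Module.Projective.exists_dual_eq_one (ZMod p) hv0
  -- the character
  let χ : A →* Multiplicative (ZMod p) :=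
    (AddMonoidHom.toMultiplicative f.toAddMonoidHom).comp (QuotientGroup.mk' S)
  have hχ : ∀ x : A, χ x = Multiplicative.ofAdd (f (Additive.ofMul (QuotientGroup.mk x))) :=
    fun x => rfl
  refine ⟨χ, ?_, ?_⟩
  · intro y
    refine ⟨a ^ (Multiplicative.toAdd y).val, ?_⟩
    rw [map_pow, hχ, ← hv, hf]
    rw [← ofAdd_nsmul]
    simp
  · intro x hx
    rw [hχ]
    have : (QuotientGroup.mk x : A ⧸ S) = 1 := (QuotientGroup.eq_one_iff x).mpr hx
    rw [this]
    simp

end Fermat.Agent.S14
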