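import Fermat.Agent.S14.FirstIneq

/-! S14: package F is done (`FirstIneq.lean`, helper15); this file is only an import shim. -/
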