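import Fermat.Agent.S14.Defs

/-!
# S14 (C-DIV): the class of a divisor

The divisor class map `Div K →+ Additive (ClassGroup (𝓞 K))`: it kills principal divisors, its
kernel consists of the principal divisors, it is surjective, and it is compatible with the norm
of divisors / the relative norm of ideals.
-/

namespace Fermat.Agent.S14

open NumberField IsDedekindDomain
open scoped nonZeroDivisors

section divClass

variable (K : Type*) [Field K] [NumberField K]

/-- The nonzero ideal attached to a finite place. -/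
noncomputable def placeIdeal (v : HeightOneSpectrum (𝓞 K)) : (Ideal (𝓞 K))⁰ :=
  ⟨v.asIdeal, mem_nonZeroDivisors_iff_ne_zero.mpr v.ne_bot⟩

/-- (C-DIV) The class of a divisor. -/
noncomputable def divClass : Div K →+ Additive (ClassGroup (𝓞 K)) :=
  Finsupp.liftAddHom fun v =>
    zmultiplesHom (Additive (ClassGroup (𝓞 K))) (Additive.ofMul (ClassGroup.mk0 (placeIdeal K v)))

theorem divClass_single (v : HeightOneSpectrum (𝓞 K)) (n : ℤ) :
    divClass K (Finsupp.single v n) = n • Additive.ofMul (ClassGroup.mk0 (placeIdeal K v)) := by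
  simp [divClass]

/-! ### The invertible fractional ideal of a divisor -/

/-- The invertible fractional ideal attached to a divisor, as an additive homomorphism. -/
noncomputable def divUnit : Div K →+ Additive (FractionalIdeal (𝓞 K)⁰ K)ˣ :=
  Finsupp.liftAddHom fun v =>
    zmultiplesHom (Additive (FractionalIdeal (𝓞 K)⁰ K)ˣ)
      (Additive.ofMul (FractionalIdeal.mk0 K (placeIdeal K v)))

theorem divUnit_single (v : HeightOneSpectrum (𝓞 K)) (n : ℤ) :
    divUnit K (Finsupp.single v n) =
      n • Additive.ofMul (FractionalIdeal.mk0 K (placeIdeal K v)) := by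
  simp [divUnit]

/-- The fractional ideal attached to a divisor. -/
noncomputable def divIdeal (D : Div K) : FractionalIdeal (𝓞 K)⁰ K :=
  ((Additive.toMul (divUnit K D) : (FractionalIdeal (𝓞 K)⁰ K)ˣ) : FractionalIdeal (𝓞 K)⁰ K)

theorem divIdeal_ne_zero (D : Div K) : divIdeal K D ≠ 0 :=
  Units.ne_zero _

theorem divIdeal_zero : divIdeal K 0 = 1 := by
  simp [divIdeal]

theorem divIdeal_add (D E : Div K) : divIdeal K (D + E) = divIdeal K D * divIdeal K E := by
  simp [divIdeal]

theorem divIdeal_single (v : HeightOneSpectrum (𝓞 K)) (n : ℤ) :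
    divIdeal K (Finsupp.single v n) = (v.asIdeal : FractionalIdeal (𝓞 K)⁰ K) ^ n := by
  simp [divIdeal, divUnit_single, placeIdeal]

theorem count_divIdeal (v : HeightOneSpectrum (𝓞 K)) (D : Div K) :
    FractionalIdeal.count K v (divIdeal K D) = D v := by
  classical
  induction D using Finsupp.induction_linear with
  | zero => simp [divIdeal_zero, FractionalIdeal.count_one]
  | add D E hD hE =>
    rw [divIdeal_add, FractionalIdeal.count_mul K v (divIdeal_ne_zero K D) (divIdeal_ne_zero K E),
      hD, hE]
    rfl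
  | single w n =>
    rw [divIdeal_single, FractionalIdeal.count_zpow, FractionalIdeal.count_maximal]
    by_cases h : w = v
    · subst h; simp
    · rw [if_neg h, Finsupp.single_eq_of_ne (Ne.symm h)]; simp

/-- Two nonzero fractional ideals with the same valuations are equal. -/
theorem divCl_eq_of_count_eq {I J : FractionalIdeal (𝓞 K)⁰ K} (hI : I ≠ 0) (hJ : J ≠ 0)
    (h : ∀ v : HeightOneSpectrum (𝓞 K), FractionalIdeal.count K v I = FractionalIdeal.count K v J) :
    I = J := by
  rw [← FractionalIdeal.finprod_heightOneSpectrum_factorization' K hI,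
    ← FractionalIdeal.finprod_heightOneSpectrum_factorization' K hJ]
  exact finprod_congr fun v => by rw [h v]

/-- The divisor of an invertible fractional ideal. -/
noncomputable def divOfIdeal (I : FractionalIdeal (𝓞 K)⁰ K) : Div K :=
  Finsupp.ofSupportFinite (fun v => FractionalIdeal.count K v I)
    (by
      have h := FractionalIdeal.finite_factors (R := 𝓞 K) (K := K) I
      exact h)

theorem divOfIdeal_apply (I : FractionalIdeal (𝓞 K)⁰ K) (v : HeightOneSpectrum (𝓞 K)) :
    divOfIdeal K I v = FractionalIdeal.count K v I := rfl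

theorem divOf_eq_divOfIdeal (x : K) :
    divOf K x = divOfIdeal K (FractionalIdeal.spanSingleton (𝓞 K)⁰ x) := rfl

theorem divIdeal_divOfIdeal {I : FractionalIdeal (𝓞 K)⁰ K} (hI : I ≠ 0) :
    divIdeal K (divOfIdeal K I) = I :=
  divCl_eq_of_count_eq K (divIdeal_ne_zero K _) hI fun v => by
    rw [count_divIdeal, divOfIdeal_apply]

theorem divOfIdeal_divIdeal (D : Div K) : divOfIdeal K (divIdeal K D) = D := by
  ext v
  rw [divOfIdeal_apply, count_divIdeal]

/-- The class of a divisor is the class of its fractional ideal. -/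
theorem divClass_eq (D : Div K) :
    divClass K D = Additive.ofMul (ClassGroup.mk K (Additive.toMul (divUnit K D))) := by
  have h : divClass K = ((ClassGroup.mk (R := 𝓞 K) K).toAdditive).comp (divUnit K) := by
    refine Finsupp.addHom_ext fun v n => ?_
    rw [divClass_single, AddMonoidHom.comp_apply, divUnit_single, map_zsmul]
    congr 1
    change _ = Additive.ofMul (ClassGroup.mk K (FractionalIdeal.mk0 K (placeIdeal K v)))
    rw [ClassGroup.mk_mk0]
  rw [h]
  rfl

/-- (C-DIV) Principal divisors have trivial class. -/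
theorem divClass_divOf (x : K) (hx : x ≠ 0) : divClass K (divOf K x) = 0 := by
  rw [divClass_eq]
  change Additive.ofMul _ = Additive.ofMul 1
  congr 1
  rw [ClassGroup.mk_eq_one_iff]
  have h : ((Additive.toMul (divUnit K (divOf K x)) : (FractionalIdeal (𝓞 K)⁰ K)ˣ) :
      FractionalIdeal (𝓞 K)⁰ K) = FractionalIdeal.spanSingleton (𝓞 K)⁰ x := by
    change divIdeal K (divOf K x) = _
    rw [divOf_eq_divOfIdeal]
    exact divIdeal_divOfIdeal K (FractionalIdeal.spanSingleton_ne_zero_iff.mpr hx)
  rw [h]
  exact ⟨⟨x, by rw [FractionalIdeal.coe_spanSingleton]⟩⟩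

/-- (C-DIV) A divisor with trivial class is principal. -/
theorem exists_eq_divOf_of_divClass_eq_zero (D : Div K) (hD : divClass K D = 0) :
    ∃ x : K, x ≠ 0 ∧ D = divOf K x := by
  rw [divClass_eq] at hD
  have h1 : ClassGroup.mk K (Additive.toMul (divUnit K D)) = 1 := by
    have := congrArg Additive.toMul hD
    simpa using this
  rw [ClassGroup.mk_eq_one_iff] at h1
  obtain ⟨x, hx⟩ := h1.principal
  have hx' : divIdeal K D = FractionalIdeal.spanSingleton (𝓞 K)⁰ x := by
    apply Subtype.coe_injective
    simp only [FractionalIdeal.val_eq_coe, FractionalIdeal.coe_spanSingleton]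
    exact hx
  have hx0 : x ≠ 0 := by
    intro h
    apply divIdeal_ne_zero K D
    rw [hx', h, FractionalIdeal.spanSingleton_zero]
  refine ⟨x, hx0, ?_⟩
  rw [divOf_eq_divOfIdeal, ← hx', divOfIdeal_divIdeal]

/-- (C-DIV) Every ideal class is the class of a divisor. -/
theorem divClass_surjective : Function.Surjective (divClass K) := by
  intro c
  obtain ⟨I, hI⟩ := ClassGroup.mk0_surjective (Additive.toMul c)
  have hI0 : ((I : Ideal (𝓞 K)) : FractionalIdeal (𝓞 K)⁰ K) ≠ 0 :=
    FractionalIdeal.coeIdeal_ne_zero.mpr (mem_nonZeroDivisors_iff_ne_zero.mp I.2)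
  refine ⟨divOfIdeal K ((I : Ideal (𝓞 K)) : FractionalIdeal (𝓞 K)⁰ K), ?_⟩
  rw [divClass_eq]
  have h : Additive.toMul (divUnit K (divOfIdeal K ((I : Ideal (𝓞 K)) :
      FractionalIdeal (𝓞 K)⁰ K))) = FractionalIdeal.mk0 K I := by
    apply Units.ext
    change divIdeal K _ = _
    rw [divIdeal_divOfIdeal K hI0]
    rfl
  rw [h, ClassGroup.mk_mk0, hI]
  rfl

variable (L : Type*) [Field L] [NumberField L] [Algebra K L]

/-- (C-DIV) The class of the norm of a place is the class of the relative norm of its ideal. -/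
theorem divClass_normDiv_single (w : HeightOneSpectrum (𝓞 L)) :
    divClass K (normDiv K L (Finsupp.single w 1)) =
      Additive.ofMul (ClassGroup.mk0 ⟨Ideal.relNorm (𝓞 K) w.asIdeal,
        mem_nonZeroDivisors_iff_ne_zero.mpr
          (fun h => w.ne_bot (Ideal.relNorm_eq_bot_iff.mp h))⟩) := by
  have hmax : w.asIdeal.IsMaximal := w.isMaximal
  have hmax' : (placeBelow K L w).asIdeal.IsMaximal := (placeBelow K L w).isMaximal
  have hlies : w.asIdeal.LiesOver (placeBelow K L w).asIdeal := ⟨rfl⟩
  have hnorm : Ideal.relNorm (𝓞 K) w.asIdeal =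
      (placeBelow K L w).asIdeal ^ w.asIdeal.inertiaDeg (𝓞 K) :=
    Ideal.relNorm_eq_pow_of_isMaximal w.asIdeal (placeBelow K L w).asIdeal
  have h1 : normDiv K L (Finsupp.single w 1) =
      Finsupp.single (placeBelow K L w) ((w.asIdeal.inertiaDeg (𝓞 K) : ℕ) : ℤ) := by
    simp [normDiv]
  rw [h1, divClass_single, natCast_zsmul, ← ofMul_pow, ← map_pow]
  congr 2
  apply Subtype.ext
  rw [SubmonoidClass.coe_pow]
  exact hnorm.symm

end divClass

end Fermat.Agent.S14
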