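import Mathlib
import Fermat.Agent.S14.AmbigClasses
import Fermat.Agent.S14.DivClass
import Fermat.Agent.S14.CharQuot

set_option autoImplicit false

namespace Fermat.Agent.S14

open NumberField Fermat.Agent.S11 Subgroup
open scoped nonZeroDivisors

variable {K L : Type} [Field K] [NumberField K] [Field L] [NumberField L] [Algebra K L]

/-- The count: `|N(Cl_L)| * p ≤ |Cl_K|`. -/
theorem card_range_fracNorm_mul_le {p : ℕ} [hp : Fact p.Prime] (hp2 : p ≠ 2) [IsGalois K L]
    (hdeg : Module.finrank K L = p) {ζ : K} (hζ : IsPrimitiveRoot ζ p)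
    (hunr : IsUnramifiedEverywhere K L) :
    Nat.card (fracNorm K L).range * p ≤ Nat.card (ClassGroup (𝓞 K)) := by
  have hp0 : p ≠ 0 := hp.out.ne_zero
  -- a generator
  have hcard : Nat.card (L ≃ₐ[K] L) = p := by rw [IsGalois.card_aut_eq_finrank, hdeg]
  have hcyc : IsCyclic (L ≃ₐ[K] L) := isCyclic_of_prime_card hcard
  obtain ⟨σ, hσ⟩ := IsCyclic.exists_generator (α := L ≃ₐ[K] L)
  have hσp : σ ^ p = 1 := by rw [← hcard]; exact pow_card_eq_one'
  -- the groups and maps
  set ι := unitsIncl L with hι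
  set π := toPrincipalIdeal (𝓞 L) L with hπ
  set sX := unitsAut σ with hsX
  set sY := fieldAut σ with hsY
  set sB := fracAut σ with hsB
  have hsXp : ∀ x, sX^[p] x = x := by
    intro x
    apply units_coe_ext
    rw [coe_unitsAut_iterate, hσp, AlgEquiv.one_apply]
  have hsYp : ∀ y, sY^[p] y = y := by
    intro y
    apply Units.ext
    rw [coe_fieldAut_iterate, hσp, AlgEquiv.one_apply]
  have hsBp : ∀ b, sB^[p] b = b := by
    intro b
    rw [fracAut_iterate, hσp, fracAut_one]
  have hιs : ∀ x, ι (sX x) = sY (ι x) := fun x => unitsIncl_unitsAut σ x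
  have hπs : ∀ y, π (sY y) = sB (π y) := fun y => (fracAut_toPrincipalIdeal σ y).symm
  -- the abstract count
  obtain ⟨hh1, hh0, hherb⟩ := herbrand_units hp2 hdeg σ hσ hζ
  have hamb := ambig_abstract ι π (divHom sX) (S11.normHom p sX) (divHom sY) (S11.normHom p sY)
    (divHom sB) (S11.normHom p sB) unitsIncl_injective ker_toPrincipalIdeal
    (divHom_semiconj ι sX sY hιs) (normHom_semiconj p ι sX sY hιs)
    (divHom_semiconj π sY sB hπs) (normHom_semiconj p π sY sB hπs)
    (normHom_divHom_eq_one p sY hsYp) (divHom_normHom_eq_one p sY hsYp)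
    (normHom_divHom_eq_one p sB hsBp)
    (fun y hy => hilbert90_units hdeg σ hσ y hy) hh0
  set P : Subgroup (FractionalIdeal (𝓞 L)⁰ L)ˣ := π.range with hP
  set DB := divHom sB with hDB
  set Q : Subgroup (FractionalIdeal (𝓞 L)⁰ L)ˣ := P.comap DB with hQ
  set h1 := (divHom sX).range.relIndex (S11.normHom p sX).ker with hh1def
  set h0 := (S11.normHom p sX).range.relIndex (divHom sX).ker with hh0def
  set hK := ((divHom sY).ker.map π).relIndex DB.ker with hhKdef
  -- step 5 : `hK ≤ |Cl_K|`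
  set PK : Subgroup (FractionalIdeal (𝓞 K)⁰ K)ˣ := (toPrincipalIdeal (𝓞 K) K).range with hPK
  set e := extFrac K L with he
  have hPKidx : PK.index = Nat.card (ClassGroup (𝓞 K)) := by
    rw [Subgroup.index_eq_card]
    exact Nat.card_congr (ClassGroup.equiv K).toEquiv.symm
  have hcK0 : Nat.card (ClassGroup (𝓞 K)) ≠ 0 := Nat.card_pos.ne'
  have h5a : PK.map e ≤ (divHom sY).ker.map π := by
    rintro _ ⟨_, ⟨x, rfl⟩, rfl⟩
    refine ⟨Units.map (algebraMap K L : K →* L) x, ?_, (extFrac_toPrincipalIdeal x).symm⟩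
    rw [SetLike.mem_coe, MonoidHom.mem_ker, divHom_apply, div_eq_one]
    apply Units.ext
    rw [coe_fieldAut]
    exact AlgEquiv.commutes σ (x : K)
  have hinvall : ∀ b : (FractionalIdeal (𝓞 L)⁰ L)ˣ, sB b = b → ∀ τ : L ≃ₐ[K] L, fracAut τ b = b := by
    intro b hb τ
    obtain ⟨n, rfl⟩ := (mem_powers_iff_mem_zpowers.mpr (hσ τ))
    rw [← fracAut_iterate]
    exact Function.iterate_fixed hb n
  have h5b : DB.ker ≤ (⊤ : Subgroup (FractionalIdeal (𝓞 K)⁰ K)ˣ).map e := by
    intro b hb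
    rw [MonoidHom.mem_ker, divHom_apply, div_eq_one] at hb
    obtain ⟨J, hJ⟩ := exists_extFrac_eq_of_invariant hunr b (hinvall b hb)
    exact ⟨J, mem_top _, hJ⟩
  have h5c := S11.relIndex_map_map_le e (A := PK) (B := ⊤) le_top
    (by rw [relIndex_top_right, hPKidx]; exact hcK0)
  rw [relIndex_top_right, hPKidx] at h5c
  have h5d : (PK.map e).relIndex DB.ker ≠ 0 := fun h =>
    h5c.2 (relIndex_eq_zero_of_le_right h5b h)
  have h5 : hK ≤ Nat.card (ClassGroup (𝓞 K)) :=
    calc hK ≤ (PK.map e).relIndex DB.ker := relIndex_le_of_le_left h5a h5d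
      _ ≤ (PK.map e).relIndex ((⊤ : Subgroup (FractionalIdeal (𝓞 K)⁰ K)ˣ).map e) :=
          relIndex_le_of_le_right h5b h5c.2
      _ ≤ Nat.card (ClassGroup (𝓞 K)) := h5c.1
  -- step 6 : finiteness
  have hPidx : P.index = Nat.card (ClassGroup (𝓞 L)) := by
    rw [Subgroup.index_eq_card]
    exact Nat.card_congr (ClassGroup.equiv L).toEquiv.symm
  have hP0 : P.index ≠ 0 := by rw [hPidx]; exact Nat.card_pos.ne'
  -- step 7 : the image of the norm
  have hP_le_Q : P ≤ Q := by
    rintro b ⟨y, rfl⟩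
    show DB (π y) ∈ P
    rw [hDB, ← divHom_semiconj π sY sB hπs]
    exact ⟨_, rfl⟩
  have hker : P ⊔ DB.range ≤ (fracNorm K L).ker := by
    rw [sup_le_iff]
    constructor
    · rintro b ⟨y, rfl⟩
      exact fracNorm_toPrincipalIdeal y
    · rintro _ ⟨b, rfl⟩
      rw [MonoidHom.mem_ker, hDB, divHom_apply, map_div, hsB, fracNorm_fracAut, div_self']
  have hsupidx : (P ⊔ DB.range).index = P.relIndex Q := by
    have hQidx : Q.index = P.relIndex (P ⊔ DB.range) := by
      rw [hQ, index_comap, relIndex_sup_left]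
    have e1 : P.relIndex (P ⊔ DB.range) * (P ⊔ DB.range).index = P.index :=
      relIndex_mul_index le_sup_left
    have e2 : P.relIndex Q * Q.index = P.index := relIndex_mul_index hP_le_Q
    have hQ0 : Q.index ≠ 0 := by
      intro h
      rw [h, mul_zero] at e2
      exact hP0 e2.symm
    rw [← hQidx] at e1
    have : Q.index * (P ⊔ DB.range).index = Q.index * P.relIndex Q := by
      rw [e1, mul_comm, e2]
    exact Nat.eq_of_mul_eq_mul_left (Nat.pos_of_ne_zero hQ0) this
  have hsup0 : (P ⊔ DB.range).index ≠ 0 := by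
    intro h
    have e1 : P.relIndex (P ⊔ DB.range) * (P ⊔ DB.range).index = P.index :=
      relIndex_mul_index le_sup_left
    rw [h, mul_zero] at e1
    exact hP0 e1.symm
  have hrange : Nat.card (fracNorm K L).range ≤ P.relIndex Q := by
    rw [← Subgroup.index_ker, ← hsupidx]
    exact Nat.le_of_dvd (Nat.pos_of_ne_zero hsup0) (index_dvd_of_le hker)
  -- conclusion
  have hfin : P.relIndex Q * p ≤ hK := by
    have h2 : P.relIndex Q * (p * h0) ≤ h0 * hK :=
      le_trans (Nat.mul_le_mul_left _ hherb) hamb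
    have h3 : h0 * (P.relIndex Q * p) ≤ h0 * hK := by
      calc h0 * (P.relIndex Q * p) = P.relIndex Q * (p * h0) := by ring
        _ ≤ h0 * hK := h2
    exact Nat.le_of_mul_le_mul_left h3 (Nat.pos_of_ne_zero hh0)
  calc Nat.card (fracNorm K L).range * p ≤ P.relIndex Q * p := Nat.mul_le_mul_right _ hrange
    _ ≤ hK := hfin
    _ ≤ Nat.card (ClassGroup (𝓞 K)) := h5

/-- The second inequality on the level of class groups. -/
theorem exists_char_kills_norms {p : ℕ} [hp : Fact p.Prime] (hp2 : p ≠ 2) [IsGalois K L]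
    (hdeg : Module.finrank K L = p) {ζ : K} (hζ : IsPrimitiveRoot ζ p)
    (hunr : IsUnramifiedEverywhere K L) :
    ∃ χ : ClassGroup (𝓞 K) →* Multiplicative (ZMod p), Function.Surjective χ ∧
      ∀ I : (Ideal (𝓞 L))⁰, χ (ClassGroup.mk0 (relNorm0 K L I)) = 1 := by
  have hcount := card_range_fracNorm_mul_le hp2 hdeg hζ hunr
  have hne : (fracNorm K L).range ≠ ⊤ := by
    intro h
    rw [h, Subgroup.card_top] at hcount
    have hpos : 0 < Nat.card (ClassGroup (𝓞 K)) := Nat.card_pos
    have h2 : Nat.card (ClassGroup (𝓞 K)) * 2 ≤ Nat.card (ClassGroup (𝓞 K)) * p :=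
      Nat.mul_le_mul_left _ hp.out.two_le
    omega
  have hpow : ∀ c : ClassGroup (𝓞 K), c ^ p ∈ (fracNorm K L).range := by
    intro c
    obtain ⟨J, rfl⟩ := ClassGroup.mk0_surjective c
    refine ⟨FractionalIdeal.mk0 L (ClassGroup.extendedIdeal (𝓞 K) (𝓞 L) J), ?_⟩
    rw [fracNorm_mk0, ← map_pow]
    congr 1
    apply Subtype.ext
    rw [coe_relNorm0, SubmonoidClass.coe_pow]
    show Ideal.relNorm (𝓞 K) (Ideal.map (algebraMap (𝓞 K) (𝓞 L)) (J : Ideal (𝓞 K))) = _
    rw [Ideal.relNorm_algebraMap (𝓞 L) (J : Ideal (𝓞 K)),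
      ← IsFractionRing.finrank_eq (𝓞 K) K (𝓞 L) L, hdeg]
  obtain ⟨χ, hχs, hχ⟩ := exists_surjective_zmod_of_ne_top (fracNorm K L).range hne hpow
  refine ⟨χ, hχs, fun I => hχ _ ⟨FractionalIdeal.mk0 L I, fracNorm_mk0 I⟩⟩

/-- (T3) **Second inequality** for unramified cyclic extensions of prime degree. -/
theorem second_inequality {p : ℕ} [Fact p.Prime] (hp2 : p ≠ 2) {K L : Type} [Field K]
    [NumberField K] [Field L] [NumberField L] [Algebra K L] [IsGalois K L]
    (hdeg : Module.finrank K L = p) {ζ : K} (hζ : IsPrimitiveRoot ζ p)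
    (hunr : IsUnramifiedEverywhere K L) :
    ∃ f : Div K →+ ZMod p, Function.Surjective f ∧ (∀ x : K, x ≠ 0 → f (divOf K x) = 0) ∧
      ∀ D : Div L, f (normDiv K L D) = 0 := by
  obtain ⟨χ, hχs, hχ⟩ := exists_char_kills_norms hp2 hdeg hζ hunr
  let g : Additive (ClassGroup (𝓞 K)) →+ ZMod p :=
    (AddEquiv.additiveMultiplicative (ZMod p)).toAddMonoidHom.comp (MonoidHom.toAdditive χ)
  have hg : ∀ c : ClassGroup (𝓞 K), g (Additive.ofMul c) = Multiplicative.toAdd (χ c) :=
    fun c => rfl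
  refine ⟨g.comp (divClass K), ?_, ?_, ?_⟩
  · intro z
    obtain ⟨c, hc⟩ := hχs (Multiplicative.ofAdd z)
    obtain ⟨D, hD⟩ := divClass_surjective K (Additive.ofMul c)
    refine ⟨D, ?_⟩
    rw [AddMonoidHom.comp_apply, hD, hg, hc]
    rfl
  · intro x hx
    rw [AddMonoidHom.comp_apply, divClass_divOf K x hx, map_zero]
  · intro D
    have : (g.comp (divClass K)).comp (normDiv K L) = 0 := by
      apply Finsupp.addHom_ext
      intro w n
      have h1 : Finsupp.single w n = n • Finsupp.single w (1 : ℤ) := by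
        rw [Finsupp.smul_single, smul_eq_mul, mul_one]
      rw [h1, map_zsmul, AddMonoidHom.comp_apply, AddMonoidHom.comp_apply,
        divClass_normDiv_single K L w, hg]
      have h2 := hχ ⟨w.asIdeal, mem_nonZeroDivisors_iff_ne_zero.mpr w.ne_bot⟩
      have h3 : relNorm0 K L ⟨w.asIdeal, mem_nonZeroDivisors_iff_ne_zero.mpr w.ne_bot⟩ =
          ⟨Ideal.relNorm (𝓞 K) w.asIdeal, mem_nonZeroDivisors_iff_ne_zero.mpr
            (fun h => w.ne_bot (Ideal.relNorm_eq_bot_iff.mp h))⟩ := rfl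
      rw [h3] at h2
      rw [h2]
      simp
    exact DFunLike.congr_fun this D

end Fermat.Agent.S14
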