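import Fermat.Agent.S14.AuxSpec
import Fermat.Agent.S14.FISpec
import Fermat.Agent.S14.Artin

/-!
# S14, package GX: the two-prime lemma (Artin's crossing with an auxiliary cyclotomic field)

Assembly of `two_prime` from the leaves of `AuxSpec.lean`, `first_inequality` and `Artin.lean`.
-/

namespace Fermat.Agent.S14

open NumberField IsDedekindDomain

/-- Two coprime natural numbers cannot both lie in a proper ideal. -/
theorem tp_natCast_not_mem {R : Type*} [CommRing R] (I : Ideal R) (hI : I ≠ ⊤) {a b : ℕ}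
    (hab : Nat.Coprime a b) (ha : (a : R) ∈ I) : (b : R) ∉ I := by
  intro hb
  apply hI
  rw [Ideal.eq_top_iff_one]
  obtain ⟨u, w, huw⟩ := Nat.isCoprime_iff_coprime.mpr hab
  have h1 : ((u * (a : ℤ) + w * (b : ℤ) : ℤ) : R) = 1 := by rw [huw]; simp
  rw [← h1]
  push_cast
  exact I.add_mem (I.mul_mem_left _ ha) (I.mul_mem_left _ hb)

/-- A rational prime different from the (prime) norm of a place does not lie in the place. -/
theorem tp_prime_not_mem {K : Type*} [Field K] [NumberField K] (v : HeightOneSpectrum (𝓞 K))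
    {r : ℕ} (hr : r.Prime) (hq : (Ideal.absNorm v.asIdeal).Prime)
    (hne : r ≠ Ideal.absNorm v.asIdeal) : (r : 𝓞 K) ∉ v.asIdeal :=
  tp_natCast_not_mem v.asIdeal v.isPrime.ne_top ((Nat.coprime_primes hq hr).mpr hne.symm)
    (Ideal.absNorm_mem v.asIdeal)

/-- The norm of a place not containing `r` is prime to `r`. -/
theorem tp_coprime_absNorm {F : Type*} [Field F] [NumberField F] (w : HeightOneSpectrum (𝓞 F))
    {r : ℕ} (hr : r.Prime) (hw : (r : 𝓞 F) ∉ w.asIdeal) :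
    Nat.Coprime (Ideal.absNorm w.asIdeal) r := by
  have : w.asIdeal.IsMaximal := w.isMaximal
  obtain ⟨ℓ, n, _, hℓmem, hℓ, hN⟩ := Ideal.exists_prime_and_absNorm_eq_pow w.asIdeal
  rw [hN]
  apply Nat.Coprime.pow_left
  rw [Nat.coprime_primes hℓ hr]
  rintro rfl
  exact hw hℓmem

/-- The Artin symbol as a finite sum. -/
theorem tp_artin_eq_sum {K L : Type*} [Field K] [NumberField K] [Field L] [NumberField L]
    [Algebra K L] [IsGalois K L] {p : ℕ} (ψ : (L ≃ₐ[K] L) →* Multiplicative (ZMod p))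
    (D : Div K) :
    artin K L ψ D =
      D.sum fun v n => (n : ZMod p) * Multiplicative.toAdd (ψ (frobAt K L v)) := by
  simp only [artin, Finsupp.liftAddHom_apply]
  rfl

/-- `p`-th powers die in `Multiplicative (ZMod p)`. -/
theorem tp_pow_eq_one {p : ℕ} (x : Multiplicative (ZMod p)) : x ^ p = 1 := by
  apply Multiplicative.toAdd.injective
  rw [toAdd_pow, toAdd_one, nsmul_eq_mul, ZMod.natCast_self, zero_mul]

/-- KEY STEP: in the crossing extension `C/F` the Artin symbol kills the principal divisors of the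
integers of `F` prime to `r`. -/
theorem tp_artin_integral_eq_zero {p r : ℕ} [Fact p.Prime] [Fact r.Prime] (hp2 : p ≠ 2)
    {F C : Type} [Field F] [NumberField F] [Field C] [NumberField C] [Algebra F C] [IsGalois F C]
    (ψC : (C ≃ₐ[F] C) →* Multiplicative (ZMod p)) (χ : (ZMod r)ˣ →* Multiplicative (ZMod p))
    (hfrobC : ∀ w : HeightOneSpectrum (𝓞 F), (r : 𝓞 F) ∉ w.asIdeal → ∀ u : (ZMod r)ˣ,
      (u : ZMod r) = (Ideal.absNorm w.asIdeal : ZMod r) → ψC (frobAt F C w) = χ u)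
    (heF : ∀ (P : Ideal (𝓞 F)) [P.IsPrime], (r : 𝓞 F) ∈ P → p ∣ P.ramificationIdx ℤ)
    (a : 𝓞 F) (ha : a ≠ 0)
    (har : ∀ w : HeightOneSpectrum (𝓞 F), (r : 𝓞 F) ∈ w.asIdeal → a ∉ w.asIdeal) :
    artin F C ψC (divOf F (a : F)) = 0 := by
  classical
  have hp : p.Prime := Fact.out
  have hr : r.Prime := Fact.out
  set n : Div F := divOf F (a : F) with hn
  have hn_nonneg : ∀ w, 0 ≤ n w := fun w => (divOf_algebraMap_nonneg a ha w).1
  have hn_S : ∀ w : HeightOneSpectrum (𝓞 F), (r : 𝓞 F) ∈ w.asIdeal → n w = 0 := fun w hw =>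
    (divOf_algebraMap_nonneg a ha w).2.mpr (har w hw)
  -- the units `N(w) mod r`
  let u : HeightOneSpectrum (𝓞 F) → (ZMod r)ˣ := fun w =>
    if h : Nat.Coprime (Ideal.absNorm w.asIdeal) r then ZMod.unitOfCoprime _ h else 1
  have hu : ∀ w : HeightOneSpectrum (𝓞 F), (r : 𝓞 F) ∉ w.asIdeal →
      ((u w : (ZMod r)ˣ) : ZMod r) = (Ideal.absNorm w.asIdeal : ZMod r) := by
    intro w hw
    have h := tp_coprime_absNorm w hr hw
    simp only [u, dif_pos h, ZMod.coe_unitOfCoprime]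
  have hsupp : ∀ w ∈ n.support, (r : 𝓞 F) ∉ w.asIdeal := by
    intro w hw hmem
    exact (Finsupp.mem_support_iff.mp hw) (hn_S w hmem)
  set U : (ZMod r)ˣ := ∏ w ∈ n.support, u w ^ (n w).toNat with hU
  -- Step A: the Artin symbol is `χ U`
  have hA : artin F C ψC n = Multiplicative.toAdd (χ U) := by
    rw [tp_artin_eq_sum, Finsupp.sum, hU, map_prod, toAdd_prod]
    refine Finset.sum_congr rfl fun w hw => ?_
    rw [hfrobC w (hsupp w hw) (u w) (hu w (hsupp w hw)), map_pow, toAdd_pow, nsmul_eq_mul]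
    congr 1
    have h1 : ((n w).toNat : ℤ) = n w := Int.toNat_of_nonneg (hn_nonneg w)
    calc ((n w : ℤ) : ZMod p) = (((n w).toNat : ℤ) : ZMod p) := by rw [h1]
      _ = ((n w).toNat : ZMod p) := by push_cast; rfl
  -- Step B: `U` is the class of `|N(a)|`
  have hB : ((U : (ZMod r)ˣ) : ZMod r) = ((Algebra.norm ℤ a).natAbs : ZMod r) := by
    have hN3 := prod_absNorm_pow_divOf (a : F) (by exact_mod_cast ha)
    rw [← hn, Finsupp.prod] at hN3
    have h2 : (∏ w ∈ n.support, (Ideal.absNorm w.asIdeal) ^ (n w).toNat : ℕ) =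
        (Algebra.norm ℤ a).natAbs := by
      have : ((∏ w ∈ n.support, (Ideal.absNorm w.asIdeal) ^ (n w).toNat : ℕ) : ℚ) =
          ((Algebra.norm ℤ a).natAbs : ℚ) := by
        rw [Nat.cast_natAbs, Int.cast_abs, Algebra.coe_norm_int, ← hN3]
        push_cast
        refine Finset.prod_congr rfl fun w _ => ?_
        rw [← zpow_natCast, Int.toNat_of_nonneg (hn_nonneg w)]
      exact_mod_cast this
    rw [← h2, hU]
    push_cast
    refine Finset.prod_congr rfl fun w hw => ?_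
    rw [hu w (hsupp w hw)]
  -- Step C: `|N(a)|` is a `p`-th power mod `r`
  obtain ⟨z, hz⟩ := norm_isPow_of_ramified r p heF a
  have hodd : Odd p := hp.odd_of_ne_two hp2
  have hC : ∃ z' : ZMod r, ((Algebra.norm ℤ a).natAbs : ZMod r) = z' ^ p := by
    rcases Int.natAbs_eq (Algebra.norm ℤ a) with h | h
    · refine ⟨z, ?_⟩
      have h' : ((Algebra.norm ℤ a : ℤ) : ZMod r) = ((Algebra.norm ℤ a).natAbs : ZMod r) := by
        conv_lhs => rw [h]
        simp
      rw [← h', hz]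
    · refine ⟨-z, ?_⟩
      have h' : ((Algebra.norm ℤ a : ℤ) : ZMod r) = -((Algebra.norm ℤ a).natAbs : ZMod r) := by
        conv_lhs => rw [h]
        simp
      rw [hodd.neg_pow, ← hz, h', neg_neg]
  obtain ⟨z', hz'⟩ := hC
  have hunit : IsUnit z' := by
    rw [← isUnit_pow_iff hp.ne_zero, ← hz', ← hB]
    exact U.isUnit
  obtain ⟨Z, rfl⟩ := hunit
  have hUZ : U = Z ^ p := by
    apply Units.ext
    rw [hB, hz', Units.val_pow_eq_pow_val]
  rw [hA, hUZ, map_pow, tp_pow_eq_one, toAdd_one]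

/-- The Artin symbol of `C/F` kills all principal divisors prime to `r`. -/
theorem tp_hrec {p r : ℕ} [Fact p.Prime] [Fact r.Prime] (hp2 : p ≠ 2)
    {F C : Type} [Field F] [NumberField F] [Field C] [NumberField C] [Algebra F C] [IsGalois F C]
    (ψC : (C ≃ₐ[F] C) →* Multiplicative (ZMod p)) (χ : (ZMod r)ˣ →* Multiplicative (ZMod p))
    (hfrobC : ∀ w : HeightOneSpectrum (𝓞 F), (r : 𝓞 F) ∉ w.asIdeal → ∀ u : (ZMod r)ˣ,
      (u : ZMod r) = (Ideal.absNorm w.asIdeal : ZMod r) → ψC (frobAt F C w) = χ u)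
    (heF : ∀ (P : Ideal (𝓞 F)) [P.IsPrime], (r : 𝓞 F) ∈ P → p ∣ P.ramificationIdx ℤ)
    (S : Finset (HeightOneSpectrum (𝓞 F)))
    (hS : ∀ w : HeightOneSpectrum (𝓞 F), (r : 𝓞 F) ∈ w.asIdeal → w ∈ S)
    (y : F) (hy : y ≠ 0) (hyS : ∀ v ∈ S, divOf F y v = 0) :
    artin F C ψC (divOf F y) = 0 := by
  obtain ⟨a, b, ha, hb, haS, hbS, rfl⟩ := exists_coprime_fraction S y hy hyS
  have ha' : (a : F) ≠ 0 := by exact_mod_cast ha
  have hb' : (b : F) ≠ 0 := by exact_mod_cast hb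
  rw [div_eq_mul_inv, divOf_mul _ _ ha' (inv_ne_zero hb'), divOf_inv, map_add, map_neg,
    tp_artin_integral_eq_zero hp2 ψC χ hfrobC heF a ha (fun w hw => haS w (hS w hw)),
    tp_artin_integral_eq_zero hp2 ψC χ hfrobC heF b hb (fun w hw => hbS w (hS w hw)),
    neg_zero, add_zero]

/-- (X) TWO-PRIME LEMMA (Artin's crossing with an auxiliary cyclotomic field of conductor `r`,
arranged so that the diagonal extension is unramified). -/
theorem two_prime {p : ℕ} [Fact p.Prime] (hp2 : p ≠ 2) {K L : Type} [Field K] [NumberField K]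
    [Field L] [NumberField L] [Algebra K L] [IsGalois K L] (hdeg : Module.finrank K L = p)
    {ζ : K} (hζ : IsPrimitiveRoot ζ p) (hunr : IsUnramifiedEverywhere K L)
    (ψ : (L ≃ₐ[K] L) →* Multiplicative (ZMod p)) (hψ : Function.Injective ψ) :
    ∃ B : Finset ℕ, ∀ v v₀ : HeightOneSpectrum (𝓞 K), IsGoodPlace K B v → IsGoodPlace K B v₀ →
      Ideal.absNorm v.asIdeal ≠ Ideal.absNorm v₀.asIdeal →
      artin K L ψ (Finsupp.single v₀ 1) ≠ 0 →
      ∀ d : ℤ, artin K L ψ (Finsupp.single v 1) = d * artin K L ψ (Finsupp.single v₀ 1) →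
      ∃ (x : K) (D : Div L), x ≠ 0 ∧
        Finsupp.single v 1 - d • Finsupp.single v₀ 1 = divOf K x + normDiv K L D := by
  classical
  have hp : p.Prime := Fact.out
  obtain ⟨B₀, hB₀⟩ := exists_finset_ramified L
  refine ⟨insert p B₀, ?_⟩
  intro v v₀ hv hv₀ hne hA₀ d hAd
  set q := Ideal.absNorm v.asIdeal with hqdef
  set q₀ := Ideal.absNorm v₀.asIdeal with hq₀def
  have hq : q.Prime := hv.1
  have hq₀ : q₀.Prime := hv₀.1
  have hqp : q ≠ p := fun h => hv.2 (h ▸ Finset.mem_insert_self _ _)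
  have hq₀p : q₀ ≠ p := fun h => hv₀.2 (h ▸ Finset.mem_insert_self _ _)
  set c₀ : ZMod p := artin K L ψ (Finsupp.single v₀ 1) with hc₀
  -- the auxiliary prime
  obtain ⟨r, hrF, χ, hrB, hrq, hrq₀, hrp, hχsurj, hχq₀, hχq⟩ :=
    exists_aux_prime hp2 hq hq₀ hne hqp hq₀p d c₀ hA₀ (insert p B₀)
  haveI := hrF
  have hr : r.Prime := Fact.out
  have hrL : ∀ (P : Ideal (𝓞 L)) [P.IsPrime], (r : 𝓞 L) ∈ P → P.ramificationIdx ℤ = 1 :=
    hB₀ r hr fun h => hrB (Finset.mem_insert_of_mem h)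
  -- the crossing fields
  obtain ⟨F, _, _, _, C, _, _, _, _, _, _, _, _, ψC, hdegC, hunrC, hψC, hfrobC, heF, hsplit⟩ :=
    exists_crossing_fields hp2 hdeg hunr ψ hψ r hrp hrL χ hχsurj
  -- Frobenius of `v`, `v₀` in terms of `χ`
  have hfv : ∀ u : (ZMod r)ˣ, (u : ZMod r) = (Ideal.absNorm v.asIdeal : ZMod r) →
      ψ (frobAt K L v) = χ u := by
    intro u hu
    apply Multiplicative.toAdd.injective
    rw [hχq u hu, ← hAd, artin_single, Int.cast_one, one_mul]
  have hfv₀ : ∀ u : (ZMod r)ˣ, (u : ZMod r) = (Ideal.absNorm v₀.asIdeal : ZMod r) →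
      ψ (frobAt K L v₀) = χ u := by
    intro u hu
    apply Multiplicative.toAdd.injective
    rw [hχq₀ u hu, hc₀, artin_single, Int.cast_one, one_mul]
  have hrv : (r : 𝓞 K) ∉ v.asIdeal := tp_prime_not_mem v hr hq hrq
  have hrv₀ : (r : 𝓞 K) ∉ v₀.asIdeal := tp_prime_not_mem v₀ hr hq₀ hrq₀
  obtain ⟨w, hwv, hwN⟩ := hsplit v hrv hfv
  obtain ⟨w₀, hw₀v, hw₀N⟩ := hsplit v₀ hrv₀ hfv₀
  have hrw : (r : 𝓞 F) ∉ w.asIdeal := tp_prime_not_mem w hr (hwN ▸ hq) (hwN ▸ hrq)
  have hrw₀ : (r : 𝓞 F) ∉ w₀.asIdeal := tp_prime_not_mem w₀ hr (hw₀N ▸ hq₀) (hw₀N ▸ hrq₀)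
  -- units representing `q`, `q₀` mod `r`
  have hcq : Nat.Coprime q r := (Nat.coprime_primes hq hr).mpr (Ne.symm hrq)
  have hcq₀ : Nat.Coprime q₀ r := (Nat.coprime_primes hq₀ hr).mpr (Ne.symm hrq₀)
  -- Frobenius of `w`, `w₀`
  have hfw : Multiplicative.toAdd (ψC (frobAt F C w)) = (d : ZMod p) * c₀ := by
    rw [hfrobC w hrw (ZMod.unitOfCoprime q hcq) (by rw [ZMod.coe_unitOfCoprime, hwN])]
    exact hχq _ (ZMod.coe_unitOfCoprime q hcq)
  have hfw₀ : Multiplicative.toAdd (ψC (frobAt F C w₀)) = c₀ := by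
    rw [hfrobC w₀ hrw₀ (ZMod.unitOfCoprime q₀ hcq₀) (by rw [ZMod.coe_unitOfCoprime, hw₀N])]
    exact hχq₀ _ (ZMod.coe_unitOfCoprime q₀ hcq₀)
  -- the exceptional set
  have hrne : Ideal.span {(r : 𝓞 F)} ≠ 0 := by
    rw [Ne, Ideal.zero_eq_bot, Ideal.span_singleton_eq_bot]
    exact_mod_cast hr.ne_zero
  set S : Finset (HeightOneSpectrum (𝓞 F)) := (Ideal.finite_factors hrne).toFinset with hSdef
  have hS : ∀ w' : HeightOneSpectrum (𝓞 F), (r : 𝓞 F) ∈ w'.asIdeal ↔ w' ∈ S := by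
    intro w'
    rw [hSdef, Set.Finite.mem_toFinset, Set.mem_setOf_eq, Ideal.dvd_iff_le,
      Ideal.span_singleton_le_iff_mem]
  -- the divisor of `F`
  set DF : Div F := Finsupp.single w 1 - d • Finsupp.single w₀ 1 with hDF
  have hDS : ∀ v' ∈ S, DF v' = 0 := by
    intro v' hv'
    have h1 : v' ≠ w := fun h => hrw (h ▸ (hS v').mpr hv')
    have h2 : v' ≠ w₀ := fun h => hrw₀ (h ▸ (hS v').mpr hv')
    simp [hDF, h1.symm, h2.symm]
  have hDA : artin F C ψC DF = 0 := by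
    rw [hDF, map_sub, map_zsmul, artin_single, artin_single, hfw, hfw₀]
    simp
  obtain ⟨y, E, hy, hDeq⟩ := first_inequality hdegC hunrC ψC hψC S
    (fun y hy hyS => tp_hrec hp2 ψC χ hfrobC heF S (fun w' hw' => (hS w').mp hw') y hy hyS)
    DF hDS hDA
  -- push down to `K`
  have hf1 : ∀ (w' : HeightOneSpectrum (𝓞 F)) (v' : HeightOneSpectrum (𝓞 K)),
      placeBelow K F w' = v' → Ideal.absNorm w'.asIdeal = Ideal.absNorm v'.asIdeal →
      normDiv K F (Finsupp.single w' 1) = Finsupp.single v' 1 := by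
    intro w' v' hwv' hN
    have h1 := absNorm_eq_pow_inertiaDeg K F w'
    rw [hwv', hN] at h1
    have h2 : w'.asIdeal.inertiaDeg (𝓞 K) = 1 := by
      have hlt : 1 < Ideal.absNorm v'.asIdeal := artin_one_lt_absNorm K v'
      have h3 : Ideal.absNorm v'.asIdeal ^ w'.asIdeal.inertiaDeg (𝓞 K) =
          Ideal.absNorm v'.asIdeal ^ 1 := by rw [pow_one]; exact h1.symm
      exact Nat.pow_right_injective hlt h3
    rw [normDiv_single, hwv', h2]
    simp
  refine ⟨Algebra.norm K y, normDiv L C E, ?_, ?_⟩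
  · exact Algebra.norm_ne_zero_iff.mpr hy
  · have h3 := congrArg (normDiv K F) hDeq
    rw [hDF, map_sub, map_zsmul, hf1 w v hwv hwN, hf1 w₀ v₀ hw₀v hw₀N, map_add,
      normDiv_divOf y hy, normDiv_normDiv (K := K) (L := F) (C := C) E,
      ← normDiv_normDiv (K := K) (L := L) (C := C) E] at h3
    exact h3

end Fermat.Agent.S14
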