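import Fermat.Agent.S14.Defs
import Fermat.Agent.S14.Density
import Fermat.Agent.S14.FISpec
import Fermat.Agent.S14.TwoPrime
import Fermat.Agent.S14.SecondIneq

/-!
# S14: interface statements of the class-field-theoretic core (spec file, to be replaced by proofs)

Setting `(S)`: `p` odd prime, `K L` number fields, `L/K` Galois of degree `p` (hence cyclic),
`ζ_p ∈ K`, `L/K` unramified at every finite prime, `ψ : Gal(L/K) → ℤ/p` injective.
-/

namespace Fermat.Agent.S14

open NumberField IsDedekindDomain

end Fermat.Agent.S14
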