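import Mathlib

/-!
# S14 (D3a): Euler product over a free commutative monoid `ι →₀ ℕ`

For `z : ι → ℂ`, put `w f = ∏ i, z i ^ f i` for `f : ι →₀ ℕ`.  If `‖w ·‖` is summable then
`∑' f, w f = ∏' i, (1 - z i)⁻¹ = exp (∑' i, -log (1 - z i))`.
(Mathlib has this only for `ℕ` with its prime factorisation.)
-/

set_option autoImplicit false

namespace Fermat.Agent.S14

open Filter Topology

section

open scoped Classical

variable {ι : Type*}

/-- The weight `∏ i, z i ^ f i` of a finitely supported exponent vector. -/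
noncomputable def fsWeight (z : ι → ℂ) (f : ι →₀ ℕ) : ℂ := f.prod fun i e => z i ^ e

theorem fsWeight_zero (z : ι → ℂ) : fsWeight z 0 = 1 := by
  simp [fsWeight]

theorem fsWeight_add (z : ι → ℂ) (f g : ι →₀ ℕ) :
    fsWeight z (f + g) = fsWeight z f * fsWeight z g := by
  unfold fsWeight
  exact Finsupp.prod_add_index' (fun i => pow_zero _) (fun i a b => pow_add _ a b)

theorem fsWeight_single (z : ι → ℂ) (i : ι) (e : ℕ) :
    fsWeight z (Finsupp.single i e) = z i ^ e := by
  unfold fsWeight
  exact Finsupp.prod_single_index (pow_zero _)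

/-- Exponent vectors supported in `s`. -/
def fsSupp (s : Finset ι) : Set (ι →₀ ℕ) := {f | f.support ⊆ s}

theorem fsSupp_empty : fsSupp (∅ : Finset ι) = {0} := by
  ext f
  simp [fsSupp, Finset.subset_empty]

/-- `(e, g) ↦ g + single i e` from `ℕ × fsSupp s` to `fsSupp (insert i s)`. -/
noncomputable def fsInsert (i : ι) (s : Finset ι) (x : ℕ × fsSupp s) : fsSupp (insert i s) :=
  ⟨x.2.1 + Finsupp.single i x.1, by
    have h2 : x.2.1.support ⊆ s := x.2.2
    intro j hj
    have := Finsupp.support_add hj
    rw [Finset.mem_union] at this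
    rcases this with h | h
    · exact Finset.mem_insert_of_mem (h2 h)
    · have := Finsupp.support_single_subset h
      rw [Finset.mem_singleton] at this
      rw [this]
      exact Finset.mem_insert_self _ _⟩

theorem fsInsert_bijective {i : ι} {s : Finset ι} (hi : i ∉ s) :
    Function.Bijective (fsInsert i s) := by
  constructor
  · rintro ⟨e, g, hg⟩ ⟨e', g', hg'⟩ h
    have h1 : g + Finsupp.single i e = g' + Finsupp.single i e' := congrArg Subtype.val h
    have hgi : g i = 0 := by
      by_contra h0
      exact hi (hg (Finsupp.mem_support_iff.mpr h0))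
    have hgi' : g' i = 0 := by
      by_contra h0
      exact hi (hg' (Finsupp.mem_support_iff.mpr h0))
    have he : e = e' := by
      have := DFunLike.congr_fun h1 i
      simpa [hgi, hgi'] using this
    subst he
    have hgg : g = g' := add_right_cancel h1
    subst hgg
    rfl
  · rintro ⟨h, hh⟩
    refine ⟨⟨h i, h.erase i, ?_⟩, ?_⟩
    · intro j hj
      rw [Finsupp.support_erase, Finset.mem_erase] at hj
      have := hh hj.2
      rw [Finset.mem_insert] at this
      exact this.resolve_left hj.1
    · apply Subtype.ext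
      exact Finsupp.erase_add_single i h

theorem fsWeight_fsInsert (z : ι → ℂ) (i : ι) (s : Finset ι) (x : ℕ × fsSupp s) :
    fsWeight z (fsInsert i s x : ι →₀ ℕ) = z i ^ x.1 * fsWeight z (x.2 : ι →₀ ℕ) := by
  show fsWeight z (x.2.1 + Finsupp.single i x.1) = _
  rw [fsWeight_add, fsWeight_single, mul_comm]

theorem fs_norm_lt_one {z : ι → ℂ} (hsum : Summable fun f : ι →₀ ℕ => ‖fsWeight z f‖) (i : ι) :
    ‖z i‖ < 1 := by
  have hinj : Function.Injective (fun e : ℕ => Finsupp.single i (e + 1)) := by
    intro a b h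
    have := Finsupp.single_injective i h
    omega
  have h1 := hsum.comp_injective hinj
  have h2 : Summable fun e : ℕ => ‖z i‖ ^ (e + 1) := by
    refine h1.congr fun e => ?_
    show ‖fsWeight z (Finsupp.single i (e + 1))‖ = _
    rw [fsWeight_single, norm_pow]
  have h3 : Summable fun e : ℕ => ‖z i‖ ^ e := (summable_nat_add_iff 1).mp h2
  rw [summable_geometric_iff_norm_lt_one] at h3
  simpa using h3

/-- Finite Euler product: the sum of the weights over the exponent vectors supported in `s`. -/
theorem fs_hasSum_fsSupp {z : ι → ℂ} (hsum : Summable fun f : ι →₀ ℕ => ‖fsWeight z f‖)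
    (s : Finset ι) :
    HasSum (fun f : fsSupp s => fsWeight z (f : ι →₀ ℕ)) (∏ i ∈ s, (1 - z i)⁻¹) := by
  induction s using Finset.induction with
  | empty =>
    rw [fsSupp_empty, Finset.prod_empty]
    have := hasSum_singleton (0 : ι →₀ ℕ) (fsWeight z)
    rwa [fsWeight_zero] at this
  | insert i s hi ih =>
    rw [Finset.prod_insert hi, ← (Equiv.ofBijective _ (fsInsert_bijective hi)).hasSum_iff]
    have hfun : (fun f : fsSupp (insert i s) => fsWeight z (f : ι →₀ ℕ)) ∘
        (Equiv.ofBijective _ (fsInsert_bijective hi)) =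
        fun x : ℕ × fsSupp s => z i ^ x.1 * fsWeight z (x.2 : ι →₀ ℕ) := by
      funext x
      exact fsWeight_fsInsert z i s x
    rw [hfun]
    have hgeo : HasSum (fun e : ℕ => z i ^ e) (1 - z i)⁻¹ :=
      hasSum_geometric_of_norm_lt_one (fs_norm_lt_one hsum i)
    have hn1 : Summable fun e : ℕ => ‖z i ^ e‖ := by
      simp only [norm_pow]
      exact summable_geometric_of_lt_one (norm_nonneg _) (fs_norm_lt_one hsum i)
    have hn2 : Summable fun f : fsSupp s => ‖fsWeight z (f : ι →₀ ℕ)‖ :=
      hsum.subtype _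
    have hprod : Summable fun x : ℕ × fsSupp s =>
        (fun e : ℕ => z i ^ e) x.1 * (fun f : fsSupp s => fsWeight z (f : ι →₀ ℕ)) x.2 :=
      summable_mul_of_summable_norm (f := fun e : ℕ => z i ^ e)
        (g := fun f : fsSupp s => fsWeight z (f : ι →₀ ℕ)) hn1 hn2
    exact HasSum.mul (f := fun e : ℕ => z i ^ e)
      (g := fun f : fsSupp s => fsWeight z (f : ι →₀ ℕ)) hgeo ih hprod

/-- Euler product over `ι →₀ ℕ`, `HasProd` version. -/
theorem fs_hasProd {z : ι → ℂ} (hsum : Summable fun f : ι →₀ ℕ => ‖fsWeight z f‖) :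
    HasProd (fun i => (1 - z i)⁻¹) (∑' f : ι →₀ ℕ, fsWeight z f) := by
  rw [HasProd, SummationFilter.unconditional, Metric.tendsto_atTop]
  intro ε hε
  obtain ⟨T, hT⟩ := hsum.of_norm.tsum_vanishing (Metric.ball_mem_nhds (0 : ℂ) hε)
  refine ⟨T.biUnion fun f => f.support, fun s hs => ?_⟩
  rw [← (fs_hasSum_fsSupp hsum s).tsum_eq, dist_eq_norm,
    ← hsum.of_norm.tsum_subtype_add_tsum_subtype_compl (fsSupp s), sub_add_cancel_left, norm_neg]
  have hdisj : Disjoint (fsSupp s)ᶜ (T : Set (ι →₀ ℕ)) := by
    rw [Set.disjoint_left]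
    intro f hf hfT
    apply hf
    intro j hj
    exact hs (Finset.mem_biUnion.mpr ⟨f, hfT, hj⟩)
  have := hT _ hdisj
  rwa [mem_ball_zero_iff] at this

theorem fs_summable_norm {z : ι → ℂ} (hsum : Summable fun f : ι →₀ ℕ => ‖fsWeight z f‖) :
    Summable fun i => ‖z i‖ := by
  have hinj : Function.Injective (fun i : ι => Finsupp.single i 1) := by
    intro a b h
    have := congrArg Finsupp.support h
    rw [Finsupp.support_single_ne_zero _ one_ne_zero, Finsupp.support_single_ne_zero _ one_ne_zero,
      Finset.singleton_inj] at this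
    exact this
  refine (hsum.comp_injective hinj).congr fun i => ?_
  show ‖fsWeight z (Finsupp.single i 1)‖ = _
  rw [fsWeight_single, pow_one]

/-- Euler product over `ι →₀ ℕ`, exponential-logarithmic version. -/
theorem fs_exp_tsum_log {z : ι → ℂ} (hsum : Summable fun f : ι →₀ ℕ => ‖fsWeight z f‖) :
    Complex.exp (∑' i, -Complex.log (1 - z i)) = ∑' f : ι →₀ ℕ, fsWeight z f := by
  have hz : Summable z := (fs_summable_norm hsum).of_norm
  have hne (i : ι) : 1 - z i ≠ 0 := by
    intro h
    have h1 := fs_norm_lt_one hsum i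
    rw [← sub_eq_zero.mp h, norm_one] at h1
    exact lt_irrefl _ h1
  have H := hz.clog_one_sub.neg.hasSum.cexp.tprod_eq
  simp only [Function.comp_apply, Complex.exp_neg, Complex.exp_log (hne _)] at H
  rw [← H]
  exact (fs_hasProd hsum).tprod_eq

end

end Fermat.Agent.S14
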