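import Mathlib
import Fermat.Agent.S14.FinsuppEuler

/-!
# S14 (D3a): Euler product over the nonzero ideals of a Dedekind domain

For a multiplicative `Φ : Ideal R →*₀ ℂ` with `∑ ‖Φ I‖ < ∞`,
`∑' I, Φ I = exp (∑' v, -log (1 - Φ v))`, `v` running over the height one primes.
-/

set_option autoImplicit false

namespace Fermat.Agent.S14

open IsDedekindDomain

section

variable {R : Type*} [CommRing R] [IsDedekindDomain R]

/-- The ideal `∏ v ^ f v` attached to an exponent vector. -/
noncomputable def fsIdeal (f : HeightOneSpectrum R →₀ ℕ) : Ideal R :=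
  f.prod fun v e => v.asIdeal ^ e

theorem fsIdeal_ne_bot (f : HeightOneSpectrum R →₀ ℕ) : fsIdeal f ≠ ⊥ := by
  unfold fsIdeal Finsupp.prod
  rw [← Ideal.zero_eq_bot, Finset.prod_ne_zero_iff]
  intro v _
  exact pow_ne_zero _ v.ne_bot

theorem count_fsIdeal (f : HeightOneSpectrum R →₀ ℕ) (v : HeightOneSpectrum R) :
    FractionalIdeal.count (FractionRing R) v
      ((fsIdeal f : Ideal R) : FractionalIdeal (nonZeroDivisors R) (FractionRing R)) = f v := by
  classical
  unfold fsIdeal Finsupp.prod
  have h1 : ((∏ w ∈ f.support, w.asIdeal ^ f w : Ideal R) :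
      FractionalIdeal (nonZeroDivisors R) (FractionRing R)) =
      ∏ w ∈ f.support, ((w.asIdeal : FractionalIdeal (nonZeroDivisors R) (FractionRing R))) ^ f w := by
    rw [← FractionalIdeal.coeIdealHom_apply, map_prod]
    refine Finset.prod_congr rfl fun w _ => ?_
    rw [FractionalIdeal.coeIdealHom_apply, FractionalIdeal.coeIdeal_pow]
  rw [h1, FractionalIdeal.count_prod]
  · simp only [FractionalIdeal.count_pow, FractionalIdeal.count_maximal, mul_ite, mul_one, mul_zero]
    rw [Finset.sum_ite_eq']
    split_ifs with h
    · rfl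
    · rw [Finsupp.notMem_support_iff.mp h]; rfl
  · intro w _
    exact pow_ne_zero _ (FractionalIdeal.coeIdeal_ne_zero.mpr w.ne_bot)

theorem fsIdeal_injective : Function.Injective (fsIdeal (R := R)) := by
  intro f g h
  ext v
  have h1 := count_fsIdeal f v
  rw [h, count_fsIdeal g v] at h1
  exact_mod_cast h1.symm

theorem exists_fsIdeal_eq {I : Ideal R} (hI : I ≠ ⊥) : ∃ f, fsIdeal f = I := by
  classical
  have hfin := Associates.finite_factors hI
  rw [Filter.eventually_cofinite] at hfin
  let c : HeightOneSpectrum R → ℕ := fun v =>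
    (Associates.mk v.asIdeal).count (Associates.mk I).factors
  have hfin' : (Function.support c).Finite := by
    refine hfin.subset fun v hv => ?_
    simp only [Function.mem_support, c] at hv
    simpa using hv
  refine ⟨Finsupp.ofSupportFinite c hfin', ?_⟩
  have h2 := Ideal.finprod_heightOneSpectrum_factorization hI
  rw [← h2]
  unfold fsIdeal Finsupp.prod
  rw [finprod_eq_prod_of_mulSupport_subset (s := (Finsupp.ofSupportFinite c hfin').support)]
  · rfl
  · intro v hv
    rw [Function.mem_mulSupport] at hv
    rw [Finset.mem_coe, Finsupp.mem_support_iff]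
    intro h0
    apply hv
    have : c v = 0 := h0
    show v.asIdeal ^ c v = 1
    rw [this, pow_zero]

theorem range_fsIdeal : Set.range (fsIdeal (R := R)) = {I | I ≠ ⊥} := by
  ext I
  constructor
  · rintro ⟨f, rfl⟩
    exact fsIdeal_ne_bot f
  · intro hI
    exact exists_fsIdeal_eq hI

theorem map_fsIdeal (Φ : Ideal R →*₀ ℂ) (f : HeightOneSpectrum R →₀ ℕ) :
    Φ (fsIdeal f) = fsWeight (fun v => Φ v.asIdeal) f := by
  unfold fsIdeal fsWeight
  rw [map_finsuppProd]
  simp only [map_pow]

/-- **Euler product** over the nonzero ideals of a Dedekind domain, exponential-logarithmic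
version. -/
theorem exp_tsum_heightOneSpectrum_log_eq_tsum (Φ : Ideal R →*₀ ℂ)
    (hsum : Summable fun I : Ideal R => ‖Φ I‖) :
    Complex.exp (∑' v : HeightOneSpectrum R, -Complex.log (1 - Φ v.asIdeal)) =
      ∑' I : Ideal R, Φ I := by
  have h1 : Summable fun f : HeightOneSpectrum R →₀ ℕ => ‖fsWeight (fun v => Φ v.asIdeal) f‖ := by
    refine (hsum.comp_injective fsIdeal_injective).congr fun f => ?_
    simp only [Function.comp_apply, map_fsIdeal]
  rw [fs_exp_tsum_log h1]
  have h2 : Function.support (fun I : Ideal R => Φ I) ⊆ Set.range (fsIdeal (R := R)) := by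
    intro I hI
    rw [range_fsIdeal]
    intro h0
    apply hI
    show Φ I = 0
    rw [h0, ← Ideal.zero_eq_bot, map_zero]
  rw [← fsIdeal_injective.tsum_eq h2]
  exact tsum_congr fun f => (map_fsIdeal Φ f).symm

/-- The height one primes inject into the ideals: summability over ideals gives summability
over primes. -/
theorem summable_heightOneSpectrum_of_summable_ideal {g : Ideal R → ℝ} (hg : Summable g) :
    Summable fun v : HeightOneSpectrum R => g v.asIdeal := by
  refine hg.comp_injective ?_
  intro v w h
  exact HeightOneSpectrum.ext h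

end

end Fermat.Agent.S14
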