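import Fermat.Agent.S14.PrimeSumsDefs
import Fermat.Agent.S14.EulerIdeal

/-!
# S14 (D3, layer L2): sums over the ideals of a number field

* `summable_absNorm_rpow` : `∑_I N(I)^(-s)` converges for `s > 1`;
* `tsum_ideal_eq_LSeries` : `∑_I F I · N(I)^(-s) = LSeries (idealCoeff K F) s` for bounded `F`;
* `LSeries_idealCoeff_one` : for `F = 1` this is the Dedekind zeta function.
-/

set_option autoImplicit false

namespace Fermat.Agent.S14

open NumberField IsDedekindDomain Filter Topology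

section

variable (K : Type*) [Field K] [NumberField K]

/-- The number of ideals of norm `n`, as a real number. -/
noncomputable def idealCount (n : ℕ) : ℝ := Nat.card {I : Ideal (𝓞 K) // Ideal.absNorm I = n}

instance idealSums_finite (n : ℕ) : Finite {I : Ideal (𝓞 K) // Ideal.absNorm I = n} :=
  (Ideal.finite_setOfPred_absNorm_eq (S := 𝓞 K) n).to_subtype

theorem idealSums_tendsto_count :
    Tendsto (fun n : ℕ => (∑ k ∈ Finset.Icc 1 n, idealCount K k) / (n : ℝ)) atTop
      (𝓝 (dedekindZeta_residue K)) := by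
  refine ((Ideal.tendsto_norm_le_div_atTop₀ K).comp tendsto_natCast_atTop_atTop).congr fun n ↦ ?_
  simp only [Function.comp_apply, Nat.cast_le, idealCount, ← Nat.cast_sum]
  congr
  rw [← add_left_inj 1, ← Ideal.card_norm_le_eq_card_norm_le_add_one,
    show Finset.Icc 1 n = Finset.Ioc 0 n from Finset.Icc_succ_left_eq_Ioc _ _,
    show 1 = Nat.card {I : Ideal (𝓞 K) // Ideal.absNorm I = 0} by
      simp [Ideal.absNorm_eq_zero_iff],
    Finset.sum_Ioc_add_eq_sum_Icc (n.zero_le),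
    ← Finset.card_preimage_eq_sum_card_image_eq
      (fun k _ ↦ Ideal.finite_setOfPred_absNorm_eq k)]
  simp [Set.coe_eq_subtype]

theorem idealSums_lseriesSummable_count {s : ℝ} (hs : 1 < s) :
    LSeriesSummable (fun n => (idealCount K n : ℂ)) (s : ℂ) := by
  refine LSeriesSummable_of_sum_norm_bigO_and_nonneg ?_ (fun n => Nat.cast_nonneg _)
    zero_le_one (by simpa using hs)
  exact Asymptotics.isBigO_atTop_natCast_rpow_of_tendsto_div_rpow
    (by simpa using idealSums_tendsto_count K)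

/-- Sums of nonnegative functions over ideals can be computed norm by norm. -/
theorem idealSums_summable_iff_of_nonneg {g : Ideal (𝓞 K) → ℝ} (hg : ∀ I, 0 ≤ g I) :
    Summable g ↔
      Summable fun n : ℕ => ∑' I : {I : Ideal (𝓞 K) // Ideal.absNorm I = n}, g I := by
  rw [← (Equiv.sigmaFiberEquiv (fun I : Ideal (𝓞 K) => Ideal.absNorm I)).summable_iff,
    summable_sigma_of_nonneg
      (f := g ∘ (Equiv.sigmaFiberEquiv (fun I : Ideal (𝓞 K) => Ideal.absNorm I))) (fun x => hg _)]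
  simp only [Function.comp_apply, Equiv.sigmaFiberEquiv_apply]
  constructor
  · intro h
    exact h.2
  · intro h
    exact ⟨fun n => Summable.of_finite, h⟩

theorem summable_absNorm_rpow {s : ℝ} (hs : 1 < s) :
    Summable fun I : Ideal (𝓞 K) => (Ideal.absNorm I : ℝ) ^ (-s) := by
  rw [idealSums_summable_iff_of_nonneg K (fun I => Real.rpow_nonneg (Nat.cast_nonneg _) _)]
  have h1 := (idealSums_lseriesSummable_count K hs).norm
  refine h1.congr fun n => ?_
  rw [LSeries.norm_term_eq]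
  have h2 : ∑' I : {I : Ideal (𝓞 K) // Ideal.absNorm I = n}, ((Ideal.absNorm I.1 : ℕ) : ℝ) ^ (-s) =
      idealCount K n * (n : ℝ) ^ (-s) := by
    have : ∀ I : {I : Ideal (𝓞 K) // Ideal.absNorm I = n},
        ((Ideal.absNorm I.1 : ℕ) : ℝ) ^ (-s) = (n : ℝ) ^ (-s) := fun I => by rw [I.2]
    simp_rw [this]
    haveI := Fintype.ofFinite {I : Ideal (𝓞 K) // Ideal.absNorm I = n}
    rw [tsum_fintype, Finset.sum_const, Finset.card_univ, nsmul_eq_mul, idealCount,
      Nat.card_eq_fintype_card]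
  rw [h2]
  split_ifs with hn
  · rw [hn, Nat.cast_zero, Real.zero_rpow (by linarith), mul_zero]
  · have h3 : ‖((idealCount K n : ℝ) : ℂ)‖ = idealCount K n := by
      rw [Complex.norm_real,
        Real.norm_of_nonneg (show (0 : ℝ) ≤ idealCount K n from Nat.cast_nonneg _)]
    rw [Complex.ofReal_re, h3, Real.rpow_neg (Nat.cast_nonneg _), div_eq_mul_inv]

theorem idealSums_norm_natCast_cpow (n : ℕ) {s : ℝ} (hs : 0 < s) :
    ‖(n : ℂ) ^ (-(s : ℂ))‖ = (n : ℝ) ^ (-s) := by
  rcases Nat.eq_zero_or_pos n with rfl | hn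
  · rw [Nat.cast_zero, Nat.cast_zero, Real.zero_rpow (by linarith),
      Complex.zero_cpow (by simpa using hs.ne'), norm_zero]
  · rw [Complex.norm_natCast_cpow_of_pos hn]
    simp

/-- `∑_I ‖F I · N(I)^(-s)‖` converges for bounded `F` and `s > 1`. -/
theorem summable_norm_ideal_mul_cpow {F : Ideal (𝓞 K) → ℂ} (hF : ∀ I, ‖F I‖ ≤ 1) {s : ℝ}
    (hs : 1 < s) :
    Summable fun I : Ideal (𝓞 K) => ‖F I * ((Ideal.absNorm I : ℕ) : ℂ) ^ (-(s : ℂ))‖ := by
  refine Summable.of_nonneg_of_le (fun I => norm_nonneg _) (fun I => ?_)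
    (summable_absNorm_rpow K hs)
  rw [norm_mul, idealSums_norm_natCast_cpow _ (by linarith)]
  exact mul_le_of_le_one_left (Real.rpow_nonneg (Nat.cast_nonneg _) _) (hF I)

/-- Sums over ideals are L-series: `∑_I F I · N(I)^(-s) = LSeries (idealCoeff K F) s`. -/
theorem tsum_ideal_eq_LSeries {F : Ideal (𝓞 K) → ℂ} (hF : ∀ I, ‖F I‖ ≤ 1) {s : ℝ} (hs : 1 < s) :
    ∑' I : Ideal (𝓞 K), F I * ((Ideal.absNorm I : ℕ) : ℂ) ^ (-(s : ℂ)) =
      LSeries (idealCoeff K F) (s : ℂ) := by
  have hsum : Summable fun I : Ideal (𝓞 K) => F I * ((Ideal.absNorm I : ℕ) : ℂ) ^ (-(s : ℂ)) :=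
    (summable_norm_ideal_mul_cpow K hF hs).of_norm
  set e := Equiv.sigmaFiberEquiv (fun I : Ideal (𝓞 K) => Ideal.absNorm I) with he
  have hsum' : Summable fun p : (Σ n : ℕ, {I : Ideal (𝓞 K) // Ideal.absNorm I = n}) =>
      F (e p) * ((Ideal.absNorm (e p) : ℕ) : ℂ) ^ (-(s : ℂ)) := e.summable_iff.mpr hsum
  rw [← e.tsum_eq, Summable.tsum_sigma' (fun n => Summable.of_finite) hsum']
  unfold LSeries
  refine tsum_congr fun n => ?_
  have h1 : ∀ I : {I : Ideal (𝓞 K) // Ideal.absNorm I = n},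
      F (e ⟨n, I⟩) * ((Ideal.absNorm (e ⟨n, I⟩) : ℕ) : ℂ) ^ (-(s : ℂ)) =
        F I.1 * (n : ℂ) ^ (-(s : ℂ)) := by
    intro I
    simp only [he, Equiv.sigmaFiberEquiv_apply, I.2]
  simp_rw [h1]
  rw [tsum_mul_right, tsum_eq_finsum (Set.toFinite _)]
  change idealCoeff K F n * (n : ℂ) ^ (-(s : ℂ)) = _
  rw [LSeries.term_def]
  split_ifs with hn
  · rw [hn, Nat.cast_zero, Complex.zero_cpow (by simpa using (show s ≠ 0 by linarith)), mul_zero]
  · rw [Complex.cpow_neg, div_eq_mul_inv]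

end

end Fermat.Agent.S14
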