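import Mathlib
import Fermat.Agent.S14.LatticeCount

/-!
# S14, package D2(a): the frontier of `normLeOne K` is Lipschitz-covered in dimension `n - 1`
-/

set_option autoImplicit false
set_option linter.unusedSectionVars false

noncomputable section

namespace Fermat.Agent.S14

open scoped Classical

section General

variable {κ : Type*} [Fintype κ]

/-- Clamping to the unit cube. -/
def lcClamp (u : κ → ℝ) : κ → ℝ := fun k => max 0 (min 1 (u k))

theorem lcClamp_mem (u : κ → ℝ) : lcClamp u ∈ Set.Icc (0 : κ → ℝ) 1 := by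
  constructor
  · intro k
    exact le_max_left _ _
  · intro k
    exact max_le zero_le_one (min_le_left _ _)

theorem lcClamp_of_mem {u : κ → ℝ} (hu : u ∈ Set.Icc (0 : κ → ℝ) 1) : lcClamp u = u := by
  funext k
  have h0 : 0 ≤ u k := hu.1 k
  have h1 : u k ≤ 1 := hu.2 k
  simp [lcClamp, min_eq_right h1, max_eq_right h0]

theorem lipschitzWith_lcClamp : LipschitzWith 1 (lcClamp : (κ → ℝ) → κ → ℝ) := by
  refine LipschitzWith.of_dist_le_mul fun u v => ?_
  rw [NNReal.coe_one, one_mul, dist_pi_le_iff dist_nonneg]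
  intro k
  have h := ((LipschitzWith.id (α := ℝ)).const_min 1).const_max 0
  have h2 := h.dist_le_mul (u k) (v k)
  rw [NNReal.coe_one, one_mul] at h2
  exact h2.trans (dist_le_pi_dist u v k)

/-- A set covered by a finite family of images of unit cubes (of the same dimension `d`, with
arbitrary index types) under maps which are Lipschitz on the cubes is Lipschitz-covered. -/
theorem isLipschitzCovered_of_family {E : Type*} [PseudoEMetricSpace E] {d : ℕ} {A : Set E}
    {J : Type*} [Finite J] {κ : J → Type*} [∀ j, Fintype (κ j)]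
    (hκ : ∀ j, Fintype.card (κ j) = d) (ψ : ∀ j, (κ j → ℝ) → E)
    (hψ : ∀ j, ∃ M : NNReal, LipschitzOnWith M (ψ j) (Set.Icc 0 1))
    (hA : A ⊆ ⋃ j, ψ j '' Set.Icc 0 1) : IsLipschitzCovered d A := by
  have : Fintype J := Fintype.ofFinite J
  choose Mj hMj using hψ
  let e : ∀ j, Fin d ≃ κ j := fun j => Fintype.equivOfCardEq (by rw [Fintype.card_fin, hκ j])
  let M : NNReal := Finset.univ.sup Mj
  let f := Fintype.equivFin J
  -- the reindexing map `(Fin d → ℝ) → (κ j → ℝ)`, composed with the clamp
  let c : ∀ j, (Fin d → ℝ) → (κ j → ℝ) := fun j u => lcClamp fun k => u ((e j).symm k)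
  have hc_mem : ∀ j u, c j u ∈ Set.Icc (0 : κ j → ℝ) 1 := fun j u => lcClamp_mem _
  have hc_lip : ∀ j, LipschitzWith 1 (c j) := by
    intro j
    have h1 : LipschitzWith 1 (fun (u : Fin d → ℝ) (k : κ j) => u ((e j).symm k)) := by
      refine LipschitzWith.of_dist_le_mul fun u v => ?_
      rw [NNReal.coe_one, one_mul, dist_pi_le_iff dist_nonneg]
      intro k
      exact dist_le_pi_dist u v _
    have := lipschitzWith_lcClamp.comp h1
    rw [one_mul] at this
    exact this
  have hφ : ∀ j, LipschitzWith M (fun u => ψ j (c j u)) := by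
    intro j
    have h1 : LipschitzOnWith (Mj j * 1) ((ψ j) ∘ (c j)) Set.univ :=
      (hMj j).comp (hc_lip j).lipschitzOnWith fun u _ => hc_mem j u
    rw [lipschitzOnWith_univ, mul_one] at h1
    exact h1.weaken (Finset.le_sup (f := Mj) (Finset.mem_univ j))
  refine ⟨Fintype.card J, fun i u => ψ (f.symm i) (c (f.symm i) u), M, fun i => hφ _, ?_⟩
  intro x hx
  obtain ⟨j, v, hv, rfl⟩ := Set.mem_iUnion.mp (hA hx)
  have key : ∀ j' (_ : j' = j), ∃ u ∈ Set.Icc (0 : Fin d → ℝ) 1, ψ j' (c j' u) = ψ j v := by
    rintro j' rfl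
    refine ⟨fun i => v (e j' i), ⟨fun i => hv.1 _, fun i => hv.2 _⟩, ?_⟩
    congr 1
    have : (fun k => v (e j' ((e j').symm k))) = v := by
      funext k
      rw [Equiv.apply_symm_apply]
    show lcClamp (fun k => v (e j' ((e j').symm k))) = v
    rw [this, lcClamp_of_mem hv]
  obtain ⟨u, hu, hux⟩ := key (f.symm (f j)) (f.symm_apply_apply j)
  exact Set.mem_iUnion.mpr ⟨f j, u, hu, hux⟩

/-- Insert the value `a` at the coordinate `p₀`. -/
def lcIns {P : Type*} (p₀ : P) (a : ℝ) (u : {p // p ≠ p₀} → ℝ) : P → ℝ :=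
  fun p => if h : p = p₀ then a else u ⟨p, h⟩

theorem lcIns_mem {P : Type*} (p₀ : P) {a : ℝ} (ha0 : 0 ≤ a) (ha1 : a ≤ 1)
    {u : {p // p ≠ p₀} → ℝ} (hu : u ∈ Set.Icc (0 : {p // p ≠ p₀} → ℝ) 1) :
    lcIns p₀ a u ∈ Set.Icc (0 : P → ℝ) 1 := by
  constructor
  · intro p
    by_cases h : p = p₀
    · simp [lcIns, h, ha0]
    · simp only [lcIns, h, dif_neg, not_false_eq_true]
      exact hu.1 _
  · intro p
    by_cases h : p = p₀
    · simp [lcIns, h, ha1]
    · simp only [lcIns, h, dif_neg, not_false_eq_true]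
      exact hu.2 _

theorem lcIns_restrict {P : Type*} (p₀ : P) (v : P → ℝ) :
    lcIns p₀ (v p₀) (fun p => v p.1) = v := by
  funext p
  by_cases h : p = p₀
  · simp [lcIns, h]
  · simp [lcIns, h]

theorem lipschitzWith_lcIns {P : Type*} [Fintype P] (p₀ : P) (a : ℝ) :
    LipschitzWith 1 (lcIns p₀ a) := by
  refine LipschitzWith.of_dist_le_mul fun u v => ?_
  rw [NNReal.coe_one, one_mul, dist_pi_le_iff dist_nonneg]
  intro p
  by_cases h : p = p₀
  · simp [lcIns, h]
  · simp only [lcIns, h, dif_neg, not_false_eq_true]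
    exact dist_le_pi_dist u v _

/-- A set covered by the images of the boundary faces of the unit cube `[0,1]^P` under finitely
many maps which are Lipschitz on the cube is Lipschitz-covered in dimension `card P - 1`. -/
theorem isLipschitzCovered_of_faces {E : Type*} [PseudoEMetricSpace E] {P : Type*} [Fintype P]
    {A : Set E} {J : Type*} [Finite J] (Φ : J → (P → ℝ) → E)
    (hΦ : ∀ j, ∃ M : NNReal, LipschitzOnWith M (Φ j) (Set.Icc 0 1))
    (hA : ∀ x ∈ A, ∃ j, ∃ v ∈ Set.Icc (0 : P → ℝ) 1, (∃ p, v p = 0 ∨ v p = 1) ∧ Φ j v = x) :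
    IsLipschitzCovered (Fintype.card P - 1) A := by
  let a : Bool → ℝ := fun b => if b then 1 else 0
  have ha0 : ∀ b, 0 ≤ a b := fun b => by cases b <;> simp [a]
  have ha1 : ∀ b, a b ≤ 1 := fun b => by cases b <;> simp [a]
  refine isLipschitzCovered_of_family (J := J × P × Bool)
    (κ := fun j => {p : P // p ≠ j.2.1}) (fun j => ?_)
    (fun j u => Φ j.1 (lcIns j.2.1 (a j.2.2) u)) (fun j => ?_) ?_
  · rw [Fintype.card_subtype_compl, Fintype.card_subtype_eq]
  · obtain ⟨M, hM⟩ := hΦ j.1
    refine ⟨M * 1, ?_⟩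
    exact hM.comp (lipschitzWith_lcIns _ _).lipschitzOnWith
      fun u hu => lcIns_mem _ (ha0 _) (ha1 _) hu
  · intro x hx
    obtain ⟨j, v, hv, ⟨p, hp⟩, rfl⟩ := hA x hx
    rcases hp with hp | hp
    · refine Set.mem_iUnion.mpr ⟨(j, p, false), fun q => v q.1, ⟨fun q => hv.1 _, fun q => hv.2 _⟩, ?_⟩
      show Φ j (lcIns p (a false) fun q => v q.1) = Φ j v
      have : a false = v p := by simp [a, hp]
      rw [this, lcIns_restrict]
    · refine Set.mem_iUnion.mpr ⟨(j, p, true), fun q => v q.1, ⟨fun q => hv.1 _, fun q => hv.2 _⟩, ?_⟩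
      show Φ j (lcIns p (a true) fun q => v q.1) = Φ j v
      have : a true = v p := by simp [a, hp]
      rw [this, lcIns_restrict]

end General

section NumberFieldPart

open NumberField NumberField.InfinitePlace NumberField.mixedEmbedding
  NumberField.mixedEmbedding.fundamentalCone NumberField.Units dirichletUnitTheorem

variable (K : Type*) [Field K] [NumberField K]

/-- The index type of the parameters: one real parameter for each infinite place
(the parameter at `w₀` is the radial one) and one angle for each complex place. -/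
abbrev nlParam : Type _ := InfinitePlace K ⊕ {w : InfinitePlace K // IsComplex w}

/-- The parameters of the places, with the `w₀`-coordinate set to zero. -/
def nlZero (v : nlParam K → ℝ) : realSpace K := fun i => if i = w₀ then 0 else v (Sum.inl i)

/-- The radial part `t • ∏ |ηᵢ|^(yᵢ)`. -/
def nlRho (v : nlParam K → ℝ) : realSpace K :=
  v (Sum.inl w₀) • (expMapBasis (nlZero K v) : realSpace K)

/-- The parametrisation of the mixed space by `(t, y, angles)`, for a fixed choice of signs at
the real places. -/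
def nlPhi (ε : {w : InfinitePlace K // IsReal w} → Bool) (v : nlParam K → ℝ) : mixedSpace K :=
  (fun w => (if ε w then (1 : ℝ) else -1) * nlRho K v w.1,
   fun w => ((nlRho K v w.1 : ℝ) : ℂ) *
      Complex.exp (((Real.pi * (2 * v (Sum.inr w) - 1) : ℝ) : ℂ) * Complex.I))

theorem contDiff_nlZero : ContDiff ℝ 1 (nlZero K) := by
  rw [contDiff_pi]
  intro i
  unfold nlZero
  by_cases h : i = w₀
  · simp only [h, if_true]
    exact contDiff_const
  · simp only [h, if_false]
    exact contDiff_apply ℝ ℝ (Sum.inl i)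

theorem contDiff_nlRho_apply (w : InfinitePlace K) : ContDiff ℝ 1 (fun v => nlRho K v w) := by
  have h1 : ContDiff ℝ 1 (fun v : nlParam K → ℝ => v (Sum.inl w₀)) :=
    contDiff_apply ℝ ℝ (Sum.inl w₀)
  have h2 : ContDiff ℝ 1 (fun v : nlParam K → ℝ =>
      (completeBasis K).equivFunL.symm (nlZero K v) w) :=
    (contDiff_apply ℝ ℝ w).comp
      ((completeBasis K).equivFunL.symm.contDiff.comp (contDiff_nlZero K))
  have h3 : ContDiff ℝ 1 (fun v : nlParam K → ℝ =>
      Real.exp ((w.mult : ℝ)⁻¹ * (completeBasis K).equivFunL.symm (nlZero K v) w)) :=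
    Real.contDiff_exp.comp (contDiff_const.mul h2)
  exact h1.mul h3

theorem contDiff_nlPhi (ε : {w : InfinitePlace K // IsReal w} → Bool) :
    ContDiff ℝ 1 (nlPhi K ε) := by
  refine ContDiff.prodMk ?_ ?_
  · rw [contDiff_pi]
    intro w
    exact contDiff_const.mul (contDiff_nlRho_apply K w.1)
  · rw [contDiff_pi]
    intro w
    have h1 : ContDiff ℝ 1 (fun v : nlParam K → ℝ => ((nlRho K v w.1 : ℝ) : ℂ)) :=
      Complex.ofRealCLM.contDiff.comp (contDiff_nlRho_apply K w.1)
    have h2 : ContDiff ℝ 1 (fun v : nlParam K → ℝ =>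
        (((Real.pi * (2 * v (Sum.inr w) - 1) : ℝ) : ℂ))) := by
      refine Complex.ofRealCLM.contDiff.comp ?_
      exact contDiff_const.mul ((contDiff_const.mul (contDiff_apply ℝ ℝ (Sum.inr w))).sub
        contDiff_const)
    have h3 : ContDiff ℝ 1 (fun v : nlParam K → ℝ =>
        Complex.exp (((Real.pi * (2 * v (Sum.inr w) - 1) : ℝ) : ℂ) * Complex.I)) :=
      Complex.contDiff_exp.comp (h2.mul contDiff_const)
    exact h1.mul h3

theorem exists_lipschitzOnWith_nlPhi (ε : {w : InfinitePlace K // IsReal w} → Bool) :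
    ∃ M : NNReal, LipschitzOnWith M (nlPhi K ε) (Set.Icc 0 1) :=
  (contDiff_nlPhi K ε).contDiffOn.exists_lipschitzOnWith one_ne_zero (convex_Icc _ _)
    isCompact_Icc

/-- Every point of the mixed space with prescribed norms at all places `nlRho` is in the image
of the parametrisation, for suitable signs and angles in `[0,1]`. -/
theorem exists_nlPhi_eq (x : mixedSpace K) (u : InfinitePlace K → ℝ)
    (hu : u w₀ • (expMapBasis (fun i => if i = w₀ then 0 else u i) : realSpace K)
      = normAtAllPlaces x) :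
    ∃ (ε : {w : InfinitePlace K // IsReal w} → Bool) (s : {w : InfinitePlace K // IsComplex w} → ℝ),
      s ∈ Set.Icc (0 : {w : InfinitePlace K // IsComplex w} → ℝ) 1 ∧
      nlPhi K ε (Sum.elim u s) = x := by
  have hπ : (0 : ℝ) < Real.pi := Real.pi_pos
  refine ⟨fun w => decide (0 ≤ x.1 w), fun w => (Complex.arg (x.2 w) + Real.pi) / (2 * Real.pi),
    ⟨fun w => ?_, fun w => ?_⟩, ?_⟩
  · have := Complex.neg_pi_lt_arg (x.2 w)
    simp only [Pi.zero_apply]
    apply div_nonneg <;> linarith
  · have := Complex.arg_le_pi (x.2 w)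
    simp only [Pi.one_apply]
    rw [div_le_one (by positivity)]
    linarith
  · have hrho : nlRho K (Sum.elim u fun w => (Complex.arg (x.2 w) + Real.pi) / (2 * Real.pi))
        = normAtAllPlaces x := by
      rw [← hu]
      rfl
    refine Prod.ext ?_ ?_
    · funext w
      show (if decide (0 ≤ x.1 w) = true then (1 : ℝ) else -1) * nlRho K _ w.1 = x.1 w
      rw [hrho, normAtAllPlaces_apply, normAtPlace_apply_of_isReal w.2, Real.norm_eq_abs]
      by_cases h : 0 ≤ x.1 w
      · simp only [h, decide_true, if_true, one_mul]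
        exact abs_of_nonneg h
      · simp only [h, decide_false, Bool.false_eq_true, if_false]
        rw [abs_of_neg (not_le.mp h)]
        ring
    · funext w
      show ((nlRho K _ w.1 : ℝ) : ℂ) * Complex.exp (((Real.pi * (2 * ((Complex.arg (x.2 w)
        + Real.pi) / (2 * Real.pi)) - 1) : ℝ) : ℂ) * Complex.I) = x.2 w
      rw [hrho, normAtAllPlaces_apply, normAtPlace_apply_of_isComplex w.2]
      have harg : Real.pi * (2 * ((Complex.arg (x.2 w) + Real.pi) / (2 * Real.pi)) - 1)
          = Complex.arg (x.2 w) := by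
        field_simp
        ring
      rw [harg]
      exact Complex.norm_mul_exp_arg_mul_I (x.2 w)

/-- The norms of a point of the frontier of `normLeOne K` are given by a boundary point of the
parameter cube. -/
theorem exists_param_of_mem_frontier {x : mixedSpace K} (hx : x ∈ frontier (normLeOne K)) :
    ∃ u : InfinitePlace K → ℝ, u ∈ Set.Icc (0 : InfinitePlace K → ℝ) 1 ∧
      (∃ w, u w = 0 ∨ u w = 1) ∧
      u w₀ • (expMapBasis (fun i => if i = w₀ then 0 else u i) : realSpace K)
        = normAtAllPlaces x := by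
  have hcl : normAtAllPlaces x ∈ compactSet K := closure_normLeOne_subset K hx.1
  have hint : normAtAllPlaces x ∉ expMapBasis '' interior (paramSet K) :=
    fun h => hx.2 (subset_interior_normLeOne K h)
  rw [compactSet_eq_union] at hcl
  rcases hcl with ⟨y, hy, hyx⟩ | h0
  · -- `normAtAllPlaces x = expMapBasis y` with `y` in the closure, not in the interior
    have hyint : y ∉ interior (paramSet K) := fun h => hint ⟨y, h, hyx⟩
    rw [closure_paramSet, Set.mem_univ_pi] at hy
    rw [interior_paramSet, Set.mem_univ_pi, not_forall] at hyint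
    have hy0 : y w₀ ≤ 0 := by simpa using hy w₀
    have hyw : ∀ w, w ≠ w₀ → y w ∈ Set.Icc (0 : ℝ) 1 := fun w hw => by simpa [hw] using hy w
    refine ⟨fun w => if w = w₀ then Real.exp (y w₀) else y w, ⟨fun w => ?_, fun w => ?_⟩, ?_, ?_⟩
    · by_cases hw : w = w₀
      · simp only [hw, if_true, Pi.zero_apply]
        exact (Real.exp_pos _).le
      · simp only [hw, if_false, Pi.zero_apply]
        exact (hyw w hw).1
    · by_cases hw : w = w₀
      · simp only [hw, if_true, Pi.one_apply]
        exact Real.exp_le_one_iff.mpr hy0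
      · simp only [hw, if_false, Pi.one_apply]
        exact (hyw w hw).2
    · obtain ⟨w, hw⟩ := hyint
      refine ⟨w, ?_⟩
      by_cases hww : w = w₀
      · right
        subst hww
        simp only [if_true] at hw ⊢
        have : y w₀ = 0 := le_antisymm hy0 (not_lt.mp hw)
        rw [this, Real.exp_zero]
      · simp only [hww, if_false] at hw ⊢
        have h01 := hyw w hww
        rw [Set.mem_Ioo, not_and_or, not_lt, not_lt] at hw
        rcases hw with hw | hw
        · left; exact le_antisymm hw h01.1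
        · right; exact le_antisymm h01.2 hw
    · rw [← hyx, expMapBasis_apply'' y]
      simp only [if_true]
      congr 2
      funext i
      by_cases hi : i = w₀
      · simp [hi]
      · simp [hi]
  · -- `normAtAllPlaces x = 0`
    rw [Set.mem_singleton_iff] at h0
    refine ⟨0, ⟨le_refl _, fun w => zero_le_one⟩, ⟨w₀, Or.inl rfl⟩, ?_⟩
    rw [h0, Pi.zero_apply, zero_smul]

theorem card_nlParam : Fintype.card (nlParam K) = Module.finrank ℚ K := by
  rw [Fintype.card_sum, card_eq_nrRealPlaces_add_nrComplexPlaces, ← card_add_two_mul_card_eq_rank]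
  have : Fintype.card {w : InfinitePlace K // IsComplex w} = nrComplexPlaces K := by
    unfold nrComplexPlaces
    convert rfl
  rw [this]
  ring

/-- (D2a) The frontier of Mathlib's `normLeOne K` is Lipschitz-covered in dimension `n - 1`. -/
theorem isLipschitzCovered_frontier_normLeOne (K : Type) [Field K] [NumberField K] :
    IsLipschitzCovered (Module.finrank ℚ K - 1)
      (frontier (NumberField.mixedEmbedding.fundamentalCone.normLeOne K)) := by
  rw [← card_nlParam K]
  refine isLipschitzCovered_of_faces (nlPhi K) (exists_lipschitzOnWith_nlPhi K) fun x hx => ?_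
  obtain ⟨u, hu, ⟨w, hw⟩, hux⟩ := exists_param_of_mem_frontier K hx
  obtain ⟨ε, s, hs, hxs⟩ := exists_nlPhi_eq K x u hux
  refine ⟨ε, Sum.elim u s, ⟨?_, ?_⟩, ⟨Sum.inl w, hw⟩, hxs⟩
  · rintro (i | i)
    · exact hu.1 i
    · exact hs.1 i
  · rintro (i | i)
    · exact hu.2 i
    · exact hs.2 i

end NumberFieldPart

end Fermat.Agent.S14
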