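import Fermat.Agent.S14.Defs

/-!
# S14, package H: reciprocity on good principal divisors, assembled from
(T3) second inequality, (E1), (E2) density facts and (X) the two-prime lemma.

The four inputs are taken as hypotheses-as-arguments (for the fixed pair `K`, `L`), in exactly the
shapes of `CoreSpec.lean`; `Reciprocity.lean` feeds the real theorems in.
-/

namespace Fermat.Agent.S14

open NumberField IsDedekindDomain

section

variable {p : ℕ} {K L : Type} [Field K] [NumberField K] [Field L] [NumberField L]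
  [Algebra K L] [IsGalois K L]

/-- Value of the additive Artin symbol on a single place. -/
theorem recip_artin_single (ψ : (L ≃ₐ[K] L) →* Multiplicative (ZMod p))
    (v : HeightOneSpectrum (𝓞 K)) (n : ℤ) :
    artin K L ψ (Finsupp.single v n) = (n : ZMod p) * Multiplicative.toAdd (ψ (frobAt K L v)) := by
  simp [artin]

/-- Two additive maps on divisors that agree on the places in the support of `D` agree on `D`. -/
theorem recip_hom_eq_of_support {A : Type*} [AddCommGroup A] (g₁ g₂ : Div K →+ A) (D : Div K)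
    (h : ∀ v, D v ≠ 0 → g₁ (Finsupp.single v 1) = g₂ (Finsupp.single v 1)) : g₁ D = g₂ D := by
  have hD : D = ∑ v ∈ D.support, (D v) • Finsupp.single v (1 : ℤ) := by
    conv_lhs => rw [← Finsupp.sum_single D]
    rw [Finsupp.sum]
    refine Finset.sum_congr rfl fun v _ => ?_
    rw [Finsupp.smul_single, smul_eq_mul, mul_one]
  rw [hD, map_sum, map_sum]
  refine Finset.sum_congr rfl fun v hv => ?_
  rw [map_zsmul, map_zsmul, h v (Finsupp.mem_support_iff.mp hv)]

end

/-- (R) from (T3), (E1), (E2), (X): hypotheses-as-arguments version. -/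
theorem reciprocity_good_core {p : ℕ} [Fact p.Prime] {K L : Type} [Field K]
    [NumberField K] [Field L] [NumberField L] [Algebra K L] [IsGalois K L]
    (ψ : (L ≃ₐ[K] L) →* Multiplicative (ZMod p)) (hψ : Function.Injective ψ)
    (hE1 : ∀ B : Finset ℕ, ∃ v : HeightOneSpectrum (𝓞 K), IsGoodPlace K B v ∧
      IsUnramifiedIn K L v ∧ frobAt K L v ≠ 1)
    (hE2 : ∀ f : Div K →+ ZMod p, (∀ x : K, x ≠ 0 → f (divOf K x) = 0) → f ≠ 0 →
      ∀ B : Finset ℕ, ∃ v : HeightOneSpectrum (𝓞 K), IsGoodPlace K B v ∧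
        f (Finsupp.single v 1) ≠ 0)
    (hT3 : ∃ f : Div K →+ ZMod p, Function.Surjective f ∧
      (∀ x : K, x ≠ 0 → f (divOf K x) = 0) ∧ ∀ D : Div L, f (normDiv K L D) = 0)
    (hX : ∃ B : Finset ℕ, ∀ v v₀ : HeightOneSpectrum (𝓞 K), IsGoodPlace K B v →
      IsGoodPlace K B v₀ → Ideal.absNorm v.asIdeal ≠ Ideal.absNorm v₀.asIdeal →
      artin K L ψ (Finsupp.single v₀ 1) ≠ 0 →
      ∀ d : ℤ, artin K L ψ (Finsupp.single v 1) = d * artin K L ψ (Finsupp.single v₀ 1) →
      ∃ (x : K) (D : Div L), x ≠ 0 ∧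
        Finsupp.single v 1 - d • Finsupp.single v₀ 1 = divOf K x + normDiv K L D) :
    ∃ B : Finset ℕ, ∀ x : K, x ≠ 0 → (∀ v, divOf K x v ≠ 0 → IsGoodPlace K B v) →
      artin K L ψ (divOf K x) = 0 := by
  classical
  obtain ⟨B, hX⟩ := hX
  obtain ⟨f, hfsurj, hfprin, hfnorm⟩ := hT3
  refine ⟨B, fun x hx hgood => ?_⟩
  set A : Div K →+ ZMod p := artin K L ψ with hA
  -- the excluded set: `B` together with the residue characteristics of the support of `div x`
  set B' : Finset ℕ := B ∪ (divOf K x).support.image (fun v => Ideal.absNorm v.asIdeal) with hB'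
  obtain ⟨v₀, hv₀good, -, hv₀frob⟩ := hE1 B'
  have hv₀B : IsGoodPlace K B v₀ :=
    ⟨hv₀good.1, fun h => hv₀good.2 (Finset.mem_union_left _ h)⟩
  have hA₀ : A (Finsupp.single v₀ 1) ≠ 0 := by
    rw [hA, recip_artin_single, Int.cast_one, one_mul]
    intro h
    apply hv₀frob
    apply hψ
    rw [map_one]
    exact Multiplicative.toAdd.injective (by simpa using h)
  -- the key consequence of (X): `f` and `A` are proportional on every good place away from `v₀`
  have hprop : ∀ v : HeightOneSpectrum (𝓞 K), IsGoodPlace K B v →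
      Ideal.absNorm v.asIdeal ≠ Ideal.absNorm v₀.asIdeal →
      f (Finsupp.single v 1) * A (Finsupp.single v₀ 1) =
        A (Finsupp.single v 1) * f (Finsupp.single v₀ 1) := by
    intro v hv hne
    obtain ⟨d, hd⟩ := ZMod.intCast_surjective
      (A (Finsupp.single v 1) / A (Finsupp.single v₀ 1))
    have hd' : A (Finsupp.single v 1) = d * A (Finsupp.single v₀ 1) := by
      rw [hd, div_mul_cancel₀ _ hA₀]
    obtain ⟨y, D, hy, hyD⟩ := hX v v₀ hv hv₀B hne hA₀ d hd'
    have h1 := congrArg f hyD
    rw [map_sub, map_add, map_zsmul, hfprin y hy, hfnorm D, add_zero, sub_eq_zero,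
      zsmul_eq_mul] at h1
    rw [h1, hd']
    ring
  -- `f` does not vanish at `v₀`
  have hf₀ : f (Finsupp.single v₀ 1) ≠ 0 := by
    intro h0
    have hfne : f ≠ 0 := by
      intro hf0
      obtain ⟨D, hD⟩ := hfsurj 1
      rw [hf0] at hD
      exact zero_ne_one hD
    obtain ⟨v₁, hv₁good, hv₁⟩ := hE2 f hfprin hfne (insert (Ideal.absNorm v₀.asIdeal) B)
    have hv₁B : IsGoodPlace K B v₁ :=
      ⟨hv₁good.1, fun h => hv₁good.2 (Finset.mem_insert_of_mem h)⟩
    have hne : Ideal.absNorm v₁.asIdeal ≠ Ideal.absNorm v₀.asIdeal :=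
      fun h => hv₁good.2 (by rw [h]; exact Finset.mem_insert_self _ _)
    have h2 := hprop v₁ hv₁B hne
    rw [h0, mul_zero] at h2
    exact hv₁ ((mul_eq_zero.mp h2).resolve_right hA₀)
  -- compare the two homomorphisms on `div x`
  have hcmp : (AddMonoidHom.mulRight (A (Finsupp.single v₀ 1))).comp f (divOf K x) =
      (AddMonoidHom.mulRight (f (Finsupp.single v₀ 1))).comp A (divOf K x) := by
    refine recip_hom_eq_of_support _ _ _ fun v hv => ?_
    simp only [AddMonoidHom.coe_comp, Function.comp_apply, AddMonoidHom.coe_mulRight]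
    refine hprop v (hgood v hv) fun h => hv₀good.2 ?_
    rw [hB', ← h]
    exact Finset.mem_union_right _
      (Finset.mem_image_of_mem _ (Finsupp.mem_support_iff.mpr hv))
  simp only [AddMonoidHom.coe_comp, Function.comp_apply, AddMonoidHom.coe_mulRight,
    hfprin x hx, zero_mul] at hcmp
  exact (mul_eq_zero.mp hcmp.symm).resolve_right hf₀

/- INTEGRATION (checked against CoreSpec.lean): once (E1), (E2), (T3), (X) are real theorems,
`reciprocity_good` (exact CoreSpec statement, same binders) is

  reciprocity_good_core ψ hψ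
    (exists_good_frobAt_ne_one (hdeg ▸ (Fact.out : p.Prime).one_lt))
    (fun f hprin hf B => exists_good_ne_zero f hprin hf B)
    (second_inequality hp2 hdeg hζ hunr)
    (two_prime hp2 hdeg hζ hunr ψ hψ)
-/

end Fermat.Agent.S14
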