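import Fermat.Agent.S14.CoreSpec
import Fermat.Agent.S14.ReciprocityCore

/-!
# S14, package H: reciprocity on good principal divisors (wrapper around `ReciprocityCore.lean`)
-/

namespace Fermat.Agent.S14

open NumberField IsDedekindDomain

/-- (R) RECIPROCITY ON GOOD PRINCIPAL DIVISORS. -/
theorem reciprocity_good {p : ℕ} [Fact p.Prime] (hp2 : p ≠ 2) {K L : Type} [Field K]
    [NumberField K] [Field L] [NumberField L] [Algebra K L] [IsGalois K L]
    (hdeg : Module.finrank K L = p) {ζ : K} (hζ : IsPrimitiveRoot ζ p)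
    (hunr : IsUnramifiedEverywhere K L) (ψ : (L ≃ₐ[K] L) →* Multiplicative (ZMod p))
    (hψ : Function.Injective ψ) :
    ∃ B : Finset ℕ, ∀ x : K, x ≠ 0 → (∀ v, divOf K x v ≠ 0 → IsGoodPlace K B v) →
      artin K L ψ (divOf K x) = 0 :=
  reciprocity_good_core ψ hψ
    (exists_good_frobAt_ne_one (hdeg ▸ (Fact.out : p.Prime).one_lt))
    (fun f hprin hf B => exists_good_ne_zero f hprin hf B)
    (second_inequality hp2 hdeg hζ hunr)
    (two_prime hp2 hdeg hζ hunr ψ hψ)

end Fermat.Agent.S14
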